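import Mathlib

/-!
# Block (IV) of S28, abstract part: linear dependence from a Sturm bound

`Graded n` packages a graded family of `ℚ`-subspaces `M k ⊆ ℚ⟦q⟧` (think: rational `q`-expansions
of modular forms of weight `k` on a group of index `n`), closed under products and satisfying the
Sturm bound "`a ∈ M k` vanishing to order `> k n / 12` is zero".

* `Graded.field` : the weight-`0` quotients `G / H` (`G, H ∈ M k`, `H ≠ 0`), as an intermediate
  field of `ℚ((q)) / ℚ`.
* `Graded.dep` : given `E ∈ M 4`, `D ∈ M 12`, `D ≠ 0` and `j` with `j * D = E ^ 3`, any `n + 1`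
  elements of `Graded.field` are linearly dependent over `ℚ[j]`.
-/

set_option autoImplicit false

noncomputable section

namespace Fermat.Agent.S28.SturmDep

/-- An abstract graded ring of `q`-expansions with a Sturm bound for "index" `n`. -/
structure Graded (n : ℕ) where
  /-- the weight-`k` piece -/
  M : ℕ → Submodule ℚ (PowerSeries ℚ)
  one_mem : (1 : PowerSeries ℚ) ∈ M 0
  mul_mem : ∀ {k l : ℕ} {a b : PowerSeries ℚ}, a ∈ M k → b ∈ M l → a * b ∈ M (k + l)
  sturm : ∀ (k : ℕ) (a : PowerSeries ℚ), a ∈ M k →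
    (∀ m : ℕ, m ≤ k * n / 12 → PowerSeries.coeff m a = 0) → a = 0

namespace Graded

variable {n : ℕ} (S : Graded n)

/-- the embedding `ℚ⟦q⟧ → ℚ((q))` -/
abbrev emb : PowerSeries ℚ →+* LaurentSeries ℚ := HahnSeries.ofPowerSeries ℤ ℚ

lemma emb_injective : Function.Injective emb := HahnSeries.ofPowerSeries_injective

lemma emb_ne_zero {a : PowerSeries ℚ} (ha : a ≠ 0) : emb a ≠ 0 := fun h =>
  ha (emb_injective (h.trans (map_zero _).symm))

lemma emb_C (c : ℚ) : emb (PowerSeries.C c) = algebraMap ℚ (LaurentSeries ℚ) c := by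
  rw [HahnSeries.algebraMap_apply', PowerSeries.C_eq_algebraMap]

lemma cast_mem {k l : ℕ} (h : k = l) {a : PowerSeries ℚ} (ha : a ∈ S.M k) : a ∈ S.M l := h ▸ ha

lemma pow_mem {k : ℕ} {a : PowerSeries ℚ} (ha : a ∈ S.M k) (m : ℕ) : a ^ m ∈ S.M (m * k) := by
  induction m with
  | zero => simpa using S.one_mem
  | succ m ih =>
    rw [pow_succ]
    exact S.cast_mem (by ring) (S.mul_mem ih ha)

lemma prod_mem {ι : Type*} (s : Finset ι) (k : ι → ℕ) (a : ι → PowerSeries ℚ)
    (ha : ∀ i ∈ s, a i ∈ S.M (k i)) : ∏ i ∈ s, a i ∈ S.M (∑ i ∈ s, k i) := by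
  classical
  induction s using Finset.induction_on with
  | empty => simpa using S.one_mem
  | insert i s hi ih =>
    rw [Finset.prod_insert hi, Finset.sum_insert hi]
    exact S.mul_mem (ha i (Finset.mem_insert_self i s))
      (ih fun j hj => ha j (Finset.mem_insert_of_mem hj))

/-- The weight-zero quotients. -/
def W : Set (LaurentSeries ℚ) :=
  {x | ∃ k : ℕ, ∃ G ∈ S.M k, ∃ H ∈ S.M k, H ≠ 0 ∧ x * emb H = emb G}

lemma mem_W_of {k : ℕ} {G H : PowerSeries ℚ} (hG : G ∈ S.M k) (hH : H ∈ S.M k) (hH0 : H ≠ 0)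
    {x : LaurentSeries ℚ} (hx : x * emb H = emb G) : x ∈ S.W :=
  ⟨k, G, hG, H, hH, hH0, hx⟩

lemma emb_div_mem_W {k : ℕ} {G H : PowerSeries ℚ} (hG : G ∈ S.M k) (hH : H ∈ S.M k)
    (hH0 : H ≠ 0) : emb G / emb H ∈ S.W :=
  S.mem_W_of hG hH hH0 (div_mul_cancel₀ _ (emb_ne_zero hH0))

lemma zero_mem_W : (0 : LaurentSeries ℚ) ∈ S.W :=
  S.mem_W_of (S.M 0).zero_mem S.one_mem one_ne_zero (by simp)

lemma algebraMap_mem_W (c : ℚ) : algebraMap ℚ (LaurentSeries ℚ) c ∈ S.W := by
  refine S.mem_W_of (G := PowerSeries.C c) ?_ S.one_mem one_ne_zero ?_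
  · have h : PowerSeries.C c = c • (1 : PowerSeries ℚ) := by
      rw [PowerSeries.smul_eq_C_mul, mul_one]
    rw [h]
    exact (S.M 0).smul_mem c S.one_mem
  · rw [map_one, mul_one, emb_C]

lemma mul_mem_W {x y : LaurentSeries ℚ} (hx : x ∈ S.W) (hy : y ∈ S.W) : x * y ∈ S.W := by
  obtain ⟨k, G, hG, H, hH, hH0, hx⟩ := hx
  obtain ⟨l, G', hG', H', hH', hH0', hy⟩ := hy
  refine S.mem_W_of (S.mul_mem hG hG') (S.mul_mem hH hH') (mul_ne_zero hH0 hH0') ?_
  rw [map_mul, map_mul, ← hx, ← hy]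
  ring

lemma add_mem_W {x y : LaurentSeries ℚ} (hx : x ∈ S.W) (hy : y ∈ S.W) : x + y ∈ S.W := by
  obtain ⟨k, G, hG, H, hH, hH0, hx⟩ := hx
  obtain ⟨l, G', hG', H', hH', hH0', hy⟩ := hy
  refine S.mem_W_of (G := G * H' + H * G') (H := H * H')
    ((S.M (k + l)).add_mem (S.mul_mem hG hH') (S.mul_mem hH hG'))
    (S.mul_mem hH hH') (mul_ne_zero hH0 hH0') ?_
  rw [map_add, map_mul, map_mul, map_mul, ← hx, ← hy]
  ring

lemma inv_mem_W {x : LaurentSeries ℚ} (hx : x ∈ S.W) : x⁻¹ ∈ S.W := by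
  by_cases hx0 : x = 0
  · rw [hx0, inv_zero]
    exact S.zero_mem_W
  obtain ⟨k, G, hG, H, hH, hH0, hx⟩ := hx
  have hG0 : G ≠ 0 := by
    rintro rfl
    rw [map_zero] at hx
    exact (mul_ne_zero hx0 (emb_ne_zero hH0)) hx
  refine S.mem_W_of hH hG hG0 ?_
  rw [← hx, ← mul_assoc, inv_mul_cancel₀ hx0, one_mul]

/-- The field of weight-zero quotients. -/
def field : IntermediateField ℚ (LaurentSeries ℚ) where
  carrier := S.W
  mul_mem' := S.mul_mem_W
  one_mem' := by simpa using S.algebraMap_mem_W 1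
  add_mem' := S.add_mem_W
  zero_mem' := S.zero_mem_W
  algebraMap_mem' := S.algebraMap_mem_W
  inv_mem' := fun _ hx => S.inv_mem_W hx

lemma mem_field {x : LaurentSeries ℚ} : x ∈ S.field ↔ x ∈ S.W := Iff.rfl

lemma emb_div_mem_field {k : ℕ} {G H : PowerSeries ℚ} (hG : G ∈ S.M k) (hH : H ∈ S.M k)
    (hH0 : H ≠ 0) : emb G / emb H ∈ S.field :=
  S.emb_div_mem_W hG hH hH0

/-- Common denominator for a finite family of elements of `W`. -/
lemma exists_common_denominator {ι : Type*} [Fintype ι] (f : ι → LaurentSeries ℚ)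
    (hf : ∀ i, f i ∈ S.W) :
    ∃ (k : ℕ) (H : PowerSeries ℚ) (G : ι → PowerSeries ℚ), H ∈ S.M k ∧ H ≠ 0 ∧
      (∀ i, G i ∈ S.M k) ∧ ∀ i, f i * emb H = emb (G i) := by
  classical
  choose k G hG H hH hH0 hfG using hf
  refine ⟨∑ i, k i, ∏ i, H i, fun i => G i * ∏ j ∈ Finset.univ.erase i, H j,
    S.prod_mem _ _ _ fun i _ => hH i, Finset.prod_ne_zero_iff.mpr fun i _ => hH0 i, fun i => ?_,
    fun i => ?_⟩
  · refine S.cast_mem (Finset.add_sum_erase _ _ (Finset.mem_univ i)) (S.mul_mem (hG i) ?_)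
    exact S.prod_mem _ _ _ fun j _ => hH j
  · rw [← Finset.mul_prod_erase _ _ (Finset.mem_univ i), map_mul, map_mul, ← hfG i]
    ring

/-- **Linear dependence from the Sturm bound.** Any `n + 1` weight-zero quotients are linearly
dependent over `ℚ[j]`, where `j = E ^ 3 / D` with `E` of weight `4` and `D ≠ 0` of weight `12`. -/
theorem dep {E D : PowerSeries ℚ} (hE : E ∈ S.M 4) (hD : D ∈ S.M 12) (hD0 : D ≠ 0)
    {j : LaurentSeries ℚ} (hj : j * emb D = emb E ^ 3)
    (f : Fin (n + 1) → LaurentSeries ℚ) (hf : ∀ i, f i ∈ S.W) :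
    ∃ P : Fin (n + 1) → Polynomial ℚ, P ≠ 0 ∧ ∑ i, Polynomial.aeval j (P i) * f i = 0 := by
  classical
  obtain ⟨k0, H, G, hH, hH0, hG, hfG⟩ := S.exists_common_denominator f hf
  set K : ℕ := k0 * n + 1 with hK
  set w : ℕ := k0 + 12 * K with hw
  set B : ℕ := w * n / 12 with hB
  -- the spanning family
  set v : Fin (n + 1) × Fin (K + 1) → PowerSeries ℚ :=
    fun p => G p.1 * (D ^ (K - (p.2 : ℕ)) * E ^ (3 * (p.2 : ℕ))) with hv
  have hvmem : ∀ p, v p ∈ S.M w := by
    intro p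
    have hp : (p.2 : ℕ) ≤ K := Nat.lt_succ_iff.mp p.2.2
    refine S.cast_mem ?_ (S.mul_mem (hG p.1) (S.mul_mem (S.pow_mem hD (K - (p.2 : ℕ)))
      (S.pow_mem hE (3 * (p.2 : ℕ)))))
    rw [hw]
    omega
  -- the truncation map
  let Φ : (Fin (n + 1) × Fin (K + 1) → ℚ) →ₗ[ℚ] (Fin (B + 1) → ℚ) :=
    { toFun := fun c m => ∑ p, c p * PowerSeries.coeff (m : ℕ) (v p)
      map_add' := fun c c' => by
        funext m
        simp only [Pi.add_apply, add_mul, Finset.sum_add_distrib]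
      map_smul' := fun r c => by
        funext m
        simp only [Pi.smul_apply, smul_eq_mul, RingHom.id_apply, Finset.mul_sum, mul_assoc] }
  have hΦ : ∀ c m, Φ c m = ∑ p, c p * PowerSeries.coeff (m : ℕ) (v p) := fun _ _ => rfl
  have hdim : Module.finrank ℚ (Fin (B + 1) → ℚ) <
      Module.finrank ℚ (Fin (n + 1) × Fin (K + 1) → ℚ) := by
    rw [Module.finrank_fintype_fun_eq_card, Module.finrank_fintype_fun_eq_card, Fintype.card_fin,
      Fintype.card_prod, Fintype.card_fin, Fintype.card_fin]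
    have h1 : w * n = k0 * n + 12 * (K * n) := by rw [hw]; ring
    have h2 : (n + 1) * (K + 1) = K * n + n + K + 1 := by ring
    rw [hB, h1, h2, hK]
    generalize k0 * n = t
    generalize (t + 1) * n = s
    omega
  obtain ⟨c, hcker, hc0⟩ := (Submodule.ne_bot_iff _).mp (LinearMap.ker_ne_bot_of_finrank_lt hdim)
  rw [LinearMap.mem_ker] at hcker
  -- the relation among power series
  have hrel : ∑ p, PowerSeries.C (c p) * v p = 0 := by
    refine S.sturm w _ ?_ ?_
    · refine (S.M w).sum_mem fun p _ => ?_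
      rw [← PowerSeries.smul_eq_C_mul]
      exact (S.M w).smul_mem _ (hvmem p)
    · intro m hm
      have h := congrFun hcker ⟨m, Nat.lt_succ_iff.mpr hm⟩
      rw [hΦ] at h
      rw [map_sum]
      simpa [PowerSeries.coeff_C_mul] using h
  -- transport to Laurent series and divide
  have hHD : emb H * emb D ^ K ≠ 0 := mul_ne_zero (emb_ne_zero hH0) (pow_ne_zero _ (emb_ne_zero hD0))
  refine ⟨fun i => ∑ a : Fin (K + 1), Polynomial.monomial (a : ℕ) (c (i, a)), ?_, ?_⟩
  · intro hP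
    apply hc0
    funext p
    obtain ⟨i, a⟩ := p
    have h := congrArg (fun Q : Polynomial ℚ => Q.coeff (a : ℕ)) (congrFun hP i)
    simp only [Polynomial.finsetSum_coeff, Polynomial.coeff_monomial, Pi.zero_apply,
      Polynomial.coeff_zero] at h
    rw [Finset.sum_eq_single a] at h
    · simpa using h
    · intro b _ hb
      rw [if_neg (fun h' => hb (Fin.ext h'))]
    · intro h'
      exact absurd (Finset.mem_univ a) h'
  · have h3 := congrArg emb hrel
    rw [map_sum, map_zero, Fintype.sum_prod_type] at h3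
    have h4 : ∑ i : Fin (n + 1), ∑ a : Fin (K + 1), emb (PowerSeries.C (c (i, a)) * v (i, a))
        = (emb H * emb D ^ K) *
          ∑ i, Polynomial.aeval j (∑ a : Fin (K + 1), Polynomial.monomial (a : ℕ) (c (i, a)))
            * f i := by
      rw [Finset.mul_sum]
      refine Finset.sum_congr rfl fun i _ => ?_
      rw [map_sum, Finset.sum_mul, Finset.mul_sum]
      refine Finset.sum_congr rfl fun a _ => ?_
      have ha : (a : ℕ) ≤ K := Nat.lt_succ_iff.mp a.2
      have hpow : emb D ^ K = emb D ^ (K - (a : ℕ)) * emb D ^ (a : ℕ) := by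
        rw [← pow_add, Nat.sub_add_cancel ha]
      rw [hv]
      simp only [map_mul, map_pow, emb_C, Polynomial.aeval_monomial]
      rw [← hfG i, pow_mul, ← hj, hpow]
      ring
    rw [h4] at h3
    exact (mul_eq_zero.mp h3).resolve_left hHD

end Graded

end Fermat.Agent.S28.SturmDep
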