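import Mathlib
import Fermat.Prelude.Def_ModularCurve_X0
import Fermat.Prelude.Thm_ModularForm_sturm_bound_Gamma0
import Fermat.Agent.S23.LevelRaise
import Fermat.Agent.S24.QBridge
import Fermat.Agent.S28.SturmDep

/-!
# Block (IV) of S28, analytic part: rational `q`-expansions of modular forms on `Γ₀(N)`

We instantiate `SturmDep.Graded` with the rational `q`-expansions of modular forms of level
`Γ₀(N)` (Sturm bound from the Prelude), and show that the field of weight-zero quotients contains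
`j(q^d)` and `Δ(q^d)/Δ(q)`, `Δ(q)/Δ(q^d)` for all `d ∣ N`.
-/

set_option autoImplicit false

noncomputable section

namespace Fermat.Agent.S28.SturmMF

open UpperHalfPlane ModularForm CongruenceSubgroup ModularCurve
open Fermat.Agent.S28.SturmDep
open scoped MatrixGroups

/-- change of coefficients `ℚ → ℂ` -/
abbrev toC : PowerSeries ℚ →+* PowerSeries ℂ := PowerSeries.map (algebraMap ℚ ℂ)

lemma toC_injective : Function.Injective toC :=
  PowerSeries.map_injective _ (algebraMap ℚ ℂ).injective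

lemma toC_map_int (a : PowerSeries ℤ) :
    toC (a.map (Int.castRingHom ℚ)) = a.map (Int.castRingHom ℂ) := by
  ext n
  simp [toC]

/-- Rational `q`-expansions of modular forms of weight `k` and level `Γ₀(N)`. -/
def mfSub (N : ℕ) [NeZero N] (k : ℕ) : Submodule ℚ (PowerSeries ℚ) where
  carrier := {a | ∃ F : ModularForm (Gamma0 N) (k : ℤ), qExpansion 1 F = toC a}
  add_mem' := by
    rintro a b ⟨F, hF⟩ ⟨G, hG⟩
    refine ⟨F + G, ?_⟩
    rw [FunLike.coe_add, ModularForm.qExpansion_add one_pos (one_mem_strictPeriods_Gamma0 N),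
      hF, hG, map_add]
  zero_mem' := ⟨0, by rw [FunLike.coe_zero, qExpansion_zero, map_zero]⟩
  smul_mem' := by
    rintro c a ⟨F, hF⟩
    refine ⟨(c : ℂ) • F, ?_⟩
    rw [FunLike.coe_smul, ModularForm.qExpansion_smul one_pos (one_mem_strictPeriods_Gamma0 N),
      hF, PowerSeries.smul_eq_C_mul, PowerSeries.smul_eq_C_mul, map_mul]
    congr 1
    ext n
    simp [toC, PowerSeries.coeff_C]

lemma mem_mfSub {N : ℕ} [NeZero N] {k : ℕ} {a : PowerSeries ℚ} :
    a ∈ mfSub N k ↔ ∃ F : ModularForm (Gamma0 N) (k : ℤ), qExpansion 1 F = toC a := Iff.rfl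

lemma mem_mfSub_of {N : ℕ} [NeZero N] {k : ℕ} {w : ℤ} (hw : w = (k : ℤ))
    (F : ModularForm (Gamma0 N) w) {a : PowerSeries ℚ} (hF : qExpansion 1 F = toC a) :
    a ∈ mfSub N k :=
  ⟨ModularForm.mcast hw F rfl, hF⟩

/-- The graded ring of rational `q`-expansions on `Γ₀(N)`. -/
def mfGraded (N : ℕ) [NeZero N] : Graded (Gamma0 N).index where
  M := mfSub N
  one_mem := by
    refine mem_mfSub_of (w := 0) (by simp) 1 ?_
    rw [ModularForm.qExpansion_one, map_one]
  mul_mem := by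
    rintro k l a b ⟨F, hF⟩ ⟨G, hG⟩
    refine mem_mfSub_of (Nat.cast_add k l).symm (F.mul G) ?_
    rw [ModularForm.qExpansion_mul one_pos (one_mem_strictPeriods_Gamma0 N), hF, hG, map_mul]
  sturm := by
    rintro k a ⟨F, hF⟩ h
    have hF0 : F = 0 := by
      refine ModularForm.sturm_bound_Gamma0 N F fun n hn => ?_
      rw [← Nat.cast_mul, Int.toNat_natCast] at hn
      rw [hF]
      simp [toC, h n hn]
    rw [hF0, FunLike.coe_zero, qExpansion_zero] at hF
    exact toC_injective (hF.symm.trans (map_zero _).symm)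

/-! ### The substitution `q ↦ q^d` -/

/-- The substitution `q ↦ q^d` on power series. -/
def pexp {R : Type*} [Semiring R] (d : ℕ) (a : PowerSeries R) : PowerSeries R :=
  PowerSeries.mk fun n => if d ∣ n then PowerSeries.coeff (n / d) a else 0

lemma coeff_pexp {R : Type*} [Semiring R] (d : ℕ) (a : PowerSeries R) (n : ℕ) :
    PowerSeries.coeff n (pexp d a) = if d ∣ n then PowerSeries.coeff (n / d) a else 0 := by
  rw [pexp, PowerSeries.coeff_mk]

lemma toC_pexp (d : ℕ) (a : PowerSeries ℚ) : toC (pexp d a) = pexp d (toC a) := by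
  ext n
  simp only [toC, PowerSeries.coeff_map, coeff_pexp]
  split_ifs <;> simp

/-- `emb (a(q^d)) = qExpand d (emb a)`. -/
lemma emb_pexp (d : ℕ) [NeZero d] (a : PowerSeries ℚ) :
    Graded.emb (pexp d a) = qExpand ℚ d (Graded.emb a) := by
  have hd : 0 < d := Nat.pos_of_ne_zero (NeZero.ne d)
  ext m
  by_cases hdm : (d : ℤ) ∣ m
  · obtain ⟨m', rfl⟩ := hdm
    rw [qExpand_coeff_mul]
    rcases lt_or_ge m' 0 with hm' | hm'
    · rw [ofPowerSeries_coeff_of_neg _ hm', ofPowerSeries_coeff_of_neg]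
      exact mul_neg_of_pos_of_neg (by exact_mod_cast hd) hm'
    · obtain ⟨n, rfl⟩ := Int.eq_ofNat_of_zero_le hm'
      rw [show (d : ℤ) * (n : ℤ) = ((d * n : ℕ) : ℤ) by push_cast; rfl,
        HahnSeries.ofPowerSeries_apply_coeff, HahnSeries.ofPowerSeries_apply_coeff, coeff_pexp,
        if_pos (dvd_mul_right d n), Nat.mul_div_cancel_left n hd]
  · rw [qExpand_coeff_of_not_dvd d _ hdm]
    rcases lt_or_ge m 0 with hm | hm
    · exact ofPowerSeries_coeff_of_neg _ hm
    · obtain ⟨n, rfl⟩ := Int.eq_ofNat_of_zero_le hm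
      rw [HahnSeries.ofPowerSeries_apply_coeff, coeff_pexp, if_neg]
      intro h
      exact hdm (by exact_mod_cast h)

lemma pexp_ne_zero (d : ℕ) [NeZero d] {a : PowerSeries ℚ} (ha : a ≠ 0) : pexp d a ≠ 0 := by
  intro h
  have h2 : qExpand ℚ d (Graded.emb a) = 0 := by rw [← emb_pexp, h, map_zero]
  exact Graded.emb_ne_zero ha (qExpand_injective d (h2.trans (map_zero _).symm))

lemma Gamma0_le_of_dvd {d N : ℕ} (h : d ∣ N) : Gamma0 N ≤ Gamma0 d := by
  intro γ hγ
  rw [Gamma0_mem] at hγ ⊢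
  rw [ZMod.intCast_zmod_eq_zero_iff_dvd] at hγ ⊢
  exact (Int.natCast_dvd_natCast.mpr h).trans hγ

/-- Level raising: if `a` is the rational `q`-expansion of a level-one form of weight `k`, then
`a(q^d)` is the `q`-expansion of a form of level `Γ₀(N)` for every `d ∣ N`. -/
lemma pexp_mem_mfSub {N : ℕ} [NeZero N] {d : ℕ} [NeZero d] (hd : d ∣ N) {k : ℕ} {w : ℤ}
    (hw : w = (k : ℤ)) (F : ModularForm 𝒮ℒ w) {a : PowerSeries ℚ} (hF : qExpansion 1 F = toC a) :
    pexp d a ∈ mfSub N k := by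
  refine mem_mfSub_of hw
    (Fermat.Agent.S23.LevelRaise.restrict (Subgroup.map_mono (Gamma0_le_of_dvd hd))
      (Fermat.Agent.S23.LevelRaise.levelRaise d F)) ?_
  rw [Fermat.Agent.S23.LevelRaise.coe_restrict, toC_pexp]
  ext n
  rw [Fermat.Agent.S23.LevelRaise.qExpansion_levelRaise_coeff, coeff_pexp, hF]

/-! ### The level-one forms `E₄` and `Δ` -/

/-- The rational `q`-expansion of `E₄`. -/
def e4Q : PowerSeries ℚ := eisenstein4.map (Int.castRingHom ℚ)

/-- The rational `q`-expansion of `Δ = q ∏ (1 - qⁿ)²⁴`. -/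
def deltaQ : PowerSeries ℚ := PowerSeries.X * dedekindEtaUnit.map (Int.castRingHom ℚ)

lemma qExpansion_E4_toC : qExpansion 1 E₄ = toC e4Q := by
  rw [Fermat.Agent.S24.QBridge.qExpansion_E4, e4Q, toC_map_int]
  rfl

/-- `Δ` as a modular form of level one. -/
def discMF : ModularForm 𝒮ℒ 12 := CuspForm.toModularFormₗ CuspForm.discriminant

lemma discMF_apply (τ : ℍ) : discMF τ = ModularForm.discriminant τ := rfl

open Fermat.Agent.S24.QBridge in
lemma hasQExp_X : HasQExp PowerSeries.X (fun q => q) := by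
  intro q _
  have h := hasSum_ite_eq (1 : ℕ) (q : ℂ)
  convert h using 2 with n
  by_cases hn : n = 1
  · subst hn; simp
  · simp [PowerSeries.coeff_X, hn]

open Fermat.Agent.S24.QBridge in
lemma qExpansion_discMF_toC : qExpansion 1 discMF = toC deltaQ := by
  have h1 : toC deltaQ = PowerSeries.X * etaUnitC := by
    rw [deltaQ, map_mul, toC_map_int]
    simp [toC, etaUnitC]
  rw [h1]
  ext m
  refine (ModularFormClass.qExpansion_coeff_unique one_pos one_mem_strictPeriods_SL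
    (f := discMF) (c := fun m => PowerSeries.coeff m (PowerSeries.X * etaUnitC)) ?_ m).symm
  intro τ
  have hq : ‖Function.Periodic.qParam 1 (τ : ℂ)‖ < 1 :=
    Function.Periodic.norm_qParam_lt_one one_pos τ.im_pos
  have h := (hasQExp_X.mul hasQExp_etaUnitC) _ hq
  have hΔ : discMF τ = Function.Periodic.qParam 1 τ *
      (∏' n : ℕ, (1 - Function.Periodic.qParam 1 (τ : ℂ) ^ (n + 1))) ^ 24 := by
    rw [discMF_apply, discriminant_eq_q_prod, (multipliable_one_sub_pow hq).tprod_pow 24]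
  rw [hΔ]
  simpa [smul_eq_mul] using h

/-! ### Membership of the generators -/

lemma pexp_one_eq (a : PowerSeries ℚ) : pexp 1 a = a := by
  ext n
  simp [coeff_pexp]

lemma pexp_e4Q_mem (N : ℕ) [NeZero N] {d : ℕ} [NeZero d] (hd : d ∣ N) :
    pexp d e4Q ∈ (mfGraded N).M 4 :=
  pexp_mem_mfSub hd (w := 4) (by norm_num) E₄ qExpansion_E4_toC

lemma pexp_deltaQ_mem (N : ℕ) [NeZero N] {d : ℕ} [NeZero d] (hd : d ∣ N) :
    pexp d deltaQ ∈ (mfGraded N).M 12 :=
  pexp_mem_mfSub hd (w := 12) (by norm_num) discMF qExpansion_discMF_toC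

lemma e4Q_mem (N : ℕ) [NeZero N] : e4Q ∈ (mfGraded N).M 4 := by
  simpa [pexp_one_eq] using pexp_e4Q_mem N (one_dvd N)

lemma deltaQ_mem (N : ℕ) [NeZero N] : deltaQ ∈ (mfGraded N).M 12 := by
  simpa [pexp_one_eq] using pexp_deltaQ_mem N (one_dvd N)

lemma deltaQ_ne_zero : deltaQ ≠ 0 := by
  intro h
  have h1 := congrArg (PowerSeries.coeff (0 + 1)) h
  rw [deltaQ, PowerSeries.coeff_succ_X_mul, PowerSeries.coeff_map,
    PowerSeries.coeff_zero_eq_constantCoeff, constantCoeff_dedekindEtaUnit] at h1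
  simp at h1

/-- `j · Δ = E₄³` for the formal `q`-expansions. -/
lemma jq_mul_emb_deltaQ : jq * Graded.emb deltaQ = Graded.emb e4Q ^ 3 := by
  have h1 : jNumQ * dedekindEtaUnit.map (Int.castRingHom ℚ) = e4Q ^ 3 := by
    rw [jNumQ, jNum, e4Q, ← map_mul, ← map_pow]
    congr 1
    rw [mul_assoc, mul_comm dedekindEtaUnitInv, dedekindEtaUnit_mul_inv, mul_one]
  rw [← map_pow, ← h1, jq, deltaQ, map_mul, map_mul, HahnSeries.ofPowerSeries_X]
  have h2 : (HahnSeries.single (-1 : ℤ) (1 : ℚ)) * HahnSeries.single (1 : ℤ) (1 : ℚ) = 1 := by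
    rw [HahnSeries.single_mul_single]
    simp
  calc HahnSeries.single (-1 : ℤ) (1 : ℚ) * Graded.emb jNumQ *
        (HahnSeries.single (1 : ℤ) (1 : ℚ) * Graded.emb (dedekindEtaUnit.map (Int.castRingHom ℚ)))
      = (HahnSeries.single (-1 : ℤ) (1 : ℚ) * HahnSeries.single (1 : ℤ) (1 : ℚ)) *
          (Graded.emb jNumQ * Graded.emb (dedekindEtaUnit.map (Int.castRingHom ℚ))) := by ring
    _ = Graded.emb jNumQ * Graded.emb (dedekindEtaUnit.map (Int.castRingHom ℚ)) := by
        rw [h2, one_mul]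

/-- `j(q^d)` is a weight-zero quotient of level `Γ₀(N)` for `d ∣ N`. -/
lemma qExpand_jq_mem (N : ℕ) [NeZero N] {d : ℕ} [NeZero d] (hd : d ∣ N) :
    qExpand ℚ d jq ∈ (mfGraded N).field := by
  have h : qExpand ℚ d jq * Graded.emb (pexp d deltaQ) = Graded.emb (pexp d e4Q ^ 3) := by
    rw [emb_pexp, map_pow, emb_pexp, ← map_mul, jq_mul_emb_deltaQ, map_pow]
  exact (mfGraded N).mem_W_of
    ((mfGraded N).cast_mem (by norm_num) ((mfGraded N).pow_mem (pexp_e4Q_mem N hd) 3))
    (pexp_deltaQ_mem N hd) (pexp_ne_zero d deltaQ_ne_zero) h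

/-- `Δ(q^d)/Δ(q)` is a weight-zero quotient of level `Γ₀(N)` for `d ∣ N`. -/
lemma qExpand_delta_div_mem (N : ℕ) [NeZero N] {d : ℕ} [NeZero d] (hd : d ∣ N) :
    qExpand ℚ d (Graded.emb deltaQ) / Graded.emb deltaQ ∈ (mfGraded N).field := by
  rw [← emb_pexp]
  exact (mfGraded N).emb_div_mem_field (pexp_deltaQ_mem N hd) (deltaQ_mem N) deltaQ_ne_zero

/-- **Degree bound, generic form**: any `[SL₂(ℤ) : Γ₀(N)] + 1` weight-zero quotients of level
`Γ₀(N)` are linearly dependent over `ℚ[j]`. -/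
theorem dep_mfGraded (N : ℕ) [NeZero N] (f : Fin ((Gamma0 N).index + 1) → LaurentSeries ℚ)
    (hf : ∀ i, f i ∈ (mfGraded N).field) :
    ∃ P : Fin ((Gamma0 N).index + 1) → Polynomial ℚ,
      P ≠ 0 ∧ ∑ i, Polynomial.aeval jq (P i) * f i = 0 :=
  (mfGraded N).dep (e4Q_mem N) (deltaQ_mem N) deltaQ_ne_zero jq_mul_emb_deltaQ f hf

end Fermat.Agent.S28.SturmMF
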