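import Mathlib
import Fermat.Prelude.Def_ModularCurve_IgusaScheme
import Fermat.Prelude.Def_ModularCurve_X0ModL

set_option autoImplicit false
set_option linter.deprecated false

noncomputable section

namespace Fermat.Agent.S28.Defs

open ModularCurve HahnSeries

variable (R : Type*) [CommRing R]

/-- `f(q) ↦ f(q^k)` on Laurent series; for `k = 0` the identity (junk value). -/
def qE (k : ℕ) : LaurentSeries R →+* LaurentSeries R :=
  if h : k = 0 then RingHom.id _ else @qExpand R _ k ⟨h⟩

variable {R}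

/-- underlying function of `scale`. -/
def scaleFun (u : Rˣ) (f : LaurentSeries R) : LaurentSeries R :=
  ⟨fun n => ((u ^ n : Rˣ) : R) * f.coeff n, f.isPWO_support.mono (fun n hn => by
    simp only [Function.mem_support, ne_eq] at hn
    simp only [HahnSeries.mem_support, ne_eq]
    intro h
    exact hn (by rw [h, mul_zero]))⟩

@[simp] theorem scaleFun_coeff (u : Rˣ) (f : LaurentSeries R) (n : ℤ) :
    (scaleFun u f).coeff n = ((u ^ n : Rˣ) : R) * f.coeff n := rfl

theorem scaleFun_support (u : Rˣ) (f : LaurentSeries R) : (scaleFun u f).support = f.support := by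
  ext n
  simp only [HahnSeries.mem_support, scaleFun_coeff, ne_eq]
  exact not_congr (Units.mul_right_eq_zero _)

theorem scaleFun_mul (u : Rˣ) (x y : LaurentSeries R) :
    scaleFun u (x * y) = scaleFun u x * scaleFun u y := by
  ext a
  rw [scaleFun_coeff, HahnSeries.coeff_mul, HahnSeries.coeff_mul, Finset.mul_sum]
  refine Finset.sum_congr ?_ fun ij hij => ?_
  · ext ij
    rw [Finset.mem_addAntidiagonal, Finset.mem_addAntidiagonal, scaleFun_support,
      scaleFun_support]
  · have hsum : ij.1 + ij.2 = a := (Finset.mem_addAntidiagonal.mp hij).2.2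
    rw [scaleFun_coeff, scaleFun_coeff, ← hsum, zpow_add, Units.val_mul]
    ring

variable (R)

/-- `f(q) ↦ f(u q)` on Laurent series, for a unit `u`. -/
def scale (u : Rˣ) : LaurentSeries R →+* LaurentSeries R where
  toFun := scaleFun u
  map_zero' := by ext n; simp
  map_one' := by
    ext n
    rw [scaleFun_coeff, HahnSeries.coeff_one]
    split_ifs with h
    · subst h; simp
    · simp
  map_add' x y := by ext n; simp [mul_add]
  map_mul' x y := scaleFun_mul u x y

@[simp] theorem scale_coeff (u : Rˣ) (f : LaurentSeries R) (n : ℤ) :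
    (scale R u f).coeff n = ((u ^ n : Rˣ) : R) * f.coeff n := rfl

/-- `f(q) ↦ f(u q^k)`. -/
def twist (u : Rˣ) (k : ℕ) : LaurentSeries R →+* LaurentSeries R :=
  (qE R k).comp (scale R u)

/-- The formal discriminant `Δ = q ∏ (1 - q^n)^24` over `R`. -/
def deltaR : LaurentSeries R :=
  HahnSeries.single (1 : ℤ) (1 : R) *
    HahnSeries.ofPowerSeries ℤ R (dedekindEtaUnit.map (Int.castRingHom R))

/-- The inverse of `deltaR`. -/
def deltaInvR : LaurentSeries R :=
  HahnSeries.single (-1 : ℤ) (1 : R) *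
    HahnSeries.ofPowerSeries ℤ R (dedekindEtaUnitInv.map (Int.castRingHom R))

/-- Generators: `j d ↦ j(q^d)`, `x d ↦ Δ(q^d)/Δ(q)`, `y d ↦ Δ(q)/Δ(q^d)`, for `d ∣ N`. -/
inductive Gen (N : ℕ) : Type
  | j : {d : ℕ // d ∣ N} → Gen N
  | x : {d : ℕ // d ∣ N} → Gen N
  | y : {d : ℕ // d ∣ N} → Gen N

/-- The `q`-expansions of the generators over `R`. -/
def genVal (N : ℕ) : Gen N → LaurentSeries R
  | .j d => qE R d (jqModC R)
  | .x d => qE R d (deltaR R) * deltaInvR R
  | .y d => deltaR R * qE R d (deltaInvR R)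

/-- Evaluation of integer polynomials in the generators at their `q`-expansions. -/
def ev (N : ℕ) : MvPolynomial (Gen N) ℤ →+* LaurentSeries R :=
  MvPolynomial.eval₂Hom (Int.castRingHom (LaurentSeries R)) (genVal R N)

/-- The expansion, in `t = q^{1/N}`, of the generators at the cusp with data `a b : ℕ → ℕ`
(for `d ∣ N`: `(d 0; 0 1) γ ∈ SL₂(ℤ) (a d, b d; 0, d / a d)`), `ζ` a primitive `N`-th root of
unity and `ν = 1/N`. -/
def sigmaGen (ζ : Rˣ) (ν : R) (N : ℕ) (a b : ℕ → ℕ) : Gen N → LaurentSeries R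
  | .j d => twist R (ζ ^ (N / (d.1 / a d.1) * b d.1)) (a d.1 * (N / (d.1 / a d.1))) (jqModC R)
  | .x d => HahnSeries.C ((((N / (d.1 / a d.1) : ℕ) : R) * ν) ^ 12) *
      twist R (ζ ^ (N / (d.1 / a d.1) * b d.1)) (a d.1 * (N / (d.1 / a d.1))) (deltaR R) *
      qE R N (deltaInvR R)
  | .y d => HahnSeries.C ((((d.1 / a d.1 : ℕ) : R)) ^ 12) * qE R N (deltaR R) *
      twist R (ζ ^ (N / (d.1 / a d.1) * b d.1)) (a d.1 * (N / (d.1 / a d.1))) (deltaInvR R)

/-- The ring hom `σ` attached to cusp data. -/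
def sigma (ζ : Rˣ) (ν : R) (N : ℕ) (a b : ℕ → ℕ) : MvPolynomial (Gen N) ℤ →+* LaurentSeries R :=
  MvPolynomial.eval₂Hom (Int.castRingHom (LaurentSeries R)) (sigmaGen R ζ ν N a b)

/-- A divisor of `N` (as an element of `N.divisors`) as an index of a generator. -/
def divIdx (N : ℕ) (d : {d : ℕ // d ∈ N.divisors}) : {d : ℕ // d ∣ N} :=
  ⟨d.1, Nat.dvd_of_mem_divisors d.2⟩

/-- The modular unit `u = ∏_{d ∣ N} (Δ(q^d)/Δ(q))^{d μ(N/d)}` as a monomial in the generators
(`y d` is used for negative exponents). -/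
def unitPoly (N : ℕ) : MvPolynomial (Gen N) ℤ :=
  ∏ d ∈ N.divisors.attach,
    if ArithmeticFunction.moebius (N / d.1) = 1 then (MvPolynomial.X (Gen.x (divIdx N d))) ^ d.1
    else if ArithmeticFunction.moebius (N / d.1) = -1 then
      (MvPolynomial.X (Gen.y (divIdx N d))) ^ d.1
    else 1

/-- The inverse unit `u⁻¹` (swap the roles of `x d` and `y d`). -/
def unitPolyInv (N : ℕ) : MvPolynomial (Gen N) ℤ :=
  ∏ d ∈ N.divisors.attach,
    if ArithmeticFunction.moebius (N / d.1) = 1 then (MvPolynomial.X (Gen.y (divIdx N d))) ^ d.1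
    else if ArithmeticFunction.moebius (N / d.1) = -1 then
      (MvPolynomial.X (Gen.x (divIdx N d))) ^ d.1
    else 1

/-- Combinatorial data of the cosets `Γ₀(N) \ SL₂(ℤ)`. -/
structure RowSystem (N : ℕ) where
  C : Type
  fintype : Fintype C
  a : C → ℕ → ℕ
  b : C → ℕ → ℕ
  one : C
  a_gcd : ∀ q d, d ∣ N → a q d = Nat.gcd d (a q N)
  a_one : a one N = N
  eq_one : ∀ q, a q N = N → q = one

attribute [instance] RowSystem.fintype

/-- The family of expansions `σ_q`. -/
def RowSystem.sig {N : ℕ} (S : RowSystem N) (ζ : Rˣ) (ν : R) (q : S.C) :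
    MvPolynomial (Gen N) ℤ →+* LaurentSeries R :=
  sigma R ζ ν N (S.a q) (S.b q)

/-- The symmetric-function property: every elementary symmetric function of the conjugates
`σ_q(P)` is a polynomial in `j(q) = j(t^N)`. -/
def RowSystem.HasSymm {N : ℕ} (S : RowSystem N) (ζ : Rˣ) (ν : R) : Prop :=
  ∀ (P : MvPolynomial (Gen N) ℤ) (k : ℕ), ∃ p : Polynomial R,
    ((Finset.univ : Finset S.C).val.map (fun q => S.sig R ζ ν q P)).esymm k =
      Polynomial.eval₂ (HahnSeries.C : R →+* LaurentSeries R) (qE R N (jqModC R)) p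

end Fermat.Agent.S28.Defs
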