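import Mathlib
import Fermat.Agent.S28.Defs

set_option autoImplicit false
set_option linter.deprecated false
set_option linter.style.haveILetI false

noncomputable section

namespace Fermat.Agent.S28.Formal

open ModularCurve HahnSeries Fermat.Agent.S28.Defs

variable {R S : Type*} [CommRing R] [CommRing S] (f : R →+* S)

/-! ### `coeffMap` commutes with the formal operations of `Defs` -/

theorem coeffMap_qE (k : ℕ) (x : LaurentSeries R) :
    coeffMap f (qE R k x) = qE S k (coeffMap f x) := by
  unfold qE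
  split_ifs with h
  · rfl
  · haveI : NeZero k := ⟨h⟩
    exact coeffMap_qExpand f k x

theorem coeffMap_scale (u : Rˣ) (x : LaurentSeries R) :
    coeffMap f (scale R u x) = scale S (Units.map (f : R →* S) u) (coeffMap f x) := by
  ext n
  rw [coeffMap_coeff, scale_coeff, scale_coeff, coeffMap_coeff, map_mul, ← map_zpow]
  rfl

theorem coeffMap_twist (u : Rˣ) (k : ℕ) (x : LaurentSeries R) :
    coeffMap f (twist R u k x) = twist S (Units.map (f : R →* S) u) k (coeffMap f x) := by
  unfold twist
  rw [RingHom.comp_apply, RingHom.comp_apply, coeffMap_qE, coeffMap_scale]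

theorem coeffMap_C (r : R) :
    coeffMap f (HahnSeries.C r : LaurentSeries R) = HahnSeries.C (f r) := by
  exact coeffMap_single f 0 r

theorem map_map_intCast (p : PowerSeries ℤ) :
    (p.map (Int.castRingHom R)).map f = p.map (Int.castRingHom S) := by
  ext n
  simp

theorem coeffMap_deltaR : coeffMap f (deltaR R) = deltaR S := by
  rw [deltaR, map_mul, coeffMap_single, map_one, coeffMap_ofPowerSeries, map_map_intCast]
  rfl

theorem coeffMap_deltaInvR : coeffMap f (deltaInvR R) = deltaInvR S := by
  rw [deltaInvR, map_mul, coeffMap_single, map_one, coeffMap_ofPowerSeries, map_map_intCast]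
  rfl

theorem coeffMap_genVal (N : ℕ) (g : Gen N) : coeffMap f (genVal R N g) = genVal S N g := by
  cases g with
  | j d => simp only [genVal, coeffMap_qE, coeffMap_jqModC]
  | x d => simp only [genVal, map_mul, coeffMap_qE, coeffMap_deltaR, coeffMap_deltaInvR]
  | y d => simp only [genVal, map_mul, coeffMap_qE, coeffMap_deltaR, coeffMap_deltaInvR]

theorem coeffMap_comp_ev (N : ℕ) : (coeffMap f).comp (ev R N) = ev S N := by
  apply MvPolynomial.ringHom_ext
  · intro n
    simp [ev]
  · intro g
    simp only [ev, RingHom.comp_apply, MvPolynomial.coe_eval₂Hom, MvPolynomial.eval₂_X]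
    exact coeffMap_genVal f N g

theorem coeffMap_ev (N : ℕ) (P : MvPolynomial (Gen N) ℤ) :
    coeffMap f (ev R N P) = ev S N P := by
  rw [← coeffMap_comp_ev f N]; rfl

theorem coeffMap_sigmaGen (ζ : Rˣ) (ν : R) (N : ℕ) (a b : ℕ → ℕ) (g : Gen N) :
    coeffMap f (sigmaGen R ζ ν N a b g) =
      sigmaGen S (Units.map (f : R →* S) ζ) (f ν) N a b g := by
  cases g with
  | j d => simp only [sigmaGen, coeffMap_twist, coeffMap_jqModC, map_pow]
  | x d =>
    simp only [sigmaGen, map_mul, coeffMap_twist, coeffMap_C, coeffMap_qE, coeffMap_deltaR,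
      coeffMap_deltaInvR, map_pow, map_natCast]
  | y d =>
    simp only [sigmaGen, map_mul, coeffMap_twist, coeffMap_qE, coeffMap_deltaR,
      coeffMap_deltaInvR, map_pow, map_natCast]

theorem coeffMap_comp_sigma (ζ : Rˣ) (ν : R) (N : ℕ) (a b : ℕ → ℕ) :
    (coeffMap f).comp (sigma R ζ ν N a b) = sigma S (Units.map (f : R →* S) ζ) (f ν) N a b := by
  apply MvPolynomial.ringHom_ext
  · intro n
    simp [sigma]
  · intro g
    simp only [sigma, RingHom.comp_apply, MvPolynomial.coe_eval₂Hom, MvPolynomial.eval₂_X]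
    exact coeffMap_sigmaGen f ζ ν N a b g

theorem coeffMap_sigma (ζ : Rˣ) (ν : R) (N : ℕ) (a b : ℕ → ℕ) (P : MvPolynomial (Gen N) ℤ) :
    coeffMap f (sigma R ζ ν N a b P) = sigma S (Units.map (f : R →* S) ζ) (f ν) N a b P := by
  rw [← coeffMap_comp_sigma f ζ ν N a b]; rfl

theorem coeffMap_sig {N : ℕ} (T : RowSystem N) (ζ : Rˣ) (ν : R) (q : T.C)
    (P : MvPolynomial (Gen N) ℤ) :
    coeffMap f (T.sig R ζ ν q P) = T.sig S (Units.map (f : R →* S) ζ) (f ν) q P :=
  coeffMap_sigma f ζ ν N (T.a q) (T.b q) P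

/-- ring homs commute with elementary symmetric functions of multisets. -/
theorem map_esymm {A B : Type*} [CommSemiring A] [CommSemiring B] (g : A →+* B)
    (s : Multiset A) (k : ℕ) : g (s.esymm k) = (s.map g).esymm k := by
  rw [Multiset.esymm, Multiset.esymm, map_multiset_sum, Multiset.powersetCard_map,
    Multiset.map_map, Multiset.map_map]
  congr 1
  apply Multiset.map_congr rfl
  intro t _
  simp only [Function.comp_apply, map_multiset_prod]

theorem coeffMap_esymm_sig {N : ℕ} (T : RowSystem N) (ζ : Rˣ) (ν : R)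
    (P : MvPolynomial (Gen N) ℤ) (k : ℕ) :
    coeffMap f (((Finset.univ : Finset T.C).val.map (fun q => T.sig R ζ ν q P)).esymm k) =
      ((Finset.univ : Finset T.C).val.map
        (fun q => T.sig S (Units.map (f : R →* S) ζ) (f ν) q P)).esymm k := by
  rw [map_esymm, Multiset.map_map]
  congr 2
  funext q
  exact coeffMap_sig f T ζ ν q P

theorem coeffMap_eval₂_C (p : Polynomial R) (x : LaurentSeries R) :
    coeffMap f (Polynomial.eval₂ (HahnSeries.C : R →+* LaurentSeries R) x p) =
      Polynomial.eval₂ (HahnSeries.C : S →+* LaurentSeries S) (coeffMap f x)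
        (p.map f) := by
  rw [Polynomial.hom_eval₂, Polynomial.eval₂_map]
  congr 1
  exact RingHom.ext fun r => coeffMap_C f r

theorem coeffMap_injective (hf : Function.Injective f) :
    Function.Injective (coeffMap f : LaurentSeries R → LaurentSeries S) := by
  intro x y hxy
  ext n
  apply hf
  rw [← coeffMap_coeff, ← coeffMap_coeff, hxy]

/-- `HasSymm` is preserved by any ring hom of the coefficient ring. -/
theorem hasSymm_map {N : ℕ} (T : RowSystem N) (ζ : Rˣ) (ν : R) (h : T.HasSymm R ζ ν) :
    T.HasSymm S (Units.map (f : R →* S) ζ) (f ν) := by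
  intro P k
  obtain ⟨p, hp⟩ := h P k
  refine ⟨p.map f, ?_⟩
  rw [← coeffMap_esymm_sig, hp, coeffMap_eval₂_C, coeffMap_qE, coeffMap_jqModC]

/-! ### Triangularity: a polynomial in `j` with coefficients of its expansion in a subring -/

theorem qE_C (k : ℕ) (r : R) : qE R k (HahnSeries.C r) = HahnSeries.C r := by
  unfold qE
  split_ifs with h
  · rfl
  · haveI : NeZero k := ⟨h⟩
    exact qExpand_C k r

theorem qE_coeff_mul {k : ℕ} (hk : k ≠ 0) (x : LaurentSeries R) (m : ℤ) :
    (qE R k x).coeff ((k : ℤ) * m) = x.coeff m := by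
  unfold qE
  rw [dif_neg hk]
  haveI : NeZero k := ⟨hk⟩
  exact qExpand_coeff_mul k x m

theorem qE_coeff_of_not_dvd {k : ℕ} (hk : k ≠ 0) (x : LaurentSeries R) {m : ℤ}
    (hm : ¬ (k : ℤ) ∣ m) : (qE R k x).coeff m = 0 := by
  unfold qE
  rw [dif_neg hk]
  haveI : NeZero k := ⟨hk⟩
  exact qExpand_coeff_of_not_dvd k x hm

theorem qE_zero (x : LaurentSeries R) : qE R 0 x = x := by
  unfold qE
  rw [dif_pos rfl]
  rfl

theorem qE_eval₂_C (k : ℕ) (p : Polynomial R) (x : LaurentSeries R) :
    qE R k (Polynomial.eval₂ (HahnSeries.C : R →+* LaurentSeries R) x p) =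
      Polynomial.eval₂ (HahnSeries.C : R →+* LaurentSeries R) (qE R k x) p := by
  rw [Polynomial.hom_eval₂]
  congr 1
  exact RingHom.ext fun r => qE_C k r

theorem coeff_jqModC_pow_mem (W : Subring S) (d : ℕ) (n : ℤ) :
    ((jqModC S) ^ d).coeff n ∈ W := by
  have h : (jqModC S) ^ d = coeffMap (Int.castRingHom S) ((jqModC ℤ) ^ d) := by
    rw [map_pow, coeffMap_jqModC]
  rw [h, coeffMap_coeff]
  exact intCast_mem W _

theorem coeff_C_mul' (r : S) (x : LaurentSeries S) (n : ℤ) :
    (HahnSeries.C r * x).coeff n = r * x.coeff n := by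
  rw [HahnSeries.C_mul_eq_smul]
  rfl

theorem coeff_mem_of_eval₂_jqModC_aux (W : Subring S) (n : ℕ) :
    ∀ p : Polynomial S, p.natDegree ≤ n →
      (∀ m : ℤ, (Polynomial.eval₂ (HahnSeries.C : S →+* LaurentSeries S)
        (jqModC S) p).coeff m ∈ W) → ∀ i, p.coeff i ∈ W := by
  induction n with
  | zero =>
    intro p hp h i
    rw [Polynomial.eq_C_of_natDegree_le_zero hp] at h ⊢
    rw [Polynomial.eval₂_C] at h
    have h0 : (HahnSeries.single (0 : ℤ) (p.coeff 0) : LaurentSeries S).coeff 0 ∈ W := h 0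
    rw [HahnSeries.coeff_single_same] at h0
    rw [Polynomial.coeff_C]
    split_ifs
    · exact h0
    · exact zero_mem W
  | succ n ih =>
    intro p hp h i
    -- the top coefficient
    have hexp : Polynomial.eval₂ (HahnSeries.C : S →+* LaurentSeries S) (jqModC S) p =
        ∑ i ∈ Finset.range (n + 2), HahnSeries.C (p.coeff i) * (jqModC S) ^ i :=
      Polynomial.eval₂_eq_sum_range' _ (by omega) _
    have htop : p.coeff (n + 1) ∈ W := by
      have h1 := h (-((n + 1 : ℕ) : ℤ))
      rw [hexp, HahnSeries.coeff_sum, Finset.sum_range_succ] at h1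
      rw [Finset.sum_eq_zero, zero_add, coeff_C_mul', coeff_jqModC_pow_self, mul_one] at h1
      · exact h1
      · intro i hi
        rw [Finset.mem_range] at hi
        rw [coeff_C_mul', coeff_jqModC_pow_of_lt, mul_zero]
        have : (i : ℤ) < ((n + 1 : ℕ) : ℤ) := by exact_mod_cast hi
        omega
    set c := p.coeff (n + 1) with hc
    set q : Polynomial S := p - Polynomial.C c * Polynomial.X ^ (n + 1) with hq
    have hqdeg : q.natDegree ≤ n := by
      rw [Polynomial.natDegree_le_iff_coeff_eq_zero]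
      intro m hm
      rw [hq, Polynomial.coeff_sub, Polynomial.coeff_C_mul, Polynomial.coeff_X_pow]
      rcases Nat.lt_or_ge (n + 1) m with hlt | hge
      · rw [if_neg (by omega), mul_zero, sub_zero]
        exact Polynomial.coeff_eq_zero_of_natDegree_lt (by omega)
      · have : m = n + 1 := by omega
        subst this
        rw [if_pos rfl, mul_one, hc, sub_self]
    have hqW : ∀ m : ℤ, (Polynomial.eval₂ (HahnSeries.C : S →+* LaurentSeries S)
        (jqModC S) q).coeff m ∈ W := by
      intro m
      rw [hq, Polynomial.eval₂_sub, Polynomial.eval₂_mul, Polynomial.eval₂_C,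
        Polynomial.eval₂_X_pow, HahnSeries.coeff_sub, coeff_C_mul']
      exact sub_mem (h m) (mul_mem htop (coeff_jqModC_pow_mem W _ _))
    have hqi := ih q hqdeg hqW i
    have hpi : p.coeff i = q.coeff i + (Polynomial.C c * Polynomial.X ^ (n + 1)).coeff i := by
      rw [hq, Polynomial.coeff_sub, sub_add_cancel]
    rw [hpi, Polynomial.coeff_C_mul, Polynomial.coeff_X_pow]
    refine add_mem hqi (mul_mem htop ?_)
    split_ifs
    · exact one_mem W
    · exact zero_mem W

/-- If all coefficients of `p(j)` lie in a subring `W`, so do all coefficients of `p`. -/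
theorem coeff_mem_of_eval₂_jqModC (W : Subring S) (p : Polynomial S)
    (h : ∀ m : ℤ, (Polynomial.eval₂ (HahnSeries.C : S →+* LaurentSeries S)
      (jqModC S) p).coeff m ∈ W) : ∀ i, p.coeff i ∈ W :=
  coeff_mem_of_eval₂_jqModC_aux W p.natDegree p le_rfl h

/-- If all coefficients of `p(j(t^N))` lie in a subring `W`, so do all coefficients of `p`. -/
theorem coeff_mem_of_eval₂_qE_jqModC (W : Subring S) (N : ℕ) (p : Polynomial S)
    (h : ∀ m : ℤ, (Polynomial.eval₂ (HahnSeries.C : S →+* LaurentSeries S)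
      (qE S N (jqModC S)) p).coeff m ∈ W) : ∀ i, p.coeff i ∈ W := by
  apply coeff_mem_of_eval₂_jqModC W p
  intro m
  rcases Nat.eq_zero_or_pos N with hN | hN
  · subst hN
    have := h m
    rwa [qE_zero] at this
  · have := h ((N : ℤ) * m)
    rwa [← qE_eval₂_C, qE_coeff_mul hN.ne'] at this

/-- If all coefficients of `p'(j(t^N))` lie in the range of `f`, then `p'` lifts along `f`. -/
theorem exists_map_eq_of_coeff_mem_range (N : ℕ) (p' : Polynomial S)
    (h : ∀ m : ℤ, (Polynomial.eval₂ (HahnSeries.C : S →+* LaurentSeries S)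
      (qE S N (jqModC S)) p').coeff m ∈ f.range) : ∃ p : Polynomial R, p.map f = p' := by
  rw [← Polynomial.mem_lifts, Polynomial.lifts_iff_coeff_lifts]
  intro i
  have := coeff_mem_of_eval₂_qE_jqModC f.range N p' h i
  exact this

/-- `HasSymm` descends along an injective ring hom of the coefficient rings. -/
theorem hasSymm_of_injective (hf : Function.Injective f) {N : ℕ} (T : RowSystem N) (ζ : Rˣ)
    (ν : R) (h : T.HasSymm S (Units.map (f : R →* S) ζ) (f ν)) : T.HasSymm R ζ ν := by
  intro P k
  obtain ⟨p', hp'⟩ := h P k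
  rw [← coeffMap_esymm_sig] at hp'
  obtain ⟨p, rfl⟩ := exists_map_eq_of_coeff_mem_range f N p' (fun m => by
    rw [← hp', coeffMap_coeff]
    exact ⟨_, rfl⟩)
  refine ⟨p, coeffMap_injective f hf ?_⟩
  rw [hp', coeffMap_eval₂_C, coeffMap_qE, coeffMap_jqModC]

end Fermat.Agent.S28.Formal
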