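import Mathlib

set_option autoImplicit false

open Polynomial

namespace Fermat.Agent.S28.SignPattern

variable {k L Γ₀ : Type*} [Field k] [Field L] [LinearOrderedCommGroupWithZero Γ₀]

theorem one_lt_multiset_prod {s : Multiset Γ₀} (hs : ∀ a ∈ s, 1 < a) (h0 : s ≠ 0) :
    1 < s.prod := by
  induction s using Multiset.induction_on with
  | empty => exact absurd rfl h0
  | cons a t ih =>
    rw [Multiset.prod_cons]
    have ha : 1 < a := hs a (Multiset.mem_cons_self a t)
    by_cases ht : t = 0
    · subst ht; simpa using ha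
    · have h1 : 1 < t.prod := ih (fun b hb => hs b (Multiset.mem_cons_of_mem hb)) ht
      calc (1 : Γ₀) = 1 * 1 := (one_mul 1).symm
        _ < a * t.prod := mul_lt_mul'' ha h1 zero_le_one zero_le_one

theorem card_le_natDegree (v : Valuation L Γ₀) (φ : k[X] →+* L)
    (hφ : ∀ p : k[X], p ≠ 0 → 1 ≤ v (φ p))
    {ι : Type*} [Fintype ι] (u : ι → L) (x₀ : ι)
    (P : (k[X])[X]) (hP : P.map φ = ∏ x, (Polynomial.X - Polynomial.C (u x)))
    (hu : ∀ x, x ≠ x₀ → 1 < v (u x)) (hprod : v (∏ x, u x) = 1)
    (p : (k[X])[X]) (hp : p ≠ 0) (hroot : (p.map φ).eval (u x₀) = 0) :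
    Fintype.card ι ≤ p.natDegree := by
  classical
  -- φ is injective
  have hinj : Function.Injective φ := by
    rw [injective_iff_map_eq_zero]
    intro a ha
    by_contra ha0
    have := hφ a ha0
    rw [ha, map_zero] at this
    exact absurd this (not_le.mpr zero_lt_one)
  let K := FractionRing k[X]
  let ψ : K →+* L := IsFractionRing.lift hinj
  have hψ : ψ.comp (algebraMap k[X] K) = φ := by
    exact RingHom.ext fun x => IsFractionRing.lift_algebraMap hinj x
  have hPmonic : P.Monic := by
    apply Polynomial.monic_of_injective hinj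
    rw [hP]
    exact Polynomial.monic_prod_of_monic _ _ fun x _ => Polynomial.monic_X_sub_C (u x)
  set PK : K[X] := P.map (algebraMap k[X] K) with hPK
  set pK : K[X] := p.map (algebraMap k[X] K) with hpK
  have hpK0 : pK ≠ 0 := by
    rw [hpK, Ne, Polynomial.map_eq_zero_iff (IsFractionRing.injective k[X] K)]
    exact hp
  have hPK0 : PK ≠ 0 := (hPmonic.map _).ne_zero
  have hPKψ : PK.map ψ = ∏ x, (Polynomial.X - Polynomial.C (u x)) := by
    rw [hPK, Polynomial.map_map, hψ, hP]
  have hpKψ : pK.map ψ = p.map φ := by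
    rw [hpK, Polynomial.map_map, hψ]
  have hPKroot : (PK.map ψ).eval (u x₀) = 0 := by
    rw [hPKψ, Polynomial.eval_prod]
    exact Finset.prod_eq_zero (Finset.mem_univ x₀) (by simp)
  set g : K[X] := EuclideanDomain.gcd pK PK with hg
  have hg0 : g ≠ 0 := by
    intro h
    rw [hg, EuclideanDomain.gcd_eq_zero_iff] at h
    exact hPK0 h.2
  have hgP : g ∣ PK := EuclideanDomain.gcd_dvd_right pK PK
  have hgp : g ∣ pK := EuclideanDomain.gcd_dvd_left pK PK
  have hgroot : (g.map ψ).eval (u x₀) = 0 := by
    rw [hg, EuclideanDomain.gcd_eq_gcd_ab pK PK]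
    simp only [Polynomial.map_add, Polynomial.map_mul, Polynomial.eval_add, Polynomial.eval_mul,
      hPKroot, hpKψ, hroot, zero_mul, add_zero]
  obtain ⟨g', hg'⟩ := IsIntegrallyClosed.eq_map_mul_C_of_dvd K hPmonic hgP
  have hlc : g.leadingCoeff ≠ 0 := Polynomial.leadingCoeff_ne_zero.mpr hg0
  -- G := g' mapped to L
  set G : L[X] := g'.map φ with hG
  have hGg : g.map ψ = G * Polynomial.C (ψ g.leadingCoeff) := by
    rw [← hg', Polynomial.map_mul, Polynomial.map_map, hψ, Polynomial.map_C, hg', hG]
  have hψlc : ψ g.leadingCoeff ≠ 0 := (map_ne_zero ψ).mpr hlc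
  have hGroot : G.eval (u x₀) = 0 := by
    have := hgroot
    rw [hGg, Polynomial.eval_mul, Polynomial.eval_C] at this
    exact (mul_eq_zero.mp this).resolve_right hψlc
  have hGdvd : G ∣ ∏ x, (Polynomial.X - Polynomial.C (u x)) := by
    rw [← hPKψ]
    obtain ⟨c, hc⟩ := hgP
    refine ⟨Polynomial.C (ψ g.leadingCoeff) * c.map ψ, ?_⟩
    rw [hc, Polynomial.map_mul, hGg]; ring
  set Q : L[X] := ∏ x, (Polynomial.X - Polynomial.C (u x)) with hQ
  have hQmonic : Q.Monic := Polynomial.monic_prod_of_monic _ _ fun x _ => Polynomial.monic_X_sub_C (u x)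
  have hQ0 : Q ≠ 0 := hQmonic.ne_zero
  have hQsplits : Q.Splits := Polynomial.Splits.prod fun x _ => Polynomial.Splits.X_sub_C (u x)
  have hG0 : G ≠ 0 := fun h => hQ0 (by rw [h] at hGdvd; exact zero_dvd_iff.mp hGdvd)
  have hGsplits : G.Splits := hQsplits.of_dvd hQ0 hGdvd
  -- g' is monic
  have hg'monic : g'.Monic := by
    have h1 : (g'.map (algebraMap k[X] K)).leadingCoeff * g.leadingCoeff = g.leadingCoeff := by
      conv_rhs => rw [← hg']
      rw [Polynomial.leadingCoeff_mul, Polynomial.leadingCoeff_C]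
    have h2 : (g'.map (algebraMap k[X] K)).leadingCoeff = 1 := by
      have := mul_right_cancel₀ hlc (h1.trans (one_mul _).symm)
      exact this
    rw [Polynomial.leadingCoeff_map_of_injective (IsFractionRing.injective k[X] K)] at h2
    exact (IsFractionRing.injective k[X] K) (by rw [h2, map_one])
  have hGmonic : G.Monic := hg'monic.map φ
  -- roots
  set R : Multiset L := Multiset.map u Finset.univ.val with hR
  have hQroots : Q.roots = R := by
    have h1 : Q = (Multiset.map (fun a => Polynomial.X - Polynomial.C a) R).prod := by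
      rw [hQ, Finset.prod_eq_multiset_prod, hR, Multiset.map_map]
      rfl
    rw [h1]
    exact Polynomial.roots_multiset_prod_X_sub_C _
  have hle : G.roots ≤ R := hQroots ▸ Polynomial.roots.le_of_dvd hQ0 hGdvd
  have hRprod : R.prod = ∏ x, u x := by
    rw [hR, Finset.prod_eq_multiset_prod]
  have hunz : ∀ x, u x ≠ 0 := by
    intro x hx
    have : (∏ x, u x) = 0 := Finset.prod_eq_zero (Finset.mem_univ x) hx
    rw [this, map_zero] at hprod
    exact zero_ne_one hprod
  -- constant coefficient of G
  have hcoeff : G.coeff 0 = (-1) ^ G.natDegree * G.roots.prod :=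
    hGsplits.coeff_zero_eq_prod_roots_of_monic hGmonic
  have hrootsprod0 : G.roots.prod ≠ 0 := by
    rw [Ne, Multiset.prod_eq_zero_iff]
    intro h0
    have : (0 : L) ∈ R := Multiset.mem_of_le hle h0
    rw [hR, Multiset.mem_map] at this
    obtain ⟨x, -, hx⟩ := this
    exact hunz x hx
  have hg'c : g'.coeff 0 ≠ 0 := by
    intro h
    have : G.coeff 0 = 0 := by rw [hG, Polynomial.coeff_map, h, map_zero]
    rw [hcoeff] at this
    rcases mul_eq_zero.mp this with h1 | h1
    · exact absurd h1 (pow_ne_zero _ (neg_ne_zero.mpr one_ne_zero))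
    · exact hrootsprod0 h1
  have hvG : 1 ≤ v G.roots.prod := by
    have h1 : 1 ≤ v (G.coeff 0) := by
      rw [hG, Polynomial.coeff_map]; exact hφ _ hg'c
    rwa [hcoeff, map_mul, map_pow, Valuation.map_neg, map_one, one_pow, one_mul] at h1
  -- difference multiset
  set D : Multiset L := R - G.roots with hD
  have hRD : R = G.roots + D := by
    rw [hD, add_comm, tsub_add_cancel_of_le hle]
  have hx₀mem : u x₀ ∈ G.roots := (Polynomial.mem_roots hG0).mpr hGroot
  have hDlt : ∀ a ∈ D, 1 < v a := by
    intro a ha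
    by_contra hva
    have haR : a ∈ R := Multiset.mem_of_le (by rw [hD]; exact Multiset.sub_le_self _ _) ha
    -- every x with u x = a equals x₀
    have hx : ∀ x, u x = a → x = x₀ := by
      intro x hxa
      by_contra hne
      exact hva (hxa ▸ hu x hne)
    obtain ⟨x, -, hxa⟩ := Multiset.mem_map.mp haR
    have hax₀ : a = u x₀ := by rw [← hxa, hx x hxa]
    have hcountR : Multiset.count a R ≤ 1 := by
      rw [hR, Multiset.count_map]
      have : Multiset.filter (fun x => a = u x) Finset.univ.val ≤ {x₀} := by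
        rw [Multiset.le_iff_subset ((Finset.univ : Finset ι).nodup.filter _)]
        intro y hy
        rw [Multiset.mem_filter] at hy
        rw [Multiset.mem_singleton]
        exact hx y hy.2.symm
      simpa using Multiset.card_le_card this
    have hcountG : 1 ≤ Multiset.count a G.roots := by
      rw [hax₀]; exact Multiset.one_le_count_iff_mem.mpr hx₀mem
    have hcountD : Multiset.count a D = 0 := by
      rw [hD, Multiset.count_sub]; omega
    exact (Multiset.count_eq_zero.mp hcountD) ha
  have hDzero : D = 0 := by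
    by_contra hD0
    have h1 : 1 < (D.map v).prod := one_lt_multiset_prod (by
      intro b hb
      obtain ⟨a, ha, rfl⟩ := Multiset.mem_map.mp hb
      exact hDlt a ha) (by simpa using hD0)
    have h2 : v R.prod = v G.roots.prod * (D.map v).prod := by
      rw [hRD, Multiset.prod_add, map_mul, map_multiset_prod v D]
    rw [hRprod, hprod] at h2
    have h3 : (1 : Γ₀) < v G.roots.prod * (D.map v).prod :=
      calc (1 : Γ₀) = 1 * 1 := (one_mul 1).symm
        _ < v G.roots.prod * (D.map v).prod := mul_lt_mul' hvG h1 zero_le_one (lt_of_lt_of_le zero_lt_one hvG)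
    exact absurd h2 (ne_of_lt h3)
  have hcard : G.roots.card = Fintype.card ι := by
    have : G.roots = R := by rw [hRD, hDzero, add_zero]
    rw [this, hR, Multiset.card_map]; rfl
  calc Fintype.card ι = G.roots.card := hcard.symm
    _ ≤ G.natDegree := Polynomial.card_roots' G
    _ = g'.natDegree := hg'monic.natDegree_map φ
    _ = g.natDegree := by
      rw [← hg', Polynomial.natDegree_mul_C hlc,
        Polynomial.natDegree_map_eq_of_injective (IsFractionRing.injective k[X] K)]
    _ ≤ pK.natDegree := Polynomial.natDegree_le_of_dvd hgp hpK0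
    _ = p.natDegree := Polynomial.natDegree_map_eq_of_injective (IsFractionRing.injective k[X] K) p

theorem card_le_natDegree_addVal {Γ : Type*} [LinearOrderedAddCommGroupWithTop Γ]
    (w : AddValuation L Γ) (φ : k[X] →+* L)
    (hφ : ∀ p : k[X], p ≠ 0 → w (φ p) ≤ 0)
    {ι : Type*} [Fintype ι] (u : ι → L) (x₀ : ι)
    (P : (k[X])[X]) (hP : P.map φ = ∏ x, (Polynomial.X - Polynomial.C (u x)))
    (hu : ∀ x, x ≠ x₀ → w (u x) < 0) (hprod : w (∏ x, u x) = 0)
    (p : (k[X])[X]) (hp : p ≠ 0) (hroot : (p.map φ).eval (u x₀) = 0) :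
    Fintype.card ι ≤ p.natDegree := by
  refine card_le_natDegree (AddValuation.toValuation w) φ ?_ u x₀ P hP ?_ ?_ p hp hroot
  · intro q hq
    have := hφ q hq
    exact this
  · intro x hx
    have := hu x hx
    exact this
  · rw [AddValuation.toValuation_apply, hprod]
    rfl

theorem card_le_natDegree_of_hom {Γ : Type*} [LinearOrderedAddCommGroupWithTop Γ]
    (w : AddValuation L Γ) (φ : k[X] →+* L)
    (hφ : ∀ p : k[X], p ≠ 0 → w (φ p) ≤ 0)
    {ι : Type*} [Fintype ι] (u : ι → L) (x₀ : ι)
    (P : (k[X])[X]) (hP : P.map φ = ∏ x, (Polynomial.X - Polynomial.C (u x)))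
    (hu : ∀ x, x ≠ x₀ → w (u x) < 0) (hprod : w (∏ x, u x) = 0)
    {k₀ L₀ : Type*} [Field k₀] [Field L₀] (i : k₀ →+* k) (incl : L₀ →+* L)
    (φ₀ : k₀[X] →+* L₀) (hcompat : incl.comp φ₀ = φ.comp (Polynomial.mapRingHom i))
    (u₀ : L₀) (hu₀ : incl u₀ = u x₀)
    (p₀ : (k₀[X])[X]) (hp₀ : p₀ ≠ 0) (hroot₀ : (p₀.map φ₀).eval u₀ = 0) :
    Fintype.card ι ≤ p₀.natDegree := by
  have hi : Function.Injective (Polynomial.mapRingHom i) :=
    Polynomial.map_injective i i.injective
  have hdeg : (p₀.map (Polynomial.mapRingHom i)).natDegree = p₀.natDegree :=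
    Polynomial.natDegree_map_eq_of_injective hi p₀
  rw [← hdeg]
  refine card_le_natDegree_addVal w φ hφ u x₀ P hP hu hprod (p₀.map (Polynomial.mapRingHom i))
    ?_ ?_
  · rwa [Ne, Polynomial.map_eq_zero_iff hi]
  · have h1 : (p₀.map (Polynomial.mapRingHom i)).map φ = (p₀.map φ₀).map incl := by
      rw [Polynomial.map_map, Polynomial.map_map, hcompat]
    rw [h1, ← hu₀, Polynomial.eval_map, Polynomial.eval₂_hom, hroot₀, map_zero]

end Fermat.Agent.S28.SignPattern
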