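import Mathlib
import Fermat.Agent.S28.Defs
import Fermat.Agent.S28.SignPattern
import Fermat.Prelude.Thm_ModularCurve_coeff_jqModC_pow_self
import Fermat.Prelude.Thm_ModularCurve_coeff_jqModC_pow_of_lt

set_option autoImplicit false
set_option linter.deprecated false

noncomputable section

namespace Fermat.Agent.S28.Orders

open ModularCurve HahnSeries Fermat.Agent.S28.Defs

/-! ### Generic facts on `qE`, `scale`, `twist` -/

section Generic

variable (R : Type*) [CommRing R]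

theorem qE_of_ne_zero {k : ℕ} (hk : k ≠ 0) :
    qE R k = @qExpand R _ k ⟨hk⟩ := by
  unfold qE
  rw [dif_neg hk]

theorem qE_zero : qE R 0 = RingHom.id _ := by
  unfold qE
  rw [dif_pos rfl]

theorem qE_one (f : LaurentSeries R) : qE R 1 f = f := by
  rw [qE_of_ne_zero R one_ne_zero]
  exact qExpand_one_apply f

theorem qE_C (k : ℕ) (r : R) : qE R k (HahnSeries.C r) = HahnSeries.C r := by
  by_cases hk : k = 0
  · subst hk; rw [qE_zero]; rfl
  · rw [qE_of_ne_zero R hk]
    have : NeZero k := ⟨hk⟩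
    exact qExpand_C k r

theorem qE_qE {m k : ℕ} (hm : m ≠ 0) (hk : k ≠ 0) (f : LaurentSeries R) :
    qE R m (qE R k f) = qE R (m * k) f := by
  rw [qE_of_ne_zero R hm, qE_of_ne_zero R hk, qE_of_ne_zero R (Nat.mul_ne_zero hm hk)]
  have : NeZero m := ⟨hm⟩
  have : NeZero k := ⟨hk⟩
  exact qExpand_qExpand k m f

theorem qE_injective {k : ℕ} : Function.Injective (qE R k) := by
  by_cases hk : k = 0
  · subst hk; rw [qE_zero]; exact fun _ _ h => h
  · rw [qE_of_ne_zero R hk]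
    have : NeZero k := ⟨hk⟩
    exact qExpand_injective k

theorem orderTop_qE {k : ℕ} (hk : k ≠ 0) (f : LaurentSeries R) {n : ℤ}
    (hf : f.orderTop = (n : WithTop ℤ)) :
    (qE R k f).orderTop = (((k : ℤ) * n : ℤ) : WithTop ℤ) := by
  rw [qE_of_ne_zero R hk]
  have : NeZero k := ⟨hk⟩
  have h := @HahnSeries.orderTop_embDomain ℤ R _ _ ℤ _
    ⟨⟨AddMonoidHom.mulLeft (k : ℤ), mul_right_injective₀ (by exact_mod_cast hk)⟩,
      fun {g g'} => mul_le_mul_iff_of_pos_left (by exact_mod_cast Nat.pos_of_ne_zero hk)⟩ f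
  rw [hf] at h
  exact h

variable {R}

theorem orderTop_scale (u : Rˣ) (f : LaurentSeries R) :
    (scale R u f).orderTop = f.orderTop := by
  apply le_antisymm
  · rw [HahnSeries.le_orderTop_iff_forall]
    intro j hj
    have h := HahnSeries.coeff_eq_zero_of_lt_orderTop hj
    rw [scale_coeff] at h
    exact (Units.mul_right_eq_zero _).mp h
  · rw [HahnSeries.le_orderTop_iff_forall]
    intro j hj
    rw [scale_coeff, HahnSeries.coeff_eq_zero_of_lt_orderTop hj, mul_zero]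

theorem scale_one (f : LaurentSeries R) : scale R 1 f = f := by
  ext n
  rw [scale_coeff, one_zpow, Units.val_one, one_mul]

theorem orderTop_twist (u : Rˣ) {k : ℕ} (hk : k ≠ 0) (f : LaurentSeries R) {n : ℤ}
    (hf : f.orderTop = (n : WithTop ℤ)) :
    (twist R u k f).orderTop = (((k : ℤ) * n : ℤ) : WithTop ℤ) := by
  unfold twist
  rw [RingHom.comp_apply]
  exact orderTop_qE R hk _ (by rw [orderTop_scale, hf])

theorem twist_one_unit (k : ℕ) (f : LaurentSeries R) : twist R 1 k f = qE R k f := by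
  unfold twist
  rw [RingHom.comp_apply, scale_one]

end Generic

/-! ### Orders of `Δ`, `Δ⁻¹`, `j` -/

section Basic

variable (R : Type*) [CommRing R]

theorem orderTop_ofPowerSeries [Nontrivial R] (p : PowerSeries R)
    (hp : PowerSeries.constantCoeff p = 1) :
    (HahnSeries.ofPowerSeries ℤ R p).orderTop = ((0 : ℤ) : WithTop ℤ) := by
  apply le_antisymm
  · apply HahnSeries.orderTop_le_of_coeff_ne_zero
    rw [show (0 : ℤ) = ((0 : ℕ) : ℤ) from rfl, HahnSeries.ofPowerSeries_apply_coeff,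
      PowerSeries.coeff_zero_eq_constantCoeff, hp]
    exact one_ne_zero
  · rw [HahnSeries.le_orderTop_iff_forall]
    intro j hj
    exact ofPowerSeries_coeff_of_neg p (by exact_mod_cast hj)

theorem constantCoeff_map_etaUnit :
    PowerSeries.constantCoeff (dedekindEtaUnit.map (Int.castRingHom R)) = 1 := by
  rw [← PowerSeries.coeff_zero_eq_constantCoeff, PowerSeries.coeff_map,
    PowerSeries.coeff_zero_eq_constantCoeff, constantCoeff_dedekindEtaUnit]
  simp

theorem constantCoeff_map_etaUnitInv :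
    PowerSeries.constantCoeff (dedekindEtaUnitInv.map (Int.castRingHom R)) = 1 := by
  rw [← PowerSeries.coeff_zero_eq_constantCoeff, PowerSeries.coeff_map,
    PowerSeries.coeff_zero_eq_constantCoeff, constantCoeff_dedekindEtaUnitInv]
  simp

theorem constantCoeff_map_jNum :
    PowerSeries.constantCoeff (jNum.map (Int.castRingHom R)) = 1 := by
  rw [← PowerSeries.coeff_zero_eq_constantCoeff, PowerSeries.coeff_map,
    PowerSeries.coeff_zero_eq_constantCoeff, constantCoeff_jNum]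
  simp

theorem deltaR_mul_deltaInvR : deltaR R * deltaInvR R = 1 := by
  unfold deltaR deltaInvR
  rw [mul_mul_mul_comm, HahnSeries.single_mul_single, ← map_mul, ← map_mul,
    dedekindEtaUnit_mul_inv, map_one, map_one]
  simp

theorem deltaInvR_mul_deltaR : deltaInvR R * deltaR R = 1 := by
  rw [mul_comm, deltaR_mul_deltaInvR]

variable [IsDomain R]

theorem orderTop_deltaR : (deltaR R).orderTop = ((1 : ℤ) : WithTop ℤ) := by
  unfold deltaR
  rw [HahnSeries.orderTop_mul, HahnSeries.orderTop_single one_ne_zero,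
    orderTop_ofPowerSeries R _ (constantCoeff_map_etaUnit R), ← WithTop.coe_add, add_zero]

theorem orderTop_deltaInvR : (deltaInvR R).orderTop = ((-1 : ℤ) : WithTop ℤ) := by
  unfold deltaInvR
  rw [HahnSeries.orderTop_mul, HahnSeries.orderTop_single one_ne_zero,
    orderTop_ofPowerSeries R _ (constantCoeff_map_etaUnitInv R), ← WithTop.coe_add, add_zero]

theorem orderTop_jqModC : (jqModC R).orderTop = ((-1 : ℤ) : WithTop ℤ) := by
  unfold jqModC
  rw [HahnSeries.orderTop_mul, HahnSeries.orderTop_single one_ne_zero,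
    orderTop_ofPowerSeries R _ (constantCoeff_map_jNum R), ← WithTop.coe_add, add_zero]

theorem orderTop_C {r : R} (hr : r ≠ 0) :
    (HahnSeries.C r : LaurentSeries R).orderTop = ((0 : ℤ) : WithTop ℤ) := by
  rw [HahnSeries.C_apply]
  exact HahnSeries.orderTop_single hr

theorem orderTop_pow' (f : LaurentSeries R) {n : ℤ} (hf : f.orderTop = (n : WithTop ℤ))
    (k : ℕ) : (f ^ k).orderTop = (((k : ℤ) * n : ℤ) : WithTop ℤ) := by
  induction k with
  | zero => simp
  | succ k ih =>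
    rw [pow_succ, HahnSeries.orderTop_mul, ih, hf, ← WithTop.coe_add]
    congr 1
    push_cast
    ring

end Basic

/-! ### Polynomials in `j(t^N)` have order `≤ 0` -/

section PolyJ

variable (R : Type*) [CommRing R]

/-- `p(j(t^N)) = qE N (p(j(t)))`. -/
theorem eval₂_qE (N : ℕ) (p : Polynomial R) (x : LaurentSeries R) :
    Polynomial.eval₂ (HahnSeries.C : R →+* LaurentSeries R) (qE R N x) p =
      qE R N (Polynomial.eval₂ (HahnSeries.C : R →+* LaurentSeries R) x p) := by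
  rw [Polynomial.hom_eval₂]
  congr 1
  exact RingHom.ext fun r => (qE_C R N r).symm

theorem coeff_eval₂_jq (p : Polynomial R) :
    (Polynomial.eval₂ (HahnSeries.C : R →+* LaurentSeries R) (jqModC R) p).coeff
      (-(p.natDegree : ℤ)) = p.leadingCoeff := by
  rw [Polynomial.eval₂_eq_sum_range, HahnSeries.coeff_sum, Finset.sum_eq_single p.natDegree]
  · rw [HahnSeries.C_mul_eq_smul, HahnSeries.coeff_smul, coeff_jqModC_pow_self, smul_eq_mul,
      mul_one]
    rfl
  · intro i hi hne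
    have hlt : i < p.natDegree := lt_of_le_of_ne (Nat.lt_succ_iff.mp (Finset.mem_range.mp hi)) hne
    rw [HahnSeries.C_mul_eq_smul, HahnSeries.coeff_smul,
      coeff_jqModC_pow_of_lt R (by exact_mod_cast neg_lt_neg (Nat.cast_lt.mpr hlt)), smul_zero]
  · intro h
    exact absurd (Finset.mem_range.mpr (Nat.lt_succ_self _)) h

theorem orderTop_eval₂_jq_le {N : ℕ} (hN : N ≠ 0) {p : Polynomial R} (hp : p ≠ 0) :
    (Polynomial.eval₂ (HahnSeries.C : R →+* LaurentSeries R) (qE R N (jqModC R)) p).orderTop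
      ≤ ((0 : ℤ) : WithTop ℤ) := by
  rw [eval₂_qE, qE_of_ne_zero R hN]
  have : NeZero N := ⟨hN⟩
  have hc : (qExpand R N (Polynomial.eval₂ (HahnSeries.C : R →+* LaurentSeries R) (jqModC R) p)).coeff
      ((N : ℤ) * (-(p.natDegree : ℤ))) ≠ 0 := by
    rw [qExpand_coeff_mul, coeff_eval₂_jq]
    exact Polynomial.leadingCoeff_ne_zero.mpr hp
  refine (HahnSeries.orderTop_le_of_coeff_ne_zero hc).trans ?_
  rw [WithTop.coe_le_coe]
  have h1 : (0 : ℤ) ≤ (N : ℤ) := Int.natCast_nonneg N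
  have h2 : (0 : ℤ) ≤ (p.natDegree : ℤ) := Int.natCast_nonneg _
  nlinarith

end PolyJ

/-! ### Arithmetic of the Möbius sums -/


theorem sum_moebius_mul_self (N : ℕ) (hN : 0 < N) :
    ∑ d ∈ N.divisors, (ArithmeticFunction.moebius (N / d) : ℤ) * (d : ℤ) = (Nat.totient N : ℤ) := by
  have h := (ArithmeticFunction.sum_eq_iff_sum_mul_moebius_eq (R := ℤ)
    (f := fun n => (Nat.totient n : ℤ)) (g := fun n => (n : ℤ))).mp
    (fun n _ => by exact_mod_cast Nat.sum_totient n) N hN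
  have h2 := Nat.sum_divisorsAntidiagonal' (n := N)
    (f := fun x y => (ArithmeticFunction.moebius x : ℤ) * (y : ℤ))
  simp only [Int.cast_id] at h
  rw [← h2]
  exact h

theorem gcd_div_mul_prime {N A p e : ℕ} (hN : N ≠ 0) (hp : p.Prime) (hAp : A * p ∣ N)
    (hpe : ¬ p ∣ e) (hepN : e * p ∣ N) :
    Nat.gcd (N / (e * p)) A = Nat.gcd (N / e) A := by
  obtain ⟨m, hm⟩ := hepN
  have he0 : e ≠ 0 := by rintro rfl; simp at hm; exact hN hm
  have hp0 : p ≠ 0 := hp.ne_zero
  have h1 : N / (e * p) = m := by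
    rw [hm]; exact Nat.mul_div_cancel_left m (Nat.pos_of_ne_zero (Nat.mul_ne_zero he0 hp0))
  have h2 : N / e = p * m := by
    rw [hm, mul_assoc]; exact Nat.mul_div_cancel_left _ (Nat.pos_of_ne_zero he0)
  rw [h1, h2]
  apply Nat.dvd_antisymm
  · exact Nat.dvd_gcd ((Nat.gcd_dvd_left m A).trans (Dvd.intro_left p rfl)) (Nat.gcd_dvd_right m A)
  · have hA : A ∣ e * m := by
      obtain ⟨c, hc⟩ := hAp
      have : p * (A * c) = p * (e * m) := by
        calc p * (A * c) = A * p * c := by ring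
          _ = N := hc.symm
          _ = e * p * m := hm
          _ = p * (e * m) := by ring
      exact ⟨c, (Nat.eq_of_mul_eq_mul_left hp.pos this).symm⟩
    have hg1 : Nat.gcd (p * m) A ∣ e * m := (Nat.gcd_dvd_right _ _).trans hA
    have hg2 : Nat.gcd (p * m) A ∣ p * m := Nat.gcd_dvd_left _ _
    have hcop : Nat.Coprime e p := ((Nat.Prime.coprime_iff_not_dvd hp).mpr hpe).symm
    have hg3 : Nat.gcd (p * m) A ∣ m := by
      have := Nat.dvd_gcd hg1 hg2
      rwa [Nat.gcd_mul_right, hcop.gcd_eq_one, one_mul] at this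
    exact Nat.dvd_gcd hg3 (Nat.gcd_dvd_right _ _)

theorem sum_moebius_gcd_sq_eq_zero (N A : ℕ) (hN : N ≠ 0) (hA : A ∣ N) (hne : A ≠ N) :
    ∑ d ∈ N.divisors, (ArithmeticFunction.moebius (N / d) : ℤ) * ((Nat.gcd d A : ℕ) : ℤ) ^ 2 = 0 := by
  classical
  -- a prime `p` with `A * p ∣ N`
  obtain ⟨c, hc⟩ := hA
  have hc1 : c ≠ 1 := by rintro rfl; exact hne (by rw [hc, mul_one])
  obtain ⟨p, hp, hpc⟩ := Nat.exists_prime_and_dvd hc1
  have hAp : A * p ∣ N := by rw [hc]; exact Nat.mul_dvd_mul_left A hpc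
  have hpN : p ∣ N := (Dvd.intro_left A rfl).trans hAp
  -- reindex
  have hre : ∑ d ∈ N.divisors, (ArithmeticFunction.moebius (N / d) : ℤ) * ((Nat.gcd d A : ℕ) : ℤ) ^ 2
      = ∑ e ∈ N.divisors, (ArithmeticFunction.moebius e : ℤ) * ((Nat.gcd (N / e) A : ℕ) : ℤ) ^ 2 := by
    rw [← Nat.sum_div_divisors N
      (fun e => (ArithmeticFunction.moebius e : ℤ) * ((Nat.gcd (N / e) A : ℕ) : ℤ) ^ 2)]
    refine Finset.sum_congr rfl fun d hd => ?_
    rw [Nat.div_div_self (Nat.dvd_of_mem_divisors hd) hN]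
  rw [hre]
  -- restrict to squarefree divisors
  rw [← Finset.sum_filter_of_ne (p := fun e => Squarefree e)]
  swap
  · intro e _ he
    by_contra hsq
    apply he
    rw [ArithmeticFunction.moebius_eq_zero_of_not_squarefree hsq]
    simp
  refine Finset.sum_involution (fun e _ => if p ∣ e then e / p else e * p) ?_ ?_ ?_ ?_
  · -- pairs cancel
    intro e he
    rw [Finset.mem_filter, Nat.mem_divisors] at he
    obtain ⟨⟨heN, -⟩, hsq⟩ := he
    by_cases hpe : p ∣ e
    · rw [if_pos hpe]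
      obtain ⟨e₀, rfl⟩ := hpe
      have hpe₀ : ¬ p ∣ e₀ := by
        intro h
        obtain ⟨f, rfl⟩ := h
        have := hsq p ⟨f, by ring⟩
        exact hp.not_isUnit this
      have hcop : Nat.Coprime p e₀ := (Nat.Prime.coprime_iff_not_dvd hp).mpr hpe₀
      rw [Nat.mul_div_cancel_left e₀ hp.pos,
        ArithmeticFunction.isMultiplicative_moebius.map_mul_of_coprime hcop,
        ArithmeticFunction.moebius_apply_prime hp, mul_comm p e₀,
        gcd_div_mul_prime hN hp hAp hpe₀ (by rwa [mul_comm e₀ p])]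
      push_cast
      ring
    · rw [if_neg hpe]
      have hcop : Nat.Coprime e p := ((Nat.Prime.coprime_iff_not_dvd hp).mpr hpe).symm
      have hepN : e * p ∣ N := Nat.Coprime.mul_dvd_of_dvd_of_dvd hcop heN hpN
      rw [ArithmeticFunction.isMultiplicative_moebius.map_mul_of_coprime hcop,
        ArithmeticFunction.moebius_apply_prime hp, gcd_div_mul_prime hN hp hAp hpe hepN]
      push_cast
      ring
  · -- no fixed points
    intro e he _
    rw [Finset.mem_filter, Nat.mem_divisors] at he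
    obtain ⟨⟨heN, -⟩, hsq⟩ := he
    have he0 : e ≠ 0 := by rintro rfl; exact hN (Nat.eq_zero_of_zero_dvd heN)
    by_cases hpe : p ∣ e
    · rw [if_pos hpe]
      exact (Nat.div_lt_self (Nat.pos_of_ne_zero he0) hp.one_lt).ne
    · rw [if_neg hpe]
      intro h
      have : e * p = e * 1 := by rw [h, mul_one]
      exact hp.one_lt.ne' (Nat.eq_of_mul_eq_mul_left (Nat.pos_of_ne_zero he0) this)
  · -- membership
    intro e he
    rw [Finset.mem_filter, Nat.mem_divisors] at he ⊢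
    obtain ⟨⟨heN, -⟩, hsq⟩ := he
    by_cases hpe : p ∣ e
    · rw [if_pos hpe]
      exact ⟨⟨(Nat.div_dvd_of_dvd hpe).trans heN, hN⟩, hsq.squarefree_of_dvd (Nat.div_dvd_of_dvd hpe)⟩
    · rw [if_neg hpe]
      have hcop : Nat.Coprime e p := ((Nat.Prime.coprime_iff_not_dvd hp).mpr hpe).symm
      exact ⟨⟨Nat.Coprime.mul_dvd_of_dvd_of_dvd hcop heN hpN, hN⟩,
        (Nat.squarefree_mul hcop).mpr ⟨hsq, hp.squarefree⟩⟩
  · -- involution
    intro e he
    rw [Finset.mem_filter, Nat.mem_divisors] at he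
    obtain ⟨⟨heN, -⟩, hsq⟩ := he
    by_cases hpe : p ∣ e
    · simp only [if_pos hpe]
      obtain ⟨e₀, rfl⟩ := hpe
      have hpe₀ : ¬ p ∣ e₀ := by
        intro h
        obtain ⟨f, rfl⟩ := h
        have := hsq p ⟨f, by ring⟩
        exact hp.not_isUnit this
      rw [Nat.mul_div_cancel_left e₀ hp.pos, if_neg hpe₀, mul_comm]
    · simp only [if_neg hpe]
      rw [if_pos (Dvd.intro_left e rfl), Nat.mul_div_cancel e hp.pos]

/-! ### The expansions `σ` on generators -/

section SigmaGeneric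

variable {R : Type*} [CommRing R] (ζ : Rˣ) (ν : R) (N : ℕ) (a b : ℕ → ℕ)

theorem sigma_X (g : Gen N) :
    sigma R ζ ν N a b (MvPolynomial.X g) = sigmaGen R ζ ν N a b g := by
  unfold sigma
  exact MvPolynomial.eval₂Hom_X' _ _ g

theorem ev_X (g : Gen N) : ev R N (MvPolynomial.X g) = genVal R N g := by
  unfold ev
  exact MvPolynomial.eval₂Hom_X' _ _ g

theorem sigmaGen_x_mul_y (hν : (N : R) * ν = 1) (d : {d : ℕ // d ∣ N}) (had : a d.1 ∣ d.1) :
    sigmaGen R ζ ν N a b (.x d) * sigmaGen R ζ ν N a b (.y d) = 1 := by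
  have hd' : d.1 / a d.1 ∣ N := (Nat.div_dvd_of_dvd had).trans d.2
  have hc : (((N / (d.1 / a d.1) : ℕ) : R) * ν) * ((d.1 / a d.1 : ℕ) : R) = 1 := by
    rw [mul_right_comm, ← Nat.cast_mul, Nat.div_mul_cancel hd', hν]
  have h1 : ∀ f : LaurentSeries R →+* LaurentSeries R, f (deltaR R) * f (deltaInvR R) = 1 := by
    intro f; rw [← map_mul, deltaR_mul_deltaInvR, map_one]
  show HahnSeries.C ((((N / (d.1 / a d.1) : ℕ) : R) * ν) ^ 12) *
      twist R (ζ ^ (N / (d.1 / a d.1) * b d.1)) (a d.1 * (N / (d.1 / a d.1))) (deltaR R) *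
      qE R N (deltaInvR R) * (HahnSeries.C ((((d.1 / a d.1 : ℕ) : R)) ^ 12) * qE R N (deltaR R) *
      twist R (ζ ^ (N / (d.1 / a d.1) * b d.1)) (a d.1 * (N / (d.1 / a d.1))) (deltaInvR R)) = 1
  calc _ = HahnSeries.C ((((N / (d.1 / a d.1) : ℕ) : R) * ν) ^ 12) *
          HahnSeries.C ((((d.1 / a d.1 : ℕ) : R)) ^ 12) *
        (twist R (ζ ^ (N / (d.1 / a d.1) * b d.1)) (a d.1 * (N / (d.1 / a d.1))) (deltaR R) *
          twist R (ζ ^ (N / (d.1 / a d.1) * b d.1)) (a d.1 * (N / (d.1 / a d.1))) (deltaInvR R)) *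
        (qE R N (deltaR R) * qE R N (deltaInvR R)) := by ring
    _ = 1 := by rw [h1, h1, ← map_mul, ← mul_pow, hc, one_pow, map_one, mul_one, mul_one]

theorem sigma_unitPoly_mul_inv (hν : (N : R) * ν = 1) (ha : ∀ d, d ∣ N → a d ∣ d) :
    sigma R ζ ν N a b (unitPoly N) * sigma R ζ ν N a b (unitPolyInv N) = 1 := by
  unfold unitPoly unitPolyInv
  rw [map_prod, map_prod, ← Finset.prod_mul_distrib]
  apply Finset.prod_eq_one
  intro d _
  have hxy := sigmaGen_x_mul_y ζ ν N a b hν (divIdx N d) (ha _ (divIdx N d).2)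
  split_ifs with h1 h2
  · rw [map_pow, map_pow, sigma_X, sigma_X, ← mul_pow, hxy, one_pow]
  · rw [map_pow, map_pow, sigma_X, sigma_X, ← mul_pow, mul_comm, hxy, one_pow]
  · rw [map_one, one_mul]

/-- At the identity coset, `σ = (q ↦ t^N) ∘ ev`. -/
theorem sigma_eq_qE_comp_ev (hN : N ≠ 0) (hζ : ζ ^ N = 1) (hν : (N : R) * ν = 1)
    (ha : ∀ d, d ∣ N → a d = d) :
    sigma R ζ ν N a b = (qE R N).comp (ev R N) := by
  have key : ∀ (d : {d : ℕ // d ∣ N}) (f : LaurentSeries R),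
      twist R (ζ ^ (N / (d.1 / a d.1) * b d.1)) (a d.1 * (N / (d.1 / a d.1))) f
        = qE R N (qE R d.1 f) := by
    intro d f
    have hd0 : d.1 ≠ 0 := fun h => hN (by simpa [h] using d.2)
    rw [ha d.1 d.2, Nat.div_self (Nat.pos_of_ne_zero hd0), Nat.div_one, pow_mul, hζ, one_pow,
      twist_one_unit, qE_qE R hN hd0, mul_comm]
  have hc1 : ∀ d : {d : ℕ // d ∣ N}, (((N / (d.1 / a d.1) : ℕ) : R) * ν) ^ 12 = 1 := by
    intro d
    have hd0 : d.1 ≠ 0 := fun h => hN (by simpa [h] using d.2)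
    rw [ha d.1 d.2, Nat.div_self (Nat.pos_of_ne_zero hd0), Nat.div_one, hν, one_pow]
  have hc2 : ∀ d : {d : ℕ // d ∣ N}, (((d.1 / a d.1 : ℕ) : R)) ^ 12 = 1 := by
    intro d
    have hd0 : d.1 ≠ 0 := fun h => hN (by simpa [h] using d.2)
    rw [ha d.1 d.2, Nat.div_self (Nat.pos_of_ne_zero hd0), Nat.cast_one, one_pow]
  apply MvPolynomial.ringHom_ext
  · intro n
    simp
  · intro g
    rw [sigma_X, RingHom.comp_apply, ev_X]
    cases g with
    | j d => exact key d _
    | x d =>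
      show HahnSeries.C ((((N / (d.1 / a d.1) : ℕ) : R) * ν) ^ 12) *
        twist R (ζ ^ (N / (d.1 / a d.1) * b d.1)) (a d.1 * (N / (d.1 / a d.1))) (deltaR R) *
        qE R N (deltaInvR R) = qE R N (qE R d.1 (deltaR R) * deltaInvR R)
      rw [key, hc1, map_one, one_mul, map_mul]
    | y d =>
      show HahnSeries.C ((((d.1 / a d.1 : ℕ) : R)) ^ 12) * qE R N (deltaR R) *
        twist R (ζ ^ (N / (d.1 / a d.1) * b d.1)) (a d.1 * (N / (d.1 / a d.1))) (deltaInvR R)
          = qE R N (deltaR R * qE R d.1 (deltaInvR R))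
      rw [key, hc2, map_one, one_mul, map_mul]

end SigmaGeneric

section SigmaField

variable {κ : Type*} [Field κ] (ζ : κˣ) (ν : κ) (N : ℕ) (a b : ℕ → ℕ)

theorem orderTop_prod {ι : Type*} (s : Finset ι) (f : ι → LaurentSeries κ) (n : ι → ℤ)
    (h : ∀ i ∈ s, (f i).orderTop = ((n i : ℤ) : WithTop ℤ)) :
    (∏ i ∈ s, f i).orderTop = ((∑ i ∈ s, n i : ℤ) : WithTop ℤ) := by
  classical
  induction s using Finset.induction_on with
  | empty => simp
  | insert i s hi ih =>
    rw [Finset.prod_insert hi, Finset.sum_insert hi, HahnSeries.orderTop_mul,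
      h i (Finset.mem_insert_self i s), ih (fun j hj => h j (Finset.mem_insert_of_mem hj)),
      WithTop.coe_add]

theorem orderTop_sigmaGen_x (hN : N ≠ 0) (hν : (N : κ) * ν = 1) (d : {d : ℕ // d ∣ N})
    (had : a d.1 ∣ d.1) (ha0 : a d.1 ≠ 0) :
    (sigmaGen κ ζ ν N a b (.x d)).orderTop =
      ((((a d.1 * (N / (d.1 / a d.1)) : ℕ) : ℤ) - (N : ℤ) : ℤ) : WithTop ℤ) := by
  have hd' : d.1 / a d.1 ∣ N := (Nat.div_dvd_of_dvd had).trans d.2
  have hc : (((N / (d.1 / a d.1) : ℕ) : κ) * ν) * ((d.1 / a d.1 : ℕ) : κ) = 1 := by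
    rw [mul_right_comm, ← Nat.cast_mul, Nat.div_mul_cancel hd', hν]
  have hc0 : (((N / (d.1 / a d.1) : ℕ) : κ) * ν) ^ 12 ≠ 0 :=
    pow_ne_zero _ (left_ne_zero_of_mul_eq_one hc)
  have hk : a d.1 * (N / (d.1 / a d.1)) ≠ 0 := by
    refine Nat.mul_ne_zero ha0 ?_
    have hd'0 : 0 < d.1 / a d.1 := Nat.pos_of_dvd_of_pos hd' (Nat.pos_of_ne_zero hN)
    exact (Nat.div_pos (Nat.le_of_dvd (Nat.pos_of_ne_zero hN) hd') hd'0).ne'
  show (HahnSeries.C ((((N / (d.1 / a d.1) : ℕ) : κ) * ν) ^ 12) *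
      twist κ (ζ ^ (N / (d.1 / a d.1) * b d.1)) (a d.1 * (N / (d.1 / a d.1))) (deltaR κ) *
      qE κ N (deltaInvR κ)).orderTop = _
  rw [HahnSeries.orderTop_mul, HahnSeries.orderTop_mul, orderTop_C κ hc0,
    orderTop_twist _ hk _ (orderTop_deltaR κ), orderTop_qE κ hN _ (orderTop_deltaInvR κ),
    ← WithTop.coe_add, ← WithTop.coe_add]
  congr 1
  ring

theorem orderTop_sigmaGen_y (hN : N ≠ 0) (hν : (N : κ) * ν = 1) (d : {d : ℕ // d ∣ N})
    (had : a d.1 ∣ d.1) (ha0 : a d.1 ≠ 0) :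
    (sigmaGen κ ζ ν N a b (.y d)).orderTop =
      (((N : ℤ) - ((a d.1 * (N / (d.1 / a d.1)) : ℕ) : ℤ) : ℤ) : WithTop ℤ) := by
  have hd' : d.1 / a d.1 ∣ N := (Nat.div_dvd_of_dvd had).trans d.2
  have hc : (((N / (d.1 / a d.1) : ℕ) : κ) * ν) * ((d.1 / a d.1 : ℕ) : κ) = 1 := by
    rw [mul_right_comm, ← Nat.cast_mul, Nat.div_mul_cancel hd', hν]
  have hc0 : (((d.1 / a d.1 : ℕ) : κ)) ^ 12 ≠ 0 :=
    pow_ne_zero _ (right_ne_zero_of_mul_eq_one hc)
  have hk : a d.1 * (N / (d.1 / a d.1)) ≠ 0 := by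
    refine Nat.mul_ne_zero ha0 ?_
    have hd'0 : 0 < d.1 / a d.1 := Nat.pos_of_dvd_of_pos hd' (Nat.pos_of_ne_zero hN)
    exact (Nat.div_pos (Nat.le_of_dvd (Nat.pos_of_ne_zero hN) hd') hd'0).ne'
  show (HahnSeries.C ((((d.1 / a d.1 : ℕ) : κ)) ^ 12) * qE κ N (deltaR κ) *
      twist κ (ζ ^ (N / (d.1 / a d.1) * b d.1)) (a d.1 * (N / (d.1 / a d.1))) (deltaInvR κ)).orderTop
        = _
  rw [HahnSeries.orderTop_mul, HahnSeries.orderTop_mul, orderTop_C κ hc0,
    orderTop_twist _ hk _ (orderTop_deltaInvR κ), orderTop_qE κ hN _ (orderTop_deltaR κ),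
    ← WithTop.coe_add, ← WithTop.coe_add]
  congr 1
  ring

/-- `d * (a_d * (N / (d / a_d))) = N * a_d ^ 2`. -/
theorem mul_key_nat {N d g : ℕ} (hd : d ∣ N) (hg : g ∣ d) (hg0 : g ≠ 0) :
    d * (g * (N / (d / g))) = N * g ^ 2 := by
  obtain ⟨d', rfl⟩ := hg
  rw [Nat.mul_div_cancel_left d' (Nat.pos_of_ne_zero hg0)]
  have hd' : d' ∣ N := (Dvd.intro_left g rfl).trans hd
  obtain ⟨m, rfl⟩ := hd'
  by_cases hd0 : d' = 0
  · subst hd0; simp
  · rw [Nat.mul_div_cancel_left m (Nat.pos_of_ne_zero hd0)]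
    ring

/-- The `t`-order of the conjugate of the modular unit at a cusp with data `a`. -/
theorem orderTop_sigma_unitPoly (hN : N ≠ 0) (hν : (N : κ) * ν = 1)
    (ha : ∀ d, d ∣ N → a d = Nat.gcd d (a N)) :
    (sigma κ ζ ν N a b (unitPoly N)).orderTop =
      (((N : ℤ) * (∑ d ∈ N.divisors,
          (ArithmeticFunction.moebius (N / d) : ℤ) * ((Nat.gcd d (a N) : ℕ) : ℤ) ^ 2)
        - (N : ℤ) * (Nat.totient N : ℤ) : ℤ) : WithTop ℤ) := by
  have had : ∀ d, d ∣ N → a d ∣ d := fun d hd => by rw [ha d hd]; exact Nat.gcd_dvd_left _ _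
  have ha0 : ∀ d, d ∣ N → a d ≠ 0 := fun d hd => by
    rw [ha d hd]
    exact Nat.gcd_ne_zero_left (fun h => hN (by simpa [h] using hd))
  unfold unitPoly
  rw [map_prod]
  rw [orderTop_prod (κ := κ) N.divisors.attach _
    (fun d => (ArithmeticFunction.moebius (N / d.1) : ℤ) *
      ((d.1 : ℤ) * (((a d.1 * (N / (d.1 / a d.1)) : ℕ) : ℤ) - (N : ℤ))))]
  · congr 1
    rw [Finset.sum_attach N.divisors (fun d => (ArithmeticFunction.moebius (N / d) : ℤ) *
      ((d : ℤ) * (((a d * (N / (d / a d)) : ℕ) : ℤ) - (N : ℤ)))),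
      ← sum_moebius_mul_self N (Nat.pos_of_ne_zero hN), Finset.mul_sum, Finset.mul_sum,
      ← Finset.sum_sub_distrib]
    refine Finset.sum_congr rfl fun d hd => ?_
    have hdN : d ∣ N := Nat.dvd_of_mem_divisors hd
    have hkey := mul_key_nat hdN (had d hdN) (ha0 d hdN)
    have hkey' : (d : ℤ) * ((a d * (N / (d / a d)) : ℕ) : ℤ) = (N : ℤ) * ((a d : ℕ) : ℤ) ^ 2 := by
      exact_mod_cast hkey
    rw [← ha d hdN, mul_sub, hkey']
    ring
  · intro d _
    have hdN : d.1 ∣ N := Nat.dvd_of_mem_divisors d.2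
    have hx := orderTop_sigmaGen_x ζ ν N a b hN hν (divIdx N d) (had d.1 hdN) (ha0 d.1 hdN)
    have hy := orderTop_sigmaGen_y ζ ν N a b hN hν (divIdx N d) (had d.1 hdN) (ha0 d.1 hdN)
    split_ifs with h1 h2
    · rw [map_pow, sigma_X, orderTop_pow' κ _ hx, h1]
      congr 1
      simp [divIdx]
    · rw [map_pow, sigma_X, orderTop_pow' κ _ hy, h2]
      congr 1
      simp [divIdx]
      ring
    · rw [map_one]
      rcases ArithmeticFunction.moebius_eq_or (N / d.1) with h | h | h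
      · rw [h]; simp
      · exact absurd h h1
      · exact absurd h h2

theorem orderTop_sigma_unitPoly_neg (hN : N ≠ 0) (hν : (N : κ) * ν = 1)
    (ha : ∀ d, d ∣ N → a d = Nat.gcd d (a N)) (hne : a N ≠ N) :
    (sigma κ ζ ν N a b (unitPoly N)).orderTop < ((0 : ℤ) : WithTop ℤ) := by
  have haN : a N ∣ N := by
    have := ha N dvd_rfl
    rw [this]; exact Nat.gcd_dvd_left _ _
  rw [orderTop_sigma_unitPoly ζ ν N a b hN hν ha, sum_moebius_gcd_sq_eq_zero N (a N) hN haN hne,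
    WithTop.coe_lt_coe]
  have h1 : (0 : ℤ) < (N : ℤ) := by exact_mod_cast Nat.pos_of_ne_zero hN
  have h2 : (0 : ℤ) < (Nat.totient N : ℤ) := by
    exact_mod_cast Nat.totient_pos.mpr (Nat.pos_of_ne_zero hN)
  nlinarith

end SigmaField

/-! ### The mod-`ℓ` core -/

section Main

variable {N : ℕ} (S : RowSystem N) {κ : Type*} [Field κ] (ζ : κˣ) (ν : κ)

theorem RowSystem.a_dvd (q : S.C) (d : ℕ) (hd : d ∣ N) : S.a q d ∣ d := by
  rw [S.a_gcd q d hd]; exact Nat.gcd_dvd_left _ _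

/-- At the identity coset the expansion is `q ↦ t^N`. -/
theorem sig_one (hN : N ≠ 0) (hζ : ζ ^ N = 1) (hν : (N : κ) * ν = 1) :
    S.sig κ ζ ν S.one = (qE κ N).comp (ev κ N) := by
  unfold RowSystem.sig
  refine sigma_eq_qE_comp_ev ζ ν N _ _ hN hζ hν (fun d hd => ?_)
  rw [S.a_gcd S.one d hd, S.a_one]
  exact Nat.gcd_eq_left hd

theorem sig_unitPoly_mul_inv (hν : (N : κ) * ν = 1) (q : S.C) :
    S.sig κ ζ ν q (unitPoly N) * S.sig κ ζ ν q (unitPolyInv N) = 1 :=
  sigma_unitPoly_mul_inv ζ ν N _ _ hν (fun d hd => RowSystem.a_dvd S q d hd)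

theorem orderTop_sig_unitPoly_neg (hN : N ≠ 0) (hν : (N : κ) * ν = 1) (q : S.C)
    (hq : q ≠ S.one) :
    (S.sig κ ζ ν q (unitPoly N)).orderTop < ((0 : ℤ) : WithTop ℤ) :=
  orderTop_sigma_unitPoly_neg ζ ν N _ _ hN hν (fun d hd => S.a_gcd q d hd)
    (fun h => hq (S.eq_one q h))

/-- The product over all cosets of the conjugates of the unit has order `0`. -/
theorem orderTop_prod_sig_unitPoly (hN : N ≠ 0) (hν : (N : κ) * ν = 1)
    (hS : S.HasSymm κ ζ ν) :
    (∏ q : S.C, S.sig κ ζ ν q (unitPoly N)).orderTop = ((0 : ℤ) : WithTop ℤ) := by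
  classical
  have hesymm : ∀ P : MvPolynomial (Gen N) ℤ,
      ((Finset.univ : Finset S.C).val.map (fun q => S.sig κ ζ ν q P)).esymm (Fintype.card S.C)
        = ∏ q : S.C, S.sig κ ζ ν q P := by
    intro P
    have hcard : Fintype.card S.C
        = Multiset.card ((Finset.univ : Finset S.C).val.map (fun q => S.sig κ ζ ν q P)) := by
      rw [Multiset.card_map]; rfl
    rw [Multiset.esymm, hcard, Multiset.powersetCard_self, Multiset.map_singleton,
      Multiset.sum_singleton, Finset.prod_map_val]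
  obtain ⟨p, hp⟩ := hS (unitPoly N) (Fintype.card S.C)
  obtain ⟨p', hp'⟩ := hS (unitPolyInv N) (Fintype.card S.C)
  rw [hesymm] at hp hp'
  have hmul : (∏ q : S.C, S.sig κ ζ ν q (unitPoly N)) * (∏ q : S.C, S.sig κ ζ ν q (unitPolyInv N))
      = 1 := by
    rw [← Finset.prod_mul_distrib]
    exact Finset.prod_eq_one fun q _ => sig_unitPoly_mul_inv S ζ ν hν q
  have hp0 : p ≠ 0 := by
    rintro rfl
    rw [Polynomial.eval₂_zero] at hp
    rw [hp, zero_mul] at hmul
    exact zero_ne_one hmul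
  have hp'0 : p' ≠ 0 := by
    rintro rfl
    rw [Polynomial.eval₂_zero] at hp'
    rw [hp', mul_zero] at hmul
    exact zero_ne_one hmul
  have h1 := orderTop_eval₂_jq_le κ hN hp0
  have h2 := orderTop_eval₂_jq_le κ hN hp'0
  rw [← hp] at h1
  rw [← hp'] at h2
  have h3 := congrArg HahnSeries.orderTop hmul
  rw [HahnSeries.orderTop_mul, HahnSeries.orderTop_one] at h3
  set A := (∏ q : S.C, S.sig κ ζ ν q (unitPoly N)).orderTop with hA
  set B := (∏ q : S.C, S.sig κ ζ ν q (unitPolyInv N)).orderTop with hB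
  have hAtop : A ≠ ⊤ := by
    intro h; rw [h, top_add] at h3; exact WithTop.top_ne_zero h3
  have hBtop : B ≠ ⊤ := by
    intro h; rw [h, add_top] at h3; exact WithTop.top_ne_zero h3
  obtain ⟨m, hm⟩ := WithTop.ne_top_iff_exists.mp hAtop
  obtain ⟨m', hm'⟩ := WithTop.ne_top_iff_exists.mp hBtop
  rw [← hm, ← hm', ← WithTop.coe_add, ← WithTop.coe_zero, WithTop.coe_eq_coe] at h3
  rw [← hm, WithTop.coe_le_coe] at h1
  rw [← hm', WithTop.coe_le_coe] at h2
  rw [← hm, WithTop.coe_eq_coe]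
  omega

/-- **M5 (mod-`ℓ` core)**: the unit has degree `≥ #C` over `κ(j)`. -/
theorem modl_degree {N : ℕ} [NeZero N] (S : RowSystem N) {κ : Type} [Field κ] (ζ : κˣ)
    (hζ : ζ ^ N = 1) (hN : (N : κ) ≠ 0) (hS : S.HasSymm κ ζ ((N : κ)⁻¹))
    (B : Polynomial (Polynomial κ)) (hB : B.natDegree < Fintype.card S.C)
    (h0 : B.eval₂ (Polynomial.eval₂RingHom HahnSeries.C (jqModC κ)) (ev κ N (unitPoly N)) = 0) :
    B = 0 := by
  classical
  by_contra hB0
  have hN0 : N ≠ 0 := NeZero.ne N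
  have hν : (N : κ) * (N : κ)⁻¹ = 1 := mul_inv_cancel₀ hN
  set ν : κ := (N : κ)⁻¹ with hνdef
  let φ : Polynomial κ →+* LaurentSeries κ :=
    Polynomial.eval₂RingHom (HahnSeries.C : κ →+* LaurentSeries κ) (qE κ N (jqModC κ))
  let u : S.C → LaurentSeries κ := fun q => S.sig κ ζ ν q (unitPoly N)
  -- the characteristic polynomial has coefficients in `κ[j]`
  have hP : ∃ P : Polynomial (Polynomial κ),
      P.map φ = ∏ q : S.C, (Polynomial.X - Polynomial.C (u q)) := by
    choose p hp using fun k => hS (unitPoly N) k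
    refine ⟨∑ j ∈ Finset.range (Fintype.card S.C + 1),
      (-1) ^ j * (Polynomial.C (p j) * Polynomial.X ^ (Fintype.card S.C - j)), ?_⟩
    have hv := Multiset.prod_X_sub_X_eq_sum_esymm ((Finset.univ : Finset S.C).val.map u)
    rw [Multiset.map_map, Multiset.card_map] at hv
    have hprod : ∏ q : S.C, (Polynomial.X - Polynomial.C (u q))
        = (Multiset.map ((fun t => Polynomial.X - Polynomial.C t) ∘ u) Finset.univ.val).prod := rfl
    rw [hprod, hv, Polynomial.map_sum]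
    refine Finset.sum_congr rfl fun j _ => ?_
    rw [Polynomial.map_mul, Polynomial.map_pow, Polynomial.map_neg, Polynomial.map_one,
      Polynomial.map_mul, Polynomial.map_C, Polynomial.map_pow, Polynomial.map_X]
    congr 3
    exact (hp j).symm
  obtain ⟨P, hP⟩ := hP
  have hφ : ∀ p : Polynomial κ, p ≠ 0 → HahnSeries.addVal ℤ κ (φ p) ≤ 0 := by
    intro p hp
    rw [HahnSeries.addVal_apply]
    exact orderTop_eval₂_jq_le κ hN0 hp
  have hu : ∀ q : S.C, q ≠ S.one → HahnSeries.addVal ℤ κ (u q) < 0 := by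
    intro q hq
    rw [HahnSeries.addVal_apply]
    exact orderTop_sig_unitPoly_neg S ζ ν hN0 hν q hq
  have hprod : HahnSeries.addVal ℤ κ (∏ q : S.C, u q) = 0 := by
    rw [HahnSeries.addVal_apply]
    exact orderTop_prod_sig_unitPoly S ζ ν hN0 hν hS
  have hroot : (B.map φ).eval (u S.one) = 0 := by
    have hφ' : φ = (qE κ N).comp (Polynomial.eval₂RingHom HahnSeries.C (jqModC κ)) := by
      apply Polynomial.ringHom_ext
      · intro c
        show Polynomial.eval₂ HahnSeries.C (qE κ N (jqModC κ)) (Polynomial.C c)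
          = qE κ N (Polynomial.eval₂ HahnSeries.C (jqModC κ) (Polynomial.C c))
        rw [Polynomial.eval₂_C, Polynomial.eval₂_C, qE_C]
      · show Polynomial.eval₂ HahnSeries.C (qE κ N (jqModC κ)) Polynomial.X
          = qE κ N (Polynomial.eval₂ HahnSeries.C (jqModC κ) Polynomial.X)
        rw [Polynomial.eval₂_X, Polynomial.eval₂_X]
    have hu1 : u S.one = qE κ N (ev κ N (unitPoly N)) := by
      show S.sig κ ζ ν S.one (unitPoly N) = _
      rw [sig_one S ζ ν hN0 hζ hν]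
      rfl
    rw [Polynomial.eval_map, hu1, hφ', ← Polynomial.hom_eval₂, h0, map_zero]
  have hcard := SignPattern.card_le_natDegree_addVal (HahnSeries.addVal ℤ κ) φ hφ u S.one P hP
    hu hprod B hB0 hroot
  omega

end Main

end Fermat.Agent.S28.Orders
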