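import Mathlib
import Fermat.Agent.S28.Defs

set_option autoImplicit false

noncomputable section

namespace Fermat.Agent.S28.Vieta

open Polynomial Fermat.Agent.S28.Defs ModularCurve

/-- Abstract Vieta: if every elementary symmetric function of a multiset `s` of elements of `L`
lies in the range of `φ : A →+* L`, then `∏ (X - C t)` is the image under `map φ` of a monic
polynomial of degree `card s`. -/
theorem exists_monic_map_eq_prod {A L : Type*} [CommRing A] [Nontrivial A] [CommRing L]
    (φ : A →+* L) (s : Multiset L) (h : ∀ k, ∃ p : A, φ p = s.esymm k) :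
    ∃ P : A[X], P.Monic ∧ P.natDegree = Multiset.card s ∧
      P.map φ = (s.map fun t => X - C t).prod := by
  classical
  choose c hc using h
  obtain ⟨m, hm⟩ : ∃ m, m = Multiset.card s := ⟨_, rfl⟩
  have hdeg : (∑ j ∈ Finset.range m, C ((-1) ^ (j + 1) * c (j + 1)) * X ^ (m - (j + 1))
      : A[X]).degree < (m : WithBot ℕ) := by
    refine lt_of_le_of_lt (Polynomial.degree_sum_le _ _) ?_
    refine (Finset.sup_lt_iff (WithBot.bot_lt_coe m)).mpr ?_
    intro j hj
    refine lt_of_le_of_lt (Polynomial.degree_C_mul_X_pow_le _ _) ?_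
    have := Finset.mem_range.mp hj
    exact Nat.cast_lt.mpr (by omega)
  refine ⟨X ^ m + ∑ j ∈ Finset.range m, C ((-1) ^ (j + 1) * c (j + 1)) * X ^ (m - (j + 1)),
    Polynomial.monic_X_pow_add hdeg, ?_, ?_⟩
  · rw [Polynomial.natDegree_add_eq_left_of_degree_lt (by rwa [Polynomial.degree_X_pow]),
      Polynomial.natDegree_X_pow, hm]
  have h0 : s.esymm 0 = 1 := by simp [Multiset.esymm]
  rw [Multiset.prod_X_sub_X_eq_sum_esymm, Finset.sum_range_succ', ← hm]
  simp only [Polynomial.map_add, Polynomial.map_pow, Polynomial.map_X, Polynomial.map_sum,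
    Polynomial.map_mul, Polynomial.map_C, map_mul, map_pow, map_neg, map_one, hc,
    h0, pow_zero, one_mul, Nat.sub_zero]
  rw [add_comm]
  congr 1
  refine Finset.sum_congr rfl fun j _ => ?_
  rw [Polynomial.map_neg, Polynomial.map_one, mul_assoc]

/-- Vieta for a row system with the symmetric-function property: the characteristic polynomial
`∏_q (X - σ_q(U))` comes from a monic polynomial of degree `card S.C` with coefficients
polynomials in `j(t^N)`. -/
theorem exists_monic_of_hasSymm {R : Type*} [CommRing R] [Nontrivial R] {N : ℕ}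
    (S : RowSystem N) (ζ : Rˣ) (ν : R) (hS : S.HasSymm R ζ ν) (U : MvPolynomial (Gen N) ℤ) :
    ∃ P : (Polynomial R)[X], P.Monic ∧ P.natDegree = Fintype.card S.C ∧
      P.map (Polynomial.eval₂RingHom (HahnSeries.C : R →+* LaurentSeries R)
        (qE R N (jqModC R))) = ∏ q : S.C, (X - C (S.sig R ζ ν q U)) := by
  classical
  obtain ⟨P, hP1, hP2, hP3⟩ := exists_monic_map_eq_prod
    (Polynomial.eval₂RingHom (HahnSeries.C : R →+* LaurentSeries R) (qE R N (jqModC R)))
    ((Finset.univ : Finset S.C).val.map (fun q => S.sig R ζ ν q U))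
    (fun k => by
      obtain ⟨p, hp⟩ := hS U k
      exact ⟨p, by rw [hp]; rfl⟩)
  refine ⟨P, hP1, ?_, ?_⟩
  · rw [hP2, Multiset.card_map]; rfl
  · rw [hP3, Multiset.map_map]; rfl

end Fermat.Agent.S28.Vieta
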