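import Mathlib
import Fermat.Agent.S28.Defs

set_option autoImplicit false

open scoped MatrixGroups
open CongruenceSubgroup UpperHalfPlane Matrix

noncomputable section

namespace Fermat.Agent.S28.Hermite

/-- Solvability of the Hermite congruence: for `d ≥ 1`, `a = gcd(d, c)`, `d' = d / a` there is
`0 ≤ b < d'` with `d ∣ e * a - c * b`. -/
theorem exists_hermite_b (c e : ℤ) (d : ℕ) (hd : 0 < d) :
    ∃ b : ℕ, b < d / Nat.gcd d c.natAbs ∧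
      (d : ℤ) ∣ e * (Nat.gcd d c.natAbs : ℤ) - c * b := by
  set a := Nat.gcd d c.natAbs with ha
  have ha_pos : 0 < a := Nat.gcd_pos_of_pos_left _ hd
  have had : a ∣ d := Nat.gcd_dvd_left _ _
  have hac : (a : ℤ) ∣ c := Int.natCast_dvd.mpr (Nat.gcd_dvd_right _ _)
  obtain ⟨d₁, hd₁⟩ := had
  obtain ⟨c₁, hc₁⟩ := hac
  have hd₁_pos : 0 < d₁ := by
    rcases Nat.eq_zero_or_pos d₁ with h | h
    · subst h; simp at hd₁; omega
    · exact h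
  have hdiv : d / a = d₁ := by rw [hd₁]; exact Nat.mul_div_cancel_left _ ha_pos
  have hbez : (a : ℤ) = d * Int.gcdA d c + c * Int.gcdB d c := by
    have := Int.gcd_eq_gcd_ab (d : ℤ) c
    rw [← this]; simp [ha, Int.gcd]
  have hd₁' : (d : ℤ) = a * d₁ := by exact_mod_cast hd₁
  set b₀ : ℤ := e * Int.gcdB d c with hb₀
  have h1 : 0 ≤ b₀ % (d₁ : ℤ) := Int.emod_nonneg _ (by exact_mod_cast hd₁_pos.ne')
  have h2 : b₀ % (d₁ : ℤ) < d₁ := Int.emod_lt_of_pos _ (by exact_mod_cast hd₁_pos)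
  refine ⟨(b₀ % d₁).toNat, ?_, ?_⟩
  · rw [hdiv]
    omega
  · rw [Int.toNat_of_nonneg h1]
    have h3 : b₀ % (d₁ : ℤ) = b₀ - d₁ * (b₀ / d₁) := by
      have := Int.emod_add_mul_ediv b₀ d₁; linarith
    rw [h3]
    refine ⟨e * Int.gcdA d c + c₁ * (b₀ / d₁), ?_⟩
    rw [hb₀]
    linear_combination e * hbez + ((d₁ : ℤ) * (e * Int.gcdB d c / d₁)) * hc₁
      - (c₁ * (e * Int.gcdB d c / d₁)) * hd₁'

/-- **Hermite normal form**: for `γ ∈ SL(2, ℤ)` with bottom row `(c, e)` and `d ≥ 1`, with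
`a = gcd(d, c)` and `d' = d / a`, there are `γ'' ∈ SL(2, ℤ)` and `0 ≤ b < d'` with
`(d 0; 0 1) γ = γ'' (a b; 0 d')`. -/
theorem exists_hermite (γ : SL(2, ℤ)) (d : ℕ) (hd : 0 < d) :
    ∃ (γ'' : SL(2, ℤ)) (b : ℕ), b < d / Nat.gcd d (γ 1 0).natAbs ∧
      !![(d : ℤ), 0; 0, 1] * (γ : Matrix (Fin 2) (Fin 2) ℤ) =
        (γ'' : Matrix (Fin 2) (Fin 2) ℤ) *
          !![(Nat.gcd d (γ 1 0).natAbs : ℤ), (b : ℤ);
            0, ((d / Nat.gcd d (γ 1 0).natAbs : ℕ) : ℤ)] := by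
  obtain ⟨b, hb, w, hw⟩ := exists_hermite_b (γ 1 0) (γ 1 1) d hd
  set a := Nat.gcd d (γ 1 0).natAbs with ha
  have ha_pos : 0 < a := Nat.gcd_pos_of_pos_left _ hd
  have had : a ∣ d := Nat.gcd_dvd_left _ _
  have hac : (a : ℤ) ∣ γ 1 0 := Int.natCast_dvd.mpr (Nat.gcd_dvd_right _ _)
  obtain ⟨d₁, hd₁⟩ := had
  obtain ⟨c₁, hc₁⟩ := hac
  have hdiv : d / a = d₁ := by rw [hd₁]; exact Nat.mul_div_cancel_left _ ha_pos
  have hd₁' : (d : ℤ) = a * d₁ := by exact_mod_cast hd₁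
  have ha0 : (a : ℤ) ≠ 0 := by exact_mod_cast ha_pos.ne'
  have hdet : γ 0 0 * γ 1 1 - γ 0 1 * γ 1 0 = 1 := by
    have h := γ.det_coe
    rw [Matrix.det_fin_two] at h
    exact h
  have hdet'' : (γ 0 0 * d₁) * w - (γ 0 1 * a - γ 0 0 * b) * c₁ = 1 := by
    apply mul_left_cancel₀ ha0
    linear_combination (a : ℤ) * hdet - (γ 0 0) * hw - (γ 0 0 * w) * hd₁'
      + (γ 0 1 * a - γ 0 0 * b) * hc₁
  refine ⟨⟨!![γ 0 0 * d₁, γ 0 1 * a - γ 0 0 * b; c₁, w], by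
    rw [Matrix.det_fin_two_of]; exact hdet''⟩, b, hb, ?_⟩
  rw [hdiv]
  have h11 : γ 1 1 = c₁ * b + w * d₁ := by
    apply mul_left_cancel₀ ha0
    linear_combination hw + (b : ℤ) * hc₁ + w * hd₁'
  ext i j
  fin_cases i <;> fin_cases j
  · simp [Matrix.mul_apply, Fin.sum_univ_two]
    linear_combination (γ 0 0) * hd₁'
  · simp [Matrix.mul_apply, Fin.sum_univ_two]
    linear_combination (γ 0 1) * hd₁'
  · simp [Matrix.mul_apply, Fin.sum_univ_two]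
    linear_combination hc₁
  · simp [Matrix.mul_apply, Fin.sum_univ_two]
    linear_combination h11

/-! ### Action on the upper half plane -/

/-- `τ ↦ (a τ + b) / d'` on the upper half plane (for `a, d' ≥ 1`; junk value `τ` otherwise). -/
def aff (a b d' : ℕ) (τ : ℍ) : ℍ :=
  if h : 0 < a ∧ 0 < d' then
    ⟨((a : ℂ) * τ + b) / d', by
      have h1 : (0 : ℝ) < a := by exact_mod_cast h.1
      have h2 : (0 : ℝ) < d' := by exact_mod_cast h.2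
      have h3 : 0 < τ.im := τ.im_pos
      have : (((a : ℂ) * τ + b) / d').im = a * τ.im / d' := by
        simp [Complex.div_natCast_im]
      rw [this]
      positivity⟩
  else τ

theorem coe_aff {a d' : ℕ} (b : ℕ) (ha : 0 < a) (hd' : 0 < d') (τ : ℍ) :
    (aff a b d' τ : ℂ) = ((a : ℂ) * τ + b) / d' := by
  unfold aff
  rw [dif_pos ⟨ha, hd'⟩]

theorem coe_aff_zero_one {d : ℕ} (hd : 0 < d) (τ : ℍ) :
    (aff d 0 1 τ : ℂ) = (d : ℂ) * τ := by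
  rw [coe_aff 0 hd one_pos]
  simp

theorem aff_one_zero_one (τ : ℍ) : aff 1 0 1 τ = τ := by
  apply UpperHalfPlane.ext
  rw [coe_aff_zero_one one_pos]
  simp

/-- The Hermite relation on `ℍ`: if `(d 0; 0 1) γ = γ'' (a b; 0 d')` then
`d · (γ τ) = γ'' ((a τ + b)/d')` and `denom γ'' ((a τ + b)/d') = denom γ τ / d'`. -/
theorem smul_aff_of_matrix_eq (γ γ'' : SL(2, ℤ)) {d a d' : ℕ} (b : ℕ) (hd : 0 < d) (ha : 0 < a)
    (hd' : 0 < d')
    (h : !![(d : ℤ), 0; 0, 1] * (γ : Matrix (Fin 2) (Fin 2) ℤ) =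
        (γ'' : Matrix (Fin 2) (Fin 2) ℤ) * !![(a : ℤ), (b : ℤ); 0, (d' : ℤ)]) (τ : ℍ) :
    aff d 0 1 (γ • τ) = γ'' • aff a b d' τ ∧
      denom γ'' (aff a b d' τ) = denom γ τ / d' := by
  have h00 : (d : ℤ) * γ 0 0 = γ'' 0 0 * a := by
    have := congrFun (congrFun h 0) 0
    simpa [Matrix.mul_apply, Fin.sum_univ_two] using this
  have h01 : (d : ℤ) * γ 0 1 = γ'' 0 0 * b + γ'' 0 1 * d' := by
    have := congrFun (congrFun h 0) 1
    simpa [Matrix.mul_apply, Fin.sum_univ_two] using this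
  have h10 : γ 1 0 = γ'' 1 0 * a := by
    have := congrFun (congrFun h 1) 0
    simpa [Matrix.mul_apply, Fin.sum_univ_two] using this
  have h11 : γ 1 1 = γ'' 1 0 * b + γ'' 1 1 * d' := by
    have := congrFun (congrFun h 1) 1
    simpa [Matrix.mul_apply, Fin.sum_univ_two] using this
  have h00' : (d : ℂ) * (γ 0 0 : ℂ) = (γ'' 0 0 : ℂ) * a := by exact_mod_cast h00
  have h01' : (d : ℂ) * (γ 0 1 : ℂ) = (γ'' 0 0 : ℂ) * b + (γ'' 0 1 : ℂ) * d' := by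
    exact_mod_cast h01
  have h10' : (γ 1 0 : ℂ) = (γ'' 1 0 : ℂ) * a := by exact_mod_cast h10
  have h11' : (γ 1 1 : ℂ) = (γ'' 1 0 : ℂ) * b + (γ'' 1 1 : ℂ) * d' := by exact_mod_cast h11
  have hd'0 : (d' : ℂ) ≠ 0 := by exact_mod_cast hd'.ne'
  have hden : denom γ τ ≠ 0 := denom_ne_zero γ τ
  have hden'' : denom γ'' (aff a b d' τ) ≠ 0 := denom_ne_zero γ'' _
  have e1 : denom γ τ = (γ 1 0 : ℂ) * τ + (γ 1 1 : ℂ) := by
    rw [ModularGroup.denom_apply]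
  have e2 : denom γ'' (aff a b d' τ) = (γ'' 1 0 : ℂ) * (((a : ℂ) * τ + b) / d') + (γ'' 1 1 : ℂ) := by
    rw [ModularGroup.denom_apply, coe_aff b ha hd']
  have key : denom γ'' (aff a b d' τ) = denom γ τ / d' := by
    rw [e1, e2, h10', h11']
    field_simp
    ring
  refine ⟨?_, key⟩
  apply UpperHalfPlane.ext
  rw [coe_aff_zero_one hd, coe_specialLinearGroup_apply, coe_specialLinearGroup_apply]
  have e1' : ((algebraMap ℤ ℝ (γ 1 0) : ℝ) : ℂ) * τ + ((algebraMap ℤ ℝ (γ 1 1) : ℝ) : ℂ)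
      = denom γ τ := by
    rw [e1]; simp
  have e2' : ((algebraMap ℤ ℝ (γ'' 1 0) : ℝ) : ℂ) * (aff a b d' τ : ℂ)
      + ((algebraMap ℤ ℝ (γ'' 1 1) : ℝ) : ℂ) = denom γ'' (aff a b d' τ) := by
    rw [ModularGroup.denom_apply]; simp
  rw [e1', e2', key, coe_aff b ha hd']
  have e3 : ((algebraMap ℤ ℝ (γ 0 0) : ℝ) : ℂ) = (γ 0 0 : ℂ) := by simp
  have e4 : ((algebraMap ℤ ℝ (γ 0 1) : ℝ) : ℂ) = (γ 0 1 : ℂ) := by simp
  have e5 : ((algebraMap ℤ ℝ (γ'' 0 0) : ℝ) : ℂ) = (γ'' 0 0 : ℂ) := by simp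
  have e6 : ((algebraMap ℤ ℝ (γ'' 0 1) : ℝ) : ℂ) = (γ'' 0 1 : ℂ) := by simp
  rw [e3, e4, e5, e6]
  field_simp
  linear_combination (τ : ℂ) * h00' + h01'

/-- Weight `k` transformation under the Hermite relation. -/
theorem weight_transform {f : ℍ → ℂ} {k : ℤ}
    (hf : ∀ (g : SL(2, ℤ)) (z : ℍ), f (g • z) = denom g z ^ k * f z)
    (γ γ'' : SL(2, ℤ)) {d a d' : ℕ} (b : ℕ) (hd : 0 < d) (ha : 0 < a) (hd' : 0 < d')
    (h : !![(d : ℤ), 0; 0, 1] * (γ : Matrix (Fin 2) (Fin 2) ℤ) =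
        (γ'' : Matrix (Fin 2) (Fin 2) ℤ) * !![(a : ℤ), (b : ℤ); 0, (d' : ℤ)]) (τ : ℍ) :
    f (aff d 0 1 (γ • τ)) = (denom γ τ / d') ^ k * f (aff a b d' τ) := by
  obtain ⟨h1, h2⟩ := smul_aff_of_matrix_eq γ γ'' b hd ha hd' h τ
  rw [h1, hf, h2]

/-- Weight `0` (invariant functions) under the Hermite relation. -/
theorem invariant_transform {α : Type*} {f : ℍ → α}
    (hf : ∀ (g : SL(2, ℤ)) (z : ℍ), f (g • z) = f z)
    (γ γ'' : SL(2, ℤ)) {d a d' : ℕ} (b : ℕ) (hd : 0 < d) (ha : 0 < a) (hd' : 0 < d')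
    (h : !![(d : ℤ), 0; 0, 1] * (γ : Matrix (Fin 2) (Fin 2) ℤ) =
        (γ'' : Matrix (Fin 2) (Fin 2) ℤ) * !![(a : ℤ), (b : ℤ); 0, (d' : ℤ)]) (τ : ℍ) :
    f (aff d 0 1 (γ • τ)) = f (aff a b d' τ) := by
  obtain ⟨h1, -⟩ := smul_aff_of_matrix_eq γ γ'' b hd ha hd' h τ
  rw [h1, hf]

/-! ### Hermite data of a matrix -/

/-- `a = gcd(d, c)` for `γ` with lower left entry `c`. -/
def aOf (γ : SL(2, ℤ)) (d : ℕ) : ℕ := Nat.gcd d (γ 1 0).natAbs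

/-- The Hermite `b` of `(γ, d)` (`0` for `d = 0`). -/
def bOf (γ : SL(2, ℤ)) (d : ℕ) : ℕ :=
  if hd : 0 < d then (exists_hermite γ d hd).choose_spec.choose else 0

/-- The Hermite `γ''` of `(γ, d)` (`1` for `d = 0`). -/
def gOf (γ : SL(2, ℤ)) (d : ℕ) : SL(2, ℤ) :=
  if hd : 0 < d then (exists_hermite γ d hd).choose else 1

theorem aOf_pos (γ : SL(2, ℤ)) {d : ℕ} (hd : 0 < d) : 0 < aOf γ d :=
  Nat.gcd_pos_of_pos_left _ hd

theorem aOf_dvd (γ : SL(2, ℤ)) (d : ℕ) : aOf γ d ∣ d := Nat.gcd_dvd_left _ _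

theorem div_aOf_pos (γ : SL(2, ℤ)) {d : ℕ} (hd : 0 < d) : 0 < d / aOf γ d :=
  Nat.div_pos (Nat.le_of_dvd hd (aOf_dvd γ d)) (aOf_pos γ hd)

theorem bOf_lt (γ : SL(2, ℤ)) {d : ℕ} (hd : 0 < d) : bOf γ d < d / aOf γ d := by
  unfold bOf aOf
  rw [dif_pos hd]
  exact (exists_hermite γ d hd).choose_spec.choose_spec.1

theorem hermite_spec (γ : SL(2, ℤ)) {d : ℕ} (hd : 0 < d) :
    !![(d : ℤ), 0; 0, 1] * (γ : Matrix (Fin 2) (Fin 2) ℤ) =
      (gOf γ d : Matrix (Fin 2) (Fin 2) ℤ) *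
        !![(aOf γ d : ℤ), (bOf γ d : ℤ); 0, ((d / aOf γ d : ℕ) : ℤ)] := by
  unfold bOf gOf aOf
  rw [dif_pos hd, dif_pos hd]
  exact (exists_hermite γ d hd).choose_spec.choose_spec.2

theorem aOf_gcd (γ : SL(2, ℤ)) {d N : ℕ} (h : d ∣ N) : aOf γ d = Nat.gcd d (aOf γ N) := by
  unfold aOf
  rw [← Nat.gcd_assoc, Nat.gcd_eq_left h]

theorem mem_Gamma0_iff_dvd {N : ℕ} (g : SL(2, ℤ)) : g ∈ Gamma0 N ↔ (N : ℤ) ∣ g 1 0 := by
  rw [Gamma0_mem, ZMod.intCast_zmod_eq_zero_iff_dvd]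

theorem aOf_eq_self_iff (γ : SL(2, ℤ)) (N : ℕ) : aOf γ N = N ↔ γ ∈ Gamma0 N := by
  rw [mem_Gamma0_iff_dvd, Int.natCast_dvd]
  unfold aOf
  exact Nat.gcd_eq_left_iff_dvd

/-- For `γ ∈ Γ₀(N)` and `d ∣ N`: `a = d`. -/
theorem aOf_of_mem {N : ℕ} {γ : SL(2, ℤ)} (hγ : γ ∈ Gamma0 N) {d : ℕ} (hd : d ∣ N) :
    aOf γ d = d := by
  rw [aOf_gcd γ hd, (aOf_eq_self_iff γ N).mpr hγ, Nat.gcd_eq_left hd]

/-- For `γ ∈ Γ₀(N)` and `d ∣ N`, `d > 0`: `b = 0`. -/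
theorem bOf_of_mem {N : ℕ} {γ : SL(2, ℤ)} (hγ : γ ∈ Gamma0 N) {d : ℕ} (hd : d ∣ N)
    (hd0 : 0 < d) : bOf γ d = 0 := by
  have h := bOf_lt γ hd0
  rw [aOf_of_mem hγ hd, Nat.div_self hd0] at h
  omega

/-- The key to `RowSystem.inj`: equal Hermite data at level `N` means same `Γ₀(N)`-coset. -/
theorem mul_inv_mem_Gamma0_of_hermite_eq {N : ℕ} (γ γ' γ₁ γ₂ : SL(2, ℤ)) (a b d' : ℕ)
    (h1 : !![(N : ℤ), 0; 0, 1] * (γ : Matrix (Fin 2) (Fin 2) ℤ) =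
      (γ₁ : Matrix (Fin 2) (Fin 2) ℤ) * !![(a : ℤ), (b : ℤ); 0, (d' : ℤ)])
    (h2 : !![(N : ℤ), 0; 0, 1] * (γ' : Matrix (Fin 2) (Fin 2) ℤ) =
      (γ₂ : Matrix (Fin 2) (Fin 2) ℤ) * !![(a : ℤ), (b : ℤ); 0, (d' : ℤ)]) :
    γ * γ'⁻¹ ∈ Gamma0 N := by
  have hA : !![(a : ℤ), (b : ℤ); 0, (d' : ℤ)] =
      ((γ₂⁻¹ : SL(2, ℤ)) : Matrix (Fin 2) (Fin 2) ℤ) *
        (!![(N : ℤ), 0; 0, 1] * (γ' : Matrix (Fin 2) (Fin 2) ℤ)) := by
    rw [h2, ← Matrix.mul_assoc, ← Matrix.SpecialLinearGroup.coe_mul, inv_mul_cancel,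
      Matrix.SpecialLinearGroup.coe_one, Matrix.one_mul]
  have h3 : !![(N : ℤ), 0; 0, 1] * ((γ * γ'⁻¹ : SL(2, ℤ)) : Matrix (Fin 2) (Fin 2) ℤ) =
      ((γ₁ * γ₂⁻¹ : SL(2, ℤ)) : Matrix (Fin 2) (Fin 2) ℤ) * !![(N : ℤ), 0; 0, 1] := by
    rw [Matrix.SpecialLinearGroup.coe_mul, ← Matrix.mul_assoc, h1, hA,
      Matrix.SpecialLinearGroup.coe_mul]
    simp only [Matrix.mul_assoc]
    rw [← Matrix.SpecialLinearGroup.coe_mul γ' γ'⁻¹, mul_inv_cancel,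
      Matrix.SpecialLinearGroup.coe_one, Matrix.mul_one]
  obtain ⟨δ, hδ⟩ : ∃ δ, δ = γ * γ'⁻¹ := ⟨_, rfl⟩
  obtain ⟨ε, hε⟩ : ∃ ε, ε = γ₁ * γ₂⁻¹ := ⟨_, rfl⟩
  rw [← hδ, ← hε] at h3
  have h4 := congrFun (congrFun h3 1) 0
  simp only [Matrix.mul_apply, Fin.sum_univ_two] at h4
  simp at h4
  rw [← hδ, mem_Gamma0_iff_dvd, h4]
  exact Dvd.intro_left _ rfl

/-! ### The row system of `Γ₀(N) \ SL(2, ℤ)` -/

section RowSystem

variable (N : ℕ)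

/-- Right coset representatives, indexed by the left cosets: `rep q = (Quotient.out q)⁻¹`,
so that `q ↦ Γ₀(N) · rep q` enumerates the right cosets. -/
def rep (q : SL(2, ℤ) ⧸ Gamma0 N) : SL(2, ℤ) := (Quotient.out q)⁻¹

theorem rep_mul_inv_mem_iff (q q' : SL(2, ℤ) ⧸ Gamma0 N) :
    rep N q * (rep N q')⁻¹ ∈ Gamma0 N ↔ q = q' := by
  unfold rep
  rw [inv_inv, ← QuotientGroup.eq, QuotientGroup.out_eq', QuotientGroup.out_eq']

theorem rep_mem_iff (q : SL(2, ℤ) ⧸ Gamma0 N) :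
    rep N q ∈ Gamma0 N ↔ q = ((1 : SL(2, ℤ)) : SL(2, ℤ) ⧸ Gamma0 N) := by
  unfold rep
  conv_rhs => rw [← QuotientGroup.out_eq' q]
  rw [QuotientGroup.eq, mul_one]

/-- Right multiplication by `g` permutes the right cosets. -/
theorem exists_perm (g : SL(2, ℤ)) : ∃ π : Equiv.Perm (SL(2, ℤ) ⧸ Gamma0 N),
    ∀ q, ∃ h ∈ Gamma0 N, rep N q * g = h * rep N (π q) := by
  refine ⟨MulAction.toPerm g⁻¹, fun q => ?_⟩
  have h1 : (MulAction.toPerm g⁻¹ : Equiv.Perm (SL(2, ℤ) ⧸ Gamma0 N)) q =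
      ((g⁻¹ * Quotient.out q : SL(2, ℤ)) : SL(2, ℤ) ⧸ Gamma0 N) := by
    rw [MulAction.toPerm_apply]
    conv_lhs => rw [← QuotientGroup.out_eq' q]
    rfl
  obtain ⟨h, hh⟩ := QuotientGroup.mk_out_eq_mul (Gamma0 N) (g⁻¹ * Quotient.out q)
  refine ⟨h, h.2, ?_⟩
  unfold rep
  rw [h1, hh]
  group

/-- For a `Γ₀(N)`-invariant `F`, the multiset of conjugates `F ∘ rep q` is `SL(2, ℤ)`-invariant. -/
theorem map_rep_smul [Fintype (SL(2, ℤ) ⧸ Gamma0 N)] {α : Type*} (F : ℍ → α)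
    (hF : ∀ h ∈ Gamma0 N, ∀ τ, F (h • τ) = F τ) (g : SL(2, ℤ)) (τ : ℍ) :
    (Finset.univ : Finset (SL(2, ℤ) ⧸ Gamma0 N)).val.map (fun q => F (rep N q • g • τ)) =
      (Finset.univ : Finset (SL(2, ℤ) ⧸ Gamma0 N)).val.map (fun q => F (rep N q • τ)) := by
  obtain ⟨π, hπ⟩ := exists_perm N g
  have : (fun q => F (rep N q • g • τ)) = (fun q => F (rep N q • τ)) ∘ π := by
    funext q
    obtain ⟨h, hh, e⟩ := hπ q
    rw [Function.comp_apply, ← mul_smul, e, mul_smul, hF h hh]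
  rw [this, ← Multiset.map_map, Multiset.map_univ_val_equiv]

/-- The row system of `Γ₀(N) \ SL(2, ℤ)`. -/
def rowSystem [NeZero N] : Defs.RowSystem N where
  C := SL(2, ℤ) ⧸ Gamma0 N
  fintype := Fintype.ofFinite _
  a q d := aOf (rep N q) d
  b q d := bOf (rep N q) d
  one := ((1 : SL(2, ℤ)) : SL(2, ℤ) ⧸ Gamma0 N)
  a_gcd _ _ hd := aOf_gcd _ hd
  a_one := (aOf_eq_self_iff _ N).mpr ((rep_mem_iff N _).mpr rfl)
  eq_one q h := (rep_mem_iff N q).mp ((aOf_eq_self_iff _ N).mp h)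

/-- Injectivity of the Hermite data at level `N`: `(a_N, b_N mod N / a_N)` determines the
coset. -/
theorem rowSystem_inj [NeZero N] (q q' : (rowSystem N).C)
    (ha : (rowSystem N).a q N = (rowSystem N).a q' N)
    (hb : (rowSystem N).b q N % (N / (rowSystem N).a q N) =
      (rowSystem N).b q' N % (N / (rowSystem N).a q' N)) : q = q' := by
  have hN : 0 < N := Nat.pos_of_ne_zero (NeZero.ne N)
  change aOf (rep N q) N = aOf (rep N q') N at ha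
  change bOf (rep N q) N % (N / aOf (rep N q) N) =
    bOf (rep N q') N % (N / aOf (rep N q') N) at hb
  have hb1 := bOf_lt (rep N q) hN
  have hb2 := bOf_lt (rep N q') hN
  rw [Nat.mod_eq_of_lt hb1, Nat.mod_eq_of_lt hb2] at hb
  have h1 := hermite_spec (rep N q) hN
  have h2 := hermite_spec (rep N q') hN
  rw [← ha, ← hb] at h2
  exact (rep_mul_inv_mem_iff N q q').mp
    (mul_inv_mem_Gamma0_of_hermite_eq _ _ _ _ _ _ _ h1 h2)

/-- The number of cosets is the index of `Γ₀(N)`. -/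
theorem card_rowSystem [NeZero N] : Fintype.card (rowSystem N).C = (Gamma0 N).index := by
  rw [Subgroup.index]
  exact (@Nat.card_eq_fintype_card (SL(2, ℤ) ⧸ Gamma0 N) (rowSystem N).fintype).symm

theorem rowSystem_a [NeZero N] (q : (rowSystem N).C) : (rowSystem N).a q = aOf (rep N q) := rfl

theorem rowSystem_b [NeZero N] (q : (rowSystem N).C) : (rowSystem N).b q = bOf (rep N q) := rfl

end RowSystem

/-! ### The analytic generators and their conjugates -/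

local notation "Δ" => ModularForm.discriminant

/-- The analytic generators: `j_d = J(dτ)`, `x_d = Δ(dτ)/Δ(τ)`, `y_d = Δ(τ)/Δ(dτ)`
(for an arbitrary function `J` in place of the `j`-function). -/
def genFun (J : ℍ → ℂ) (N : ℕ) : Defs.Gen N → ℍ → ℂ
  | .j d => fun τ => J (aff d.1 0 1 τ)
  | .x d => fun τ => Δ (aff d.1 0 1 τ) / Δ τ
  | .y d => fun τ => Δ τ / Δ (aff d.1 0 1 τ)

/-- The conjugate generators at the cusp with data `a b : ℕ → ℕ`; mirrors `Defs.sigmaGen`. -/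
def sigmaFun (J : ℍ → ℂ) (N : ℕ) (a b : ℕ → ℕ) : Defs.Gen N → ℍ → ℂ
  | .j d => fun τ => J (aff (a d.1) (b d.1) (d.1 / a d.1) τ)
  | .x d => fun τ => (((d.1 / a d.1 : ℕ) : ℂ) ^ 12)⁻¹ *
      Δ (aff (a d.1) (b d.1) (d.1 / a d.1) τ) / Δ τ
  | .y d => fun τ => ((d.1 / a d.1 : ℕ) : ℂ) ^ 12 * Δ τ /
      Δ (aff (a d.1) (b d.1) (d.1 / a d.1) τ)

theorem disc_smul (γ : SL(2, ℤ)) (τ : ℍ) : Δ (γ • τ) = denom γ τ ^ (12 : ℤ) * Δ τ := by
  have hγ : (γ : GL (Fin 2) ℝ) ∈ 𝒮ℒ := ⟨γ, rfl⟩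
  exact SlashInvariantForm.slash_action_eqn'' CuspForm.discriminant hγ τ

/-- **Transformation of the generators**: `g ∘ γ` is the conjugate generator with the Hermite
data of `γ`. Here `J` is any `SL(2, ℤ)`-invariant function. -/
theorem genFun_smul {N : ℕ} [NeZero N] (J : ℍ → ℂ)
    (hJ : ∀ (g : SL(2, ℤ)) (z : ℍ), J (g • z) = J z) (γ : SL(2, ℤ)) (g : Defs.Gen N) (τ : ℍ) :
    genFun J N g (γ • τ) = sigmaFun J N (aOf γ) (bOf γ) g τ := by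
  have hN : 0 < N := Nat.pos_of_ne_zero (NeZero.ne N)
  cases g with
  | j d =>
    have hd : 0 < d.1 := Nat.pos_of_dvd_of_pos d.2 hN
    exact invariant_transform hJ γ (gOf γ d.1) (bOf γ d.1) hd (aOf_pos γ hd) (div_aOf_pos γ hd)
      (hermite_spec γ hd) τ
  | x d =>
    have hd : 0 < d.1 := Nat.pos_of_dvd_of_pos d.2 hN
    have h1 := weight_transform disc_smul γ (gOf γ d.1) (bOf γ d.1) hd (aOf_pos γ hd)
      (div_aOf_pos γ hd) (hermite_spec γ hd) τ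
    have h2 := disc_smul γ τ
    have h3 : denom γ τ ≠ 0 := denom_ne_zero γ τ
    have h4 : Δ τ ≠ 0 := ModularForm.discriminant_ne_zero τ
    have h5 : ((d.1 / aOf γ d.1 : ℕ) : ℂ) ≠ 0 := by exact_mod_cast (div_aOf_pos γ hd).ne'
    simp only [genFun, sigmaFun]
    rw [h1, h2]
    field_simp
  | y d =>
    have hd : 0 < d.1 := Nat.pos_of_dvd_of_pos d.2 hN
    have h1 := weight_transform disc_smul γ (gOf γ d.1) (bOf γ d.1) hd (aOf_pos γ hd)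
      (div_aOf_pos γ hd) (hermite_spec γ hd) τ
    have h2 := disc_smul γ τ
    have h3 : denom γ τ ≠ 0 := denom_ne_zero γ τ
    have h4 : Δ τ ≠ 0 := ModularForm.discriminant_ne_zero τ
    have h5 : ((d.1 / aOf γ d.1 : ℕ) : ℂ) ≠ 0 := by exact_mod_cast (div_aOf_pos γ hd).ne'
    have h6 : Δ (aff (aOf γ d.1) (bOf γ d.1) (d.1 / aOf γ d.1) τ) ≠ 0 :=
      ModularForm.discriminant_ne_zero _
    simp only [genFun, sigmaFun]
    rw [h1, h2]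
    field_simp

/-- The generators are `Γ₀(N)`-invariant. -/
theorem genFun_Gamma0 {N : ℕ} [NeZero N] (J : ℍ → ℂ)
    (hJ : ∀ (g : SL(2, ℤ)) (z : ℍ), J (g • z) = J z) {h : SL(2, ℤ)} (hh : h ∈ Gamma0 N)
    (g : Defs.Gen N) (τ : ℍ) : genFun J N g (h • τ) = genFun J N g τ := by
  have hN : 0 < N := Nat.pos_of_ne_zero (NeZero.ne N)
  rw [genFun_smul J hJ]
  cases g with
  | j d =>
    have hd : 0 < d.1 := Nat.pos_of_dvd_of_pos d.2 hN
    simp only [genFun, sigmaFun, aOf_of_mem hh d.2, bOf_of_mem hh d.2 hd, Nat.div_self hd]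
  | x d =>
    have hd : 0 < d.1 := Nat.pos_of_dvd_of_pos d.2 hN
    simp only [genFun, sigmaFun, aOf_of_mem hh d.2, bOf_of_mem hh d.2 hd, Nat.div_self hd]
    simp
  | y d =>
    have hd : 0 < d.1 := Nat.pos_of_dvd_of_pos d.2 hN
    simp only [genFun, sigmaFun, aOf_of_mem hh d.2, bOf_of_mem hh d.2 hd, Nat.div_self hd]
    simp

/-- Pointwise evaluation of an integer polynomial in the analytic generators. -/
def evFun (J : ℍ → ℂ) (N : ℕ) (P : MvPolynomial (Defs.Gen N) ℤ) (τ : ℍ) : ℂ :=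
  MvPolynomial.eval₂ (Int.castRingHom ℂ) (fun g => genFun J N g τ) P

/-- Pointwise evaluation of an integer polynomial in the conjugate generators. -/
def sigFun (J : ℍ → ℂ) (N : ℕ) (a b : ℕ → ℕ) (P : MvPolynomial (Defs.Gen N) ℤ) (τ : ℍ) : ℂ :=
  MvPolynomial.eval₂ (Int.castRingHom ℂ) (fun g => sigmaFun J N a b g τ) P

theorem evFun_smul {N : ℕ} [NeZero N] (J : ℍ → ℂ)
    (hJ : ∀ (g : SL(2, ℤ)) (z : ℍ), J (g • z) = J z) (γ : SL(2, ℤ))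
    (P : MvPolynomial (Defs.Gen N) ℤ) (τ : ℍ) :
    evFun J N P (γ • τ) = sigFun J N (aOf γ) (bOf γ) P τ := by
  unfold evFun sigFun
  congr 1
  funext g
  exact genFun_smul J hJ γ g τ

theorem evFun_Gamma0 {N : ℕ} [NeZero N] (J : ℍ → ℂ)
    (hJ : ∀ (g : SL(2, ℤ)) (z : ℍ), J (g • z) = J z) {h : SL(2, ℤ)} (hh : h ∈ Gamma0 N)
    (P : MvPolynomial (Defs.Gen N) ℤ) (τ : ℍ) : evFun J N P (h • τ) = evFun J N P τ := by
  unfold evFun
  congr 1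
  funext g
  exact genFun_Gamma0 J hJ hh g τ

/-- The `k`-th elementary symmetric function of the conjugates of `P`, as a function on `ℍ`. -/
def esymmFun (J : ℍ → ℂ) (N : ℕ) [NeZero N] (P : MvPolynomial (Defs.Gen N) ℤ) (k : ℕ)
    (τ : ℍ) : ℂ :=
  ((Finset.univ : Finset (rowSystem N).C).val.map
    (fun q => sigFun J N ((rowSystem N).a q) ((rowSystem N).b q) P τ)).esymm k

theorem esymmFun_eq {N : ℕ} [NeZero N] (J : ℍ → ℂ)
    (hJ : ∀ (g : SL(2, ℤ)) (z : ℍ), J (g • z) = J z) (P : MvPolynomial (Defs.Gen N) ℤ) (k : ℕ)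
    (τ : ℍ) : esymmFun J N P k τ =
      ((Finset.univ : Finset (rowSystem N).C).val.map
        (fun q => evFun J N P (rep N q • τ))).esymm k := by
  unfold esymmFun
  congr 2
  funext q
  exact (evFun_smul J hJ (rep N q) P τ).symm

/-- The elementary symmetric functions of the conjugates are `SL(2, ℤ)`-invariant. -/
theorem esymmFun_smul {N : ℕ} [NeZero N] (J : ℍ → ℂ)
    (hJ : ∀ (g : SL(2, ℤ)) (z : ℍ), J (g • z) = J z) (P : MvPolynomial (Defs.Gen N) ℤ) (k : ℕ)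
    (g : SL(2, ℤ)) (τ : ℍ) : esymmFun J N P k (g • τ) = esymmFun J N P k τ := by
  rw [esymmFun_eq J hJ, esymmFun_eq J hJ]
  congr 1
  exact @map_rep_smul N (rowSystem N).fintype _ (evFun J N P)
    (fun h hh τ => evFun_Gamma0 J hJ hh P τ) g τ

end Fermat.Agent.S28.Hermite
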