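import Fermat.Agent.S28.Defs

/-!
Compatibility module: the shared definitions of the S28 proof (`qE`, `scale`, `twist`, `deltaR`,
`deltaInvR`, `Gen`, `genVal`, `ev`, `sigmaGen`, `sigma`, `unitPoly`, `unitPolyInv`, `RowSystem`,
`RowSystem.sig`, `RowSystem.HasSymm`) live in `Fermat.Agent.S28.Defs`
(namespace `Fermat.Agent.S28.Defs`).  This module only re-exports that import and adds `zetaC`.
-/

noncomputable section

namespace Fermat.Agent.S28.Defs

/-- `e^{2πi/N}` as a unit of `ℂ`. -/
def zetaC (N : ℕ) : ℂˣ :=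
  Units.mk0 (Complex.exp (2 * Real.pi * Complex.I / N)) (Complex.exp_ne_zero _)

end Fermat.Agent.S28.Defs
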