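import Mathlib
import Fermat.Agent.S28.Defs

set_option autoImplicit false

noncomputable section

namespace Fermat.Agent.S28.LExp

open Fermat.Agent.S28.Defs ModularCurve UpperHalfPlane Complex
open scoped Real

local notation "𝕢" => Function.Periodic.qParam

/-- `f` has the Laurent expansion `s` in the variable `t = exp(2πiτ/N)`, on all of `ℍ`. -/
def HasLExp (N : ℕ) (f : ℍ → ℂ) (s : LaurentSeries ℂ) : Prop :=
  ∀ τ : ℍ, HasSum (fun n : ℤ => s.coeff n * 𝕢 (N : ℝ) τ ^ n) (f τ)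

variable {N : ℕ} {f g : ℍ → ℂ} {s s' : LaurentSeries ℂ}

theorem HasLExp.congr_fun (h : HasLExp N f s) (hfg : ∀ τ, f τ = g τ) : HasLExp N g s :=
  fun τ => hfg τ ▸ h τ

theorem hasLExp_zero (N : ℕ) : HasLExp N (fun _ => 0) 0 := fun τ => by
  simpa using (hasSum_zero : HasSum (fun _ : ℤ => (0 : ℂ)) 0)

theorem hasLExp_C (N : ℕ) (c : ℂ) : HasLExp N (fun _ => c) (HahnSeries.C c) := fun τ => by
  have h := hasSum_ite_eq (0 : ℤ) c
  convert h using 2 with n
  rw [HahnSeries.C_apply, HahnSeries.coeff_single]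
  split_ifs with hn
  · subst hn; simp
  · simp

theorem hasLExp_one (N : ℕ) : HasLExp N (fun _ => 1) 1 := by
  simpa using hasLExp_C N 1

theorem HasLExp.add (h : HasLExp N f s) (h' : HasLExp N g s') :
    HasLExp N (fun τ => f τ + g τ) (s + s') := fun τ => by
  simpa [add_mul] using (h τ).add (h' τ)

theorem HasLExp.neg (h : HasLExp N f s) : HasLExp N (fun τ => - f τ) (-s) := fun τ => by
  simpa using (h τ).neg

theorem HasLExp.sub (h : HasLExp N f s) (h' : HasLExp N g s') :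
    HasLExp N (fun τ => f τ - g τ) (s - s') := fun τ => by
  simpa [sub_mul] using (h τ).sub (h' τ)

/-- The fibrewise sum computing a coefficient of a product of Laurent series. -/
theorem hasSum_coeff_mul (s s' : LaurentSeries ℂ) (n : ℤ) :
    HasSum (fun i : ℤ => s.coeff i * s'.coeff (n - i)) ((s * s').coeff n) := by
  classical
  rw [HahnSeries.coeff_mul]
  generalize hA : Finset.antidiagonal s.isPWO_support s'.isPWO_support n = A
  have hmem : ∀ p : ℤ × ℤ, p ∈ A ↔ p.1 ∈ s.support ∧ p.2 ∈ s'.support ∧ p.1 + p.2 = n := by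
    intro p
    rw [← hA]
    exact Finset.mem_antidiagonal
  have hinj : Set.InjOn Prod.fst (A : Set (ℤ × ℤ)) := by
    intro p hp q hq hpq
    have hp' := ((hmem p).mp hp).2.2
    have hq' := ((hmem q).mp hq).2.2
    have h1 : p.1 = q.1 := hpq
    exact Prod.ext h1 (by omega)
  have hsum : ∑ ij ∈ A, s.coeff ij.1 * s'.coeff ij.2 =
      ∑ i ∈ A.image Prod.fst, s.coeff i * s'.coeff (n - i) := by
    rw [Finset.sum_image hinj]
    refine Finset.sum_congr rfl fun ij hij => ?_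
    have := ((hmem ij).mp hij).2.2
    rw [show n - ij.1 = ij.2 by omega]
  rw [hsum]
  refine hasSum_sum_of_ne_finset_zero fun i hi => ?_
  by_contra hne
  apply hi
  rw [Finset.mem_image]
  refine ⟨(i, n - i), (hmem _).mpr ⟨?_, ?_, by simp⟩, rfl⟩
  · simp only [HahnSeries.mem_support]
    intro h0
    exact hne (by rw [h0, zero_mul])
  · simp only [HahnSeries.mem_support]
    intro h0
    exact hne (by rw [h0, mul_zero])

/-- Cauchy product of two absolutely convergent Laurent expansions at a point `t ≠ 0`. -/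
theorem hasSum_mul_of_hasSum (s s' : LaurentSeries ℂ) (t : ℂ) (ht0 : t ≠ 0) (a b : ℂ)
    (h1 : HasSum (fun n : ℤ => s.coeff n * t ^ n) a)
    (h2 : HasSum (fun n : ℤ => s'.coeff n * t ^ n) b) :
    HasSum (fun n : ℤ => (s * s').coeff n * t ^ n) (a * b) := by
  have hsum := summable_mul_of_summable_norm (f := fun n : ℤ => s.coeff n * t ^ n)
    (g := fun n : ℤ => s'.coeff n * t ^ n) h1.summable.norm h2.summable.norm
  have h3 := h1.mul h2 hsum
  -- reindex by `(n, i) ↦ (i, n - i)`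
  let e : ℤ × ℤ ≃ ℤ × ℤ :=
    { toFun := fun p => (p.2, p.1 - p.2)
      invFun := fun p => (p.1 + p.2, p.1)
      left_inv := fun p => by ext <;> simp
      right_inv := fun p => by ext <;> simp }
  have h4 := (e.hasSum_iff).mpr h3
  refine HasSum.prod_fiberwise h4 fun n => ?_
  have h5 := (hasSum_coeff_mul s s' n).mul_right (t ^ n)
  have heq : (fun i : ℤ => ((fun x : ℤ × ℤ => s.coeff x.1 * t ^ x.1 * (s'.coeff x.2 * t ^ x.2)) ∘ e)
      (n, i)) = fun i => s.coeff i * s'.coeff (n - i) * t ^ n := by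
    funext i
    show s.coeff i * t ^ i * (s'.coeff (n - i) * t ^ (n - i)) = _
    have : t ^ n = t ^ i * t ^ (n - i) := by
      rw [← zpow_add₀ ht0]; congr 1; ring
    rw [this]; ring
  rw [heq]; exact h5

theorem HasLExp.mul (h : HasLExp N f s) (h' : HasLExp N g s') :
    HasLExp N (fun τ => f τ * g τ) (s * s') := fun τ =>
  hasSum_mul_of_hasSum s s' _ (Function.Periodic.qParam_ne_zero _) _ _ (h τ) (h' τ)

/-! ### Index bookkeeping -/

theorem exists_lower_bound (s : LaurentSeries ℂ) : ∃ M : ℤ, ∀ n < M, s.coeff n = 0 :=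
  ⟨s.order, fun _ hn => HahnSeries.coeff_eq_zero_of_lt_order hn⟩

/-- A `ℤ`-indexed sum whose terms vanish below `M` is an `ℕ`-indexed sum. -/
theorem hasSum_int_iff_nat {c : ℤ → ℂ} (M : ℤ) (hc : ∀ n < M, c n = 0) {a : ℂ} :
    HasSum (fun k : ℕ => c (M + k)) a ↔ HasSum c a := by
  have hinj : Function.Injective (fun k : ℕ => M + (k : ℤ)) := by
    intro a b hab
    simpa using hab
  refine hinj.hasSum_iff (f := c) fun x hx => hc x ?_
  by_contra hlt
  exact hx ⟨(x - M).toNat, by simp only; omega⟩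

/-! ### Uniqueness -/

theorem cuspFunction_zero_fun (h : ℝ) : cuspFunction h (0 : ℍ → ℂ) = 0 := by
  simpa [cuspFunction, Function.Periodic.cuspFunction]
    using! (tendsto_const_nhds.mono_left nhdsWithin_le_nhds).limUnder_eq

theorem coeff_zero_of_hasSum_zero {h : ℝ} (hh : 0 < h) {c : ℕ → ℂ}
    (hc : ∀ τ : ℍ, HasSum (fun m => c m * 𝕢 h τ ^ m) 0) (m : ℕ) : c m = 0 := by
  have h1 : AnalyticAt ℂ (cuspFunction h (0 : ℍ → ℂ)) 0 := by
    rw [cuspFunction_zero_fun h]; exact analyticAt_const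
  have h2 := (hasFPowerSeriesOnBall_cuspFunction (f := (0 : ℍ → ℂ)) (c := c) hh h1
    (fun τ => by simpa using hc τ)).hasFPowerSeriesAt
  rw [cuspFunction_zero_fun h] at h2
  have h3 := h2.eq_zero
  have h4 : (FormalMultilinearSeries.ofScalars ℂ c).coeff m =
      (0 : FormalMultilinearSeries ℂ ℂ ℂ).coeff m := by
    rw [h3]
  rw [FormalMultilinearSeries.coeff_ofScalars] at h4
  rw [h4]
  simp [FormalMultilinearSeries.coeff]

/-- The zero function only has the zero expansion. -/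
theorem HasLExp.eq_zero (hN : N ≠ 0) (h : HasLExp N (fun _ => 0) s) : s = 0 := by
  obtain ⟨M, hM⟩ := exists_lower_bound s
  have hNpos : (0 : ℝ) < N := by exact_mod_cast Nat.pos_of_ne_zero hN
  have key : ∀ m : ℕ, s.coeff (M + m) = 0 := by
    refine coeff_zero_of_hasSum_zero hNpos (c := fun m : ℕ => s.coeff (M + m)) fun τ => ?_
    have ht0 : 𝕢 (N : ℝ) τ ≠ 0 := Function.Periodic.qParam_ne_zero _
    have h1 := (hasSum_int_iff_nat (c := fun n : ℤ => s.coeff n * 𝕢 (N : ℝ) τ ^ n) M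
      (fun n hn => by simp [hM n hn])).mpr (h τ)
    have h2 := h1.mul_right ((𝕢 (N : ℝ) τ ^ M)⁻¹)
    simp only [zero_mul] at h2
    have heq : (fun m : ℕ => s.coeff (M + m) * 𝕢 (N : ℝ) τ ^ m) =
        fun i : ℕ => s.coeff (M + i) * 𝕢 (N : ℝ) τ ^ (M + i) * (𝕢 (N : ℝ) τ ^ M)⁻¹ := by
      funext m
      rw [zpow_add₀ ht0, zpow_natCast]
      field_simp
    rw [heq]; exact h2
  ext n
  rw [HahnSeries.coeff_zero]
  rcases lt_or_ge n M with hn | hn
  · exact hM n hn
  · have := key (n - M).toNat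
    rwa [show M + ((n - M).toNat : ℤ) = n by omega] at this

theorem HasLExp.unique (hN : N ≠ 0) (h : HasLExp N f s) (h' : HasLExp N f s') : s = s' := by
  have := (h.sub h').congr_fun (g := fun _ => 0) (fun τ => sub_self _)
  exact sub_eq_zero.mp (this.eq_zero hN)

theorem HasLExp.unique_of_eq (hN : N ≠ 0) (h : HasLExp N f s) (h' : HasLExp N g s')
    (hfg : ∀ τ, f τ = g τ) : s = s' :=
  (h.congr_fun hfg).unique hN h'

/-! ### Substitution -/

theorem qE_coeff_mul {k : ℕ} (hk : k ≠ 0) (s : LaurentSeries ℂ) (n : ℤ) :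
    (qE ℂ k s).coeff ((k : ℤ) * n) = s.coeff n := by
  have : NeZero k := ⟨hk⟩
  simp only [qE, dif_neg hk]
  exact qExpand_coeff_mul k s n

theorem qE_coeff_of_not_dvd {k : ℕ} (hk : k ≠ 0) (s : LaurentSeries ℂ) {n : ℤ}
    (hn : ¬ (k : ℤ) ∣ n) : (qE ℂ k s).coeff n = 0 := by
  have : NeZero k := ⟨hk⟩
  simp only [qE, dif_neg hk]
  exact qExpand_coeff_of_not_dvd k s hn

theorem twist_coeff_mul (u : ℂˣ) {k : ℕ} (hk : k ≠ 0) (s : LaurentSeries ℂ) (n : ℤ) :
    (twist ℂ u k s).coeff ((k : ℤ) * n) = ((u ^ n : ℂˣ) : ℂ) * s.coeff n := by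
  rw [twist, RingHom.comp_apply, qE_coeff_mul hk, scale_coeff]

theorem twist_coeff_of_not_dvd (u : ℂˣ) {k : ℕ} (hk : k ≠ 0) (s : LaurentSeries ℂ) {n : ℤ}
    (hn : ¬ (k : ℤ) ∣ n) : (twist ℂ u k s).coeff n = 0 := by
  rw [twist, RingHom.comp_apply, qE_coeff_of_not_dvd hk _ hn]

/-- Core substitution lemma: evaluating `s` at `u t^k` is evaluating `twist u k s` at `t`. -/
theorem hasSum_twist (u : ℂˣ) {k : ℕ} (hk : k ≠ 0) (s : LaurentSeries ℂ) (t : ℂ) (a : ℂ)
    (h : HasSum (fun n : ℤ => s.coeff n * ((u : ℂ) * t ^ k) ^ n) a) :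
    HasSum (fun m : ℤ => (twist ℂ u k s).coeff m * t ^ m) a := by
  have hinj : Function.Injective (fun n : ℤ => (k : ℤ) * n) :=
    mul_right_injective₀ (by exact_mod_cast hk)
  refine (hinj.hasSum_iff (f := fun m : ℤ => (twist ℂ u k s).coeff m * t ^ m) ?_).mp ?_
  · intro x hx
    rw [twist_coeff_of_not_dvd u hk s (fun ⟨m, hm⟩ => hx ⟨m, hm.symm⟩), zero_mul]
  · have heq : ((fun m : ℤ => (twist ℂ u k s).coeff m * t ^ m) ∘ fun n : ℤ => (k : ℤ) * n) =
        fun n : ℤ => s.coeff n * ((u : ℂ) * t ^ k) ^ n := by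
      funext n
      simp only [Function.comp_apply]
      rw [twist_coeff_mul u hk, mul_zpow, zpow_mul, zpow_natCast, Units.val_zpow_eq_zpow_val]
      ring
    rw [heq]; exact h

/-- Substitution `τ ↦ φ τ` where `q_{N₁}(φ τ) = u · q_N(τ)^k`. -/
theorem HasLExp.comp_of_qParam {N₁ : ℕ} (h : HasLExp N₁ f s) (φ : ℍ → ℍ) (u : ℂˣ) {k : ℕ}
    (hk : k ≠ 0) (hφ : ∀ τ : ℍ, 𝕢 (N₁ : ℝ) (φ τ) = u * 𝕢 (N : ℝ) τ ^ k) :
    HasLExp N (fun τ => f (φ τ)) (twist ℂ u k s) := fun τ =>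
  hasSum_twist u hk s _ _ (by rw [← hφ τ]; exact h (φ τ))

/-- Substitution `τ ↦ (aτ + b)/d'` in a `q`-expansion, in the variable `t = q^{1/N}`. -/
theorem HasLExp.comp_affine (h : HasLExp 1 f s) {a b d' k : ℕ} (hN : N ≠ 0) (hd' : d' ≠ 0)
    (hk : k ≠ 0) (hkd : k * d' = a * N) (φ : ℍ → ℍ)
    (hφ : ∀ τ : ℍ, (φ τ : ℂ) = (a * τ + b) / d') (u : ℂˣ)
    (hu : (u : ℂ) = Complex.exp (2 * π * Complex.I * b / d')) :
    HasLExp N (fun τ => f (φ τ)) (twist ℂ u k s) := by
  refine h.comp_of_qParam φ u hk fun τ => ?_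
  have hN' : (N : ℂ) ≠ 0 := by exact_mod_cast hN
  have hd'' : (d' : ℂ) ≠ 0 := by exact_mod_cast hd'
  have hkd' : (k : ℂ) * d' = a * N := by exact_mod_cast hkd
  rw [Function.Periodic.qParam, Function.Periodic.qParam, hu, ← Complex.exp_nat_mul,
    ← Complex.exp_add, hφ τ]
  congr 1
  push_cast
  field_simp
  linear_combination (-(τ : ℂ)) * hkd'

/-- The shape used in `Defs.sigmaGen`: `d' ∣ N`, `ζ = e^{2πi/N}`. -/
theorem HasLExp.comp_affine' (h : HasLExp 1 f s) {a b d' : ℕ} (hN : N ≠ 0) (hd : d' ∣ N)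
    (ha : a ≠ 0) (φ : ℍ → ℍ) (hφ : ∀ τ : ℍ, (φ τ : ℂ) = (a * τ + b) / d') (ζ : ℂˣ)
    (hζ : (ζ : ℂ) = Complex.exp (2 * π * Complex.I / N)) :
    HasLExp N (fun τ => f (φ τ)) (twist ℂ (ζ ^ (N / d' * b)) (a * (N / d')) s) := by
  have hd' : d' ≠ 0 := fun h0 => hN (by rw [h0] at hd; exact Nat.eq_zero_of_zero_dvd hd)
  have hNd : N / d' ≠ 0 := Nat.div_ne_zero_iff_of_dvd hd |>.mpr ⟨hN, hd'⟩
  have hN' : (N : ℂ) ≠ 0 := by exact_mod_cast hN
  have hd'' : (d' : ℂ) ≠ 0 := by exact_mod_cast hd'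
  refine h.comp_affine hN hd' (mul_ne_zero ha hNd) ?_ φ hφ _ ?_
  · rw [mul_assoc, Nat.div_mul_cancel hd]
  · rw [Units.val_pow_eq_pow_val, hζ, ← Complex.exp_nat_mul]
    congr 1
    rw [Nat.cast_mul, Nat.cast_div hd hd'']
    field_simp

/-- `HasLExp 1 f s` implies `HasLExp N f (s(q^N))`. -/
theorem HasLExp.of_one (h : HasLExp 1 f s) (hN : N ≠ 0) : HasLExp N f (qE ℂ N s) := by
  have h1 := h.comp_affine (N := N) (a := 1) (b := 0) (d' := 1) (k := N) hN one_ne_zero hN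
    (by simp) id (fun τ => by simp) 1 (by simp)
  have h2 : twist ℂ 1 N s = Defs.qE ℂ N s := by
    rw [twist, RingHom.comp_apply]
    congr 1
    ext n
    simp
  rw [← h2]; exact h1

/-! ### Periodic descent -/

theorem qParam_nat_pow (hN : N ≠ 0) (z : ℂ) : 𝕢 (N : ℝ) z ^ N = 𝕢 (1 : ℝ) z := by
  have hN' : (N : ℂ) ≠ 0 := by exact_mod_cast hN
  rw [Function.Periodic.qParam, Function.Periodic.qParam, ← Complex.exp_nat_mul]
  congr 1
  push_cast
  field_simp

/-- A `1`-periodic function with an expansion in `q^{1/N}` has an expansion in `q`. -/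
theorem HasLExp.exists_of_periodic (hN : N ≠ 0) (h : HasLExp N f s)
    (hper : ∀ τ : ℍ, f ((1 : ℝ) +ᵥ τ) = f τ) :
    ∃ s₁ : LaurentSeries ℂ, s = Defs.qE ℂ N s₁ ∧ HasLExp 1 f s₁ := by
  have hN' : (N : ℂ) ≠ 0 := by exact_mod_cast hN
  have hNZ : (N : ℤ) ≠ 0 := by exact_mod_cast hN
  set ζ : ℂˣ := Units.mk0 (Complex.exp (2 * π * Complex.I / N)) (Complex.exp_ne_zero _) with hζ
  have h1 : HasLExp N (fun τ => f ((1 : ℝ) +ᵥ τ)) (twist ℂ ζ 1 s) := by
    refine h.comp_of_qParam (fun τ => (1 : ℝ) +ᵥ τ) ζ one_ne_zero fun τ => ?_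
    rw [pow_one, hζ, Units.val_mk0, Function.Periodic.qParam, Function.Periodic.qParam,
      ← Complex.exp_add]
    congr 1
    rw [UpperHalfPlane.coe_vadd]
    push_cast
    ring
  have h2 : twist ℂ ζ 1 s = s := (h1.congr_fun hper).unique hN h
  have hz : ∀ n : ℤ, ¬ (N : ℤ) ∣ n → s.coeff n = 0 := by
    intro n hn
    have h3 := twist_coeff_mul ζ one_ne_zero s n
    rw [h2, Nat.cast_one, one_mul] at h3
    by_contra hne
    have h4 : ((ζ ^ n : ℂˣ) : ℂ) = 1 := by
      have : (((ζ ^ n : ℂˣ) : ℂ) - 1) * s.coeff n = 0 := by rw [sub_mul, ← h3]; ring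
      rcases mul_eq_zero.mp this with h5 | h5
      · exact sub_eq_zero.mp h5
      · exact absurd h5 hne
    rw [Units.val_zpow_eq_zpow_val, hζ, Units.val_mk0, ← Complex.exp_int_mul,
      Complex.exp_eq_one_iff] at h4
    obtain ⟨m, hm⟩ := h4
    apply hn
    refine ⟨m, ?_⟩
    have h6 : (n : ℂ) = (N : ℂ) * m := by
      have hpi : (2 * (π : ℂ) * Complex.I) ≠ 0 := Complex.two_pi_I_ne_zero
      field_simp at hm
      linear_combination hm
    exact_mod_cast h6
  obtain ⟨M, hM⟩ := exists_lower_bound s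
  have hbdd : BddBelow (Function.support fun m : ℤ => s.coeff ((N : ℤ) * m)) := by
    refine ⟨min M 0, fun m hm => ?_⟩
    simp only [Function.mem_support, ne_eq] at hm
    have h5 : M ≤ (N : ℤ) * m := by
      by_contra hlt
      exact hm (hM _ (not_le.mp hlt))
    rcases le_or_gt 0 m with h0 | h0
    · exact le_trans (min_le_right _ _) h0
    · have hN1 : (1 : ℤ) ≤ N := by exact_mod_cast Nat.pos_of_ne_zero hN
      have : (N : ℤ) * m ≤ m := by nlinarith
      exact le_trans (min_le_left _ _) (le_trans h5 this)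
  refine ⟨HahnSeries.ofSuppBddBelow _ hbdd, ?_, fun τ => ?_⟩
  · ext n
    by_cases hn : (N : ℤ) ∣ n
    · obtain ⟨m, rfl⟩ := hn
      rw [qE_coeff_mul hN, HahnSeries.coeff_ofSuppBddBelow]
    · rw [qE_coeff_of_not_dvd hN _ hn, hz n hn]
  · have hinj : Function.Injective (fun n : ℤ => (N : ℤ) * n) := mul_right_injective₀ hNZ
    have h7 := (hinj.hasSum_iff (f := fun n : ℤ => s.coeff n * 𝕢 (N : ℝ) τ ^ n) (a := f τ)
      (fun x hx => by
        rw [hz x (fun ⟨m, hm⟩ => hx ⟨m, hm.symm⟩), zero_mul])).mpr (h τ)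
    have heq : ((fun n : ℤ => s.coeff n * 𝕢 (N : ℝ) τ ^ n) ∘ fun n : ℤ => (N : ℤ) * n) =
        fun m : ℤ => (HahnSeries.ofSuppBddBelow _ hbdd).coeff m * 𝕢 ((1 : ℕ) : ℝ) τ ^ m := by
      funext m
      simp only [Function.comp_apply, HahnSeries.coeff_ofSuppBddBelow]
      rw [Nat.cast_one, ← qParam_nat_pow hN, zpow_mul, zpow_natCast]
    rw [heq] at h7; exact h7

/-! ### `ℕ`-indexed expansions, boundedness -/

theorem HasLExp.hasSum_nat (h : HasLExp N f s) (h0 : ∀ n < 0, s.coeff n = 0) (τ : ℍ) :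
    HasSum (fun m : ℕ => s.coeff m * 𝕢 (N : ℝ) τ ^ m) (f τ) := by
  have h1 := (hasSum_int_iff_nat (c := fun n : ℤ => s.coeff n * 𝕢 (N : ℝ) τ ^ n) 0
    (fun n hn => by simp [h0 n hn])).mpr (h τ)
  simpa using h1

theorem HasLExp.isBoundedAtImInfty (hN : N ≠ 0) (h : HasLExp N f s)
    (h0 : ∀ n < 0, s.coeff n = 0) : IsBoundedAtImInfty f :=
  isBoundedAtImInfty_of_hasSum_qExpansion (h := N) (c := fun m : ℕ => s.coeff m)
    (by exact_mod_cast Nat.pos_of_ne_zero hN) (fun τ => by simpa using h.hasSum_nat h0 τ)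

theorem hasLExp_ofPowerSeries {p : PowerSeries ℂ}
    (h : ∀ τ : ℍ, HasSum (fun m : ℕ => PowerSeries.coeff m p * 𝕢 (N : ℝ) τ ^ m) (f τ)) :
    HasLExp N f (HahnSeries.ofPowerSeries ℤ ℂ p) := fun τ => by
  refine (hasSum_int_iff_nat
    (c := fun n : ℤ => (HahnSeries.ofPowerSeries ℤ ℂ p).coeff n * 𝕢 (N : ℝ) τ ^ n) 0
    (fun n hn => by simp [ModularCurve.ofPowerSeries_coeff_of_neg p hn])).mp ?_
  simpa using h τ

theorem hasLExp_single (N : ℕ) (m : ℤ) (c : ℂ) :
    HasLExp N (fun τ => c * 𝕢 (N : ℝ) τ ^ m) (HahnSeries.single m c) := fun τ => by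
  have h := hasSum_ite_eq m (c * 𝕢 (N : ℝ) τ ^ m)
  have heq : (fun n : ℤ => (HahnSeries.single m c).coeff n * 𝕢 (N : ℝ) τ ^ n) =
      fun n : ℤ => if n = m then c * 𝕢 (N : ℝ) τ ^ m else 0 := by
    funext n
    rw [HahnSeries.coeff_single]
    split_ifs with hn
    · rw [hn]
    · rw [zero_mul]
  rw [heq]; exact h

/-! ### Finite sums and products, polynomials, elementary symmetric functions -/

theorem HasLExp.finset_sum {ι : Type*} (T : Finset ι) (F : ι → ℍ → ℂ) (S : ι → LaurentSeries ℂ)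
    (h : ∀ i ∈ T, HasLExp N (F i) (S i)) :
    HasLExp N (fun τ => ∑ i ∈ T, F i τ) (∑ i ∈ T, S i) := by
  classical
  induction T using Finset.induction_on with
  | empty => simpa using hasLExp_zero N
  | insert a T ha ih =>
    simp only [Finset.sum_insert ha]
    exact (h a (Finset.mem_insert_self a T)).add (ih fun i hi => h i (Finset.mem_insert_of_mem hi))

theorem HasLExp.finset_prod {ι : Type*} (T : Finset ι) (F : ι → ℍ → ℂ) (S : ι → LaurentSeries ℂ)
    (h : ∀ i ∈ T, HasLExp N (F i) (S i)) :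
    HasLExp N (fun τ => ∏ i ∈ T, F i τ) (∏ i ∈ T, S i) := by
  classical
  induction T using Finset.induction_on with
  | empty => simpa using hasLExp_one N
  | insert a T ha ih =>
    simp only [Finset.prod_insert ha]
    exact (h a (Finset.mem_insert_self a T)).mul (ih fun i hi => h i (Finset.mem_insert_of_mem hi))

theorem HasLExp.pow (h : HasLExp N f s) (n : ℕ) : HasLExp N (fun τ => f τ ^ n) (s ^ n) := by
  induction n with
  | zero => simpa using hasLExp_one N
  | succ n ih => simpa [pow_succ] using ih.mul h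

theorem HasLExp.esymm {ι : Type*} (T : Finset ι) (F : ι → ℍ → ℂ) (S : ι → LaurentSeries ℂ)
    (h : ∀ i ∈ T, HasLExp N (F i) (S i)) (k : ℕ) :
    HasLExp N (fun τ => (T.val.map fun i => F i τ).esymm k) ((T.val.map S).esymm k) := by
  simp only [Finset.esymm_map_val]
  refine HasLExp.finset_sum _ (fun t τ => ∏ i ∈ t, F i τ) (fun t => ∏ i ∈ t, S i) fun t ht => ?_
  exact HasLExp.finset_prod t F S fun i hi => h i ((Finset.mem_powersetCard.mp ht).1 hi)

theorem HasLExp.mvPolynomial {σ : Type*} (F : σ → ℍ → ℂ) (S : σ → LaurentSeries ℂ)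
    (h : ∀ i, HasLExp N (F i) (S i)) (P : MvPolynomial σ ℤ) :
    HasLExp N (fun τ => MvPolynomial.eval₂ (Int.castRingHom ℂ) (fun i => F i τ) P)
      (MvPolynomial.eval₂ (Int.castRingHom (LaurentSeries ℂ)) S P) := by
  induction P using MvPolynomial.induction_on with
  | C a =>
    have h1 : MvPolynomial.eval₂ (Int.castRingHom (LaurentSeries ℂ)) S (MvPolynomial.C a) =
        HahnSeries.C (a : ℂ) := by
      rw [MvPolynomial.eval₂_C, eq_intCast, map_intCast]
    have h2 : ∀ τ : ℍ, MvPolynomial.eval₂ (Int.castRingHom ℂ) (fun i => F i τ)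
        (MvPolynomial.C a) = (a : ℂ) := fun τ => by
      rw [MvPolynomial.eval₂_C, eq_intCast]
    rw [h1]
    exact (hasLExp_C N (a : ℂ)).congr_fun (fun τ => (h2 τ).symm)
  | add p q hp hq =>
    simp only [MvPolynomial.eval₂_add]
    exact hp.add hq
  | mul_X p i hp =>
    simp only [MvPolynomial.eval₂_mul, MvPolynomial.eval₂_X]
    exact hp.mul (h i)

end Fermat.Agent.S28.LExp
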