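import Mathlib
import Fermat.Agent.S28.Defs
import Fermat.Agent.S24.QBridge
import Fermat.Agent.S24.JFun

/-!
# S28, block M8/A2: Laurent expansions of `j`, `Δ`, `Δ⁻¹`

Raw form (independent of any `HasLExp` wrapper): for `τ : ℍ`, `q = 𝕢 1 τ = e^{2πiτ}`,
`∑_{n : ℤ} s.coeff n * q ^ n = f τ` for `(s, f)` one of
`(jqModC ℂ, jFun)`, `(deltaR ℂ, Δ)`, `(deltaInvR ℂ, Δ⁻¹)`.
-/

set_option autoImplicit false

noncomputable section

namespace Fermat.Agent.S28.LExpForms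

open UpperHalfPlane ModularForm Complex
open Fermat.Agent.S28.Defs Fermat.Agent.S24.QBridge Fermat.Agent.S24.JFun ModularCurve

local notation "𝕢" => Function.Periodic.qParam

theorem natCast_sub_injective (m : ℤ) : Function.Injective (fun k : ℕ => (k : ℤ) - m) :=
  fun a b hab => by simpa using hab

theorem lt_of_not_mem_range_sub {m n : ℤ} (hn : n ∉ Set.range (fun k : ℕ => (k : ℤ) - m)) :
    n < -m := by
  by_contra hlt
  have hlt := not_lt.mp hlt
  exact hn ⟨(n + m).toNat, by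
    show ((n + m).toNat : ℤ) - m = n
    rw [Int.toNat_of_nonneg (by omega)]; ring⟩

/-- From an `ℕ`-indexed expansion of `q ^ m * v` to the `ℤ`-indexed Laurent expansion of `v`. -/
theorem hasSum_int_of_nat_shift (c : ℤ → ℂ) (m : ℕ) (hc : ∀ n : ℤ, n < -(m : ℤ) → c n = 0)
    {q : ℂ} (hq : q ≠ 0) {v : ℂ}
    (h : HasSum (fun k : ℕ => c ((k : ℤ) - m) * q ^ k) (q ^ m * v)) :
    HasSum (fun n : ℤ => c n * q ^ n) v := by
  have hsupp : ∀ n : ℤ, n ∉ Set.range (fun k : ℕ => (k : ℤ) - m) → c n * q ^ n = 0 := by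
    intro n hn
    rw [hc n (lt_of_not_mem_range_sub hn), zero_mul]
  rw [← (natCast_sub_injective (m : ℤ)).hasSum_iff hsupp]
  have h2 := h.mul_right (q ^ m)⁻¹
  have hqm : q ^ m ≠ 0 := pow_ne_zero m hq
  have hv : q ^ m * v * (q ^ m)⁻¹ = v := by field_simp
  have hf : ((fun n : ℤ => c n * q ^ n) ∘ fun k : ℕ => (k : ℤ) - m)
      = fun k : ℕ => c ((k : ℤ) - m) * q ^ k * (q ^ m)⁻¹ := by
    funext k
    simp only [Function.comp_apply]
    rw [zpow_sub₀ hq, zpow_natCast, zpow_natCast]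
    ring
  rw [hv] at h2
  rw [hf]
  exact h2

/-- From the `ℤ`-indexed Laurent expansion of `v` to an `ℕ`-indexed expansion of `q ^ m * v`. -/
theorem hasSum_nat_shift_of_int (c : ℤ → ℂ) (m : ℕ) (hc : ∀ n : ℤ, n < -(m : ℤ) → c n = 0)
    {q : ℂ} (hq : q ≠ 0) {v : ℂ} (h : HasSum (fun n : ℤ => c n * q ^ n) v) :
    HasSum (fun k : ℕ => c ((k : ℤ) - m) * q ^ k) (q ^ m * v) := by
  have hsupp : ∀ n : ℤ, n ∉ Set.range (fun k : ℕ => (k : ℤ) - m) → c n * q ^ n = 0 := by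
    intro n hn
    rw [hc n (lt_of_not_mem_range_sub hn), zero_mul]
  have h1 := ((natCast_sub_injective (m : ℤ)).hasSum_iff hsupp).mpr h
  have h2 := h1.mul_left (q ^ m)
  have hqm : q ^ m ≠ 0 := pow_ne_zero m hq
  have hf : (fun k : ℕ => q ^ m * ((fun n : ℤ => c n * q ^ n) ∘ fun k : ℕ => (k : ℤ) - m) k)
      = fun k : ℕ => c ((k : ℤ) - m) * q ^ k := by
    funext k
    simp only [Function.comp_apply]
    rw [zpow_sub₀ hq, zpow_natCast, zpow_natCast]
    field_simp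
  rw [hf] at h2
  exact h2

/-- A Laurent series has only finitely many negative-index coefficients. -/
theorem exists_coeff_eq_zero_of_lt (s : LaurentSeries ℂ) :
    ∃ m : ℕ, ∀ n : ℤ, n < -(m : ℤ) → s.coeff n = 0 := by
  refine ⟨(-s.order).toNat, fun n hn => HahnSeries.coeff_eq_zero_of_lt_order ?_⟩
  have := Int.self_le_toNat (-s.order)
  omega

/-- The coefficients of `q^k * a(q)` for a power series `a`. -/
theorem coeff_single_mul_ofPowerSeries (a : PowerSeries ℂ) (k : ℤ) (i : ℕ) :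
    (HahnSeries.single k (1 : ℂ) * HahnSeries.ofPowerSeries ℤ ℂ a).coeff ((i : ℤ) + k)
      = PowerSeries.coeff i a := by
  rw [HahnSeries.coeff_single_mul, one_mul, add_sub_cancel_right,
    HahnSeries.ofPowerSeries_apply_coeff]

theorem coeff_single_mul_ofPowerSeries_of_lt (a : PowerSeries ℂ) (k : ℤ) {n : ℤ} (hn : n < k) :
    (HahnSeries.single k (1 : ℂ) * HahnSeries.ofPowerSeries ℤ ℂ a).coeff n = 0 := by
  rw [HahnSeries.coeff_single_mul, one_mul]
  exact ofPowerSeries_coeff_of_neg _ (by omega)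

/-- If `g` has power series `a` on the unit disc, then `q^k * g(q)` has the Laurent expansion
`single k 1 * a`. -/
theorem hasSum_single_mul_ofPowerSeries {a : PowerSeries ℂ} {g : ℂ → ℂ} (ha : HasQExp a g)
    (k : ℤ) {q : ℂ} (hq0 : q ≠ 0) (hq : ‖q‖ < 1) :
    HasSum (fun n : ℤ =>
      (HahnSeries.single k (1 : ℂ) * HahnSeries.ofPowerSeries ℤ ℂ a).coeff n * q ^ n)
      (q ^ k * g q) := by
  have hinj : Function.Injective (fun i : ℕ => (i : ℤ) + k) := fun a b hab => by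
    simpa using hab
  have hsupp : ∀ n : ℤ, n ∉ Set.range (fun i : ℕ => (i : ℤ) + k) →
      (HahnSeries.single k (1 : ℂ) * HahnSeries.ofPowerSeries ℤ ℂ a).coeff n * q ^ n = 0 := by
    intro n hn
    have hlt : n < k := by
      by_contra hlt
      have hlt := not_lt.mp hlt
      exact hn ⟨(n - k).toNat, by
        show ((n - k).toNat : ℤ) + k = n
        rw [Int.toNat_of_nonneg (by omega)]; ring⟩
    rw [coeff_single_mul_ofPowerSeries_of_lt a k hlt, zero_mul]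
  rw [← hinj.hasSum_iff hsupp]
  have h2 := (ha q hq).mul_left (q ^ k)
  have hf : ((fun n : ℤ =>
      (HahnSeries.single k (1 : ℂ) * HahnSeries.ofPowerSeries ℤ ℂ a).coeff n * q ^ n) ∘
        fun i : ℕ => (i : ℤ) + k) = fun i : ℕ => q ^ k * (PowerSeries.coeff i a * q ^ i) := by
    funext i
    simp only [Function.comp_apply]
    rw [coeff_single_mul_ofPowerSeries, zpow_add₀ hq0, zpow_natCast]
    ring
  rw [hf]
  exact h2

theorem norm_qParam_lt_one (τ : ℍ) : ‖𝕢 1 (τ : ℂ)‖ < 1 :=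
  Function.Periodic.norm_qParam_lt_one one_pos τ.im_pos

theorem qParam_ne_zero (τ : ℍ) : 𝕢 1 (τ : ℂ) ≠ 0 := Function.Periodic.qParam_ne_zero _

theorem discriminant_eq_qParam_mul (τ : ℍ) :
    discriminant τ = 𝕢 1 τ * (∏' n : ℕ, (1 - 𝕢 1 (τ : ℂ) ^ (n + 1))) ^ 24 := by
  rw [discriminant_eq_q_prod, (multipliable_one_sub_pow (norm_qParam_lt_one τ)).tprod_pow 24]

/-- **Laurent expansion of `Δ`**. -/
theorem hasSum_deltaR (τ : ℍ) :
    HasSum (fun n : ℤ => (deltaR ℂ).coeff n * 𝕢 1 (τ : ℂ) ^ n) (discriminant τ) := by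
  have h := hasSum_single_mul_ofPowerSeries hasQExp_etaUnitC 1 (qParam_ne_zero τ)
    (norm_qParam_lt_one τ)
  rw [discriminant_eq_qParam_mul]
  rw [zpow_one] at h
  exact h

/-- **Laurent expansion of `Δ⁻¹`**. -/
theorem hasSum_deltaInvR (τ : ℍ) :
    HasSum (fun n : ℤ => (deltaInvR ℂ).coeff n * 𝕢 1 (τ : ℂ) ^ n) (discriminant τ)⁻¹ := by
  have h := hasSum_single_mul_ofPowerSeries hasQExp_etaUnitInvC (-1) (qParam_ne_zero τ)
    (norm_qParam_lt_one τ)
  have hv : (𝕢 1 (τ : ℂ)) ^ (-1 : ℤ) * ((∏' n : ℕ, (1 - 𝕢 1 (τ : ℂ) ^ (n + 1))) ^ 24)⁻¹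
      = (discriminant τ)⁻¹ := by
    rw [discriminant_eq_qParam_mul, zpow_neg_one, mul_inv]
  rw [← hv]
  exact h

/-- **Laurent expansion of `j`**. -/
theorem hasSum_jq (τ : ℍ) :
    HasSum (fun n : ℤ => (jqModC ℂ).coeff n * 𝕢 1 (τ : ℂ) ^ n) (jFun τ) := by
  have h := hasSum_single_mul_ofPowerSeries hasQExp_jNumC (-1) (qParam_ne_zero τ)
    (norm_qParam_lt_one τ)
  have hE : cuspFunction 1 E₄ (𝕢 1 τ) = E₄ τ :=
    eq_cuspFunction τ one_ne_zero
      (SlashInvariantFormClass.periodic_comp_ofComplex E₄ one_mem_strictPeriods_SL)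
  have hq0 := qParam_ne_zero τ
  have hP : (∏' n : ℕ, (1 - 𝕢 1 (τ : ℂ) ^ (n + 1))) ^ 24 ≠ 0 :=
    pow_ne_zero 24 (tprod_one_sub_pow_ne_zero (norm_qParam_lt_one τ))
  have hv : (𝕢 1 (τ : ℂ)) ^ (-1 : ℤ) * (cuspFunction 1 E₄ (𝕢 1 τ) ^ 3 *
      ((∏' n : ℕ, (1 - 𝕢 1 (τ : ℂ) ^ (n + 1))) ^ 24)⁻¹) = jFun τ := by
    rw [hE, jFun, discriminant_eq_qParam_mul, zpow_neg_one]
    field_simp
  rw [← hv]
  exact h

end Fermat.Agent.S28.LExpForms
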