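import Mathlib
import Fermat.Agent.S28.Hermite

set_option autoImplicit false

open scoped MatrixGroups Manifold
open CongruenceSubgroup UpperHalfPlane Matrix

noncomputable section

namespace Fermat.Agent.S28.HermiteHol

open Fermat.Agent.S28 Fermat.Agent.S28.Hermite

local notation "Δ" => ModularForm.discriminant

/-- Precomposition with `τ ↦ (a τ + b) / d'` preserves holomorphy on `ℍ`. -/
theorem mdiff_comp_aff {f : ℍ → ℂ} (hf : MDiff f) (a b d' : ℕ) :
    MDiff (fun τ => f (aff a b d' τ)) := by
  by_cases h : 0 < a ∧ 0 < d'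
  · rw [UpperHalfPlane.mdifferentiable_iff] at hf ⊢
    have hmap : ∀ z ∈ {z : ℂ | 0 < z.im}, ((a : ℂ) * z + b) / d' ∈ {z : ℂ | 0 < z.im} := by
      intro z hz
      have h1 : (0 : ℝ) < a := by exact_mod_cast h.1
      have h2 : (0 : ℝ) < d' := by exact_mod_cast h.2
      have h3 : 0 < z.im := hz
      have : (((a : ℂ) * z + b) / d').im = a * z.im / d' := by
        simp [Complex.div_natCast_im]
      show 0 < (((a : ℂ) * z + b) / d').im
      rw [this]
      positivity
    have heq : ∀ z ∈ {z : ℂ | 0 < z.im}, ((fun τ => f (aff a b d' τ)) ∘ ofComplex) z =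
        ((f ∘ ofComplex) ∘ (fun z : ℂ => ((a : ℂ) * z + b) / d')) z := by
      intro z hz
      simp only [Function.comp_apply]
      congr 1
      apply UpperHalfPlane.ext
      rw [coe_aff b h.1 h.2, ofComplex_apply_of_im_pos hz, ofComplex_apply_of_im_pos (hmap z hz)]
    refine DifferentiableOn.congr ?_ heq
    refine hf.comp ?_ hmap
    apply Differentiable.differentiableOn
    fun_prop
  · have : (fun τ => f (aff a b d' τ)) = f := by
      funext τ
      unfold aff
      rw [dif_neg h]
    rw [this]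
    exact hf

theorem mdiff_disc : MDiff (Δ : ℍ → ℂ) := CuspForm.discriminant.holo'

theorem mdiff_sigmaFun {J : ℍ → ℂ} (hJ : MDiff J) (N : ℕ) (a b : ℕ → ℕ) (g : Defs.Gen N) :
    MDiff (sigmaFun J N a b g) := by
  cases g with
  | j d => exact mdiff_comp_aff hJ _ _ _
  | x d =>
    have h1 : MDiff (fun τ => Δ (aff (a d.1) (b d.1) (d.1 / a d.1) τ)) :=
      mdiff_comp_aff mdiff_disc _ _ _
    have h2 : MDiff (fun τ : ℍ => (((d.1 / a d.1 : ℕ) : ℂ) ^ 12)⁻¹ *
        Δ (aff (a d.1) (b d.1) (d.1 / a d.1) τ)) := mdifferentiable_const.mul h1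
    exact h2.div mdiff_disc ModularForm.discriminant_ne_zero
  | y d =>
    have h1 : MDiff (fun τ => Δ (aff (a d.1) (b d.1) (d.1 / a d.1) τ)) :=
      mdiff_comp_aff mdiff_disc _ _ _
    have h2 : MDiff (fun τ : ℍ => ((d.1 / a d.1 : ℕ) : ℂ) ^ 12 * Δ τ) :=
      mdifferentiable_const.mul mdiff_disc
    exact h2.div h1 (fun τ => ModularForm.discriminant_ne_zero _)

theorem mdiff_sigFun {J : ℍ → ℂ} (hJ : MDiff J) (N : ℕ) (a b : ℕ → ℕ)
    (P : MvPolynomial (Defs.Gen N) ℤ) : MDiff (sigFun J N a b P) := by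
  induction P using MvPolynomial.induction_on with
  | C c =>
    have : sigFun J N a b (MvPolynomial.C c) = fun _ => (c : ℂ) := by
      funext τ
      unfold sigFun
      rw [MvPolynomial.eval₂_C]
      simp
    rw [this]
    exact mdifferentiable_const
  | add p q hp hq =>
    have : sigFun J N a b (p + q) = sigFun J N a b p + sigFun J N a b q := by
      funext τ
      simp [sigFun]
    rw [this]
    exact hp.add hq
  | mul_X p g hp =>
    have : sigFun J N a b (p * MvPolynomial.X g) = sigFun J N a b p * sigmaFun J N a b g := by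
      funext τ
      simp [sigFun]
    rw [this]
    exact hp.mul (mdiff_sigmaFun hJ N a b g)

theorem mdiff_esymmFun {J : ℍ → ℂ} (hJ : MDiff J) (N : ℕ) [NeZero N]
    (P : MvPolynomial (Defs.Gen N) ℤ) (k : ℕ) : MDiff (esymmFun J N P k) := by
  have : esymmFun J N P k = ∑ t ∈ (Finset.univ : Finset (rowSystem N).C).powersetCard k,
      ∏ q ∈ t, sigFun J N ((rowSystem N).a q) ((rowSystem N).b q) P := by
    funext τ
    unfold esymmFun
    rw [Finset.esymm_map_val, Finset.sum_apply]
    refine Finset.sum_congr rfl fun t _ => ?_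
    rw [Finset.prod_apply]
  rw [this]
  exact MDifferentiable.sum fun t _ => MDifferentiable.prod fun q _ => mdiff_sigFun hJ N _ _ P

end Fermat.Agent.S28.HermiteHol
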