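import Mathlib
import Fermat.Agent.S28.LExpForms
import Fermat.Agent.S24.PolyJ

/-!
# S28, block M8/A3: an `SL(2,ℤ)`-invariant holomorphic function with a Laurent expansion
in `q` is a polynomial in `j`, and its expansion is the same polynomial in `jq`.
-/

set_option autoImplicit false

noncomputable section

namespace Fermat.Agent.S28.PolyJ

open UpperHalfPlane ModularForm Complex Filter Topology
open Fermat.Agent.S28.Defs Fermat.Agent.S24.QBridge Fermat.Agent.S24.JFun ModularCurve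
open Fermat.Agent.S28.LExpForms
open scoped MatrixGroups Manifold

local notation "𝕢" => Function.Periodic.qParam

/-- A power series converging to `0` on the punctured unit disc is zero. -/
theorem coeff_eq_zero_of_hasSum_zero (c : ℕ → ℂ)
    (h : ∀ q : ℂ, q ≠ 0 → ‖q‖ < 1 → HasSum (fun k : ℕ => c k * q ^ k) 0) : ∀ k, c k = 0 := by
  have hg : HasQExp (PowerSeries.mk c) (fun q => if q = 0 then c 0 else 0) := by
    intro q hq
    by_cases hq0 : q = 0
    · subst hq0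
      simp only [if_true]
      have h0 := hasSum_ite_eq (0 : ℕ) (c 0)
      have hf : (fun n : ℕ => PowerSeries.coeff n (PowerSeries.mk c) * (0 : ℂ) ^ n)
          = fun n : ℕ => if n = 0 then c 0 else 0 := by
        funext n
        by_cases hn : n = 0
        · subst hn; simp
        · simp [hn]
      rw [hf]
      exact h0
    · simp only [hq0, if_false]
      simpa using h q hq0 hq
  have hcont : ContinuousAt (fun q : ℂ => if q = 0 then c 0 else 0) 0 :=
    hg.hasFPowerSeriesOnBall.hasFPowerSeriesAt.continuousAt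
  have hc0 : c 0 = 0 := by
    have h1 : Tendsto (fun q : ℂ => if q = 0 then c 0 else 0) (𝓝[≠] 0) (𝓝 (c 0)) := by
      have := hcont.tendsto.mono_left (nhdsWithin_le_nhds (s := ({0}ᶜ : Set ℂ)))
      simpa using this
    have h2 : Tendsto (fun q : ℂ => if q = 0 then c 0 else 0) (𝓝[≠] 0) (𝓝 0) := by
      refine tendsto_const_nhds.congr' ?_
      filter_upwards [self_mem_nhdsWithin] with q hq
      have hq' : q ≠ 0 := hq
      simp [hq']
    exact tendsto_nhds_unique h1 h2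
  have hg0 : HasQExp (PowerSeries.mk c) (fun _ => 0) := hg.congr (fun q _ => by simp [hc0])
  have h0 : HasQExp (0 : PowerSeries ℂ) (fun _ => 0) := by
    intro q _
    simp
  have hmk := hg0.unique h0
  intro k
  have := congrArg (PowerSeries.coeff k) hmk
  simpa using this

/-- **Uniqueness of Laurent expansions**: a Laurent series summing to `0` at every `τ` is `0`. -/
theorem laurent_eq_zero_of_hasSum_zero (d : LaurentSeries ℂ)
    (h : ∀ τ : ℍ, HasSum (fun n : ℤ => d.coeff n * 𝕢 1 (τ : ℂ) ^ n) 0) : d = 0 := by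
  obtain ⟨m, hm⟩ := exists_coeff_eq_zero_of_lt d
  have hc : ∀ k : ℕ, d.coeff ((k : ℤ) - m) = 0 := by
    apply coeff_eq_zero_of_hasSum_zero (fun k => d.coeff ((k : ℤ) - m))
    intro q hq0 hq
    have hz : 0 < (Function.Periodic.invQParam 1 q).im :=
      Function.Periodic.im_invQParam_pos_of_norm_lt_one one_pos hq hq0
    have hqz : 𝕢 1 (Function.Periodic.invQParam 1 q) = q :=
      Function.Periodic.qParam_right_inv one_ne_zero hq0
    have h1 := h ⟨Function.Periodic.invQParam 1 q, hz⟩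
    rw [UpperHalfPlane.coe_mk, hqz] at h1
    have h2 := hasSum_nat_shift_of_int (fun n => d.coeff n) m hm hq0 h1
    rw [mul_zero] at h2
    exact h2
  ext n
  by_cases hn : n < -(m : ℤ)
  · simp [hm n hn]
  · have := hc (n + m).toNat
    rw [Int.toNat_of_nonneg (by omega), add_sub_cancel_right] at this
    simpa using this

theorem qParam_inv_mul_eq_jFun (τ : ℍ) :
    (𝕢 1 (τ : ℂ))⁻¹ * (cuspFunction 1 E₄ (𝕢 1 τ) ^ 3 *
      ((∏' n : ℕ, (1 - 𝕢 1 (τ : ℂ) ^ (n + 1))) ^ 24)⁻¹) = jFun τ := by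
  have hE : cuspFunction 1 E₄ (𝕢 1 τ) = E₄ τ :=
    eq_cuspFunction τ one_ne_zero
      (SlashInvariantFormClass.periodic_comp_ofComplex E₄ one_mem_strictPeriods_SL)
  have hq0 := qParam_ne_zero τ
  have hP : (∏' n : ℕ, (1 - 𝕢 1 (τ : ℂ) ^ (n + 1))) ^ 24 ≠ 0 :=
    pow_ne_zero 24 (tprod_one_sub_pow_ne_zero (norm_qParam_lt_one τ))
  rw [hE, jFun, discriminant_eq_qParam_mul]
  field_simp

/-- Laurent expansion of `j ^ i`. -/
theorem hasSum_jq_pow (i : ℕ) (τ : ℍ) :
    HasSum (fun n : ℤ => (jqModC ℂ ^ i).coeff n * 𝕢 1 (τ : ℂ) ^ n) (jFun τ ^ i) := by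
  rw [jqModC_pow]
  have h := hasSum_single_mul_ofPowerSeries (hasQExp_jNumC.pow i) (-(i : ℤ)) (qParam_ne_zero τ)
    (norm_qParam_lt_one τ)
  have hv : (𝕢 1 (τ : ℂ)) ^ (-(i : ℤ)) * (cuspFunction 1 E₄ (𝕢 1 τ) ^ 3 *
      ((∏' n : ℕ, (1 - 𝕢 1 (τ : ℂ) ^ (n + 1))) ^ 24)⁻¹) ^ i = jFun τ ^ i := by
    rw [← qParam_inv_mul_eq_jFun τ, zpow_neg, zpow_natCast,
      mul_pow ((𝕢 1 (τ : ℂ))⁻¹), inv_pow]
  rw [← hv]
  exact h

/-- Laurent expansion of a polynomial in `j`. -/
theorem hasSum_eval₂_jq (p : Polynomial ℂ) (τ : ℍ) :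
    HasSum (fun n : ℤ => (p.eval₂ HahnSeries.C (jqModC ℂ)).coeff n * 𝕢 1 (τ : ℂ) ^ n)
      (p.eval (jFun τ)) := by
  rw [Polynomial.eval₂_eq_sum_range, Polynomial.eval_eq_sum_range]
  have hcoeff : ∀ n : ℤ,
      (∑ i ∈ Finset.range (p.natDegree + 1), HahnSeries.C (p.coeff i) * jqModC ℂ ^ i).coeff n
      = ∑ i ∈ Finset.range (p.natDegree + 1), p.coeff i * (jqModC ℂ ^ i).coeff n := by
    intro n
    rw [HahnSeries.coeff_sum]
    refine Finset.sum_congr rfl fun i _ => ?_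
    rw [HahnSeries.C_mul_eq_smul, HahnSeries.coeff_smul, smul_eq_mul]
  simp_rw [hcoeff, Finset.sum_mul, mul_assoc]
  exact hasSum_sum (fun i _ => (hasSum_jq_pow i τ).mul_left (p.coeff i))

/-- **A3**: a holomorphic `SL(2,ℤ)`-invariant function on `ℍ` with a Laurent expansion `s` in
`q = e^{2πiτ}` is a polynomial in `j`, and `s` is the same polynomial in the formal `j`. -/
theorem exists_polynomial {f : ℍ → ℂ} {s : LaurentSeries ℂ} (hhol : MDiff f)
    (hinv : ∀ (γ : SL(2, ℤ)) (τ : ℍ), f (γ • τ) = f τ)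
    (hs : ∀ τ : ℍ, HasSum (fun n : ℤ => s.coeff n * 𝕢 1 (τ : ℂ) ^ n) (f τ)) :
    ∃ p : Polynomial ℂ, (∀ τ, f τ = p.eval (jFun τ)) ∧
      s = p.eval₂ HahnSeries.C (jqModC ℂ) := by
  obtain ⟨m, hm⟩ := exists_coeff_eq_zero_of_lt s
  obtain ⟨p, -, hp⟩ := Fermat.Agent.S24.PolyJ.exists_polynomial_eval_jFun_of_hasSum m hhol hinv
    (fun k => s.coeff ((k : ℤ) - m)) (fun τ => by
      have := hasSum_nat_shift_of_int (fun n => s.coeff n) m hm (qParam_ne_zero τ) (hs τ)
      simpa [smul_eq_mul] using this)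
  refine ⟨p, hp, ?_⟩
  rw [← sub_eq_zero]
  apply laurent_eq_zero_of_hasSum_zero
  intro τ
  have h1 := (hs τ).sub (hasSum_eval₂_jq p τ)
  rw [hp τ, sub_self] at h1
  have hf : (fun n : ℤ => (s - p.eval₂ HahnSeries.C (jqModC ℂ)).coeff n * 𝕢 1 (τ : ℂ) ^ n)
      = fun n : ℤ => s.coeff n * 𝕢 1 (τ : ℂ) ^ n
        - (p.eval₂ HahnSeries.C (jqModC ℂ)).coeff n * 𝕢 1 (τ : ℂ) ^ n := by
    funext n
    rw [HahnSeries.coeff_sub, sub_mul]
  rw [hf]
  exact h1

end Fermat.Agent.S28.PolyJ
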