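import Mathlib
import Fermat.Agent.S28.RowDefs
import Fermat.Agent.S28.Hermite
import Fermat.Agent.S28.HermiteHol
import Fermat.Agent.S28.LExp
import Fermat.Agent.S28.PolyJ
import Fermat.Agent.S28.Formal
import Fermat.Agent.S24.JFun

set_option autoImplicit false

open scoped MatrixGroups Manifold
open CongruenceSubgroup UpperHalfPlane Matrix ModularCurve

noncomputable section

namespace Fermat.Agent.S28.RowFinal

open Fermat.Agent.S28 Fermat.Agent.S28.Defs Fermat.Agent.S28.Hermite Fermat.Agent.S28.LExp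
open Fermat.Agent.S24.JFun

/-- **Final wiring of M8.** If every conjugate `sigFun jFun N (a q) (b q) P` has the formal
expansion `σ_q(P)` in `t = q^{1/N}`, then the row system of `Γ₀(N) \ SL(2, ℤ)` has the
symmetric-function property over `ℂ`. -/
theorem hasSymm_of_expansion (N : ℕ) [NeZero N]
    (E : ∀ (q : (rowSystem N).C) (P : MvPolynomial (Gen N) ℤ),
      HasLExp N (sigFun jFun N ((rowSystem N).a q) ((rowSystem N).b q) P)
        ((rowSystem N).sig ℂ (zetaC N) ((N : ℂ)⁻¹) q P)) :
    (rowSystem N).HasSymm ℂ (zetaC N) ((N : ℂ)⁻¹) := by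
  intro P k
  have hN : N ≠ 0 := NeZero.ne N
  have h1 : HasLExp N (esymmFun jFun N P k)
      (((Finset.univ : Finset (rowSystem N).C).val.map
        (fun q => (rowSystem N).sig ℂ (zetaC N) ((N : ℂ)⁻¹) q P)).esymm k) :=
    HasLExp.esymm Finset.univ
      (fun q => sigFun jFun N ((rowSystem N).a q) ((rowSystem N).b q) P) _ (fun q _ => E q P) k
  have hper : ∀ τ : ℍ, esymmFun jFun N P k ((1 : ℝ) +ᵥ τ) = esymmFun jFun N P k τ := by
    intro τ
    rw [← UpperHalfPlane.modular_T_smul]
    exact esymmFun_smul jFun jFun_smul P k ModularGroup.T τ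
  obtain ⟨s₁, hs₁, h2⟩ := h1.exists_of_periodic hN hper
  have h3 : ∀ τ : ℍ, HasSum (fun n : ℤ => s₁.coeff n * Function.Periodic.qParam 1 (τ : ℂ) ^ n)
      (esymmFun jFun N P k τ) := by
    intro τ
    have := h2 τ
    simpa using this
  obtain ⟨p, -, hp⟩ := PolyJ.exists_polynomial (HermiteHol.mdiff_esymmFun jFun_mdiff N P k)
    (fun γ τ => esymmFun_smul jFun jFun_smul P k γ τ) h3
  refine ⟨p, ?_⟩
  rw [hs₁, hp, Formal.qE_eval₂_C]

end Fermat.Agent.S28.RowFinal
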