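import Mathlib
import Fermat.Agent.S28.RowDefs
import Fermat.Agent.S28.Hermite
import Fermat.Agent.S28.LExp
import Fermat.Agent.S28.LExpForms
import Fermat.Agent.S28.RowFinal
import Fermat.Agent.S24.JFun

set_option autoImplicit false

open scoped MatrixGroups Manifold
open CongruenceSubgroup UpperHalfPlane Matrix ModularCurve

noncomputable section

namespace Fermat.Agent.S28.RowGen

open Fermat.Agent.S28 Fermat.Agent.S28.Defs Fermat.Agent.S28.Hermite Fermat.Agent.S28.LExp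
open Fermat.Agent.S24.JFun

local notation "Δ" => ModularForm.discriminant

theorem hasLExp_jFun : HasLExp 1 jFun (jqModC ℂ) := fun τ => by
  have := LExpForms.hasSum_jq τ
  simpa using this

theorem hasLExp_disc : HasLExp 1 (fun τ => Δ τ) (deltaR ℂ) := fun τ => by
  have := LExpForms.hasSum_deltaR τ
  simpa using this

theorem hasLExp_disc_inv : HasLExp 1 (fun τ => (Δ τ)⁻¹) (deltaInvR ℂ) := fun τ => by
  have := LExpForms.hasSum_deltaInvR τ
  simpa using this

/-- The expansions of the conjugate generators (generator cases of A5). -/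
theorem hasLExp_sigmaFun (N : ℕ) [NeZero N] (a b : ℕ → ℕ)
    (ha : ∀ d, d ∣ N → 0 < a d ∧ a d ∣ d) (g : Gen N) :
    HasLExp N (sigmaFun jFun N a b g) (sigmaGen ℂ (zetaC N) ((N : ℂ)⁻¹) N a b g) := by
  have hN : N ≠ 0 := NeZero.ne N
  have hNpos : 0 < N := Nat.pos_of_ne_zero hN
  have hNC : (N : ℂ) ≠ 0 := by exact_mod_cast hN
  -- common facts for a divisor `d`
  have key : ∀ d : {d : ℕ // d ∣ N}, 0 < a d.1 ∧ 0 < d.1 / a d.1 ∧ d.1 / a d.1 ∣ N := by
    intro d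
    obtain ⟨h1, h2⟩ := ha d.1 d.2
    have hd : 0 < d.1 := Nat.pos_of_dvd_of_pos d.2 hNpos
    refine ⟨h1, Nat.div_pos (Nat.le_of_dvd hd h2) h1, ?_⟩
    exact (Nat.div_dvd_of_dvd h2).trans d.2
  have sub : ∀ (d : {d : ℕ // d ∣ N}) {f : ℍ → ℂ} {s : LaurentSeries ℂ}, HasLExp 1 f s →
      HasLExp N (fun τ => f (aff (a d.1) (b d.1) (d.1 / a d.1) τ))
        (twist ℂ (zetaC N ^ (N / (d.1 / a d.1) * b d.1)) (a d.1 * (N / (d.1 / a d.1))) s) := by
    intro d f s h
    obtain ⟨h1, h2, h3⟩ := key d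
    exact h.comp_affine' hN h3 h1.ne' (aff (a d.1) (b d.1) (d.1 / a d.1))
      (fun τ => coe_aff (b d.1) h1 h2 τ) (zetaC N) rfl
  cases g with
  | j d => exact sub d hasLExp_jFun
  | x d =>
    obtain ⟨h1, h2, h3⟩ := key d
    have hd' : ((d.1 / a d.1 : ℕ) : ℂ) ≠ 0 := by exact_mod_cast h2.ne'
    have e1 := ((hasLExp_C N ((((N / (d.1 / a d.1) : ℕ) : ℂ) * (N : ℂ)⁻¹) ^ 12)).mul
      (sub d hasLExp_disc)).mul (hasLExp_disc_inv.of_one hN)
    refine e1.congr_fun fun τ => ?_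
    simp only [sigmaFun]
    rw [Nat.cast_div h3 hd']
    have hΔ : Δ τ ≠ 0 := ModularForm.discriminant_ne_zero τ
    field_simp
  | y d =>
    obtain ⟨h1, h2, h3⟩ := key d
    have e1 := ((hasLExp_C N (((d.1 / a d.1 : ℕ) : ℂ) ^ 12)).mul
      (hasLExp_disc.of_one hN)).mul (sub d hasLExp_disc_inv)
    refine e1.congr_fun fun τ => ?_
    simp only [sigmaFun]
    rw [div_eq_mul_inv]

/-- The expansions of the conjugates of a polynomial in the generators. -/
theorem hasLExp_sigFun (N : ℕ) [NeZero N] (a b : ℕ → ℕ)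
    (ha : ∀ d, d ∣ N → 0 < a d ∧ a d ∣ d) (P : MvPolynomial (Gen N) ℤ) :
    HasLExp N (sigFun jFun N a b P) (sigma ℂ (zetaC N) ((N : ℂ)⁻¹) N a b P) :=
  HasLExp.mvPolynomial (sigmaFun jFun N a b) (sigmaGen ℂ (zetaC N) ((N : ℂ)⁻¹) N a b)
    (hasLExp_sigmaFun N a b ha) P

/-- **M8**: the row system of `Γ₀(N) \ SL(2, ℤ)` has the symmetric-function property over `ℂ`. -/
theorem rowSystem_hasSymm (N : ℕ) [NeZero N] :
    (rowSystem N).HasSymm ℂ (zetaC N) ((N : ℂ)⁻¹) := by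
  refine RowFinal.hasSymm_of_expansion N fun q P => ?_
  refine hasLExp_sigFun N _ _ (fun d hd => ?_) P
  have hd0 : 0 < d := Nat.pos_of_dvd_of_pos hd (Nat.pos_of_ne_zero (NeZero.ne N))
  exact ⟨aOf_pos _ hd0, aOf_dvd _ _⟩

/-- **M8** in the shape of the blueprint target, with the cardinality of the coset type. -/
theorem exists_rowSystem (N : ℕ) [NeZero N] :
    ∃ S : RowSystem N, S.HasSymm ℂ (zetaC N) ((N : ℂ)⁻¹) :=
  ⟨rowSystem N, rowSystem_hasSymm N⟩

theorem exists_rowSystem_card (N : ℕ) [NeZero N] :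
    ∃ S : RowSystem N, S.HasSymm ℂ (zetaC N) ((N : ℂ)⁻¹) ∧
      Fintype.card S.C = (Gamma0 N).index :=
  ⟨rowSystem N, rowSystem_hasSymm N, card_rowSystem N⟩

end Fermat.Agent.S28.RowGen
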