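import Mathlib
import Fermat.Agent.S28.Defs

/-!
# S28, module M6 (characteristic 0 descent): the theorem `core` of the blueprint

From the symmetric-function property over `ℂ` (M8), and the mod-`ℓ` independence of the powers
of the modular unit `u = ev _ N (unitPoly N)` (M5 + M7), we deduce:

* a monic `Q ∈ ℚ[j][X]` of degree `m = #C` killing `u` (descent `ℂ → ℚ` by a `ℚ`-linear
  functional applied coefficientwise);
* `j(q^d) ∈ ℚ(j, u)` for `d ∣ N` (Lagrange interpolation);
* independence of `1, u, …, u^(m-1)` over `𝔽_ℓ[j]` (and over `ℚ[j]`).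
-/

set_option autoImplicit false
set_option linter.unusedSectionVars false
set_option linter.unusedVariables false

noncomputable section

namespace Fermat.Agent.S28.Char0

open Fermat.Agent.S28.Defs ModularCurve Polynomial

/-! ## Formal facts about `qE`, `scale`, `twist`, `ev`, `sigma` -/

section Formal

variable (R : Type*) [CommRing R]

theorem qE_eq_qExpand (k : ℕ) [NeZero k] : qE R k = qExpand R k := by
  unfold qE
  rw [dif_neg (NeZero.ne k)]

theorem qE_injective (k : ℕ) (hk : k ≠ 0) : Function.Injective (qE R k) := by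
  have : NeZero k := ⟨hk⟩
  rw [qE_eq_qExpand]
  exact qExpand_injective k

theorem qE_C (k : ℕ) (r : R) : qE R k (HahnSeries.C r) = HahnSeries.C r := by
  by_cases hk : k = 0
  · subst hk
    simp [qE]
  · have : NeZero k := ⟨hk⟩
    rw [qE_eq_qExpand]
    exact qExpand_C k r

theorem qE_mul_apply (M k : ℕ) (hM : M ≠ 0) (hk : k ≠ 0) (f : LaurentSeries R) :
    qE R (k * M) f = qE R M (qE R k f) := by
  have : NeZero M := ⟨hM⟩
  have : NeZero k := ⟨hk⟩
  have : NeZero (k * M) := ⟨Nat.mul_ne_zero hk hM⟩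
  rw [qE_eq_qExpand, qE_eq_qExpand, qE_eq_qExpand, qExpand_qExpand]
  exact qExpand_congr (Nat.mul_comm k M) f

theorem scale_one_apply (f : LaurentSeries R) : scale R 1 f = f := by
  ext n
  simp

theorem twist_one_apply (k : ℕ) (f : LaurentSeries R) : twist R 1 k f = qE R k f := by
  simp [twist, scale_one_apply]

variable {R}

theorem coeffMap_qE {S : Type*} [CommRing S] (f : R →+* S) (k : ℕ) (x : LaurentSeries R) :
    coeffMap f (qE R k x) = qE S k (coeffMap f x) := by
  by_cases hk : k = 0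
  · subst hk
    simp [qE]
  · have : NeZero k := ⟨hk⟩
    rw [qE_eq_qExpand, qE_eq_qExpand]
    exact coeffMap_qExpand f k x

theorem coeffMap_C {S : Type*} [CommRing S] (f : R →+* S) (r : R) :
    coeffMap f (HahnSeries.C r) = HahnSeries.C (f r) := by
  rw [HahnSeries.C_apply, HahnSeries.C_apply, coeffMap_single]

theorem coeffMap_deltaR {S : Type*} [CommRing S] (f : R →+* S) :
    coeffMap f (deltaR R) = deltaR S := by
  rw [deltaR, deltaR, map_mul, coeffMap_single, map_one, coeffMap_ofPowerSeries,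
    ← RingHom.comp_apply (PowerSeries.map f) (PowerSeries.map (Int.castRingHom R)),
    ← PowerSeries.map_comp, RingHom.ext_int (f.comp (Int.castRingHom R)) (Int.castRingHom S)]

theorem coeffMap_deltaInvR {S : Type*} [CommRing S] (f : R →+* S) :
    coeffMap f (deltaInvR R) = deltaInvR S := by
  rw [deltaInvR, deltaInvR, map_mul, coeffMap_single, map_one, coeffMap_ofPowerSeries,
    ← RingHom.comp_apply (PowerSeries.map f) (PowerSeries.map (Int.castRingHom R)),
    ← PowerSeries.map_comp, RingHom.ext_int (f.comp (Int.castRingHom R)) (Int.castRingHom S)]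

theorem coeffMap_genVal {S : Type*} [CommRing S] (f : R →+* S) (N : ℕ) (g : Gen N) :
    coeffMap f (genVal R N g) = genVal S N g := by
  cases g with
  | j d => simp only [genVal, coeffMap_qE, coeffMap_jqModC]
  | x d => simp only [genVal, map_mul, coeffMap_qE, coeffMap_deltaR, coeffMap_deltaInvR]
  | y d => simp only [genVal, map_mul, coeffMap_qE, coeffMap_deltaR, coeffMap_deltaInvR]

/-- Functoriality of `ev` in the coefficient ring. -/
theorem coeffMap_ev {S : Type*} [CommRing S] (f : R →+* S) (N : ℕ)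
    (P : MvPolynomial (Gen N) ℤ) : coeffMap f (ev R N P) = ev S N P := by
  have h : (coeffMap f).comp (ev R N) = ev S N := by
    apply MvPolynomial.ringHom_ext
    · intro r
      simp [ev]
    · intro g
      simp [ev, coeffMap_genVal]
  exact congrArg (fun φ : MvPolynomial (Gen N) ℤ →+* LaurentSeries S => φ P) h

/-- The expansion at the distinguished index `one` is `q ↦ q^N` applied to the `q`-expansion. -/
theorem sig_one {N : ℕ} (hN : N ≠ 0) (S : RowSystem N) (ζ : Rˣ) (ν : R) (hζ : ζ ^ N = 1)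
    (hν : (N : R) * ν = 1) (P : MvPolynomial (Gen N) ℤ) :
    S.sig R ζ ν S.one P = qE R N (ev R N P) := by
  have h : S.sig R ζ ν S.one = (qE R N).comp (ev R N) := by
    apply MvPolynomial.ringHom_ext
    · intro r
      simp [RowSystem.sig, sigma, ev]
    · intro g
      have key : ∀ d : {d : ℕ // d ∣ N}, S.a S.one d.1 = d.1 ∧ d.1 ≠ 0 ∧ d.1 / d.1 = 1 := by
        intro d
        have hd0 : d.1 ≠ 0 := fun h0 => hN (by simpa [h0] using d.2)
        refine ⟨?_, hd0, Nat.div_self (Nat.pos_of_ne_zero hd0)⟩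
        rw [S.a_gcd S.one d.1 d.2, S.a_one]
        exact Nat.gcd_eq_left d.2
      have hz : ∀ b : ℕ, ζ ^ (N * b) = 1 := fun b => by rw [pow_mul, hζ, one_pow]
      cases g with
      | j d =>
        obtain ⟨h1, h2, h3⟩ := key d
        simp only [RowSystem.sig, sigma, ev, MvPolynomial.coe_eval₂Hom, MvPolynomial.eval₂_X,
          RingHom.comp_apply, sigmaGen, genVal, h1, h3, Nat.div_one, hz, twist_one_apply]
        exact qE_mul_apply R N d.1 hN h2 _
      | x d =>
        obtain ⟨h1, h2, h3⟩ := key d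
        simp only [RowSystem.sig, sigma, ev, MvPolynomial.coe_eval₂Hom, MvPolynomial.eval₂_X,
          RingHom.comp_apply, sigmaGen, genVal, h1, h3, Nat.div_one, hz, twist_one_apply, hν,
          one_pow, map_one, one_mul, map_mul]
        rw [qE_mul_apply R N d.1 hN h2]
      | y d =>
        obtain ⟨h1, h2, h3⟩ := key d
        simp only [RowSystem.sig, sigma, ev, MvPolynomial.coe_eval₂Hom, MvPolynomial.eval₂_X,
          RingHom.comp_apply, sigmaGen, genVal, h1, h3, Nat.div_one, hz, twist_one_apply,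
          Nat.cast_one, one_pow, map_one, one_mul, map_mul]
        rw [qE_mul_apply R N d.1 hN h2]
  exact congrArg (fun φ : MvPolynomial (Gen N) ℤ →+* LaurentSeries R => φ P) h

end Formal

section Lagrange

variable {L : Type*} [CommRing L] {ι : Type*} [Fintype ι] [DecidableEq ι]

/-- `Q = ∏ (X - ρ_q)`. -/
def rootPoly (ρ : ι → L) : L[X] := ∏ q, (X - C (ρ q))

theorem rootPoly_eq_multiset (ρ : ι → L) :
    rootPoly ρ = ((Finset.univ.val.map ρ).map fun t => X - C t).prod := by
  rw [rootPoly, Multiset.map_map]; rfl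

theorem rootPoly_monic (ρ : ι → L) : (rootPoly ρ).Monic :=
  monic_prod_of_monic _ _ fun i _ => monic_X_sub_C _

theorem rootPoly_natDegree [Nontrivial L] (ρ : ι → L) :
    (rootPoly ρ).natDegree = Fintype.card ι := by
  rw [rootPoly, natDegree_prod_of_monic _ _ (fun i _ => monic_X_sub_C _)]
  simp

theorem rootPoly_eval (ρ : ι → L) (q : ι) : eval (ρ q) (rootPoly ρ) = 0 := by
  rw [rootPoly, eval_prod]
  exact Finset.prod_eq_zero (Finset.mem_univ q) (by simp)

theorem rootPoly_coeff_mem (A : Subring L) (ρ : ι → L)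
    (h1 : ∀ k, (Finset.univ.val.map ρ).esymm k ∈ A) (n : ℕ) : (rootPoly ρ).coeff n ∈ A := by
  by_cases hn : n ≤ Fintype.card ι
  · rw [rootPoly_eq_multiset, Multiset.prod_X_sub_C_coeff _ (by simpa using hn)]
    exact A.mul_mem (A.pow_mem (A.neg_mem A.one_mem) _) (h1 _)
  · nontriviality L
    rw [coeff_eq_zero_of_natDegree_lt (by rw [rootPoly_natDegree]; omega)]
    exact A.zero_mem

theorem rootPoly_divByMonic (ρ : ι → L) (q : ι) :
    rootPoly ρ /ₘ (X - C (ρ q)) = ∏ q' ∈ Finset.univ.erase q, (X - C (ρ q')) := by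
  rw [rootPoly, ← Finset.mul_prod_erase Finset.univ _ (Finset.mem_univ q)]
  exact mul_divByMonic_cancel_left _ (monic_X_sub_C _)

/-- Abstract Lagrange interpolation: if the elementary symmetric functions of `ρ` and the
"traces" `∑ z_q ρ_q^n` lie in a subring `A`, then `z_{i₀} Q'(ρ_{i₀}) = H(ρ_{i₀})` with
`H ∈ A[X]`. -/
theorem lagrange (A : Subring L) (ρ z : ι → L) (i₀ : ι)
    (h1 : ∀ k, (Finset.univ.val.map ρ).esymm k ∈ A)
    (h2 : ∀ n, ∑ q, z q * ρ q ^ n ∈ A) :
    ∃ H : L[X], (∀ n, H.coeff n ∈ A) ∧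
      z i₀ * eval (ρ i₀) (derivative (rootPoly ρ)) = eval (ρ i₀) H := by
  refine ⟨∑ q, C (z q) * (rootPoly ρ /ₘ (X - C (ρ q))), ?_, ?_⟩
  · intro n
    rw [finsetSum_coeff]
    simp_rw [coeff_C_mul, coeff_divByMonic_X_sub_C, Finset.mul_sum]
    rw [Finset.sum_comm]
    refine A.sum_mem fun i _ => ?_
    have : ∑ q, z q * (ρ q ^ (i - (n + 1)) * (rootPoly ρ).coeff i) =
        (∑ q, z q * ρ q ^ (i - (n + 1))) * (rootPoly ρ).coeff i := by
      rw [Finset.sum_mul]; exact Finset.sum_congr rfl fun q _ => by ring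
    rw [this]
    exact A.mul_mem (h2 _) (rootPoly_coeff_mem A ρ h1 i)
  · have hev : ∀ q, eval (ρ i₀) (rootPoly ρ /ₘ (X - C (ρ q))) =
        if q = i₀ then ∏ q' ∈ Finset.univ.erase i₀, (ρ i₀ - ρ q') else 0 := by
      intro q
      rw [rootPoly_divByMonic, eval_prod]
      split_ifs with h
      · subst h; simp
      · exact Finset.prod_eq_zero (Finset.mem_erase.mpr ⟨Ne.symm h, Finset.mem_univ _⟩)
          (by simp)
    have hder : eval (ρ i₀) (derivative (rootPoly ρ)) =
        ∏ q' ∈ Finset.univ.erase i₀, (ρ i₀ - ρ q') := by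
      rw [rootPoly, derivative_prod_finset, eval_finsetSum]
      rw [Finset.sum_eq_single i₀]
      · simp [eval_prod]
      · intro q _ hq
        rw [eval_mul, eval_prod, Finset.prod_eq_zero
          (Finset.mem_erase.mpr ⟨Ne.symm hq, Finset.mem_univ _⟩) (by simp), zero_mul]
      · simp
    rw [eval_finsetSum, hder]
    simp_rw [eval_mul, eval_C, hev]
    simp

end Lagrange

section Descent

/-- Apply an additive map to the coefficients of a polynomial. -/
def polyMapAdd {A B : Type*} [Semiring A] [Semiring B] (φ : A →+ B) : A[X] →+ B[X] where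
  toFun p := p.sum fun k c => monomial k (φ c)
  map_zero' := by simp
  map_add' p q := Polynomial.sum_add_index p q _ (by simp) (by simp)

theorem polyMapAdd_monomial {A B : Type*} [Semiring A] [Semiring B] (φ : A →+ B) (n : ℕ)
    (a : A) : polyMapAdd φ (monomial n a) = monomial n (φ a) := by
  show (monomial n a).sum (fun k c => monomial k (φ c)) = _
  exact Polynomial.sum_monomial_index a _ (by simp)

theorem polyMapAdd_coeff {A B : Type*} [Semiring A] [Semiring B] (φ : A →+ B) (p : A[X])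
    (k : ℕ) : (polyMapAdd φ p).coeff k = φ (p.coeff k) := by
  induction p using Polynomial.induction_on' with
  | add p q hp hq => simp [hp, hq]
  | monomial n a =>
    rw [polyMapAdd_monomial, coeff_monomial, coeff_monomial]
    split_ifs <;> simp

theorem polyMapAdd_one {A B : Type*} [Semiring A] [Semiring B] (φ : A →+ B) (h : φ 1 = 1) :
    polyMapAdd φ 1 = 1 := by
  rw [← monomial_zero_one, polyMapAdd_monomial, h, monomial_zero_one]

/-- Apply an additive map to the coefficients of a Laurent series. -/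
def seriesMapAdd {A B : Type*} [AddMonoid A] [AddMonoid B] (φ : A →+ B) :
    LaurentSeries A →+ LaurentSeries B where
  toFun x := x.map φ
  map_zero' := by ext; simp
  map_add' x y := by ext; simp

@[simp] theorem seriesMapAdd_coeff {A B : Type*} [AddMonoid A] [AddMonoid B] (φ : A →+ B)
    (x : LaurentSeries A) (n : ℤ) : (seriesMapAdd φ x).coeff n = φ (x.coeff n) := rfl

variable {K E : Type*} [CommRing K] [CommRing E] [Algebra K E]

theorem seriesMapAdd_C_mul (Φ : E →ₗ[K] K) (c : E) (y : LaurentSeries K) :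
    seriesMapAdd Φ.toAddMonoidHom (HahnSeries.C c * coeffMap (algebraMap K E) y) =
      HahnSeries.C (Φ c) * y := by
  ext n
  rw [seriesMapAdd_coeff, HahnSeries.C_mul_eq_smul, HahnSeries.C_mul_eq_smul,
    HahnSeries.coeff_smul, HahnSeries.coeff_smul, coeffMap_coeff, smul_eq_mul, smul_eq_mul,
    mul_comm c, ← Algebra.smul_def]
  simp [mul_comm]

/-- The key descent identity: applying a `K`-linear functional `Φ : E → K` coefficientwise. -/
theorem descent (Φ : E →ₗ[K] K) (j u x : LaurentSeries K) (F : E[X][X]) :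
    seriesMapAdd Φ.toAddMonoidHom (coeffMap (algebraMap K E) x *
        eval₂ (eval₂RingHom HahnSeries.C (coeffMap (algebraMap K E) j))
          (coeffMap (algebraMap K E) u) F) =
      x * eval₂ (eval₂RingHom HahnSeries.C j) u
        (polyMapAdd (polyMapAdd Φ.toAddMonoidHom) F) := by
  induction F using Polynomial.induction_on' with
  | add p q hp hq => simp only [eval₂_add, mul_add, map_add, hp, hq]
  | monomial n a =>
    induction a using Polynomial.induction_on' with
    | add p q hp hq => simp only [map_add, eval₂_add, mul_add, hp, hq]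
    | monomial k c =>
      rw [polyMapAdd_monomial, polyMapAdd_monomial, eval₂_monomial, eval₂_monomial,
        coe_eval₂RingHom, eval₂_monomial, coe_eval₂RingHom, eval₂_monomial]
      have h : coeffMap (algebraMap K E) x *
          (HahnSeries.C c * coeffMap (algebraMap K E) j ^ k * coeffMap (algebraMap K E) u ^ n) =
          HahnSeries.C c * coeffMap (algebraMap K E) (x * j ^ k * u ^ n) := by
        simp only [map_mul, map_pow]; ring
      rw [h, seriesMapAdd_C_mul, LinearMap.toAddMonoidHom_coe]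
      ring

theorem polyMapAdd2_monic [Nontrivial K] (Φ : E →ₗ[K] K) (hΦ : Φ 1 = 1) (Q : E[X][X])
    (hQ : Q.Monic) :
    (polyMapAdd (polyMapAdd Φ.toAddMonoidHom) Q).Monic ∧
      (polyMapAdd (polyMapAdd Φ.toAddMonoidHom) Q).natDegree = Q.natDegree := by
  have hle : (polyMapAdd (polyMapAdd Φ.toAddMonoidHom) Q).natDegree ≤ Q.natDegree := by
    rw [natDegree_le_iff_coeff_eq_zero]
    intro N hN
    rw [polyMapAdd_coeff, coeff_eq_zero_of_natDegree_lt hN, map_zero]
  have hc : (polyMapAdd (polyMapAdd Φ.toAddMonoidHom) Q).coeff Q.natDegree = 1 := by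
    rw [polyMapAdd_coeff, hQ.coeff_natDegree]
    exact polyMapAdd_one _ hΦ
  refine ⟨monic_of_natDegree_le_of_coeff_eq_one _ hle hc, le_antisymm hle ?_⟩
  exact le_natDegree_of_ne_zero (by rw [hc]; exact one_ne_zero)

theorem exists_functional : ∃ Φ : ℂ →ₗ[ℚ] ℚ, Φ 1 = 1 := by
  obtain ⟨g, hg⟩ := LinearMap.exists_leftInverse_of_injective (Algebra.linearMap ℚ ℂ)
    (LinearMap.ker_eq_bot.mpr (algebraMap ℚ ℂ).injective)
  exact ⟨g, by simpa using LinearMap.congr_fun hg 1⟩

end Descent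

section Indep

theorem coeffMap_injective {R S : Type*} [CommRing R] [CommRing S] (f : R →+* S)
    (hf : Function.Injective f) : Function.Injective (coeffMap f) := by
  intro x y h
  ext n
  apply hf
  have := congrArg (fun z : LaurentSeries S => z.coeff n) h
  simpa using this

theorem coeffMap_eval₂ {R S : Type*} [CommRing R] [CommRing S] (f : R →+* S)
    (j u : LaurentSeries R) (B : R[X][X]) :
    coeffMap f (eval₂ (eval₂RingHom HahnSeries.C j) u B) =
      eval₂ (eval₂RingHom HahnSeries.C (coeffMap f j)) (coeffMap f u)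
        (B.map (mapRingHom f)) := by
  rw [hom_eval₂, eval₂_map]
  congr 1
  apply Polynomial.ringHom_ext
  · intro a
    simp
  · simp

theorem indep_of_injective {R S : Type*} [CommRing R] [CommRing S] (f : R →+* S)
    (hf : Function.Injective f) (j u : LaurentSeries R) (m : ℕ)
    (h : ∀ B : S[X][X], B.natDegree < m →
      eval₂ (eval₂RingHom HahnSeries.C (coeffMap f j)) (coeffMap f u) B = 0 → B = 0) :
    ∀ B : R[X][X], B.natDegree < m → eval₂ (eval₂RingHom HahnSeries.C j) u B = 0 → B = 0 := by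
  intro B hB h0
  have h1 := h (B.map (mapRingHom f)) (lt_of_le_of_lt natDegree_map_le hB)
    (by rw [← coeffMap_eval₂, h0, map_zero])
  have hinj : Function.Injective (mapRingHom f) := by
    rw [coe_mapRingHom]; exact Polynomial.map_injective f hf
  exact Polynomial.map_injective _ hinj (by rw [h1, Polynomial.map_zero])

theorem exists_int_multiple (p : ℚ[X]) :
    ∃ D : ℤ, D ≠ 0 ∧ ∃ p₁ : ℤ[X], p₁.map (Int.castRingHom ℚ) = C (D : ℚ) * p := by
  induction p using Polynomial.induction_on' with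
  | add p q hp hq =>
    obtain ⟨D, hD, p₁, h₁⟩ := hp
    obtain ⟨D', hD', q₁, h₂⟩ := hq
    refine ⟨D * D', mul_ne_zero hD hD', C D' * p₁ + C D * q₁, ?_⟩
    rw [Polynomial.map_add, Polynomial.map_mul, Polynomial.map_mul, Polynomial.map_C,
      Polynomial.map_C, h₁, h₂]
    simp only [Int.coe_castRingHom, Int.cast_mul, C_mul]
    ring
  | monomial n a =>
    refine ⟨a.den, by simp, monomial n a.num, ?_⟩
    rw [map_monomial, C_mul_monomial]
    congr 1
    simp [mul_comm]

theorem exists_int_multiple₂ (B : ℚ[X][X]) :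
    ∃ D : ℤ, D ≠ 0 ∧ ∃ B₁ : ℤ[X][X],
      B₁.map (mapRingHom (Int.castRingHom ℚ)) = C (C (D : ℚ)) * B := by
  induction B using Polynomial.induction_on' with
  | add p q hp hq =>
    obtain ⟨D, hD, p₁, h₁⟩ := hp
    obtain ⟨D', hD', q₁, h₂⟩ := hq
    refine ⟨D * D', mul_ne_zero hD hD', C (C D') * p₁ + C (C D) * q₁, ?_⟩
    rw [Polynomial.map_add, Polynomial.map_mul, Polynomial.map_mul, Polynomial.map_C,
      Polynomial.map_C, coe_mapRingHom, Polynomial.map_C, Polynomial.map_C, h₁, h₂]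
    simp only [Int.coe_castRingHom, Int.cast_mul, C_mul]
    ring
  | monomial n a =>
    obtain ⟨D, hD, a₁, h⟩ := exists_int_multiple a
    refine ⟨D, hD, monomial n a₁, ?_⟩
    rw [map_monomial, C_mul_monomial, coe_mapRingHom, h]

theorem C_dvd_of_map_eq_zero (ℓ : ℕ) (p : ℤ[X]) (h : p.map (Int.castRingHom (ZMod ℓ)) = 0) :
    C (ℓ : ℤ) ∣ p := by
  rw [C_dvd_iff_dvd_coeff]
  intro i
  have := congrArg (fun q : (ZMod ℓ)[X] => q.coeff i) h
  simp only [coeff_map, coeff_zero, eq_intCast] at this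
  exact (ZMod.intCast_zmod_eq_zero_iff_dvd _ _).mp this

theorem CC_dvd_of_map_eq_zero (ℓ : ℕ) (B : ℤ[X][X])
    (h : B.map (mapRingHom (Int.castRingHom (ZMod ℓ))) = 0) : C (C (ℓ : ℤ)) ∣ B := by
  rw [C_dvd_iff_dvd_coeff]
  intro i
  apply C_dvd_of_map_eq_zero
  have := congrArg (fun q : (ZMod ℓ)[X][X] => q.coeff i) h
  simpa [coeff_map] using this

/-- Independence over `ℚ[j]` from independence mod `ℓ` (primitive part argument). -/
theorem indep_rat_of_modl (ℓ : ℕ) [Fact ℓ.Prime] (j u : LaurentSeries ℤ) (m : ℕ)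
    (h : ∀ B : (ZMod ℓ)[X][X], B.natDegree < m →
      eval₂ (eval₂RingHom HahnSeries.C (coeffMap (Int.castRingHom (ZMod ℓ)) j))
        (coeffMap (Int.castRingHom (ZMod ℓ)) u) B = 0 → B = 0) :
    ∀ B : ℚ[X][X], B.natDegree < m →
      eval₂ (eval₂RingHom HahnSeries.C (coeffMap (Int.castRingHom ℚ) j))
        (coeffMap (Int.castRingHom ℚ) u) B = 0 → B = 0 := by
  intro B hB h0
  by_contra hB0
  obtain ⟨D, hD, B₁, hB₁⟩ := exists_int_multiple₂ B
  have hinj' : Function.Injective (mapRingHom (Int.castRingHom ℚ)) := by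
    rw [coe_mapRingHom]; exact Polynomial.map_injective _ Int.cast_injective
  have hB₁0 : B₁ ≠ 0 := by
    rintro rfl
    rw [Polynomial.map_zero] at hB₁
    have hc : C (C (D : ℚ)) ≠ (0 : ℚ[X][X]) := by simp [hD]
    exact hB0 ((mul_eq_zero.mp hB₁.symm).resolve_left hc)
  have hℓ : ¬ IsUnit (C (C (ℓ : ℤ)) : ℤ[X][X]) := by
    rw [Polynomial.isUnit_C, Polynomial.isUnit_C, Int.ofNat_isUnit]
    exact (Fact.out : ℓ.Prime).not_isUnit
  obtain ⟨e, B₂, hndvd, hB₂⟩ := WfDvdMonoid.max_power_factor' hB₁0 hℓ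
  have hB₂F : B₂.map (mapRingHom (Int.castRingHom (ZMod ℓ))) ≠ 0 :=
    fun h' => hndvd (CC_dvd_of_map_eq_zero ℓ B₂ h')
  apply hB₂F
  apply h
  · calc (B₂.map (mapRingHom (Int.castRingHom (ZMod ℓ)))).natDegree
        ≤ B₂.natDegree := natDegree_map_le
      _ ≤ B₁.natDegree := natDegree_le_of_dvd ⟨_, by rw [hB₂, mul_comm]⟩ hB₁0
      _ = (B₁.map (mapRingHom (Int.castRingHom ℚ))).natDegree :=
          (natDegree_map_eq_of_injective hinj' _).symm
      _ ≤ B.natDegree := by rw [hB₁]; exact natDegree_C_mul_le _ _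
      _ < m := hB
  · rw [← coeffMap_eval₂]
    have hz : eval₂ (eval₂RingHom HahnSeries.C j) u B₂ = 0 := by
      apply coeffMap_injective (Int.castRingHom ℚ) Int.cast_injective
      rw [map_zero, coeffMap_eval₂]
      have h1 : eval₂ (eval₂RingHom HahnSeries.C (coeffMap (Int.castRingHom ℚ) j))
          (coeffMap (Int.castRingHom ℚ) u) (B₁.map (mapRingHom (Int.castRingHom ℚ))) = 0 := by
        rw [hB₁, eval₂_mul, h0, mul_zero]
      rw [hB₂, Polynomial.map_mul, Polynomial.map_pow, eval₂_mul, eval₂_pow] at h1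
      refine (mul_eq_zero.mp h1).resolve_left (pow_ne_zero _ ?_)
      have hℓ0 : ((ℓ : ℤ) : ℚ) ≠ 0 := by
        exact_mod_cast (Fact.out : ℓ.Prime).ne_zero
      rw [Polynomial.map_C, eval₂_C, coe_mapRingHom, Polynomial.map_C, coe_eval₂RingHom, eval₂_C,
        Int.coe_castRingHom]
      exact HahnSeries.C_ne_zero hℓ0
    rw [hz, map_zero]

end Indep

section Assembly

theorem lagrange_lift {K L : Type*} [CommRing K] [CommRing L] [Nontrivial L] (g : K →+* L)
    {ι : Type*} [Fintype ι] [DecidableEq ι] (ρ z : ι → L) (i₀ : ι)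
    (h1 : ∀ k, (Finset.univ.val.map ρ).esymm k ∈ g.range)
    (h2 : ∀ n, ∑ q, z q * ρ q ^ n ∈ g.range) :
    ∃ Q H : K[X], Q.Monic ∧ Q.natDegree = Fintype.card ι ∧ eval₂ g (ρ i₀) Q = 0 ∧
      z i₀ * eval₂ g (ρ i₀) (derivative Q) = eval₂ g (ρ i₀) H := by
  obtain ⟨H, hH, hHe⟩ := lagrange g.range ρ z i₀ h1 h2
  have hQl : rootPoly ρ ∈ lifts g := (lifts_iff_coeff_lifts _).mpr fun n => by
    simpa using rootPoly_coeff_mem g.range ρ h1 n
  obtain ⟨Q, hQ1, hQ2, hQ3⟩ := lifts_and_natDegree_eq_and_monic hQl (rootPoly_monic ρ)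
  have hHl : H ∈ lifts g := (lifts_iff_coeff_lifts _).mpr fun n => by simpa using hH n
  obtain ⟨H', hH'⟩ := (mem_lifts _).mp hHl
  refine ⟨Q, H', hQ3, by rw [hQ2, rootPoly_natDegree], ?_, ?_⟩
  · rw [← eval_map, hQ1, rootPoly_eval]
  · rw [← eval_map, ← eval_map, ← derivative_map, hQ1, hH', hHe]

theorem esymm_one_eq_sum {L : Type*} [CommRing L] {ι : Type*} [Fintype ι] (f : ι → L) :
    (Finset.univ.val.map f).esymm 1 = ∑ q, f q := by
  rw [Finset.esymm_map_val, Finset.powersetCard_one, Finset.sum_map]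
  simp

theorem eval₂_mem_adjoin (j u : LaurentSeries ℚ) (B : ℚ[X][X]) :
    eval₂ (eval₂RingHom HahnSeries.C j) u B ∈ IntermediateField.adjoin ℚ {j, u} := by
  have hj : j ∈ IntermediateField.adjoin ℚ {j, u} :=
    IntermediateField.subset_adjoin _ _ (Set.mem_insert _ _)
  have hu : u ∈ IntermediateField.adjoin ℚ {j, u} :=
    IntermediateField.subset_adjoin _ _ (Set.mem_insert_of_mem _ rfl)
  have hC : ∀ c : ℚ, (HahnSeries.C c : LaurentSeries ℚ) ∈ IntermediateField.adjoin ℚ {j, u} := by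
    intro c
    have : (HahnSeries.C c : LaurentSeries ℚ) = algebraMap ℚ (LaurentSeries ℚ) c := by
      rw [algebraMap_apply_eq_single, HahnSeries.C_apply]
    rw [this]
    exact IntermediateField.algebraMap_mem _ c
  rw [eval₂_eq_sum_range]
  refine sum_mem fun i _ => mul_mem ?_ (pow_mem hu i)
  rw [coe_eval₂RingHom, eval₂_eq_sum_range]
  exact sum_mem fun k _ => mul_mem (hC _) (pow_mem hj k)

/-- **M6, main statement** (hypothesis-parametrised form of the blueprint's `core`, with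
`m = #C`): from the symmetric-function property over `ℂ` and the mod-`ℓ` independence. -/
theorem core_of (N : ℕ) [NeZero N] (ℓ : ℕ) [Fact ℓ.Prime] (S : RowSystem N)
    (ζC : ℂˣ) (hζC : ζC ^ N = 1) (hC : S.HasSymm ℂ ζC ((N : ℂ)⁻¹))
    (hmodl : ∀ B : Polynomial (Polynomial (ZMod ℓ)), B.natDegree < Fintype.card S.C →
      B.eval₂ (Polynomial.eval₂RingHom HahnSeries.C (jqModC (ZMod ℓ)))
        (ev (ZMod ℓ) N (unitPoly N)) = 0 → B = 0) :
    (∃ Q : Polynomial (Polynomial ℚ), Q.Monic ∧ Q.natDegree = Fintype.card S.C ∧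
      Q.eval₂ (Polynomial.eval₂RingHom HahnSeries.C jq) (ev ℚ N (unitPoly N)) = 0) ∧
    (∀ d : ℕ, d ∣ N → ∀ (_ : NeZero d),
      qExpand ℚ d jq ∈ IntermediateField.adjoin ℚ {jq, ev ℚ N (unitPoly N)}) := by
  classical
  have hN : N ≠ 0 := NeZero.ne N
  have hν : (N : ℂ) * (N : ℂ)⁻¹ = 1 := mul_inv_cancel₀ (Nat.cast_ne_zero.mpr hN)
  obtain ⟨Φ, hΦ⟩ := exists_functional
  -- notation
  set u : MvPolynomial (Gen N) ℤ := unitPoly N with hu
  set g₀ : ℂ[X] →+* LaurentSeries ℂ := eval₂RingHom HahnSeries.C (jqModC ℂ) with hg₀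
  set g : ℂ[X] →+* LaurentSeries ℂ := eval₂RingHom HahnSeries.C (qE ℂ N (jqModC ℂ)) with hg
  have hgg : g = (qE ℂ N).comp g₀ := by
    apply Polynomial.ringHom_ext
    · intro a
      rw [hg, hg₀, RingHom.comp_apply, coe_eval₂RingHom, coe_eval₂RingHom, eval₂_C, eval₂_C, qE_C]
    · rw [hg, hg₀, RingHom.comp_apply, coe_eval₂RingHom, coe_eval₂RingHom, eval₂_X, eval₂_X]
  have hjC : jqModC ℂ = coeffMap (algebraMap ℚ ℂ) jq := (coeffMap_jqModC (algebraMap ℚ ℂ)).symm
  have hevC : ∀ P : MvPolynomial (Gen N) ℤ, ev ℂ N P = coeffMap (algebraMap ℚ ℂ) (ev ℚ N P) :=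
    fun P => (coeffMap_ev (algebraMap ℚ ℂ) N P).symm
  -- the relations over `ℂ((q))`
  have key : ∀ P : MvPolynomial (Gen N) ℤ, ∃ Q H : ℂ[X][X], Q.Monic ∧
      Q.natDegree = Fintype.card S.C ∧ eval₂ g₀ (ev ℂ N u) Q = 0 ∧
      ev ℂ N P * eval₂ g₀ (ev ℂ N u) (derivative Q) = eval₂ g₀ (ev ℂ N u) H := by
    intro P
    have h1 : ∀ k, (Finset.univ.val.map fun q => S.sig ℂ ζC ((N : ℂ)⁻¹) q u).esymm k ∈ g.range := by
      intro k
      obtain ⟨p, hp⟩ := hC u k
      exact ⟨p, by rw [hp, hg, coe_eval₂RingHom]⟩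
    have h2 : ∀ n, ∑ q, S.sig ℂ ζC ((N : ℂ)⁻¹) q P * S.sig ℂ ζC ((N : ℂ)⁻¹) q u ^ n ∈ g.range := by
      intro n
      obtain ⟨p, hp⟩ := hC (P * u ^ n) 1
      refine ⟨p, ?_⟩
      rw [hg, coe_eval₂RingHom, ← hp, esymm_one_eq_sum]
      exact Finset.sum_congr rfl fun q _ => by rw [map_mul, map_pow]
    obtain ⟨Q, H, hQ1, hQ2, hQ3, hQ4⟩ := lagrange_lift g
      (fun q => S.sig ℂ ζC ((N : ℂ)⁻¹) q u) (fun q => S.sig ℂ ζC ((N : ℂ)⁻¹) q P) S.one h1 h2
    refine ⟨Q, H, hQ1, hQ2, ?_, ?_⟩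
    · apply qE_injective ℂ N hN
      rw [map_zero, hom_eval₂, ← hgg, ← sig_one hN S ζC _ hζC hν]
      exact hQ3
    · apply qE_injective ℂ N hN
      rw [map_mul, hom_eval₂, hom_eval₂, ← hgg, ← sig_one hN S ζC _ hζC hν,
        ← sig_one hN S ζC _ hζC hν]
      exact hQ4
  -- descent of a relation
  have desc : ∀ (x : LaurentSeries ℚ) (F : ℂ[X][X]),
      seriesMapAdd Φ.toAddMonoidHom (coeffMap (algebraMap ℚ ℂ) x * eval₂ g₀ (ev ℂ N u) F) =
        x * eval₂ (eval₂RingHom HahnSeries.C jq) (ev ℚ N u)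
          (polyMapAdd (polyMapAdd Φ.toAddMonoidHom) F) := by
    intro x F
    rw [hg₀, hjC, hevC u]
    exact descent Φ jq (ev ℚ N u) x F
  -- independence over `ℚ`
  have hindep : ∀ B : ℚ[X][X], B.natDegree < Fintype.card S.C →
      eval₂ (eval₂RingHom HahnSeries.C jq) (ev ℚ N u) B = 0 → B = 0 := by
    have h := indep_rat_of_modl ℓ (jqModC ℤ) (ev ℤ N u) (Fintype.card S.C)
      (by rw [coeffMap_jqModC, coeffMap_ev]; exact hmodl)
    rw [coeffMap_jqModC, coeffMap_ev] at h
    exact h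
  refine ⟨?_, ?_⟩
  · obtain ⟨Q, H, hQ1, hQ2, hQ3, -⟩ := key 0
    obtain ⟨hm1, hm2⟩ := polyMapAdd2_monic Φ hΦ Q hQ1
    refine ⟨polyMapAdd (polyMapAdd Φ.toAddMonoidHom) Q, hm1, by rw [hm2, hQ2], ?_⟩
    have h := desc 1 Q
    rw [hQ3, mul_zero, map_zero, one_mul] at h
    exact h.symm
  · intro d hd _
    obtain ⟨Q, H, hQ1, hQ2, hQ3, hQ4⟩ := key (MvPolynomial.X (Gen.j ⟨d, hd⟩))
    have hz : ev ℚ N (MvPolynomial.X (Gen.j ⟨d, hd⟩)) = qExpand ℚ d jq := by
      simp only [ev, MvPolynomial.coe_eval₂Hom, MvPolynomial.eval₂_X, genVal]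
      rw [qE_eq_qExpand]
      rfl
    have hm : 0 < Fintype.card S.C := Fintype.card_pos_iff.mpr ⟨S.one⟩
    -- the denominator
    set D : ℚ[X][X] := polyMapAdd (polyMapAdd Φ.toAddMonoidHom) (derivative Q) with hD
    have hDdeg : D.natDegree < Fintype.card S.C := by
      refine lt_of_le_of_lt ?_ (Nat.sub_one_lt hm.ne')
      rw [natDegree_le_iff_coeff_eq_zero]
      intro n hn
      rw [hD, polyMapAdd_coeff, coeff_derivative,
        coeff_eq_zero_of_natDegree_lt (by rw [hQ2]; omega), zero_mul, map_zero]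
    have hD0 : D ≠ 0 := by
      intro h0
      have h1 := congrArg (fun p : ℚ[X][X] => (p.coeff (Fintype.card S.C - 1)).coeff 0) h0
      simp only [hD, polyMapAdd_coeff, coeff_derivative, coeff_zero] at h1
      rw [Nat.sub_add_cancel hm, ← hQ2, hQ1.coeff_natDegree, one_mul, hQ2] at h1
      have h2 : ((Fintype.card S.C - 1 : ℕ) : ℂ[X]) + 1 = C ((Fintype.card S.C : ℕ) : ℂ) := by
        rw [← Nat.cast_succ, Nat.succ_eq_add_one, Nat.sub_add_cancel hm]
        simp
      rw [h2, coeff_C_zero] at h1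
      have h3 : Φ ((Fintype.card S.C : ℕ) : ℂ) = (Fintype.card S.C : ℕ) := map_natCast' Φ hΦ _
      rw [LinearMap.toAddMonoidHom_coe, h3] at h1
      exact hm.ne' (by exact_mod_cast h1)
    have hDval : eval₂ (eval₂RingHom HahnSeries.C jq) (ev ℚ N u) D ≠ 0 :=
      fun h0 => hD0 (hindep D hDdeg h0)
    have h := desc (ev ℚ N (MvPolynomial.X (Gen.j ⟨d, hd⟩))) (derivative Q)
    rw [← hevC, hQ4] at h
    have h' := desc 1 H
    rw [map_one, one_mul, one_mul] at h'
    rw [h', hz] at h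
    have hfin : qExpand ℚ d jq = eval₂ (eval₂RingHom HahnSeries.C jq) (ev ℚ N u)
        (polyMapAdd (polyMapAdd Φ.toAddMonoidHom) H) *
        (eval₂ (eval₂RingHom HahnSeries.C jq) (ev ℚ N u) D)⁻¹ := by
      rw [h, hD, mul_assoc, mul_inv_cancel₀ hDval, mul_one]
    rw [hfin]
    exact mul_mem (eval₂_mem_adjoin _ _ _) (inv_mem (eval₂_mem_adjoin _ _ _))

/-- Independence over `(ZMod ℓ)[j]` from independence over `κ[j]`, `κ` any field of
characteristic `ℓ`. -/
theorem modl_of_field (N : ℕ) (ℓ : ℕ) [Fact ℓ.Prime] {κ : Type*} [Field κ] [CharP κ ℓ] (m : ℕ)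
    (P : MvPolynomial (Gen N) ℤ)
    (h : ∀ B : Polynomial (Polynomial κ), B.natDegree < m →
      B.eval₂ (Polynomial.eval₂RingHom HahnSeries.C (jqModC κ)) (ev κ N P) = 0 → B = 0) :
    ∀ B : Polynomial (Polynomial (ZMod ℓ)), B.natDegree < m →
      B.eval₂ (Polynomial.eval₂RingHom HahnSeries.C (jqModC (ZMod ℓ))) (ev (ZMod ℓ) N P) = 0 →
      B = 0 := by
  have hf : Function.Injective (ZMod.castHom (dvd_refl ℓ) κ) :=
    (ZMod.castHom (dvd_refl ℓ) κ).injective
  refine indep_of_injective (ZMod.castHom (dvd_refl ℓ) κ) hf _ _ m ?_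
  rw [coeffMap_jqModC, coeffMap_ev]
  exact h

/-- **M6, combined form**: the statement of the blueprint's `core` (with `m = #C`), from the
symmetric-function property over `ℂ` (M8) and the independence of the powers of the unit over
`κ[j]` for one field `κ` of characteristic `ℓ` (M7 transfer + M5). -/
theorem core_of_field (N : ℕ) [NeZero N] (ℓ : ℕ) [Fact ℓ.Prime] (S : RowSystem N)
    (ζC : ℂˣ) (hζC : ζC ^ N = 1) (hC : S.HasSymm ℂ ζC ((N : ℂ)⁻¹))
    {κ : Type*} [Field κ] [CharP κ ℓ]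
    (hκ : ∀ B : Polynomial (Polynomial κ), B.natDegree < Fintype.card S.C →
      B.eval₂ (Polynomial.eval₂RingHom HahnSeries.C (jqModC κ)) (ev κ N (unitPoly N)) = 0 →
      B = 0) :
    ∃ m : ℕ,
      (∃ Q : Polynomial (Polynomial ℚ), Q.Monic ∧ Q.natDegree = m ∧
        Q.eval₂ (Polynomial.eval₂RingHom HahnSeries.C jq) (ev ℚ N (unitPoly N)) = 0) ∧
      (∀ d : ℕ, d ∣ N → ∀ (_ : NeZero d),
        qExpand ℚ d jq ∈ IntermediateField.adjoin ℚ {jq, ev ℚ N (unitPoly N)}) ∧
      (∀ B : Polynomial (Polynomial (ZMod ℓ)), B.natDegree < m →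
        B.eval₂ (Polynomial.eval₂RingHom HahnSeries.C (jqModC (ZMod ℓ)))
          (ev (ZMod ℓ) N (unitPoly N)) = 0 → B = 0) := by
  have hmodl := modl_of_field N ℓ (Fintype.card S.C) (unitPoly N) hκ
  obtain ⟨h1, h2⟩ := core_of N ℓ S ζC hζC hC hmodl
  exact ⟨Fintype.card S.C, h1, h2, hmodl⟩

end Assembly

end Fermat.Agent.S28.Char0
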