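import Mathlib
import Fermat.Agent.S28.RowDefs
import Fermat.Agent.S28.LExp
import Fermat.Agent.S28.LExpForms
import Fermat.Agent.S24.PolyJ

set_option autoImplicit false

/-!
# S28, block A5 (M8): `exists_rowSystem`

Main results: `cosetRowSystem N : RowSystem N` (cosets of `Γ₀(N)` in `SL₂(ℤ)`),
`cosetRowSystem_hasSymm_zetaC`, `exists_rowSystem` (exact `Targets` signature) and
`card_cosetRowSystem`.

## The abstract assembly of `RowSystem.HasSymm`

`hasSymm_of_family`: let `E` be a relation "the function `f : ℍ → ℂ` has the Laurent expansion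
`s` (in `t = q^{1/N}`)" which is closed under constants, sums and products, has unique
expansions, implies meromorphy at `i∞` and relates the analytic `j` to `j(t^N)`.
If a family `G q g` of holomorphic functions (the conjugates of the generators) has the
expansions `sigmaGen` and is permuted by `SL(2,ℤ)`, then the row system has the
symmetric-function property.
-/

noncomputable section

namespace Fermat.Agent.S28.RowExists

open UpperHalfPlane ModularForm Complex CongruenceSubgroup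
open Fermat.Agent.S28.Defs Fermat.Agent.S24.JFun Fermat.Agent.S24.PolyJ ModularCurve
open Fermat.Agent.S28.LExp Fermat.Agent.S28.LExpForms
open scoped MatrixGroups Manifold

section Abstract

variable {N : ℕ} (E : (ℍ → ℂ) → LaurentSeries ℂ → Prop)

/-- closure of an expansion relation under evaluation of integer polynomials -/
theorem rel_mvEval {σ : Type*}
    (hconst : ∀ c : ℂ, E (fun _ => c) (HahnSeries.C c))
    (hadd : ∀ f g s t, E f s → E g t → E (fun τ => f τ + g τ) (s + t))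
    (hmul : ∀ f g s t, E f s → E g t → E (fun τ => f τ * g τ) (s * t))
    (G : σ → ℍ → ℂ) (sg : σ → LaurentSeries ℂ) (hG : ∀ g, E (G g) (sg g))
    (P : MvPolynomial σ ℤ) :
    E (fun τ => MvPolynomial.eval₂ (Int.castRingHom ℂ) (fun g => G g τ) P)
      (MvPolynomial.eval₂ (Int.castRingHom (LaurentSeries ℂ)) sg P) := by
  induction P using MvPolynomial.induction_on with
  | C n =>
    simp only [MvPolynomial.eval₂_C]
    have h := hconst (n : ℂ)
    have e : (Int.castRingHom (LaurentSeries ℂ)) n = HahnSeries.C (n : ℂ) := by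
      rw [eq_intCast, map_intCast]
    rw [e]
    simpa using h
  | add p r hp hr =>
    simp only [MvPolynomial.eval₂_add]
    exact hadd _ _ _ _ hp hr
  | mul_X p g hp =>
    simp only [MvPolynomial.eval₂_mul, MvPolynomial.eval₂_X]
    exact hmul _ _ _ _ hp (hG g)

/-- closure of an expansion relation under finite products -/
theorem rel_prod {ι : Type*}
    (hconst : ∀ c : ℂ, E (fun _ => c) (HahnSeries.C c))
    (hmul : ∀ f g s t, E f s → E g t → E (fun τ => f τ * g τ) (s * t))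
    (F : ι → ℍ → ℂ) (sF : ι → LaurentSeries ℂ) (hF : ∀ i, E (F i) (sF i)) (t : Finset ι) :
    E (fun τ => ∏ i ∈ t, F i τ) (∏ i ∈ t, sF i) := by
  classical
  induction t using Finset.induction_on with
  | empty =>
    simp only [Finset.prod_empty]
    have h := hconst 1
    rwa [map_one] at h
  | insert a t ha ih =>
    simp only [Finset.prod_insert ha]
    exact hmul _ _ _ _ (hF a) ih

/-- closure of an expansion relation under finite sums -/
theorem rel_sum {ι : Type*}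
    (hconst : ∀ c : ℂ, E (fun _ => c) (HahnSeries.C c))
    (hadd : ∀ f g s t, E f s → E g t → E (fun τ => f τ + g τ) (s + t))
    (F : ι → ℍ → ℂ) (sF : ι → LaurentSeries ℂ) (t : Finset ι) (hF : ∀ i ∈ t, E (F i) (sF i)) :
    E (fun τ => ∑ i ∈ t, F i τ) (∑ i ∈ t, sF i) := by
  classical
  induction t using Finset.induction_on with
  | empty =>
    simp only [Finset.sum_empty]
    have h := hconst 0
    rwa [map_zero] at h
  | insert a t ha ih =>
    simp only [Finset.sum_insert ha]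
    exact hadd _ _ _ _ (hF a (Finset.mem_insert_self a t))
      (ih fun i hi => hF i (Finset.mem_insert_of_mem hi))

/-- closure of an expansion relation under elementary symmetric functions -/
theorem rel_esymm {ι : Type*} [Fintype ι]
    (hconst : ∀ c : ℂ, E (fun _ => c) (HahnSeries.C c))
    (hadd : ∀ f g s t, E f s → E g t → E (fun τ => f τ + g τ) (s + t))
    (hmul : ∀ f g s t, E f s → E g t → E (fun τ => f τ * g τ) (s * t))
    (F : ι → ℍ → ℂ) (sF : ι → LaurentSeries ℂ) (hF : ∀ i, E (F i) (sF i)) (k : ℕ) :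
    E (fun τ => ((Finset.univ : Finset ι).val.map (fun i => F i τ)).esymm k)
      (((Finset.univ : Finset ι).val.map sF).esymm k) := by
  simp only [Finset.esymm_map_val]
  exact rel_sum E hconst hadd _ _ _ fun t _ => rel_prod E hconst hmul F sF hF t

/-- closure of an expansion relation under evaluation of polynomials -/
theorem rel_polyEval
    (hconst : ∀ c : ℂ, E (fun _ => c) (HahnSeries.C c))
    (hadd : ∀ f g s t, E f s → E g t → E (fun τ => f τ + g τ) (s + t))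
    (hmul : ∀ f g s t, E f s → E g t → E (fun τ => f τ * g τ) (s * t))
    (J : ℍ → ℂ) (sJ : LaurentSeries ℂ) (hJ : E J sJ) (p : Polynomial ℂ) :
    E (fun τ => p.eval (J τ))
      (Polynomial.eval₂ (HahnSeries.C : ℂ →+* LaurentSeries ℂ) sJ p) := by
  induction p using Polynomial.induction_on' with
  | add p r hp hr =>
    simp only [Polynomial.eval_add, Polynomial.eval₂_add]
    exact hadd _ _ _ _ hp hr
  | monomial n c =>
    simp only [Polynomial.eval_monomial, Polynomial.eval₂_monomial]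
    refine hmul _ _ _ _ (hconst c) ?_
    have h := rel_prod E hconst hmul (fun _ : Fin n => J) (fun _ => sJ) (fun _ => hJ) Finset.univ
    simpa using h

/-- holomorphy of integer polynomial combinations -/
theorem mdiff_mvEval {σ : Type*} (G : σ → ℍ → ℂ) (hG : ∀ g, MDiff (G g))
    (P : MvPolynomial σ ℤ) :
    MDiff (fun τ => MvPolynomial.eval₂ (Int.castRingHom ℂ) (fun g => G g τ) P) := by
  induction P using MvPolynomial.induction_on with
  | C n =>
    simp only [MvPolynomial.eval₂_C]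
    exact mdifferentiable_const
  | add p r hp hr =>
    simp only [MvPolynomial.eval₂_add]
    exact hp.add hr
  | mul_X p g hp =>
    simp only [MvPolynomial.eval₂_mul, MvPolynomial.eval₂_X]
    exact hp.mul (hG g)

/-- holomorphy of elementary symmetric functions -/
theorem mdiff_esymm {ι : Type} [Fintype ι] (F : ι → ℍ → ℂ) (hF : ∀ i, MDiff (F i)) (k : ℕ) :
    MDiff (fun τ => ((Finset.univ : Finset ι).val.map (fun i => F i τ)).esymm k) := by
  simp only [Finset.esymm_map_val]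
  have h1 : ∀ t : Finset ι, MDiff (fun τ => ∏ i ∈ t, F i τ) := by
    intro t
    have := MDifferentiable.prod (I := 𝓘(ℂ)) (t := t) (f := fun i => F i) (fun i _ => hF i)
    simpa [Finset.prod_fn] using this
  have := MDifferentiable.sum (I := 𝓘(ℂ))
    (t := Finset.powersetCard k (Finset.univ : Finset ι))
    (f := fun t τ => ∏ i ∈ t, F i τ) (fun t _ => h1 t)
  simpa [Finset.sum_fn] using this

/-- **Abstract assembly.** -/
theorem hasSymm_of_family (S : RowSystem N) (ζ : ℂˣ) (ν : ℂ)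
    (hconst : ∀ c : ℂ, E (fun _ => c) (HahnSeries.C c))
    (hadd : ∀ f g s t, E f s → E g t → E (fun τ => f τ + g τ) (s + t))
    (hmul : ∀ f g s t, E f s → E g t → E (fun τ => f τ * g τ) (s * t))
    (hunique : ∀ f s t, E f s → E f t → s = t)
    (hbdd : ∀ f s, E f s → ∃ m : ℕ,
      IsBoundedAtImInfty (fun τ : ℍ => Function.Periodic.qParam 1 (τ : ℂ) ^ m * f τ))
    (hj : E jFun (qE ℂ N (jqModC ℂ)))
    (G : S.C → Gen N → ℍ → ℂ)
    (hG : ∀ q g, E (G q g) (sigmaGen ℂ ζ ν N (S.a q) (S.b q) g))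
    (hGhol : ∀ q g, MDiff (G q g))
    (hGperm : ∀ γ : SL(2, ℤ), ∃ π : Equiv.Perm S.C, ∀ q g τ, G q g (γ • τ) = G (π q) g τ) :
    S.HasSymm ℂ ζ ν := by
  intro P k
  -- the conjugates of `P`
  set F : S.C → ℍ → ℂ := fun q τ =>
    MvPolynomial.eval₂ (Int.castRingHom ℂ) (fun g => G q g τ) P with hFdef
  have hF : ∀ q, E (F q) (S.sig ℂ ζ ν q P) := fun q =>
    rel_mvEval E hconst hadd hmul (G q) _ (hG q) P
  have hFhol : ∀ q, MDiff (F q) := fun q => mdiff_mvEval (G q) (hGhol q) P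
  -- the symmetric function
  set e : ℍ → ℂ := fun τ => ((Finset.univ : Finset S.C).val.map (fun q => F q τ)).esymm k
    with hedef
  have he : E e (((Finset.univ : Finset S.C).val.map (fun q => S.sig ℂ ζ ν q P)).esymm k) :=
    rel_esymm E hconst hadd hmul F _ hF k
  have hehol : MDiff e := mdiff_esymm F hFhol k
  have heinv : ∀ (γ : SL(2, ℤ)) (τ : ℍ), e (γ • τ) = e τ := by
    intro γ τ
    obtain ⟨π, hπ⟩ := hGperm γ
    have h1 : ∀ q, F q (γ • τ) = F (π q) τ := by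
      intro q
      simp only [hFdef]
      congr 1
      funext g
      exact hπ q g τ
    simp only [hedef]
    have h2 : (fun q => F q (γ • τ)) = (fun q => F q τ) ∘ π := by
      funext q
      exact h1 q
    rw [h2, ← Multiset.map_map, Multiset.map_univ_val_equiv]
  obtain ⟨m, hm⟩ := hbdd _ _ he
  obtain ⟨p, -, hp⟩ := exists_polynomial_eval_jFun m hehol heinv hm
  refine ⟨p, ?_⟩
  have he' : E e (Polynomial.eval₂ (HahnSeries.C : ℂ →+* LaurentSeries ℂ)
      (qE ℂ N (jqModC ℂ)) p) := by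
    have h := rel_polyEval E hconst hadd hmul jFun _ hj p
    have hfun : e = fun τ => p.eval (jFun τ) := funext hp
    rw [hfun]
    exact h
  exact hunique _ _ _ he he'

end Abstract

/-! ### Points, Hermite normal form -/

/-- the point `(a τ + b) / d'` of `ℍ` (junk unless `0 < a`, `0 < d'`) -/
def affPt (a b d' : ℕ) (τ : ℍ) : ℍ := ofComplex (((a : ℂ) * τ + b) / d')

theorem coe_affPt {a b d' : ℕ} (ha : 0 < a) (hd' : 0 < d') (τ : ℍ) :
    (affPt a b d' τ : ℂ) = ((a : ℂ) * τ + b) / d' := by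
  have him : 0 < ((((a : ℂ) * τ + b) / d').im) := by
    have h1 : (((a : ℂ) * τ + b) / d').im = a * τ.im / d' := by
      simp [Complex.div_natCast_im]
    rw [h1]
    have := τ.im_pos
    positivity
  rw [affPt, ofComplex_apply_of_im_pos him]

/-- the point `d τ` -/
def mulPt (d : ℕ) (τ : ℍ) : ℍ := ofComplex ((d : ℂ) * τ)

theorem coe_mulPt {d : ℕ} (hd : 0 < d) (τ : ℍ) : (mulPt d τ : ℂ) = (d : ℂ) * τ := by
  have him : 0 < (((d : ℂ) * τ).im) := by
    have h1 : ((d : ℂ) * τ).im = d * τ.im := by simp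
    rw [h1]
    have := τ.im_pos
    positivity
  rw [mulPt, ofComplex_apply_of_im_pos him]

theorem coe_sl_smul (γ : SL(2, ℤ)) (τ : ℍ) :
    ((γ • τ : ℍ) : ℂ) = ((γ 0 0 : ℂ) * τ + (γ 0 1 : ℂ)) / ((γ 1 0 : ℂ) * τ + (γ 1 1 : ℂ)) := by
  rw [UpperHalfPlane.coe_specialLinearGroup_apply]
  simp

theorem denom_sl (γ : SL(2, ℤ)) (τ : ℍ) :
    denom γ τ = (γ 1 0 : ℂ) * τ + (γ 1 1 : ℂ) := by
  rw [ModularGroup.denom_apply]

/-- analytic form of the Hermite normal form `(d 0; 0 1) γ = δ (a b; 0 d')` -/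
theorem hermite_smul (γ δ : SL(2, ℤ)) {d a b d' : ℕ} (hd : 0 < d) (ha : 0 < a) (hd' : 0 < d')
    (h00 : (d : ℤ) * γ 0 0 = δ 0 0 * a) (h01 : (d : ℤ) * γ 0 1 = δ 0 0 * b + δ 0 1 * d')
    (h10 : γ 1 0 = δ 1 0 * a) (h11 : γ 1 1 = δ 1 0 * b + δ 1 1 * d') (τ : ℍ) :
    mulPt d (γ • τ) = δ • affPt a b d' τ ∧ denom δ (affPt a b d' τ) = denom γ τ / d' := by
  have hd'0 : (d' : ℂ) ≠ 0 := Nat.cast_ne_zero.mpr hd'.ne'
  have e00 : (d : ℂ) * (γ 0 0 : ℂ) = (δ 0 0 : ℂ) * a := by exact_mod_cast congrArg (Int.cast : ℤ → ℂ) h00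
  have e01 : (d : ℂ) * (γ 0 1 : ℂ) = (δ 0 0 : ℂ) * b + (δ 0 1 : ℂ) * d' := by
    exact_mod_cast congrArg (Int.cast : ℤ → ℂ) h01
  have e10 : (γ 1 0 : ℂ) = (δ 1 0 : ℂ) * a := by exact_mod_cast congrArg (Int.cast : ℤ → ℂ) h10
  have e11 : (γ 1 1 : ℂ) = (δ 1 0 : ℂ) * b + (δ 1 1 : ℂ) * d' := by
    exact_mod_cast congrArg (Int.cast : ℤ → ℂ) h11
  have hden : denom δ (affPt a b d' τ) = denom γ τ / d' := by
    rw [denom_sl, denom_sl, coe_affPt ha hd', e10, e11]
    field_simp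
    ring
  refine ⟨?_, hden⟩
  have hγ0 : denom γ τ ≠ 0 := denom_ne_zero γ τ
  have hδ0 : denom δ (affPt a b d' τ) ≠ 0 := denom_ne_zero δ _
  apply UpperHalfPlane.ext
  rw [coe_mulPt hd, coe_sl_smul, coe_sl_smul]
  rw [denom_sl] at hγ0 hδ0
  have hden' := hden
  rw [denom_sl, denom_sl] at hden'
  rw [hden']
  rw [coe_affPt ha hd']
  have hnum : (δ 0 0 : ℂ) * (((a : ℂ) * τ + b) / d') + (δ 0 1 : ℂ) =
      (d : ℂ) * ((γ 0 0 : ℂ) * τ + (γ 0 1 : ℂ)) / d' := by
    rw [mul_add, ← mul_assoc, e00, e01]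
    field_simp
    ring
  rw [hnum]
  field_simp

/-- conjugating an element of `Γ₀(d)` by `(d 0; 0 1)` -/
theorem mulPt_smul_of_dvd (h : SL(2, ℤ)) {d : ℕ} (hd : 0 < d) (c' : ℤ) (hc : h 1 0 = d * c')
    (w : ℍ) :
    ∃ h' : SL(2, ℤ), mulPt d (h • w) = h' • mulPt d w ∧ denom h' (mulPt d w) = denom h w := by
  have hdet : h 0 0 * h 1 1 - h 0 1 * h 1 0 = 1 := by
    have := h.det_coe
    rwa [Matrix.det_fin_two] at this
  obtain ⟨h', e00, e01, e10, e11⟩ : ∃ h' : SL(2, ℤ), h' 0 0 = h 0 0 ∧ h' 0 1 = d * h 0 1 ∧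
      h' 1 0 = c' ∧ h' 1 1 = h 1 1 := by
    refine ⟨⟨!![h 0 0, d * h 0 1; c', h 1 1], ?_⟩, rfl, rfl, rfl, rfl⟩
    rw [Matrix.det_fin_two_of]
    rw [hc] at hdet
    linear_combination hdet
  have f10 : (h 1 0 : ℂ) = (d : ℂ) * (c' : ℂ) := by exact_mod_cast congrArg (Int.cast : ℤ → ℂ) hc
  have hden : denom h' (mulPt d w) = denom h w := by
    rw [denom_sl, denom_sl, coe_mulPt hd, e10, e11, f10]
    ring
  refine ⟨h', ?_, hden⟩
  have hw0 : denom h w ≠ 0 := denom_ne_zero h w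
  have hden' := hden
  rw [denom_sl, denom_sl] at hden'
  rw [denom_sl] at hw0
  apply UpperHalfPlane.ext
  rw [coe_mulPt hd, coe_sl_smul, coe_sl_smul, hden', coe_mulPt hd, e00, e01]
  push_cast
  field_simp

theorem mdiff_comp_affPt {f : ℍ → ℂ} (hf : MDiff f) {a b d' : ℕ} (ha : 0 < a) (hd' : 0 < d') :
    MDiff (fun τ => f (affPt a b d' τ)) := by
  rw [UpperHalfPlane.mdifferentiable_iff] at hf ⊢
  have hmaps : Set.MapsTo (fun z : ℂ => ((a : ℂ) * z + b) / d') {z | 0 < z.im} {z | 0 < z.im} := by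
    intro z hz
    simp only [Set.mem_ofPred_eq] at hz ⊢
    have h1 : (((a : ℂ) * z + b) / d').im = a * z.im / d' := by
      simp [Complex.div_natCast_im]
    rw [h1]
    positivity
  have hd : DifferentiableOn ℂ (fun z : ℂ => ((a : ℂ) * z + b) / d') {z | 0 < z.im} := by
    fun_prop
  have := hf.comp hd hmaps
  refine this.congr fun z hz => ?_
  simp only [Function.comp_apply]
  have hz' : 0 < z.im := hz
  rw [ofComplex_apply_of_im_pos hz']
  rfl

theorem mdiff_comp_mulPt {f : ℍ → ℂ} (hf : MDiff f) {d : ℕ} (hd : 0 < d) :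
    MDiff (fun τ => f (mulPt d τ)) := by
  rw [UpperHalfPlane.mdifferentiable_iff] at hf ⊢
  have hmaps : Set.MapsTo (fun z : ℂ => (d : ℂ) * z) {z | 0 < z.im} {z | 0 < z.im} := by
    intro z hz
    simp only [Set.mem_ofPred_eq] at hz ⊢
    have h1 : ((d : ℂ) * z).im = d * z.im := by simp
    rw [h1]
    positivity
  have hd : DifferentiableOn ℂ (fun z : ℂ => (d : ℂ) * z) {z | 0 < z.im} := by
    fun_prop
  have := hf.comp hd hmaps
  refine this.congr fun z hz => ?_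
  simp only [Function.comp_apply]
  have hz' : 0 < z.im := hz
  rw [ofComplex_apply_of_im_pos hz']
  rfl

theorem mdiff_comp_smul {f : ℍ → ℂ} (hf : MDiff f) (γ : SL(2, ℤ)) :
    MDiff (fun τ => f (γ • τ)) := by
  have hg : 0 < ((γ : GL (Fin 2) ℝ)).det.val := by simp
  exact hf.comp (mdifferentiable_smul hg)

/-- Hermite normal form of `(d 0; 0 1) γ`. -/
theorem exists_hermite (γ : SL(2, ℤ)) {d : ℕ} (hd : 0 < d) :
    ∃ (δ : SL(2, ℤ)) (b : ℕ),
      (d : ℤ) * γ 0 0 = δ 0 0 * (Nat.gcd d (γ 1 0).natAbs : ℕ) ∧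
      (d : ℤ) * γ 0 1 = δ 0 0 * b + δ 0 1 * ((d / Nat.gcd d (γ 1 0).natAbs : ℕ) : ℤ) ∧
      γ 1 0 = δ 1 0 * (Nat.gcd d (γ 1 0).natAbs : ℕ) ∧
      γ 1 1 = δ 1 0 * b + δ 1 1 * ((d / Nat.gcd d (γ 1 0).natAbs : ℕ) : ℤ) := by
  have hdet : γ 0 0 * γ 1 1 - γ 0 1 * γ 1 0 = 1 := by
    have := γ.det_coe
    rwa [Matrix.det_fin_two] at this
  set a : ℕ := Nat.gcd d (γ 1 0).natAbs with ha
  have ha0 : 0 < a := Nat.gcd_pos_of_pos_left _ hd
  have had : a ∣ d := Nat.gcd_dvd_left _ _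
  set d' : ℕ := d / a with hd'
  have hdd : d = a * d' := (Nat.mul_div_cancel' had).symm
  have hd'0 : 0 < d' := Nat.div_pos (Nat.le_of_dvd hd had) ha0
  have hac : (a : ℤ) ∣ γ 1 0 := Int.natCast_dvd.mpr (Nat.gcd_dvd_right _ _)
  obtain ⟨s, hs⟩ := hac
  have hcop : IsCoprime (d' : ℤ) s := by
    rw [Int.isCoprime_iff_gcd_eq_one]
    have h1 : Int.gcd ((a : ℤ) * (d' : ℤ)) ((a : ℤ) * s) = a := by
      rw [← hs, ← Nat.cast_mul, ← hdd, ha]
      rfl
    rw [Int.gcd_mul_left, Int.natAbs_natCast] at h1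
    exact Nat.eq_of_mul_eq_mul_left ha0 (by rw [h1, mul_one])
  obtain ⟨x, y, hxy⟩ := hcop
  -- `x * d' + y * s = 1`
  set b₀ : ℤ := γ 1 1 * y with hb₀
  have hd'z : (0 : ℤ) < (d' : ℤ) := by exact_mod_cast hd'0
  set k : ℤ := b₀ / d' with hk
  have hbnn : 0 ≤ b₀ % (d' : ℤ) := Int.emod_nonneg _ hd'z.ne'
  obtain ⟨b, hb⟩ := Int.eq_ofNat_of_zero_le hbnn
  have hbk : (b : ℤ) = b₀ - d' * k := by
    rw [← hb, Int.emod_def]
  set t : ℤ := γ 1 1 * x + s * k with ht
  have h11 : γ 1 1 = s * b + t * d' := by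
    rw [hbk, ht, hb₀]
    linear_combination (-(γ 1 1)) * hxy
  refine ⟨⟨!![(d' : ℤ) * γ 0 0, a * γ 0 1 - γ 0 0 * b; s, t], ?_⟩, b, ?_, ?_, ?_, ?_⟩
  · rw [Matrix.det_fin_two_of]
    rw [hs] at hdet
    linear_combination hdet - (γ 0 0) * h11
  · show (d : ℤ) * γ 0 0 = (d' : ℤ) * γ 0 0 * (a : ℤ)
    rw [hdd]; push_cast; ring
  · show (d : ℤ) * γ 0 1 = (d' : ℤ) * γ 0 0 * b + (a * γ 0 1 - γ 0 0 * b) * (d' : ℤ)
    rw [hdd]; push_cast; ring
  · show γ 1 0 = s * (a : ℤ)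
    rw [hs]; ring
  · show γ 1 1 = s * b + t * (d' : ℤ)
    exact h11

/-! ### The analytic generators -/

/-- the analytic generators: `j(dτ)`, `Δ(dτ)/Δ(τ)`, `Δ(τ)/Δ(dτ)` -/
def genFun (N : ℕ) : Gen N → ℍ → ℂ
  | .j d => fun τ => jFun (mulPt d.1 τ)
  | .x d => fun τ => discriminant (mulPt d.1 τ) / discriminant τ
  | .y d => fun τ => discriminant τ / discriminant (mulPt d.1 τ)

theorem genFun_mdiff {N : ℕ} (hN : 0 < N) (g : Gen N) : MDiff (genFun N g) := by
  cases g with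
  | j d =>
    exact mdiff_comp_mulPt jFun_mdiff (Nat.pos_of_dvd_of_pos d.2 hN)
  | x d =>
    exact (mdiff_comp_mulPt disc_mdiff (Nat.pos_of_dvd_of_pos d.2 hN)).div disc_mdiff
      discriminant_ne_zero
  | y d =>
    exact disc_mdiff.div (mdiff_comp_mulPt disc_mdiff (Nat.pos_of_dvd_of_pos d.2 hN))
      (fun z => discriminant_ne_zero _)

theorem mem_Gamma0_iff_dvd' {N : ℕ} (g : SL(2, ℤ)) : g ∈ Gamma0 N ↔ (N : ℤ) ∣ g 1 0 := by
  rw [Gamma0_mem, ZMod.intCast_zmod_eq_zero_iff_dvd]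

/-- the generators are `Γ₀(N)`-invariant -/
theorem genFun_smul_Gamma0 {N : ℕ} (hN : 0 < N) (g : Gen N) (h : SL(2, ℤ)) (hh : h ∈ Gamma0 N)
    (w : ℍ) : genFun N g (h • w) = genFun N g w := by
  rw [mem_Gamma0_iff_dvd'] at hh
  have key : ∀ d : {d : ℕ // d ∣ N}, ∃ h' : SL(2, ℤ), mulPt d.1 (h • w) = h' • mulPt d.1 w ∧
      denom h' (mulPt d.1 w) = denom h w := by
    intro d
    obtain ⟨c', hc'⟩ : (d.1 : ℤ) ∣ h 1 0 := (Int.natCast_dvd_natCast.mpr d.2).trans hh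
    exact mulPt_smul_of_dvd h (Nat.pos_of_dvd_of_pos d.2 hN) c' hc' w
  have hw0 : denom h w ≠ 0 := denom_ne_zero h w
  cases g with
  | j d =>
    obtain ⟨h', e1, -⟩ := key d
    show jFun (mulPt d.1 (h • w)) = jFun (mulPt d.1 w)
    rw [e1, jFun_smul]
  | x d =>
    obtain ⟨h', e1, e2⟩ := key d
    show discriminant (mulPt d.1 (h • w)) / discriminant (h • w) =
      discriminant (mulPt d.1 w) / discriminant w
    rw [e1, disc_smul, disc_smul, e2]
    have := discriminant_ne_zero w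
    field_simp
  | y d =>
    obtain ⟨h', e1, e2⟩ := key d
    show discriminant (h • w) / discriminant (mulPt d.1 (h • w)) =
      discriminant w / discriminant (mulPt d.1 w)
    rw [e1, disc_smul, disc_smul, e2]
    have := discriminant_ne_zero w
    have := discriminant_ne_zero (mulPt d.1 w)
    field_simp

/-! ### The row system of `Γ₀(N) \ SL₂(ℤ)` -/

section Cosets

variable (N : ℕ) [NeZero N]

/-- representative of the right coset `Γ₀(N) g⁻¹` attached to the left coset `g Γ₀(N)` -/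
def rep (q : SL(2, ℤ) ⧸ Gamma0 N) : SL(2, ℤ) := (Quotient.out q)⁻¹

/-- the Hermite `b` -/
def hermB (γ : SL(2, ℤ)) (d : ℕ) : ℕ :=
  if hd : 0 < d then (exists_hermite γ hd).choose_spec.choose else 0

/-- the Hermite `δ` -/
def hermD (γ : SL(2, ℤ)) (d : ℕ) : SL(2, ℤ) :=
  if hd : 0 < d then (exists_hermite γ hd).choose else 1

theorem herm_spec (γ : SL(2, ℤ)) {d : ℕ} (hd : 0 < d) :
    (d : ℤ) * γ 0 0 = hermD γ d 0 0 * (Nat.gcd d (γ 1 0).natAbs : ℕ) ∧
      (d : ℤ) * γ 0 1 = hermD γ d 0 0 * hermB γ d +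
        hermD γ d 0 1 * ((d / Nat.gcd d (γ 1 0).natAbs : ℕ) : ℤ) ∧
      γ 1 0 = hermD γ d 1 0 * (Nat.gcd d (γ 1 0).natAbs : ℕ) ∧
      γ 1 1 = hermD γ d 1 0 * hermB γ d +
        hermD γ d 1 1 * ((d / Nat.gcd d (γ 1 0).natAbs : ℕ) : ℤ) := by
  rw [hermD, hermB, dif_pos hd, dif_pos hd]
  exact (exists_hermite γ hd).choose_spec.choose_spec

omit [NeZero N] in
theorem rep_mem_iff (q : SL(2, ℤ) ⧸ Gamma0 N) :
    rep N q ∈ Gamma0 N ↔ q = ((1 : SL(2, ℤ)) : SL(2, ℤ) ⧸ Gamma0 N) := by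
  rw [rep, inv_mem_iff]
  constructor
  · intro h
    rw [← QuotientGroup.out_eq' q, eq_comm, QuotientGroup.eq]
    simpa using h
  · rintro rfl
    obtain ⟨h, hh⟩ := QuotientGroup.mk_out_eq_mul (Gamma0 N) 1
    rw [hh, one_mul]
    exact h.2

/-- the row system of the cosets of `Γ₀(N)` -/
def cosetRowSystem : RowSystem N where
  C := SL(2, ℤ) ⧸ Gamma0 N
  fintype := Fintype.ofFinite _
  a q d := Nat.gcd d ((rep N q) 1 0).natAbs
  b q d := hermB (rep N q) d
  one := ((1 : SL(2, ℤ)) : SL(2, ℤ) ⧸ Gamma0 N)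
  a_gcd q d hd := by
    show Nat.gcd d _ = Nat.gcd d (Nat.gcd N _)
    rw [← Nat.gcd_assoc, Nat.gcd_eq_left hd]
  a_one := by
    show Nat.gcd N _ = N
    have h := (rep_mem_iff N _).mpr rfl
    rw [mem_Gamma0_iff_dvd'] at h
    exact Nat.gcd_eq_left (Int.natCast_dvd.mp h)
  eq_one q hq := by
    apply (rep_mem_iff N q).mp
    rw [mem_Gamma0_iff_dvd']
    have hq' : Nat.gcd N ((rep N q) 1 0).natAbs = N := hq
    have h2 := Nat.gcd_dvd_right N ((rep N q) 1 0).natAbs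
    rw [hq'] at h2
    exact Int.natCast_dvd.mpr h2

/-- the conjugates of the analytic generators -/
def cosetFun (q : SL(2, ℤ) ⧸ Gamma0 N) (g : Gen N) : ℍ → ℂ := fun τ => genFun N g (rep N q • τ)

theorem cosetFun_mdiff (q : SL(2, ℤ) ⧸ Gamma0 N) (g : Gen N) : MDiff (cosetFun N q g) :=
  mdiff_comp_smul (genFun_mdiff (Nat.pos_of_ne_zero (NeZero.ne N)) g) _

theorem cosetFun_perm (γ : SL(2, ℤ)) :
    ∃ π : Equiv.Perm (SL(2, ℤ) ⧸ Gamma0 N), ∀ q g τ,
      cosetFun N q g (γ • τ) = cosetFun N (π q) g τ := by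
  refine ⟨MulAction.toPerm γ⁻¹, fun q g τ => ?_⟩
  have hq : (MulAction.toPerm γ⁻¹ : Equiv.Perm (SL(2, ℤ) ⧸ Gamma0 N)) q =
      ((γ⁻¹ * Quotient.out q : SL(2, ℤ)) : SL(2, ℤ) ⧸ Gamma0 N) := by
    conv_lhs => rw [← QuotientGroup.out_eq' q]
    rfl
  obtain ⟨h, hh⟩ := QuotientGroup.mk_out_eq_mul (Gamma0 N) (γ⁻¹ * Quotient.out q)
  have hrep : rep N ((MulAction.toPerm γ⁻¹ : Equiv.Perm (SL(2, ℤ) ⧸ Gamma0 N)) q) =
      (h : SL(2, ℤ))⁻¹ * (rep N q * γ) := by
    rw [hq, rep, hh, rep]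
    group
  show genFun N g (rep N q • γ • τ) = genFun N g (rep N _ • τ)
  rw [hrep, mul_smul, mul_smul, genFun_smul_Gamma0 (Nat.pos_of_ne_zero (NeZero.ne N)) g _
    (inv_mem h.2)]

end Cosets

/-! ### The expansions of the conjugates -/

section Expansions

variable (N : ℕ) [NeZero N] (ζ : ℂˣ) (E : (ℍ → ℂ) → LaurentSeries ℂ → Prop)

theorem cosetFun_rel
    (hconst : ∀ c : ℂ, E (fun _ => c) (HahnSeries.C c))
    (hmul : ∀ f g s t, E f s → E g t → E (fun τ => f τ * g τ) (s * t))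
    (hsubj : ∀ a b d' : ℕ, 0 < a → 0 < d' → d' ∣ N →
      E (fun τ => jFun (affPt a b d' τ))
        (twist ℂ (ζ ^ (N / d' * b)) (a * (N / d')) (jqModC ℂ)))
    (hsubΔ : ∀ a b d' : ℕ, 0 < a → 0 < d' → d' ∣ N →
      E (fun τ => discriminant (affPt a b d' τ))
        (twist ℂ (ζ ^ (N / d' * b)) (a * (N / d')) (deltaR ℂ)))
    (hsubΔinv : ∀ a b d' : ℕ, 0 < a → 0 < d' → d' ∣ N →
      E (fun τ => (discriminant (affPt a b d' τ))⁻¹)
        (twist ℂ (ζ ^ (N / d' * b)) (a * (N / d')) (deltaInvR ℂ)))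
    (hEΔ : E discriminant (qE ℂ N (deltaR ℂ)))
    (hEΔinv : E (fun τ => (discriminant τ)⁻¹) (qE ℂ N (deltaInvR ℂ)))
    (q : SL(2, ℤ) ⧸ Gamma0 N) (g : Gen N) :
    E (cosetFun N q g)
      (sigmaGen ℂ ζ ((N : ℂ)⁻¹) N ((cosetRowSystem N).a q) ((cosetRowSystem N).b q) g) := by
  have hN : 0 < N := Nat.pos_of_ne_zero (NeZero.ne N)
  have hNC : (N : ℂ) ≠ 0 := Nat.cast_ne_zero.mpr hN.ne'
  -- common Hermite data
  have key : ∀ d : {d : ℕ // d ∣ N},
      0 < Nat.gcd d.1 ((rep N q) 1 0).natAbs ∧ 0 < d.1 / Nat.gcd d.1 ((rep N q) 1 0).natAbs ∧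
      d.1 / Nat.gcd d.1 ((rep N q) 1 0).natAbs ∣ N ∧
      ∀ τ : ℍ, mulPt d.1 (rep N q • τ) = hermD (rep N q) d.1 •
          affPt (Nat.gcd d.1 ((rep N q) 1 0).natAbs) (hermB (rep N q) d.1)
            (d.1 / Nat.gcd d.1 ((rep N q) 1 0).natAbs) τ ∧
        denom (hermD (rep N q) d.1)
          (affPt (Nat.gcd d.1 ((rep N q) 1 0).natAbs) (hermB (rep N q) d.1)
            (d.1 / Nat.gcd d.1 ((rep N q) 1 0).natAbs) τ) =
          denom (rep N q) τ / ((d.1 / Nat.gcd d.1 ((rep N q) 1 0).natAbs : ℕ) : ℂ) := by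
    intro d
    have hd : 0 < d.1 := Nat.pos_of_dvd_of_pos d.2 hN
    have ha : 0 < Nat.gcd d.1 ((rep N q) 1 0).natAbs := Nat.gcd_pos_of_pos_left _ hd
    have had : Nat.gcd d.1 ((rep N q) 1 0).natAbs ∣ d.1 := Nat.gcd_dvd_left _ _
    have hd' : 0 < d.1 / Nat.gcd d.1 ((rep N q) 1 0).natAbs :=
      Nat.div_pos (Nat.le_of_dvd hd had) ha
    have hd'N : d.1 / Nat.gcd d.1 ((rep N q) 1 0).natAbs ∣ N :=
      (Nat.div_dvd_of_dvd had).trans d.2
    obtain ⟨h00, h01, h10, h11⟩ := herm_spec (rep N q) hd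
    exact ⟨ha, hd', hd'N, fun τ => hermite_smul (rep N q) (hermD (rep N q) d.1) hd ha hd'
      h00 h01 h10 h11 τ⟩
  cases g with
  | j d =>
    obtain ⟨ha, hd', hd'N, hτ⟩ := key d
    have hfun : cosetFun N q (Gen.j d) = fun τ =>
        jFun (affPt (Nat.gcd d.1 ((rep N q) 1 0).natAbs) (hermB (rep N q) d.1)
            (d.1 / Nat.gcd d.1 ((rep N q) 1 0).natAbs) τ) := by
      funext τ
      show jFun (mulPt d.1 (rep N q • τ)) = _
      rw [(hτ τ).1, jFun_smul]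
    rw [hfun]
    exact hsubj _ _ _ ha hd' hd'N
  | x d =>
    obtain ⟨ha, hd', hd'N, hτ⟩ := key d
    have hd'C : ((d.1 / Nat.gcd d.1 ((rep N q) 1 0).natAbs : ℕ) : ℂ) ≠ 0 :=
      Nat.cast_ne_zero.mpr hd'.ne'
    have hfun : cosetFun N q (Gen.x d) = fun τ =>
        ((((N / (d.1 / Nat.gcd d.1 ((rep N q) 1 0).natAbs) : ℕ) : ℂ) * (N : ℂ)⁻¹) ^ 12 *
          discriminant (affPt (Nat.gcd d.1 ((rep N q) 1 0).natAbs) (hermB (rep N q) d.1)
            (d.1 / Nat.gcd d.1 ((rep N q) 1 0).natAbs) τ)) * (discriminant τ)⁻¹ := by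
      funext τ
      show discriminant (mulPt d.1 (rep N q • τ)) / discriminant (rep N q • τ) = _
      rw [(hτ τ).1, disc_smul, disc_smul, (hτ τ).2, Nat.cast_div hd'N hd'C]
      have h1 := discriminant_ne_zero τ
      have h2 : denom (rep N q) τ ≠ 0 := denom_ne_zero _ τ
      rw [show ((12 : ℤ)) = ((12 : ℕ) : ℤ) from rfl, zpow_natCast, zpow_natCast]
      field_simp
    rw [hfun]
    exact hmul _ _ _ _ (hmul _ _ _ _ (hconst _) (hsubΔ _ _ _ ha hd' hd'N)) hEΔinv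
  | y d =>
    obtain ⟨ha, hd', hd'N, hτ⟩ := key d
    have hd'C : ((d.1 / Nat.gcd d.1 ((rep N q) 1 0).natAbs : ℕ) : ℂ) ≠ 0 :=
      Nat.cast_ne_zero.mpr hd'.ne'
    have hfun : cosetFun N q (Gen.y d) = fun τ =>
        (((d.1 / Nat.gcd d.1 ((rep N q) 1 0).natAbs : ℕ) : ℂ) ^ 12 * discriminant τ) *
          (discriminant (affPt (Nat.gcd d.1 ((rep N q) 1 0).natAbs) (hermB (rep N q) d.1)
            (d.1 / Nat.gcd d.1 ((rep N q) 1 0).natAbs) τ))⁻¹ := by
      funext τ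
      show discriminant (rep N q • τ) / discriminant (mulPt d.1 (rep N q • τ)) = _
      rw [(hτ τ).1, disc_smul, disc_smul, (hτ τ).2]
      have h1 := discriminant_ne_zero τ
      have h3 := discriminant_ne_zero (affPt (Nat.gcd d.1 ((rep N q) 1 0).natAbs)
        (hermB (rep N q) d.1) (d.1 / Nat.gcd d.1 ((rep N q) 1 0).natAbs) τ)
      have h2 : denom (rep N q) τ ≠ 0 := denom_ne_zero _ τ
      rw [show ((12 : ℤ)) = ((12 : ℕ) : ℤ) from rfl, zpow_natCast, zpow_natCast]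
      field_simp
    rw [hfun]
    exact hmul _ _ _ _ (hmul _ _ _ _ (hconst _) hEΔ) (hsubΔinv _ _ _ ha hd' hd'N)

/-- **Assembly of `exists_rowSystem`** from an abstract expansion relation `E`
(to be instantiated with "`f` has the Laurent expansion `s` in `t = e^{2πiτ/N}`"). -/
theorem cosetRowSystem_hasSymm
    (hconst : ∀ c : ℂ, E (fun _ => c) (HahnSeries.C c))
    (hadd : ∀ f g s t, E f s → E g t → E (fun τ => f τ + g τ) (s + t))
    (hmul : ∀ f g s t, E f s → E g t → E (fun τ => f τ * g τ) (s * t))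
    (hunique : ∀ f s t, E f s → E f t → s = t)
    (hbdd : ∀ f s, E f s → ∃ m : ℕ,
      IsBoundedAtImInfty (fun τ : ℍ => Function.Periodic.qParam 1 (τ : ℂ) ^ m * f τ))
    (hsubj : ∀ a b d' : ℕ, 0 < a → 0 < d' → d' ∣ N →
      E (fun τ => jFun (affPt a b d' τ))
        (twist ℂ (ζ ^ (N / d' * b)) (a * (N / d')) (jqModC ℂ)))
    (hsubΔ : ∀ a b d' : ℕ, 0 < a → 0 < d' → d' ∣ N →
      E (fun τ => discriminant (affPt a b d' τ))
        (twist ℂ (ζ ^ (N / d' * b)) (a * (N / d')) (deltaR ℂ)))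
    (hsubΔinv : ∀ a b d' : ℕ, 0 < a → 0 < d' → d' ∣ N →
      E (fun τ => (discriminant (affPt a b d' τ))⁻¹)
        (twist ℂ (ζ ^ (N / d' * b)) (a * (N / d')) (deltaInvR ℂ)))
    (hEj : E jFun (qE ℂ N (jqModC ℂ)))
    (hEΔ : E discriminant (qE ℂ N (deltaR ℂ)))
    (hEΔinv : E (fun τ => (discriminant τ)⁻¹) (qE ℂ N (deltaInvR ℂ))) :
    (cosetRowSystem N).HasSymm ℂ ζ ((N : ℂ)⁻¹) :=
  hasSymm_of_family E (cosetRowSystem N) ζ _ hconst hadd hmul hunique hbdd hEj (cosetFun N)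
    (cosetFun_rel N ζ E hconst hmul hsubj hsubΔ hsubΔinv hEΔ hEΔinv)
    (cosetFun_mdiff N) (cosetFun_perm N)

end Expansions

/-! ### Instantiation with `LExp.HasLExp N`: the theorem `exists_rowSystem` -/

/-- an expansion in `q^{1/N}` is meromorphic at `i∞` -/
theorem hasLExp_bdd {N : ℕ} (hN : N ≠ 0) {f : ℍ → ℂ} {s : LaurentSeries ℂ} (h : HasLExp N f s) :
    ∃ m : ℕ, IsBoundedAtImInfty
      (fun τ : ℍ => Function.Periodic.qParam 1 (τ : ℂ) ^ m * f τ) := by
  obtain ⟨m, hm⟩ := exists_coeff_eq_zero_of_lt s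
  refine ⟨m, ?_⟩
  have h1 := (hasLExp_single N ((N * m : ℕ) : ℤ) 1).mul h
  have h0 : ∀ n < 0, (HahnSeries.single ((N * m : ℕ) : ℤ) (1 : ℂ) * s).coeff n = 0 := by
    intro n hn
    rw [show n = (n - ((N * m : ℕ) : ℤ)) + ((N * m : ℕ) : ℤ) by ring,
      HahnSeries.coeff_single_mul_add, one_mul]
    apply hm
    have h3 : (m : ℤ) ≤ ((N * m : ℕ) : ℤ) := by
      exact_mod_cast Nat.le_mul_of_pos_left m (Nat.pos_of_ne_zero hN)
    omega
  have h2 := h1.isBoundedAtImInfty hN h0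
  have hfun : (fun τ : ℍ => Function.Periodic.qParam 1 (τ : ℂ) ^ m * f τ) =
      fun τ : ℍ => 1 * Function.Periodic.qParam (N : ℝ) (τ : ℂ) ^ ((N * m : ℕ) : ℤ) * f τ := by
    funext τ
    rw [one_mul, zpow_natCast, pow_mul, qParam_nat_pow hN]
  rw [hfun]
  exact h2

/-- **M8**: the row system of `Γ₀(N) \ SL₂(ℤ)` has the symmetric-function property over `ℂ`. -/
theorem cosetRowSystem_hasSymm_zetaC (N : ℕ) [NeZero N] :
    (cosetRowSystem N).HasSymm ℂ (zetaC N) ((N : ℂ)⁻¹) := by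
  have hN : N ≠ 0 := NeZero.ne N
  have hj1 : HasLExp 1 jFun (jqModC ℂ) := fun τ => by simpa using hasSum_jq τ
  have hΔ1 : HasLExp 1 discriminant (deltaR ℂ) := fun τ => by simpa using hasSum_deltaR τ
  have hΔi1 : HasLExp 1 (fun τ => (discriminant τ)⁻¹) (deltaInvR ℂ) := fun τ => by
    simpa using hasSum_deltaInvR τ
  exact cosetRowSystem_hasSymm N (zetaC N) (HasLExp N) (hasLExp_C N)
    (fun f g s t h h' => h.add h') (fun f g s t h h' => h.mul h')
    (fun f s t h h' => h.unique hN h') (fun f s h => hasLExp_bdd hN h)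
    (fun a b d' ha hd' hd'N =>
      hj1.comp_affine' hN hd'N ha.ne' (affPt a b d') (coe_affPt ha hd') (zetaC N) rfl)
    (fun a b d' ha hd' hd'N =>
      hΔ1.comp_affine' hN hd'N ha.ne' (affPt a b d') (coe_affPt ha hd') (zetaC N) rfl)
    (fun a b d' ha hd' hd'N =>
      hΔi1.comp_affine' hN hd'N ha.ne' (affPt a b d') (coe_affPt ha hd') (zetaC N) rfl)
    (hj1.of_one hN) (hΔ1.of_one hN) (hΔi1.of_one hN)

/-- **M8** (`exists_rowSystem`, exact `Targets` signature). -/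
theorem exists_rowSystem (N : ℕ) [NeZero N] :
    ∃ S : RowSystem N, S.HasSymm ℂ (zetaC N) ((N : ℂ)⁻¹) :=
  ⟨cosetRowSystem N, cosetRowSystem_hasSymm_zetaC N⟩

theorem card_cosetRowSystem (N : ℕ) [NeZero N] :
    Fintype.card (cosetRowSystem N).C = (Gamma0 N).index := by
  rw [Subgroup.index, ← Nat.card_eq_fintype_card]
  rfl

end Fermat.Agent.S28.RowExists
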