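import Mathlib
import Fermat.Agent.S28.RowDefs
import Fermat.Agent.S28.Formal
import Fermat.Agent.Lib.ValFrac
import Fermat.Agent.Lib.FrobAssemble

set_option autoImplicit false
set_option linter.deprecated false

noncomputable section

namespace Fermat.Agent.S28.Transfer

open ModularCurve Fermat.Agent.S28.Defs

/-- Every field of characteristic zero has a valuation subring in which a given prime `ℓ` is a
non-unit. -/
theorem exists_valuationSubring_over {L : Type*} [Field L] [CharZero L] (ℓ : ℕ) (hℓ : ℓ.Prime) :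
    ∃ A : ValuationSubring L, (ℓ : L) ∈ A.nonunits := by
  let R : Subring L := (Int.castRingHom L).range
  let ℓR : R := ⟨(ℓ : L), ⟨(ℓ : ℤ), by simp⟩⟩
  have hI : Ideal.span {ℓR} ≠ ⊤ := by
    rw [Ne, Ideal.span_singleton_eq_top]
    intro hu
    obtain ⟨⟨y, m, rfl⟩, hy⟩ := hu.exists_right_inv
    have h1 : ((ℓ : L)) * ((m : ℤ) : L) = 1 := congrArg Subtype.val hy
    have h2 : (ℓ : ℤ) * m = 1 := by exact_mod_cast h1
    have h3 : IsUnit (ℓ : ℤ) := IsUnit.of_mul_eq_one _ h2
    exact (Nat.prime_iff_prime_int.mp hℓ).not_isUnit h3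
  obtain ⟨B, -, hB⟩ := Ideal.image_subset_nonunits_valuationSubring (Ideal.span {ℓR}) hI
  exact ⟨B, hB ⟨ℓR, Ideal.subset_span rfl, rfl⟩⟩

/-- The residue field of a valuation subring in which `ℓ` is a non-unit has characteristic `ℓ`. -/
theorem charP_residueField {L : Type*} [Field L] (A : ValuationSubring L) {ℓ : ℕ} (hℓ : ℓ.Prime)
    (hA : (ℓ : L) ∈ A.nonunits) : CharP (IsLocalRing.ResidueField A) ℓ := by
  rw [CharP.charP_iff_prime_eq_zero hℓ]
  have h1 : ((ℓ : A) : L) = (ℓ : L) := by simp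
  have h2 : (ℓ : A) ∈ IsLocalRing.maximalIdeal A := by
    rw [IsLocalRing.mem_maximalIdeal, mem_nonunits_iff]
    intro hu
    have h3 : (ℓ : L) ∉ A.nonunits := by
      rw [A.mem_nonunits_iff_exists_mem_maximalIdeal]
      rintro ⟨ha, hmem⟩
      rw [IsLocalRing.mem_maximalIdeal, mem_nonunits_iff] at hmem
      apply hmem
      convert hu using 1
      exact Subtype.ext h1.symm
    exact h3 hA
  rw [← map_natCast (IsLocalRing.residue A)]
  exact (IsLocalRing.residue_eq_zero_iff _).mpr h2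

/-- Transfer of `HasSymm` from a field of characteristic zero to the residue field of a valuation
subring over `ℓ ∤ N`. -/
theorem transfer_valuationSubring {L : Type} [Field L] [CharZero L] (A : ValuationSubring L)
    {N : ℕ} [NeZero N] {ℓ : ℕ} (hℓ : ℓ.Prime) (hA : (ℓ : L) ∈ A.nonunits) (hℓN : ¬ ℓ ∣ N)
    (T : RowSystem N) (ζ : Lˣ) (hζ : ζ ^ N = 1) (hT : T.HasSymm L ζ ((N : L)⁻¹)) :
    ∃ ζ' : (IsLocalRing.ResidueField A)ˣ, ζ' ^ N = 1 ∧
      T.HasSymm (IsLocalRing.ResidueField A) ζ' ((N : IsLocalRing.ResidueField A)⁻¹) := by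
  have hNpos : 0 < N := Nat.pos_of_ne_zero (NeZero.ne N)
  have hNL : (N : L) ≠ 0 := Nat.cast_ne_zero.mpr (NeZero.ne N)
  -- `ζ` and `ζ⁻¹` are integral, hence in `A`
  have hζint : IsIntegral ℤ (ζ : L) := by
    refine IsIntegral.of_pow hNpos ?_
    rw [← Units.val_pow_eq_pow_val, hζ, Units.val_one]
    exact isIntegral_one
  have hζinv : IsIntegral ℤ ((ζ⁻¹ : Lˣ) : L) := by
    refine IsIntegral.of_pow hNpos ?_
    rw [← Units.val_pow_eq_pow_val, inv_pow, hζ, inv_one, Units.val_one]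
    exact isIntegral_one
  have hζA : (ζ : L) ∈ A := Fermat.Agent.Lib.FrobAssemble.mem_of_isIntegral_int A hζint
  have hζinvA : ((ζ⁻¹ : Lˣ) : L) ∈ A := Fermat.Agent.Lib.FrobAssemble.mem_of_isIntegral_int A hζinv
  let ζA : (A : Type)ˣ := ⟨⟨(ζ : L), hζA⟩, ⟨((ζ⁻¹ : Lˣ) : L), hζinvA⟩,
    Subtype.ext (by simp), Subtype.ext (by simp)⟩
  have hζA' : Units.map ((A.subtype : A →+* L) : A →* L) ζA = ζ := Units.ext rfl
  -- `1 / N ∈ A`
  have hval : A.valuation (N : L) = 1 := by
    have := Fermat.Agent.Lib.ValFrac.valuation_intCast_eq_one A ℓ hℓ hA (N : ℤ)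
      (by exact_mod_cast hℓN)
    simpa using this
  have hνA : (N : L)⁻¹ ∈ A := by
    rw [← A.valuation_le_one_iff, map_inv₀, hval, inv_one]
  let νA : A := ⟨(N : L)⁻¹, hνA⟩
  -- descend to `A`
  have h1 : T.HasSymm A ζA νA := by
    apply Formal.hasSymm_of_injective (A.subtype : A →+* L) Subtype.val_injective T ζA νA
    rw [hζA']
    exact hT
  -- push to the residue field
  have h2 := Formal.hasSymm_map (IsLocalRing.residue A) T ζA νA h1
  have hν : IsLocalRing.residue A νA = ((N : IsLocalRing.ResidueField A))⁻¹ := by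
    have h3 : νA * (N : A) = 1 := by
      apply Subtype.ext
      show (N : L)⁻¹ * ((N : A) : L) = 1
      have : ((N : A) : L) = (N : L) := by simp
      rw [this, inv_mul_cancel₀ hNL]
    have h4 : IsLocalRing.residue A νA * (N : IsLocalRing.ResidueField A) = 1 := by
      rw [← map_natCast (IsLocalRing.residue A), ← map_mul, h3, map_one]
    exact eq_inv_of_mul_eq_one_left h4
  rw [hν] at h2
  refine ⟨Units.map ((IsLocalRing.residue A : A →+* IsLocalRing.ResidueField A) :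
    A →* IsLocalRing.ResidueField A) ζA, ?_, h2⟩
  rw [← map_pow]
  have h5 : ζA ^ N = 1 := by
    apply Units.ext
    apply Subtype.ext
    show ((ζA ^ N : (A : Type)ˣ) : A).1 = 1
    rw [Units.val_pow_eq_pow_val]
    show (ζ : L) ^ N = 1
    rw [← Units.val_pow_eq_pow_val, hζ, Units.val_one]
  rw [h5, map_one]

theorem zetaC_pow (N : ℕ) [NeZero N] : zetaC N ^ N = 1 := by
  apply Units.ext
  rw [Units.val_pow_eq_pow_val, Units.val_one]
  exact (Complex.isPrimitiveRoot_exp N (NeZero.ne N)).pow_eq_one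

/-- M7 (transfer to characteristic `ℓ`), exact `Targets` signature. -/
theorem transfer (N : ℕ) [NeZero N] (ℓ : ℕ) [Fact ℓ.Prime] (hℓN : ¬ ℓ ∣ N) (S : RowSystem N)
    (hS : S.HasSymm ℂ (zetaC N) ((N : ℂ)⁻¹)) :
    ∃ (κ : Type) (_ : Field κ) (_ : CharP κ ℓ) (ζ : κˣ),
      ζ ^ N = 1 ∧ S.HasSymm κ ζ ((N : κ)⁻¹) := by
  obtain ⟨A, hA⟩ := exists_valuationSubring_over (L := ℂ) ℓ Fact.out
  obtain ⟨ζ', h1, h2⟩ :=
    transfer_valuationSubring A Fact.out hA hℓN S (zetaC N) (zetaC_pow N) hS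
  exact ⟨IsLocalRing.ResidueField A, inferInstance, charP_residueField A Fact.out hA, ζ', h1, h2⟩

end Fermat.Agent.S28.Transfer
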