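import Mathlib
import Fermat.Agent.S28.RowDefs
import Fermat.Agent.S28.Transfer
import Fermat.Agent.S28.Char0
import Fermat.Agent.S28.RowExists
import Fermat.Agent.S28.Orders

/-!
# S28: wiring of the blueprint's `core`

`core_of_parts` derives the statement `Targets.core` from the two remaining inputs, taken as
hypotheses in exactly the shape of the blueprint:

* `hrow`  = `exists_rowSystem` (M8, analytic),
* `hmodl` = `modl_degree` (M5, the mod-`ℓ` degree computation),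

using the landed modules `Transfer` (M7) and `Char0` (M6).
-/

set_option autoImplicit false

noncomputable section

namespace Fermat.Agent.S28.Core

open ModularCurve Fermat.Agent.S28.Defs

/-- The conclusion of the blueprint's `core`. -/
abbrev CoreStatement (N : ℕ) [NeZero N] (ℓ : ℕ) [Fact ℓ.Prime] : Prop :=
  ∃ m : ℕ,
    (∃ Q : Polynomial (Polynomial ℚ), Q.Monic ∧ Q.natDegree = m ∧
      Q.eval₂ (Polynomial.eval₂RingHom HahnSeries.C jq) (ev ℚ N (unitPoly N)) = 0) ∧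
    (∀ d : ℕ, d ∣ N → ∀ (_ : NeZero d),
      qExpand ℚ d jq ∈ IntermediateField.adjoin ℚ {jq, ev ℚ N (unitPoly N)}) ∧
    (∀ B : Polynomial (Polynomial (ZMod ℓ)), B.natDegree < m →
      B.eval₂ (Polynomial.eval₂RingHom HahnSeries.C (jqModC (ZMod ℓ)))
        (ev (ZMod ℓ) N (unitPoly N)) = 0 → B = 0)

/-- `(N : κ) ≠ 0` in characteristic `ℓ ∤ N`. -/
theorem natCast_ne_zero_of_not_dvd {κ : Type*} [Field κ] (ℓ : ℕ) [CharP κ ℓ] {N : ℕ}
    (hℓN : ¬ ℓ ∣ N) : (N : κ) ≠ 0 := by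
  intro h
  exact hℓN ((CharP.cast_eq_zero_iff κ ℓ N).mp h)

/-- `core` for a given row system with the symmetric-function property over `ℂ`, from the
mod-`ℓ` degree statement for that row system. -/
theorem core_of_rowSystem (N : ℕ) [NeZero N] (ℓ : ℕ) [Fact ℓ.Prime] (hℓN : ¬ ℓ ∣ N)
    (S : RowSystem N) (hS : S.HasSymm ℂ (zetaC N) ((N : ℂ)⁻¹))
    (hmodl : ∀ {κ : Type} [Field κ] (ζ : κˣ), ζ ^ N = 1 → (N : κ) ≠ 0 →
      S.HasSymm κ ζ ((N : κ)⁻¹) →
      ∀ B : Polynomial (Polynomial κ), B.natDegree < Fintype.card S.C →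
        B.eval₂ (Polynomial.eval₂RingHom HahnSeries.C (jqModC κ)) (ev κ N (unitPoly N)) = 0 →
        B = 0) :
    CoreStatement N ℓ := by
  obtain ⟨κ, _, _, ζ, hζ, hκ⟩ := Transfer.transfer N ℓ hℓN S hS
  have hN : (N : κ) ≠ 0 := natCast_ne_zero_of_not_dvd ℓ hℓN
  exact Char0.core_of_field N ℓ S (zetaC N) (Transfer.zetaC_pow N) hS
    (fun B hB h0 => hmodl ζ hζ hN hκ B hB h0)

/-- `core` from `exists_rowSystem` (M8) and `modl_degree` (M5), both as hypotheses in the shape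
of the blueprint. -/
theorem core_of_parts (N : ℕ) [NeZero N] (ℓ : ℕ) [Fact ℓ.Prime] (hℓN : ¬ ℓ ∣ N)
    (hrow : ∃ S : RowSystem N, S.HasSymm ℂ (zetaC N) ((N : ℂ)⁻¹))
    (hmodl : ∀ (S : RowSystem N) {κ : Type} [Field κ] (ζ : κˣ), ζ ^ N = 1 → (N : κ) ≠ 0 →
      S.HasSymm κ ζ ((N : κ)⁻¹) →
      ∀ B : Polynomial (Polynomial κ), B.natDegree < Fintype.card S.C →
        B.eval₂ (Polynomial.eval₂RingHom HahnSeries.C (jqModC κ)) (ev κ N (unitPoly N)) = 0 →
        B = 0) :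
    CoreStatement N ℓ := by
  obtain ⟨S, hS⟩ := hrow
  exact core_of_rowSystem N ℓ hℓN S hS (fun ζ hζ hN hκ B hB h0 => hmodl S ζ hζ hN hκ B hB h0)

/-- **The blueprint's `core`** (M5 + M6 + M7 + M8 combined), unconditional: the only input of
the q-expansion principle (M3 + M4). -/
theorem core (N : ℕ) [NeZero N] (ℓ : ℕ) [Fact ℓ.Prime] (hℓN : ¬ ℓ ∣ N) : ∃ m : ℕ,
    (∃ Q : Polynomial (Polynomial ℚ), Q.Monic ∧ Q.natDegree = m ∧
      Q.eval₂ (Polynomial.eval₂RingHom HahnSeries.C jq) (ev ℚ N (unitPoly N)) = 0) ∧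
    (∀ d : ℕ, d ∣ N → ∀ (_ : NeZero d),
      qExpand ℚ d jq ∈ IntermediateField.adjoin ℚ {jq, ev ℚ N (unitPoly N)}) ∧
    (∀ B : Polynomial (Polynomial (ZMod ℓ)), B.natDegree < m →
      B.eval₂ (Polynomial.eval₂RingHom HahnSeries.C (jqModC (ZMod ℓ)))
        (ev (ZMod ℓ) N (unitPoly N)) = 0 → B = 0) :=
  core_of_parts N ℓ hℓN (RowExists.exists_rowSystem N)
    (fun S _ _ ζ hζ hN hS B hB h0 => Orders.modl_degree S ζ hζ hN hS B hB h0)

end Fermat.Agent.S28.Core
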