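import Mathlib
import Fermat.Prelude.Def_GaloisRep_Flat

set_option autoImplicit false

namespace Fermat.Agent.S28.Red

open GaloisRep

variable (ℓ : ℕ) [Fact ℓ.Prime]

theorem den_ne_zero_zmod (x : ratLocalizedAt ℓ) : ((x : ℚ).den : ZMod ℓ) ≠ 0 := by
  have hx : (x : ℚ).den.Coprime ℓ := x.2
  rw [Ne, ZMod.natCast_eq_zero_iff]
  intro h
  have hℓ : ℓ.Prime := Fact.out
  have := Nat.Coprime.eq_one_of_dvd hx.symm h
  exact hℓ.one_lt.ne' this

/-- Reduction modulo `ℓ` on `ℤ_(ℓ)` as a function. -/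
noncomputable def redFun (x : ratLocalizedAt ℓ) : ZMod ℓ :=
  ((x : ℚ).num : ZMod ℓ) * (((x : ℚ).den : ZMod ℓ))⁻¹

theorem redFun_eq_of_mul_eq (x : ratLocalizedAt ℓ) (a b : ℤ) (hb : (b : ZMod ℓ) ≠ 0)
    (h : (x : ℚ) * b = a) : redFun ℓ x = (a : ZMod ℓ) * (b : ZMod ℓ)⁻¹ := by
  have hden := den_ne_zero_zmod ℓ x
  have hq : ((x : ℚ).num : ℚ) * b = a * ((x : ℚ).den : ℚ) := by
    have hd : ((x : ℚ).den : ℚ) ≠ 0 := by exact_mod_cast (x : ℚ).den_nz
    have hx : (x : ℚ) = (x : ℚ).num / (x : ℚ).den := (Rat.num_div_den (x : ℚ)).symm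
    rw [hx] at h
    field_simp at h
    linarith
  have hz : (x : ℚ).num * b = a * ((x : ℚ).den : ℤ) := by exact_mod_cast hq
  have hz' : (((x : ℚ).num : ZMod ℓ)) * (b : ZMod ℓ) = (a : ZMod ℓ) * ((x : ℚ).den : ZMod ℓ) := by
    have := congrArg (Int.cast : ℤ → ZMod ℓ) hz
    push_cast at this
    exact this
  unfold redFun
  rw [← div_eq_mul_inv, ← div_eq_mul_inv, div_eq_div_iff hden hb]
  exact hz'

/-- Reduction modulo `ℓ` as a ring hom `ℤ_(ℓ) → 𝔽_ℓ`. -/
noncomputable def red : ratLocalizedAt ℓ →+* ZMod ℓ where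
  toFun := redFun ℓ
  map_one' := by
    have := redFun_eq_of_mul_eq ℓ 1 1 1 (by simp) (by simp)
    simpa using this
  map_zero' := by
    have := redFun_eq_of_mul_eq ℓ 0 0 1 (by simp) (by simp)
    simpa using this
  map_mul' x y := by
    have hx := den_ne_zero_zmod ℓ x
    have hy := den_ne_zero_zmod ℓ y
    have h := redFun_eq_of_mul_eq ℓ (x * y) ((x : ℚ).num * (y : ℚ).num)
      (((x : ℚ).den : ℤ) * ((y : ℚ).den : ℤ)) (by push_cast; exact mul_ne_zero hx hy) (by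
        have hxn : (x : ℚ) * ((x : ℚ).den : ℚ) = (x : ℚ).num := Rat.mul_den_eq_num _
        have hyn : (y : ℚ) * ((y : ℚ).den : ℚ) = (y : ℚ).num := Rat.mul_den_eq_num _
        push_cast
        linear_combination ((y : ℚ) * ((y : ℚ).den : ℚ)) * hxn + ((x : ℚ).num : ℚ) * hyn)
    rw [h]
    unfold redFun
    push_cast
    field_simp
  map_add' x y := by
    have hx := den_ne_zero_zmod ℓ x
    have hy := den_ne_zero_zmod ℓ y
    have h := redFun_eq_of_mul_eq ℓ (x + y)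
      ((x : ℚ).num * ((y : ℚ).den : ℤ) + (y : ℚ).num * ((x : ℚ).den : ℤ))
      (((x : ℚ).den : ℤ) * ((y : ℚ).den : ℤ)) (by push_cast; exact mul_ne_zero hx hy) (by
        have hxn : (x : ℚ) * ((x : ℚ).den : ℚ) = (x : ℚ).num := Rat.mul_den_eq_num _
        have hyn : (y : ℚ) * ((y : ℚ).den : ℚ) = (y : ℚ).num := Rat.mul_den_eq_num _
        push_cast
        linear_combination ((y : ℚ).den : ℚ) * hxn + ((x : ℚ).den : ℚ) * hyn)
    rw [h]
    unfold redFun
    push_cast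
    field_simp

theorem red_apply (x : ratLocalizedAt ℓ) :
    red ℓ x = ((x : ℚ).num : ZMod ℓ) * (((x : ℚ).den : ZMod ℓ))⁻¹ := rfl

theorem red_eq_of_mul_eq (x : ratLocalizedAt ℓ) (a b : ℤ) (hb : (b : ZMod ℓ) ≠ 0)
    (h : (x : ℚ) * b = a) : red ℓ x = (a : ZMod ℓ) * (b : ZMod ℓ)⁻¹ :=
  redFun_eq_of_mul_eq ℓ x a b hb h

theorem red_intCast (n : ℤ) : red ℓ (n : ratLocalizedAt ℓ) = (n : ZMod ℓ) := map_intCast _ n

theorem red_natCast (n : ℕ) : red ℓ (n : ratLocalizedAt ℓ) = (n : ZMod ℓ) := map_natCast _ n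

theorem red_prime : red ℓ (ℓ : ratLocalizedAt ℓ) = 0 := by
  rw [red_natCast, ZMod.natCast_self]

theorem red_surjective : Function.Surjective (red ℓ) := by
  intro z
  obtain ⟨n, rfl⟩ := ZMod.intCast_surjective z
  exact ⟨(n : ratLocalizedAt ℓ), red_intCast ℓ n⟩

theorem algebraMap_eq_castHom (K : Type*) [Field K] [CharP K ℓ] [Algebra (ratLocalizedAt ℓ) K]
    (x : ratLocalizedAt ℓ) :
    algebraMap (ratLocalizedAt ℓ) K x = ZMod.castHom (dvd_refl ℓ) K (red ℓ x) := by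
  have hden : (((x : ℚ).den : ℕ) : K) ≠ 0 := by
    rw [Ne, CharP.cast_eq_zero_iff K ℓ]
    intro h
    have hx : (x : ℚ).den.Coprime ℓ := x.2
    have hℓ : ℓ.Prime := Fact.out
    exact hℓ.one_lt.ne' (Nat.Coprime.eq_one_of_dvd hx.symm h)
  have hx : x * (((x : ℚ).den : ℕ) : ratLocalizedAt ℓ) = (((x : ℚ).num : ℤ) : ratLocalizedAt ℓ) := by
    apply Subtype.ext
    push_cast
    exact Rat.mul_den_eq_num _
  have h1 := congrArg (algebraMap (ratLocalizedAt ℓ) K) hx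
  rw [map_mul, map_natCast, map_intCast] at h1
  rw [red_apply, map_mul, map_inv₀, map_intCast, map_natCast, eq_mul_inv_iff_mul_eq₀ hden]
  exact h1

theorem red_eq_zero_iff (x : ratLocalizedAt ℓ) :
    red ℓ x = 0 ↔ ∃ y : ratLocalizedAt ℓ, x = (ℓ : ratLocalizedAt ℓ) * y := by
  constructor
  · intro h
    have hden := den_ne_zero_zmod ℓ x
    rw [red_apply, mul_eq_zero] at h
    rcases h with h | h
    · rw [ZMod.intCast_zmod_eq_zero_iff_dvd] at h
      obtain ⟨m, hm⟩ := h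
      have hmem : ((m : ℚ) / ((x : ℚ).den : ℚ)) ∈ ratLocalizedAt ℓ := by
        change ((m : ℚ) / ((x : ℚ).den : ℚ)).den.Coprime ℓ
        have hdvd : ((m : ℚ) / ((x : ℚ).den : ℚ)).den ∣ (x : ℚ).den := by
          have := Rat.den_dvd m ((x : ℚ).den : ℤ)
          rw [Rat.divInt_eq_div] at this
          exact_mod_cast this
        exact Nat.Coprime.coprime_dvd_left hdvd x.2
      refine ⟨⟨_, hmem⟩, ?_⟩
      apply Subtype.ext
      push_cast
      have hd : ((x : ℚ).den : ℚ) ≠ 0 := by exact_mod_cast (x : ℚ).den_nz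
      have hx : (x : ℚ) = (x : ℚ).num / (x : ℚ).den := (Rat.num_div_den (x : ℚ)).symm
      conv_lhs => rw [hx, hm]
      push_cast
      field_simp
    · exact absurd (inv_eq_zero.mp h) hden
  · rintro ⟨y, rfl⟩
    rw [map_mul, red_prime, zero_mul]

end Fermat.Agent.S28.Red
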