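import Mathlib
import Fermat.Prelude.Def_ModularCurve_X0ModL
import Fermat.Agent.S28.Red

set_option autoImplicit false
set_option linter.unusedSectionVars false

/-!
# S28, block M3: the Gauss ring inside `ℚ((q))`

`V ℓ = { ι a / ι b : a, b ∈ ℤ_(ℓ)((q)), b ≢ 0 mod ℓ }` with its reduction map to `𝔽_ℓ((q))`,
the kernel property and integral closedness inside the fraction field of `ℤ_(ℓ)((q))`.
-/

open ModularCurve GaloisRep

noncomputable section

namespace Fermat.Agent.S28.GaussRing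

variable (ℓ : ℕ) [Fact ℓ.Prime]

/-- `ι : ℤ_(ℓ)((q)) → ℚ((q))`. -/
abbrev iota : LaurentSeries ↥(ratLocalizedAt ℓ) →+* LaurentSeries ℚ :=
  coeffMap (ratLocalizedAt ℓ).subtype

/-- `ρ : ℤ_(ℓ)((q)) → 𝔽_ℓ((q))`. -/
abbrev rho : LaurentSeries ↥(ratLocalizedAt ℓ) →+* LaurentSeries (ZMod ℓ) :=
  coeffMap (Red.red ℓ)

theorem iota_injective : Function.Injective (iota ℓ) := by
  intro a b h
  ext k
  have h1 := congrArg (fun x => x.coeff k) h
  simp only [coeffMap_coeff] at h1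
  exact h1

theorem iota_ne_zero {b : LaurentSeries ↥(ratLocalizedAt ℓ)} (hb : b ≠ 0) : iota ℓ b ≠ 0 := by
  intro h
  exact hb (iota_injective ℓ (by rw [h, map_zero]))

theorem coeff_natCast_mul {R : Type*} [CommRing R] (n : ℕ) (x : LaurentSeries R) (k : ℤ) :
    ((n : LaurentSeries R) * x).coeff k = (n : R) * x.coeff k := by
  rw [← map_natCast (HahnSeries.C (Γ := ℤ) (R := R)), HahnSeries.C_mul_eq_smul,
    HahnSeries.coeff_smul, smul_eq_mul]

theorem rho_natCast_prime : rho ℓ (ℓ : LaurentSeries ↥(ratLocalizedAt ℓ)) = 0 := by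
  rw [map_natCast]
  ext k
  rw [← map_natCast (HahnSeries.C (Γ := ℤ) (R := ZMod ℓ)), ZMod.natCast_self, map_zero]

open Classical in
/-- Division by `ℓ` on `ℤ_(ℓ)` (junk value `0` when not divisible). -/
def divPrime : ZeroHom ↥(ratLocalizedAt ℓ) ↥(ratLocalizedAt ℓ) where
  toFun x := if h : ((x : ℚ) / (ℓ : ℚ)) ∈ ratLocalizedAt ℓ then ⟨(x : ℚ) / (ℓ : ℚ), h⟩ else 0
  map_zero' := by
    have h : (((0 : ↥(ratLocalizedAt ℓ)) : ℚ) / (ℓ : ℚ)) ∈ ratLocalizedAt ℓ := by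
      simp
    rw [dif_pos h]
    apply Subtype.ext
    simp

theorem prime_mul_divPrime {x : ↥(ratLocalizedAt ℓ)} (hx : Red.red ℓ x = 0) :
    (ℓ : ↥(ratLocalizedAt ℓ)) * divPrime ℓ x = x := by
  obtain ⟨y, rfl⟩ := (Red.red_eq_zero_iff ℓ x).mp hx
  have hℓ : (ℓ : ℚ) ≠ 0 := by exact_mod_cast (Fact.out : ℓ.Prime).ne_zero
  have e : ((((ℓ : ↥(ratLocalizedAt ℓ)) * y : ↥(ratLocalizedAt ℓ)) : ℚ) / (ℓ : ℚ)) = (y : ℚ) := by
    push_cast
    field_simp
  have h : ((((ℓ : ↥(ratLocalizedAt ℓ)) * y : ↥(ratLocalizedAt ℓ)) : ℚ) / (ℓ : ℚ)) ∈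
      ratLocalizedAt ℓ := by
    rw [e]; exact y.2
  have : divPrime ℓ ((ℓ : ↥(ratLocalizedAt ℓ)) * y) = y := by
    classical
    show (if h : _ then (⟨_, h⟩ : ↥(ratLocalizedAt ℓ)) else 0) = y
    rw [dif_pos h]
    exact Subtype.ext e
  rw [this]

theorem exists_eq_prime_mul_of_rho_eq_zero (a : LaurentSeries ↥(ratLocalizedAt ℓ))
    (h : rho ℓ a = 0) :
    ∃ a₁ : LaurentSeries ↥(ratLocalizedAt ℓ), a = (ℓ : LaurentSeries ↥(ratLocalizedAt ℓ)) * a₁ := by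
  refine ⟨a.map (divPrime ℓ), ?_⟩
  ext k
  rw [coeff_natCast_mul, HahnSeries.map_coeff]
  have hk : Red.red ℓ (a.coeff k) = 0 := by
    have := congrArg (fun x => x.coeff k) h
    simpa using this
  exact congrArg Subtype.val (prime_mul_divPrime ℓ hk).symm

theorem padicValRat_nonneg (x : ↥(ratLocalizedAt ℓ)) : 0 ≤ padicValRat ℓ (x : ℚ) := by
  have hx : (x : ℚ).den.Coprime ℓ := x.2
  have hℓ : ℓ.Prime := Fact.out
  have hnd : ¬ ℓ ∣ (x : ℚ).den := by
    intro hd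
    exact hℓ.one_lt.ne' (Nat.Coprime.eq_one_of_dvd hx.symm hd)
  unfold padicValRat
  rw [padicValNat.eq_zero_of_not_dvd hnd]
  simp

/-- Every nonzero `ℓ`-integral Laurent series is `ℓ^k` times one that is nonzero mod `ℓ`. -/
theorem exists_pow_mul (b : LaurentSeries ↥(ratLocalizedAt ℓ)) (hb : b ≠ 0) :
    ∃ (k : ℕ) (b' : LaurentSeries ↥(ratLocalizedAt ℓ)),
      b = (ℓ : LaurentSeries ↥(ratLocalizedAt ℓ)) ^ k * b' ∧ rho ℓ b' ≠ 0 := by
  have hℓ : ℓ.Prime := Fact.out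
  obtain ⟨m, hm⟩ : ∃ m, b.coeff m ≠ 0 := by
    by_contra hcon
    push Not at hcon
    exact hb (HahnSeries.ext (funext hcon))
  suffices H : ∀ (n : ℕ) (b : LaurentSeries ↥(ratLocalizedAt ℓ)), b.coeff m ≠ 0 →
      padicValRat ℓ ((b.coeff m : ↥(ratLocalizedAt ℓ)) : ℚ) = n →
      ∃ (k : ℕ) (b' : LaurentSeries ↥(ratLocalizedAt ℓ)),
        b = (ℓ : LaurentSeries ↥(ratLocalizedAt ℓ)) ^ k * b' ∧ rho ℓ b' ≠ 0 by
    have h0 := padicValRat_nonneg ℓ (b.coeff m)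
    exact H (padicValRat ℓ ((b.coeff m : ↥(ratLocalizedAt ℓ)) : ℚ)).toNat b hm
      (Int.toNat_of_nonneg h0).symm
  intro n
  induction n with
  | zero =>
    intro b hm hv
    by_cases hr : rho ℓ b = 0
    · obtain ⟨b₁, rfl⟩ := exists_eq_prime_mul_of_rho_eq_zero ℓ b hr
      rw [coeff_natCast_mul] at hm hv
      have h1 : b₁.coeff m ≠ 0 := fun h => hm (by rw [h, mul_zero])
      have h1q : ((b₁.coeff m : ↥(ratLocalizedAt ℓ)) : ℚ) ≠ 0 := by
        intro h; exact h1 (Subtype.ext h)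
      have hℓq : (ℓ : ℚ) ≠ 0 := by exact_mod_cast hℓ.ne_zero
      push_cast at hv
      rw [padicValRat.mul hℓq h1q, padicValRat.self hℓ.one_lt] at hv
      have := padicValRat_nonneg ℓ (b₁.coeff m)
      omega
    · exact ⟨0, b, by simp, hr⟩
  | succ n ih =>
    intro b hm hv
    by_cases hr : rho ℓ b = 0
    · obtain ⟨b₁, rfl⟩ := exists_eq_prime_mul_of_rho_eq_zero ℓ b hr
      rw [coeff_natCast_mul] at hm hv
      have h1 : b₁.coeff m ≠ 0 := fun h => hm (by rw [h, mul_zero])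
      have h1q : ((b₁.coeff m : ↥(ratLocalizedAt ℓ)) : ℚ) ≠ 0 := by
        intro h; exact h1 (Subtype.ext h)
      have hℓq : (ℓ : ℚ) ≠ 0 := by exact_mod_cast hℓ.ne_zero
      push_cast at hv
      rw [padicValRat.mul hℓq h1q, padicValRat.self hℓ.one_lt] at hv
      obtain ⟨k, b', hb', hρ⟩ := ih b₁ h1 (by omega)
      exact ⟨k + 1, b', by rw [hb', pow_succ']; ring, hρ⟩
    · exact ⟨0, b, by simp, hr⟩

/-- The fraction field of `ι(ℤ_(ℓ)((q)))` inside `ℚ((q))`. -/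
def fracField : Subfield (LaurentSeries ℚ) where
  carrier := {x | ∃ a b : LaurentSeries ↥(ratLocalizedAt ℓ), b ≠ 0 ∧ x * iota ℓ b = iota ℓ a}
  mul_mem' := by
    rintro x y ⟨a, b, hb, h⟩ ⟨a', b', hb', h'⟩
    refine ⟨a * a', b * b', mul_ne_zero hb hb', ?_⟩
    rw [map_mul, map_mul, ← h, ← h']; ring
  one_mem' := ⟨1, 1, one_ne_zero, by simp⟩
  add_mem' := by
    rintro x y ⟨a, b, hb, h⟩ ⟨a', b', hb', h'⟩
    refine ⟨a * b' + a' * b, b * b', mul_ne_zero hb hb', ?_⟩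
    rw [map_add, map_mul, map_mul, map_mul, ← h, ← h']; ring
  zero_mem' := ⟨0, 1, one_ne_zero, by simp⟩
  neg_mem' := by
    rintro x ⟨a, b, hb, h⟩
    exact ⟨-a, b, hb, by rw [map_neg, ← h]; ring⟩
  inv_mem' := by
    rintro x ⟨a, b, hb, h⟩
    by_cases hx : x = 0
    · subst hx
      exact ⟨0, 1, one_ne_zero, by simp⟩
    · have ha : a ≠ 0 := by
        rintro rfl
        rw [map_zero] at h
        exact (mul_ne_zero hx (iota_ne_zero ℓ hb)) h
      refine ⟨b, a, ha, ?_⟩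
      rw [← h]
      field_simp

theorem mem_fracField {x : LaurentSeries ℚ} :
    x ∈ fracField ℓ ↔
      ∃ a b : LaurentSeries ↥(ratLocalizedAt ℓ), b ≠ 0 ∧ x * iota ℓ b = iota ℓ a := Iff.rfl

theorem closure_range_iota_le : Subfield.closure (Set.range (iota ℓ)) ≤ fracField ℓ := by
  rw [Subfield.closure_le]
  rintro _ ⟨a, rfl⟩
  exact ⟨a, 1, one_ne_zero, by simp⟩

/-- The Gauss ring: fractions of `ℓ`-integral Laurent series whose denominator is nonzero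
mod `ℓ`. -/
def V : Subring (LaurentSeries ℚ) where
  carrier := {x | ∃ a b : LaurentSeries ↥(ratLocalizedAt ℓ), rho ℓ b ≠ 0 ∧ x * iota ℓ b = iota ℓ a}
  mul_mem' := by
    rintro x y ⟨a, b, hb, h⟩ ⟨a', b', hb', h'⟩
    refine ⟨a * a', b * b', by rw [map_mul]; exact mul_ne_zero hb hb', ?_⟩
    rw [map_mul, map_mul, ← h, ← h']; ring
  one_mem' := ⟨1, 1, by rw [map_one]; exact one_ne_zero, by simp⟩
  add_mem' := by
    rintro x y ⟨a, b, hb, h⟩ ⟨a', b', hb', h'⟩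
    refine ⟨a * b' + a' * b, b * b', by rw [map_mul]; exact mul_ne_zero hb hb', ?_⟩
    rw [map_add, map_mul, map_mul, map_mul, ← h, ← h']; ring
  zero_mem' := ⟨0, 1, by rw [map_one]; exact one_ne_zero, by simp⟩
  neg_mem' := by
    rintro x ⟨a, b, hb, h⟩
    exact ⟨-a, b, hb, by rw [map_neg, ← h]; ring⟩

theorem mem_V {x : LaurentSeries ℚ} :
    x ∈ V ℓ ↔
      ∃ a b : LaurentSeries ↥(ratLocalizedAt ℓ), rho ℓ b ≠ 0 ∧ x * iota ℓ b = iota ℓ a := Iff.rfl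

theorem ne_zero_of_rho_ne_zero {b : LaurentSeries ↥(ratLocalizedAt ℓ)} (hb : rho ℓ b ≠ 0) :
    b ≠ 0 := by
  rintro rfl
  exact hb (map_zero _)

/-- The reduction map as a function. -/
def redFun (x : V ℓ) : LaurentSeries (ZMod ℓ) :=
  rho ℓ (Classical.choose x.2) / rho ℓ (Classical.choose (Classical.choose_spec x.2))

theorem redFun_eq (x : V ℓ) (a b : LaurentSeries ↥(ratLocalizedAt ℓ)) (hb : rho ℓ b ≠ 0)
    (h : (x : LaurentSeries ℚ) * iota ℓ b = iota ℓ a) : redFun ℓ x = rho ℓ a / rho ℓ b := by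
  obtain ⟨hb₀, h₀⟩ := Classical.choose_spec (Classical.choose_spec x.2)
  set a₀ := Classical.choose x.2
  set b₀ := Classical.choose (Classical.choose_spec x.2)
  have key : a₀ * b = a * b₀ := by
    apply iota_injective ℓ
    rw [map_mul, map_mul, ← h₀, ← h]; ring
  have key' : rho ℓ a₀ * rho ℓ b = rho ℓ a * rho ℓ b₀ := by
    rw [← map_mul, ← map_mul, key]
  show rho ℓ a₀ / rho ℓ b₀ = rho ℓ a / rho ℓ b
  rw [div_eq_div_iff hb₀ hb]
  exact key'

/-- The reduction map `V → 𝔽_ℓ((q))`. -/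
def red : V ℓ →+* LaurentSeries (ZMod ℓ) where
  toFun := redFun ℓ
  map_one' := by
    rw [redFun_eq ℓ 1 1 1 (by rw [map_one]; exact one_ne_zero) (by simp), map_one, div_one]
  map_zero' := by
    rw [redFun_eq ℓ 0 0 1 (by rw [map_one]; exact one_ne_zero) (by simp), map_zero, zero_div]
  map_mul' := by
    intro x y
    obtain ⟨a, b, hb, h⟩ := (mem_V ℓ).mp x.2
    obtain ⟨a', b', hb', h'⟩ := (mem_V ℓ).mp y.2
    rw [redFun_eq ℓ x a b hb h, redFun_eq ℓ y a' b' hb' h',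
      redFun_eq ℓ (x * y) (a * a') (b * b')
        (by rw [map_mul]; exact mul_ne_zero hb hb')
        (by
          rw [Subring.coe_mul, map_mul, map_mul, ← h, ← h']; ring),
      map_mul, map_mul]
    field_simp
  map_add' := by
    intro x y
    obtain ⟨a, b, hb, h⟩ := (mem_V ℓ).mp x.2
    obtain ⟨a', b', hb', h'⟩ := (mem_V ℓ).mp y.2
    rw [redFun_eq ℓ x a b hb h, redFun_eq ℓ y a' b' hb' h',
      redFun_eq ℓ (x + y) (a * b' + a' * b) (b * b')
        (by rw [map_mul]; exact mul_ne_zero hb hb')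
        (by
          rw [Subring.coe_add, map_add, map_mul, map_mul, map_mul, ← h, ← h']; ring),
      map_add, map_mul, map_mul, map_mul]
    field_simp

theorem red_eq (x : V ℓ) (a b : LaurentSeries ↥(ratLocalizedAt ℓ)) (hb : rho ℓ b ≠ 0)
    (h : (x : LaurentSeries ℚ) * iota ℓ b = iota ℓ a) : red ℓ x = rho ℓ a / rho ℓ b :=
  redFun_eq ℓ x a b hb h

/-- `ℓ`-integral series lie in the Gauss ring. -/
theorem mem_of_int (a : LaurentSeries ↥(ratLocalizedAt ℓ)) : iota ℓ a ∈ V ℓ :=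
  ⟨a, 1, by rw [map_one]; exact one_ne_zero, by simp⟩

/-- On `ℓ`-integral series the reduction is coefficientwise. -/
theorem red_of_int (a : LaurentSeries ↥(ratLocalizedAt ℓ)) :
    red ℓ ⟨iota ℓ a, mem_of_int ℓ a⟩ = rho ℓ a := by
  rw [red_eq ℓ _ a 1 (by rw [map_one]; exact one_ne_zero) (by simp), map_one, div_one]

/-- Fractions with denominator nonzero mod `ℓ` lie in `V`. -/
theorem div_mem (a b : LaurentSeries ↥(ratLocalizedAt ℓ)) (hb : rho ℓ b ≠ 0) :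
    iota ℓ a / iota ℓ b ∈ V ℓ :=
  ⟨a, b, hb, div_mul_cancel₀ _ (iota_ne_zero ℓ (ne_zero_of_rho_ne_zero ℓ hb))⟩

theorem red_div (a b : LaurentSeries ↥(ratLocalizedAt ℓ)) (hb : rho ℓ b ≠ 0) :
    red ℓ ⟨iota ℓ a / iota ℓ b, div_mem ℓ a b hb⟩ = rho ℓ a / rho ℓ b :=
  red_eq ℓ _ a b hb (div_mul_cancel₀ _ (iota_ne_zero ℓ (ne_zero_of_rho_ne_zero ℓ hb)))

/-- The kernel of the reduction is `ℓ V`. -/
theorem ker (x : V ℓ) (hx : red ℓ x = 0) :
    ∃ y : V ℓ, (x : LaurentSeries ℚ) = (ℓ : LaurentSeries ℚ) * (y : LaurentSeries ℚ) := by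
  obtain ⟨a, b, hb, h⟩ := (mem_V ℓ).mp x.2
  rw [red_eq ℓ x a b hb h, div_eq_zero_iff] at hx
  have ha : rho ℓ a = 0 := hx.resolve_right hb
  obtain ⟨a₁, rfl⟩ := exists_eq_prime_mul_of_rho_eq_zero ℓ a ha
  have hb0 : iota ℓ b ≠ 0 := iota_ne_zero ℓ (ne_zero_of_rho_ne_zero ℓ hb)
  refine ⟨⟨iota ℓ a₁ / iota ℓ b, div_mem ℓ a₁ b hb⟩, ?_⟩
  rw [map_mul, map_natCast] at h
  show (x : LaurentSeries ℚ) = (ℓ : LaurentSeries ℚ) * (iota ℓ a₁ / iota ℓ b)
  rw [← mul_div_assoc, eq_div_iff hb0, h]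

/-- Elements with nonzero reduction are units of `V`. -/
theorem inv_mem (x : V ℓ) (hx : red ℓ x ≠ 0) : (x : LaurentSeries ℚ)⁻¹ ∈ V ℓ := by
  obtain ⟨a, b, hb, h⟩ := (mem_V ℓ).mp x.2
  rw [red_eq ℓ x a b hb h] at hx
  have ha : rho ℓ a ≠ 0 := fun h0 => hx (by rw [h0, zero_div])
  have ha0 : iota ℓ a ≠ 0 := iota_ne_zero ℓ (ne_zero_of_rho_ne_zero ℓ ha)
  have hb0 : iota ℓ b ≠ 0 := iota_ne_zero ℓ (ne_zero_of_rho_ne_zero ℓ hb)
  have hx0 : (x : LaurentSeries ℚ) ≠ 0 := by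
    intro h0
    rw [h0, zero_mul] at h
    exact ha0 h.symm
  refine ⟨b, a, ha, ?_⟩
  rw [← h]
  field_simp

theorem natCast_prime_ne_zero : (ℓ : LaurentSeries ℚ) ≠ 0 := by
  rw [← map_natCast (HahnSeries.C (Γ := ℤ) (R := ℚ))]
  exact HahnSeries.C_ne_zero (by exact_mod_cast (Fact.out : ℓ.Prime).ne_zero)

theorem red_natCast_prime : red ℓ (ℓ : V ℓ) = 0 := by
  rw [map_natCast]
  ext k
  rw [← map_natCast (HahnSeries.C (Γ := ℤ) (R := ZMod ℓ)), ZMod.natCast_self, map_zero]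

/-- A root in `V` of a monic polynomial over `V` scaled by a multiple of `ℓ` has zero
reduction. -/
theorem red_eq_zero_of_scaleRoots (p : Polynomial (V ℓ)) (hp : p.Monic) (s w : V ℓ)
    (hs : red ℓ s = 0) (hw : (p.scaleRoots s).eval w = 0) (hd : p.natDegree ≠ 0) :
    red ℓ w = 0 := by
  have h1 : (p.scaleRoots s).eval₂ (red ℓ) (red ℓ w) = 0 := by
    rw [Polynomial.eval₂_at_apply, hw, map_zero]
  rw [Polynomial.eval₂_eq_sum_range, Polynomial.natDegree_scaleRoots,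
    Finset.sum_range_succ] at h1
  have h2 : ∑ i ∈ Finset.range p.natDegree,
      red ℓ ((p.scaleRoots s).coeff i) * red ℓ w ^ i = 0 := by
    refine Finset.sum_eq_zero fun i hi => ?_
    have hi' : i < p.natDegree := Finset.mem_range.mp hi
    rw [Polynomial.coeff_scaleRoots, map_mul, map_pow, hs,
      zero_pow (by omega : p.natDegree - i ≠ 0), mul_zero, zero_mul]
  rw [h2, zero_add, Polynomial.coeff_scaleRoots_natDegree, hp.leadingCoeff, map_one,
    one_mul] at h1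
  exact pow_eq_zero_iff hd |>.mp h1

/-- `V` is integrally closed in the fraction field of `ι(ℤ_(ℓ)((q)))`. -/
theorem closed_of_mem_fracField (x : LaurentSeries ℚ) (hx : x ∈ fracField ℓ)
    (hint : (V ℓ).subtype.IsIntegralElem x) : x ∈ V ℓ := by
  have hℓ : ℓ.Prime := Fact.out
  have hℓq : (ℓ : LaurentSeries ℚ) ≠ 0 := natCast_prime_ne_zero ℓ
  obtain ⟨a, b, hb, h⟩ := hx
  by_cases ha : a = 0
  · subst ha
    rw [map_zero] at h
    rcases mul_eq_zero.mp h with h0 | h0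
    · rw [h0]; exact zero_mem _
    · exact absurd h0 (iota_ne_zero ℓ hb)
  obtain ⟨i, a', rfl, ha'⟩ := exists_pow_mul ℓ a ha
  obtain ⟨k, b', rfl, hb'⟩ := exists_pow_mul ℓ b hb
  have hb0 : iota ℓ b' ≠ 0 := iota_ne_zero ℓ (ne_zero_of_rho_ne_zero ℓ hb')
  have hwV : iota ℓ a' / iota ℓ b' ∈ V ℓ := div_mem ℓ a' b' hb'
  have hwred : red ℓ ⟨iota ℓ a' / iota ℓ b', hwV⟩ ≠ 0 := by
    rw [red_div ℓ a' b' hb']
    exact div_ne_zero ha' hb'
  rw [map_mul, map_mul, map_pow, map_pow, map_natCast] at h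
  -- `x * ℓ^k = ℓ^i * w`
  have hxw : x * (ℓ : LaurentSeries ℚ) ^ k = (ℓ : LaurentSeries ℚ) ^ i * (iota ℓ a' / iota ℓ b') := by
    rw [← mul_div_assoc, eq_div_iff hb0, ← h]; ring
  rcases le_or_gt k i with hki | hik
  · -- `x = ℓ^(i-k) w ∈ V`
    have hx' : x = (ℓ : LaurentSeries ℚ) ^ (i - k) * (iota ℓ a' / iota ℓ b') := by
      have hk0 : (ℓ : LaurentSeries ℚ) ^ k ≠ 0 := pow_ne_zero _ hℓq
      apply mul_right_cancel₀ hk0
      rw [hxw, mul_right_comm, ← pow_add, Nat.sub_add_cancel hki]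
    rw [hx']
    exact mul_mem (pow_mem (natCast_mem _ ℓ) _) hwV
  · -- `w = ℓ^(k-i) x`, contradiction with `red w ≠ 0`
    exfalso
    obtain ⟨p, hmonic, hroot⟩ := hint
    set e := k - i with he
    have he0 : e ≠ 0 := by omega
    have hwx : iota ℓ a' / iota ℓ b' = (ℓ : LaurentSeries ℚ) ^ e * x := by
      have hi0 : (ℓ : LaurentSeries ℚ) ^ i ≠ 0 := pow_ne_zero _ hℓq
      apply mul_left_cancel₀ hi0
      rw [← hxw, ← mul_assoc, ← pow_add, show i + e = k by omega]; ring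
    by_cases hd : p.natDegree = 0
    · have hp1 : p = 1 := Polynomial.eq_one_of_monic_natDegree_zero hmonic hd
      rw [hp1, Polynomial.eval₂_one] at hroot
      exact one_ne_zero hroot
    set s : V ℓ := (ℓ : V ℓ) ^ e with hs
    have hsred : red ℓ s = 0 := by
      rw [hs, map_pow, red_natCast_prime, zero_pow he0]
    have hscoe : (V ℓ).subtype s = (ℓ : LaurentSeries ℚ) ^ e := by
      rw [hs, map_pow, map_natCast]
    have h1 : (p.scaleRoots s).eval₂ (V ℓ).subtype ((V ℓ).subtype s * x) = 0 :=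
      Polynomial.scaleRoots_eval₂_eq_zero _ hroot
    rw [hscoe, ← hwx] at h1
    have h2 : (p.scaleRoots s).eval₂ (V ℓ).subtype
        ((V ℓ).subtype ⟨iota ℓ a' / iota ℓ b', hwV⟩) = 0 := h1
    rw [Polynomial.eval₂_at_apply] at h2
    have h3 : (p.scaleRoots s).eval ⟨iota ℓ a' / iota ℓ b', hwV⟩ = 0 :=
      Subtype.ext h2
    exact hwred (red_eq_zero_of_scaleRoots ℓ p hmonic s _ hsred h3 hd)

/-- `V` is integrally closed in the subfield generated by `ι(ℤ_(ℓ)((q)))`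
(the `closed` field of `GaussData`). -/
theorem closed (x : LaurentSeries ℚ) (hx : x ∈ Subfield.closure (Set.range (iota ℓ)))
    (hint : (V ℓ).subtype.IsIntegralElem x) : x ∈ V ℓ :=
  closed_of_mem_fracField ℓ x (closure_range_iota_le ℓ hx) hint

end Fermat.Agent.S28.GaussRing
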