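import Mathlib

set_option autoImplicit false

/-!
# S28, block M4 (abstract part): the q-expansion principle from degree data

Pure commutative algebra (Mathlib only).  `A` is a UFD (think `ℤ_(ℓ)[X]`), `π` a prime of `A`
(think `ℓ`), `φ : A →+* V` an injective ring hom into a domain `V` (think: the Gauss valuation
ring inside `ℚ((q))`, `φ = ` evaluation at `j`), `red : V →+* Lk` a "reduction" with
`red (φ π) = 0`.
-/

namespace Fermat.Agent.S28.QEPAbs

open Polynomial

variable {A : Type*} [CommRing A] [IsDomain A] [UniqueFactorizationMonoid A]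

/-- Divide a family, not identically zero, by the largest common power of a prime. -/
theorem exists_primitive {ι : Type*} (π : A) (hπ : Prime π) (c : ι → A) (hc : ∃ i, c i ≠ 0) :
    ∃ (k : ℕ) (d : ι → A), (∀ i, c i = π ^ k * d i) ∧ ∃ i, ¬ π ∣ d i := by
  obtain ⟨i₀, hi₀⟩ := hc
  obtain ⟨m, a, ha, h⟩ := WfDvdMonoid.max_power_factor hi₀ hπ.irreducible
  induction m generalizing c with
  | zero =>
    refine ⟨0, c, fun i => by simp, i₀, ?_⟩
    rw [h]
    simpa using ha
  | succ m ih =>
    by_cases hall : ∀ i, π ∣ c i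
    · choose e he using hall
      have he0 : e i₀ = π ^ m * a := by
        have h1 := he i₀
        rw [h, pow_succ', mul_assoc] at h1
        exact (mul_left_cancel₀ hπ.ne_zero h1).symm
      have hne : e i₀ ≠ 0 := by
        intro h0
        apply hi₀
        rw [he i₀, h0, mul_zero]
      obtain ⟨k, d, hd, hd'⟩ := ih e hne he0
      exact ⟨k + 1, d, fun i => by rw [he i, hd i, pow_succ']; ring, hd'⟩
    · push Not at hall
      exact ⟨0, c, fun i => by simp, hall⟩

section minpoly

variable {V : Type*} [CommRing V] [IsDomain V] [Algebra A V] [Module.IsTorsionFree A V]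

/-- Over an integrally closed domain, the minimal polynomial of `a • s` is the minimal polynomial
of `s` with roots scaled by `a`. -/
theorem minpoly_mul_eq_scaleRoots {s : V} (hs : IsIntegral A s) (a : A) (ha : a ≠ 0) :
    minpoly A (algebraMap A V a * s) = (minpoly A s).scaleRoots a := by
  symm
  refine IsIntegrallyClosed.minpoly.unique ((monic_scaleRoots_iff a).mpr (minpoly.monic hs))
    (scaleRoots_aeval_eq_zero (minpoly.aeval A s)) ?_
  intro Q hQ hQ0
  rw [degree_scaleRoots]
  have hG : aeval s (Q.comp (C a * X)) = 0 := by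
    rw [aeval_comp]
    simpa [Algebra.smul_def] using hQ0
  have hlin : (C a * X : A[X]).natDegree = 1 := natDegree_C_mul_X a ha
  have hG0 : Q.comp (C a * X) ≠ 0 := by
    intro h0
    have := congrArg natDegree h0
    rw [natDegree_comp, hlin, mul_one, natDegree_zero] at this
    have hQ1 : Q = 1 := eq_one_of_monic_natDegree_zero hQ this
    rw [hQ1, one_comp] at h0
    exact one_ne_zero h0
  have := minpoly.IsIntegrallyClosed.degree_le_of_ne_zero hG0 hG
  refine this.trans ?_
  rw [degree_eq_natDegree hG0, degree_eq_natDegree hQ.ne_zero, natDegree_comp, hlin, mul_one]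

end minpoly

/-- **Abstract q-expansion principle.**  If `π y` is integral over `A`, the powers
`1, u, …, u^(n-1)` stay independent after reduction, and every `y u^i` (`i < n`) satisfies a
nontrivial `A`-linear relation with `1, u, …, u^(n-1)`, then `y` itself is integral over `A`. -/
theorem isIntegralElem_of_reduction
    {V Lk : Type*} [CommRing V] [IsDomain V] [CommRing Lk]
    (φ : A →+* V) (hφ : Function.Injective φ) (red : V →+* Lk) (π : A) (hπ : Prime π)
    (hπred : red (φ π) = 0)
    (u : V) (n : ℕ) (hn : 0 < n)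
    (hindep : ∀ c : Fin n → A, (∃ i, ¬ π ∣ c i) → red (∑ i, φ (c i) * u ^ (i : ℕ)) ≠ 0)
    (y : V)
    (hdep : ∀ i : Fin n, ∃ (c' : A) (c : Fin n → A), (c' ≠ 0 ∨ ∃ j, c j ≠ 0) ∧
      φ c' * (y * u ^ (i : ℕ)) = ∑ j, φ (c j) * u ^ (j : ℕ))
    (hx : φ.IsIntegralElem (φ π * y)) : φ.IsIntegralElem y := by
  classical
  -- Step A+B: normalised relations
  have key : ∀ i : Fin n, ∃ (b : A) (c : Fin n → A), ¬ π ∣ b ∧
      φ b * (y * u ^ (i : ℕ)) = ∑ j, φ (c j) * u ^ (j : ℕ) := by
    intro i
    obtain ⟨c', c, hne, hrel⟩ := hdep i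
    obtain ⟨k, d, hd, hd'⟩ := exists_primitive π hπ (fun o : Option (Fin n) => o.elim c' c) (by
      rcases hne with h | ⟨j, hj⟩
      · exact ⟨none, h⟩
      · exact ⟨some j, hj⟩)
    have hπk : φ (π ^ k) ≠ 0 := by
      rw [Ne, map_eq_zero_iff φ hφ]; exact pow_ne_zero _ hπ.ne_zero
    have h0 : c' = π ^ k * d none := hd none
    have hs : ∀ j, c j = π ^ k * d (some j) := fun j => hd (some j)
    have hrel' : φ (d none) * (y * u ^ (i : ℕ)) = ∑ j, φ (d (some j)) * u ^ (j : ℕ) := by
      apply mul_left_cancel₀ hπk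
      rw [← mul_assoc, ← map_mul, ← h0, hrel, Finset.mul_sum]
      refine Finset.sum_congr rfl fun j _ => ?_
      rw [hs j, map_mul]; ring
    refine ⟨d none, fun j => d (some j), ?_, hrel'⟩
    rintro ⟨e, he⟩
    have hex : ∃ j, ¬ π ∣ d (some j) := by
      obtain ⟨o, ho⟩ := hd'
      cases o with
      | none => exact absurd ⟨e, he⟩ ho
      | some j => exact ⟨j, ho⟩
    apply hindep (fun j => d (some j)) hex
    rw [← hrel', map_mul, he, map_mul, map_mul, hπred, zero_mul, zero_mul]
  choose b c hb hrel using key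
  let _ : Algebra A V := φ.toAlgebra
  have halg : ∀ a : A, algebraMap A V a = φ a := fun _ => rfl
  have : Module.IsTorsionFree A V := Module.isTorsionFree_iff_algebraMap_injective.mpr hφ
  set B : A := ∏ i, b i with hB
  have hBπ : ¬ π ∣ B := by
    rw [hB, Prime.dvd_finsetProd_iff hπ]
    push Not
    intro i _
    exact hb i
  have hB0 : B ≠ 0 := fun h => hBπ (h ▸ dvd_zero π)
  -- Step C: `B y` is integral
  have hBy : IsIntegral A (φ B * y) := by
    refine isIntegral_of_smul_mem_submodule (M := V)
      (Submodule.span A (Set.range fun j : Fin n => u ^ (j : ℕ))) ?_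
      (Submodule.fg_span (Set.finite_range _)) (φ B * y) ?_
    · intro hbot
      have h1 : u ^ ((⟨0, hn⟩ : Fin n) : ℕ) ∈
          Submodule.span A (Set.range fun j : Fin n => u ^ (j : ℕ)) :=
        Submodule.subset_span ⟨⟨0, hn⟩, rfl⟩
      rw [hbot, Submodule.mem_bot] at h1
      simp at h1
    · intro m hm
      induction hm using Submodule.span_induction with
      | mem x hx =>
        obtain ⟨i, rfl⟩ := hx
        have hsplit : B = (∏ k ∈ Finset.univ.erase i, b k) * b i := by
          rw [hB, Finset.prod_erase_mul _ _ (Finset.mem_univ i)]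
        have : (φ B * y) • u ^ (i : ℕ) =
            ∑ j, ((∏ k ∈ Finset.univ.erase i, b k) * c i j) • u ^ (j : ℕ) := by
          rw [smul_eq_mul, hsplit, map_mul, mul_assoc, mul_assoc, hrel i, Finset.mul_sum]
          refine Finset.sum_congr rfl fun j _ => ?_
          rw [Algebra.smul_def, halg, map_mul]; ring
        rw [this]
        exact Submodule.sum_mem _ fun j _ =>
          Submodule.smul_mem _ _ (Submodule.subset_span ⟨j, rfl⟩)
      | zero => simp
      | add x y _ _ hx hy => rw [smul_add]; exact add_mem hx hy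
      | smul a x _ hx => rw [smul_comm]; exact Submodule.smul_mem _ _ hx
  -- Step D: compare minimal polynomials
  have hx' : IsIntegral A (φ π * y) := hx
  have h1 := minpoly_mul_eq_scaleRoots hx' B hB0
  have h2 := minpoly_mul_eq_scaleRoots hBy π hπ.ne_zero
  rw [halg] at h1 h2
  have hw : φ B * (φ π * y) = φ π * (φ B * y) := by ring
  have heq : (minpoly A (φ π * y)).scaleRoots B = (minpoly A (φ B * y)).scaleRoots π := by
    rw [← h1, hw, h2]
  set P₁ := minpoly A (φ π * y) with hP₁
  set P₂ := minpoly A (φ B * y) with hP₂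
  set d := P₁.natDegree with hd
  have hdeg : P₂.natDegree = d := by
    have := congrArg natDegree heq
    rw [natDegree_scaleRoots, natDegree_scaleRoots] at this
    rw [hd, this]
  have hcoeff : ∀ i, P₁.coeff i * B ^ (d - i) = P₂.coeff i * π ^ (d - i) := by
    intro i
    have := congrArg (fun p => p.coeff i) heq
    simpa [coeff_scaleRoots, hdeg] using this
  have hdvd : ∀ i, π ^ (d - i) ∣ P₁.coeff i := fun i =>
    Prime.pow_dvd_of_dvd_mul_right hπ _ (fun h => hBπ (hπ.dvd_of_dvd_pow h))
      ⟨P₂.coeff i, by rw [hcoeff i, mul_comm]⟩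
  choose q hq using hdvd
  have hqd : q d = 1 := by
    have := hq d
    rw [Nat.sub_self, pow_zero, one_mul] at this
    rw [← this, hd]
    exact (minpoly.monic hx').coeff_natDegree
  refine ⟨X ^ d + ∑ i : Fin d, C (q i) * X ^ (i : ℕ), monic_X_pow_add (degree_sum_fin_lt _), ?_⟩
  have hroot : aeval (φ π * y) P₁ = 0 := minpoly.aeval A _
  rw [aeval_eq_sum_range, ← hd, Finset.sum_range_succ] at hroot
  have hπd : φ π ^ d ≠ 0 := pow_ne_zero _ (by rw [Ne, map_eq_zero_iff φ hφ]; exact hπ.ne_zero)
  apply mul_left_cancel₀ hπd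
  rw [mul_zero, ← hroot]
  simp only [eval₂_add, eval₂_pow, eval₂_X, eval₂_finsetSum, eval₂_mul, eval₂_C]
  rw [mul_add, Finset.mul_sum, add_comm, Fin.sum_univ_eq_sum_range
    (fun i => φ π ^ d * (φ (q i) * y ^ i)) d]
  congr 1
  · refine Finset.sum_congr rfl fun i hi => ?_
    have hi' : i < d := Finset.mem_range.mp hi
    rw [Algebra.smul_def, halg, hq i, map_mul, map_pow, mul_pow]
    have : φ π ^ d = φ π ^ (d - i) * φ π ^ i := by rw [← pow_add]; congr 1; omega
    rw [this]; ring
  · rw [Algebra.smul_def, halg, hq d, hqd, Nat.sub_self, pow_zero, mul_one, map_one, one_mul,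
      mul_pow]

end Fermat.Agent.S28.QEPAbs
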