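import Mathlib
import Fermat.Prelude.Def_ModularCurve_IgusaScheme

set_option autoImplicit false

open AlgebraicGeometry CategoryTheory CategoryTheory.Limits ModularCurve ModularCurve.IgusaScheme
open TensorProduct

noncomputable section

namespace Fermat.Agent.S28.Glue

/-- A space covered by two preirreducible opens that meet is irreducible. -/
theorem irreducibleSpace_of_two_opens {X : Type*} [TopologicalSpace X] {U V : Set X}
    (hU : IsOpen U) (hV : IsOpen V) (hUi : IsPreirreducible U) (hVi : IsPreirreducible V)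
    (hUV : (U ∩ V).Nonempty) (hcov : ∀ x : X, x ∈ U ∨ x ∈ V) : IrreducibleSpace X := by
  have key : ∀ u : Set X, IsOpen u → u.Nonempty → (U ∩ (u ∩ V)).Nonempty := by
    rintro u hu ⟨x, hx⟩
    rcases hcov x with hxU | hxV
    · exact hUi u V hu hV ⟨x, hxU, hx⟩ hUV
    · obtain ⟨y, hyV, hyu, hyU⟩ := hVi u U hu hU ⟨x, hxV, hx⟩ (by rwa [Set.inter_comm])
      exact ⟨y, hyU, hyu, hyV⟩
  refine { toPreirreducibleSpace := ⟨?_⟩, toNonempty := ⟨hUV.some⟩ }
  rintro u v hu hv ⟨x, -, hx⟩ ⟨y, -, hy⟩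
  obtain ⟨z, -, ⟨hzu, -⟩, hzv, -⟩ := hUi (u ∩ V) (v ∩ V) (hu.inter hV) (hv.inter hV)
    (key u hu ⟨x, hx⟩) (key v hv ⟨y, hy⟩)
  exact ⟨z, Set.mem_univ z, hzu, hzv⟩

variable (N : ℕ) [NeZero N] (ℓ : ℕ) [Fact ℓ.Prime]
variable (K : Type) [Field K] [Algebra ↥(GaloisRep.ratLocalizedAt ℓ) K]

set_option quotPrecheck false in
local notation "ℤℓ" => ↥(GaloisRep.ratLocalizedAt ℓ)

/-- The chart of the base-changed Igusa scheme attached to an affine chart `ι`. -/
def chartMap (A : Type) [CommRing A] [Algebra ℤℓ A]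
    (ι : Spec (CommRingCat.of A) ⟶ ModularCurve.IgusaScheme N ℓ)
    (h : ι ≫ igusaTo N ℓ = Spec.map (CommRingCat.ofHom (algebraMap ℤℓ A))) :
    Spec (CommRingCat.of (A ⊗[ℤℓ] K)) ⟶
      pullback (igusaTo N ℓ) (Spec.map (CommRingCat.ofHom (algebraMap ℤℓ K))) :=
  (pullbackSpecIso ℤℓ A K).inv ≫
    pullback.map (Spec.map (CommRingCat.ofHom (algebraMap ℤℓ A)))
      (Spec.map (CommRingCat.ofHom (algebraMap ℤℓ K))) (igusaTo N ℓ)
      (Spec.map (CommRingCat.ofHom (algebraMap ℤℓ K))) ι (𝟙 _) (𝟙 _)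
      (by rw [Category.comp_id, h]) (by rw [Category.comp_id, Category.id_comp])

instance chartMap_isOpenImmersion (A : Type) [CommRing A] [Algebra ℤℓ A]
    (ι : Spec (CommRingCat.of A) ⟶ ModularCurve.IgusaScheme N ℓ) [IsOpenImmersion ι]
    (h : ι ≫ igusaTo N ℓ = Spec.map (CommRingCat.ofHom (algebraMap ℤℓ A))) :
    IsOpenImmersion (chartMap N ℓ K A ι h) := by
  unfold chartMap
  infer_instance

theorem chartMap_fst (A : Type) [CommRing A] [Algebra ℤℓ A]
    (ι : Spec (CommRingCat.of A) ⟶ ModularCurve.IgusaScheme N ℓ)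
    (h : ι ≫ igusaTo N ℓ = Spec.map (CommRingCat.ofHom (algebraMap ℤℓ A))) :
    chartMap N ℓ K A ι h ≫ pullback.fst _ _ =
      Spec.map (CommRingCat.ofHom (Algebra.TensorProduct.includeLeftRingHom)) ≫ ι := by
  unfold chartMap
  rw [Category.assoc, pullback.lift_fst, ← Category.assoc, pullbackSpecIso_inv_fst]

theorem range_chartMap (A : Type) [CommRing A] [Algebra ℤℓ A]
    (ι : Spec (CommRingCat.of A) ⟶ ModularCurve.IgusaScheme N ℓ)
    (h : ι ≫ igusaTo N ℓ = Spec.map (CommRingCat.ofHom (algebraMap ℤℓ A))) :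
    Set.range (chartMap N ℓ K A ι h) =
      (pullback.fst (igusaTo N ℓ) (Spec.map (CommRingCat.ofHom (algebraMap ℤℓ K)))) ⁻¹'
        Set.range ι := by
  unfold chartMap
  rw [Scheme.Hom.comp_base, TopCat.coe_comp, Set.range_comp,
    Set.range_eq_univ.mpr (pullbackSpecIso ℤℓ A K).inv.surjective, Set.image_univ,
    Scheme.Pullback.range_map]
  simp

omit [Fact ℓ.Prime] in
theorem isReduced_of_two_charts {P U V : Scheme.{0}} (f : U ⟶ P) (g : V ⟶ P)
    [IsOpenImmersion f] [IsOpenImmersion g] [IsReduced U] [IsReduced V]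
    (hcov : ∀ p : P, p ∈ Set.range f ∨ p ∈ Set.range g) : IsReduced P := by
  have (x : P) : _root_.IsReduced (P.presheaf.stalk x) := by
    rcases hcov x with ⟨y, rfl⟩ | ⟨y, rfl⟩
    · exact isReduced_of_injective _
        (asIso <| f.stalkMap y).commRingCatIsoToRingEquiv.injective
    · exact isReduced_of_injective _
        (asIso <| g.stalkMap y).commRingCatIsoToRingEquiv.injective
  exact isReduced_of_isReduced_stalk _

omit [Fact ℓ.Prime] in
theorem irreducibleSpace_of_two_charts {P U V : Scheme.{0}} (f : U ⟶ P) (g : V ⟶ P)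
    [IsOpenImmersion f] [IsOpenImmersion g] [IrreducibleSpace U] [IrreducibleSpace V]
    (hcov : ∀ p : P, p ∈ Set.range f ∨ p ∈ Set.range g)
    (hmeet : (Set.range f ∩ Set.range g).Nonempty) : IrreducibleSpace P := by
  refine irreducibleSpace_of_two_opens (IsOpenImmersion.isOpen_range f)
    (IsOpenImmersion.isOpen_range g) ?_ ?_ hmeet hcov
  · rw [← Set.image_univ]
    exact ((IrreducibleSpace.isIrreducible_univ U).image _ f.continuous.continuousOn).2
  · rw [← Set.image_univ]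
    exact ((IrreducibleSpace.isIrreducible_univ V).image _ g.continuous.continuousOn).2

theorem mid_comp_igusaTo :
    (fFin N ℓ ≫ ιFin N ℓ) ≫ igusaTo N ℓ =
      Spec.map (CommRingCat.ofHom (algebraMap ℤℓ (chartAlgMid N ℓ))) := by
  rw [Category.assoc, ιFin_igusaTo, ← Spec.map_comp, ← CommRingCat.ofHom_comp]
  congr 2

/-- **Scheme glue.** The base change of the Igusa scheme to `K` is integral as soon as
the two chart algebras tensored with `K` are domains and the overlap algebra tensored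
with `K` is nontrivial. -/
theorem isIntegral_pullback_of_charts
    (hFin : IsDomain ((chartAlgFin N ℓ) ⊗[ℤℓ] K))
    (hInf : IsDomain ((chartAlgInf N ℓ) ⊗[ℤℓ] K))
    (hMid : Nontrivial ((chartAlgMid N ℓ) ⊗[ℤℓ] K)) :
    IsIntegral (pullback (igusaTo N ℓ) (Spec.map (CommRingCat.ofHom (algebraMap ℤℓ K)))) := by
  let cF := chartMap N ℓ K (chartAlgFin N ℓ) (ιFin N ℓ) (ιFin_igusaTo N ℓ)
  let cI := chartMap N ℓ K (chartAlgInf N ℓ) (ιInf N ℓ) (ιInf_igusaTo N ℓ)
  let cM := chartMap N ℓ K (chartAlgMid N ℓ) (fFin N ℓ ≫ ιFin N ℓ) (mid_comp_igusaTo N ℓ)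
  have hcov : ∀ p : ↑(pullback (igusaTo N ℓ) (Spec.map (CommRingCat.ofHom (algebraMap ℤℓ K)))),
      p ∈ Set.range cF ∨ p ∈ Set.range cI := by
    intro p
    rw [range_chartMap, range_chartMap]
    exact mem_range_ιFin_or_mem_range_ιInf N ℓ _
  have hmeet : (Set.range cF ∩ Set.range cI).Nonempty := by
    obtain ⟨z⟩ : Nonempty ↥(Spec (CommRingCat.of ((chartAlgMid N ℓ) ⊗[ℤℓ] K))) :=
      inferInstanceAs (Nonempty (PrimeSpectrum ((chartAlgMid N ℓ) ⊗[ℤℓ] K)))
    refine ⟨cM z, ?_, ?_⟩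
    · rw [range_chartMap, Set.mem_preimage, ← Scheme.Hom.comp_apply, chartMap_fst]
      exact ⟨_, rfl⟩
    · rw [range_chartMap, Set.mem_preimage, ← Scheme.Hom.comp_apply, chartMap_fst,
        glue_condition]
      exact ⟨_, rfl⟩
  have : IsReduced (pullback (igusaTo N ℓ) (Spec.map (CommRingCat.ofHom (algebraMap ℤℓ K)))) :=
    isReduced_of_two_charts cF cI hcov
  have : IrreducibleSpace
      ↑(pullback (igusaTo N ℓ) (Spec.map (CommRingCat.ofHom (algebraMap ℤℓ K)))) :=
    irreducibleSpace_of_two_charts cF cI hcov hmeet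
  exact isIntegral_of_irreducibleSpace_of_isReduced _

end Fermat.Agent.S28.Glue
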