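import Mathlib
import Fermat.Prelude.Def_GaloisRep_Flat
import Fermat.Prelude.Def_ModularCurve_LaurentCoeff

set_option autoImplicit false

/-!
Block (II) of the S28 plan: if a `ℤ_(ℓ)`-algebra `A` has a ring hom `r : A → 𝔽_ℓ((q))` whose
kernel is `ℓ A` ("q-expansion principle"), then `A ⊗_{ℤ_(ℓ)} K` embeds into `K((q))` for every
field `K` of characteristic `ℓ`; in particular it is a domain.
-/

namespace Fermat.Agent.S28.Tensor

open TensorProduct

/-- Any two ring homs out of `ℤ_(ℓ) = GaloisRep.ratLocalizedAt ℓ` agree. -/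
theorem ratLocalizedAt_ringHom_ext (ℓ : ℕ) {S : Type*} [Ring S]
    (f g : ↥(GaloisRep.ratLocalizedAt ℓ) →+* S) : f = g := by
  ext ⟨x, hx⟩
  have hd0 : (x.den : ℚ) ≠ 0 := by exact_mod_cast x.den_nz
  have hu : ((x.den : ℚ)⁻¹) ∈ GaloisRep.ratLocalizedAt ℓ := by
    show ((x.den : ℚ)⁻¹).den.Coprime ℓ
    have : ((x.den : ℚ)⁻¹).den = x.den := by
      rw [Rat.inv_natCast_den_of_pos x.den_pos]
    rw [this]; exact hx
  set u : ↥(GaloisRep.ratLocalizedAt ℓ) := ⟨(x.den : ℚ)⁻¹, hu⟩ with hu_def
  have hdu : ((x.den : ℕ) : ↥(GaloisRep.ratLocalizedAt ℓ)) * u = 1 := by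
    apply Subtype.ext
    simp [hu_def, hd0]
  have hx' : (⟨x, hx⟩ : ↥(GaloisRep.ratLocalizedAt ℓ)) =
      ((x.num : ℤ) : ↥(GaloisRep.ratLocalizedAt ℓ)) * u := by
    apply Subtype.ext
    simp only [hu_def, Subring.coe_mul, Subring.coe_intCast]
    rw [← div_eq_mul_inv, Rat.num_div_den]
  have hfu : f u = g u := by
    have h1 : (x.den : S) * f u = 1 := by
      rw [← map_natCast f, ← map_mul, hdu, map_one]
    have h2 : (x.den : S) * g u = 1 := by
      rw [← map_natCast g, ← map_mul, hdu, map_one]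
    have h3 : f u * (x.den : S) = 1 := by
      rw [← map_natCast f, ← map_mul, mul_comm, hdu, map_one]
    calc f u = f u * ((x.den : S) * g u) := by rw [h2, mul_one]
      _ = (f u * (x.den : S)) * g u := by rw [mul_assoc]
      _ = g u := by rw [h3, one_mul]
  rw [hx', map_mul, map_mul, map_intCast, map_intCast, hfu]

variable (ℓ : ℕ) [Fact ℓ.Prime]

/-- The q-expansion principle implies that the special fibre `A ⊗ K` is a domain. -/
theorem isDomain_tensor_of_reduction
    {A : Type*} [CommRing A] [Algebra ↥(GaloisRep.ratLocalizedAt ℓ) A]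
    (K : Type*) [Field K] [CharP K ℓ] [Algebra ↥(GaloisRep.ratLocalizedAt ℓ) K]
    (r : A →+* LaurentSeries (ZMod ℓ))
    (hker : ∀ a : A, r a = 0 → ∃ b : A, a = (ℓ : A) * b) :
    IsDomain (A ⊗[↥(GaloisRep.ratLocalizedAt ℓ)] K) := by
  classical
  let _ : Algebra (ZMod ℓ) K := ZMod.algebra K ℓ
  -- the two components of the map to `K((q))`
  let f₁ : A →ₐ[↥(GaloisRep.ratLocalizedAt ℓ)] LaurentSeries K :=
    { (ModularCurve.coeffMap (algebraMap (ZMod ℓ) K)).comp r with
      commutes' := fun x => by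
        have := ratLocalizedAt_ringHom_ext ℓ
          (((ModularCurve.coeffMap (algebraMap (ZMod ℓ) K)).comp r).comp
            (algebraMap ↥(GaloisRep.ratLocalizedAt ℓ) A))
          (algebraMap ↥(GaloisRep.ratLocalizedAt ℓ) (LaurentSeries K))
        exact congrArg (fun φ => φ x) this }
  let f₂ : K →ₐ[↥(GaloisRep.ratLocalizedAt ℓ)] LaurentSeries K :=
    { (HahnSeries.C : K →+* LaurentSeries K) with
      commutes' := fun x => by
        have := ratLocalizedAt_ringHom_ext ℓ
          ((HahnSeries.C : K →+* LaurentSeries K).comp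
            (algebraMap ↥(GaloisRep.ratLocalizedAt ℓ) K))
          (algebraMap ↥(GaloisRep.ratLocalizedAt ℓ) (LaurentSeries K))
        exact congrArg (fun φ => φ x) this }
  let Φ := Algebra.TensorProduct.productMap f₁ f₂
  have hΦ_tmul : ∀ (a : A) (c : K), Φ (a ⊗ₜ c) = f₁ a * f₂ c := fun a c => by
    simp [Φ]
  -- a basis of `K` over `𝔽_ℓ`
  let b := Module.Basis.ofVectorSpace (ZMod ℓ) K
  -- every element is a finite sum of `a_i ⊗ b_i`
  have hrep : ∀ z : A ⊗[↥(GaloisRep.ratLocalizedAt ℓ)] K,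
      ∃ a : (Module.Basis.ofVectorSpaceIndex (ZMod ℓ) K) →₀ A,
        z = a.sum (fun i x => x ⊗ₜ[↥(GaloisRep.ratLocalizedAt ℓ)] (b i)) := by
    intro z
    induction z using TensorProduct.induction_on with
    | zero => exact ⟨0, by simp⟩
    | tmul x c =>
      refine ⟨(b.repr c).mapRange (fun t : ZMod ℓ => t.val • x) (by simp), ?_⟩
      rw [Finsupp.sum_mapRange_index (by intro i; simp)]
      conv_lhs => rw [← b.linearCombination_repr c, Finsupp.linearCombination_apply]
      rw [Finsupp.sum, Finsupp.sum, TensorProduct.tmul_sum]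
      refine Finset.sum_congr rfl fun i _ => ?_
      have h1 : (b.repr c i) • b i = ((b.repr c i).val : ℕ) • b i := by
        conv_lhs => rw [← ZMod.natCast_zmod_val (b.repr c i)]
        rw [Nat.cast_smul_eq_nsmul]
      rw [h1, TensorProduct.tmul_smul, TensorProduct.smul_tmul']
    | add z₁ z₂ h₁ h₂ =>
      obtain ⟨a₁, rfl⟩ := h₁
      obtain ⟨a₂, rfl⟩ := h₂
      refine ⟨a₁ + a₂, ?_⟩
      rw [Finsupp.sum_add_index' (by intro i; simp) (by intro i x y; simp [TensorProduct.add_tmul])]
  -- injectivity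
  have hinj : Function.Injective Φ := by
    rw [injective_iff_map_eq_zero]
    intro z hz
    obtain ⟨a, rfl⟩ := hrep z
    rw [Finsupp.sum] at hz ⊢
    rw [map_sum] at hz
    -- every coefficient vanishes
    have hcoef : ∀ i ∈ a.support, r (a i) = 0 := by
      intro i hi
      ext n
      have hn := congrArg (fun y : LaurentSeries K => y.coeff n) hz
      simp only [HahnSeries.coeff_zero] at hn
      have hsum : ∑ j ∈ a.support, ((r (a j)).coeff n) • b j = 0 := by
        rw [← hn]
        show _ = (∑ j ∈ a.support, Φ (a j ⊗ₜ b j)).coeff n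
        rw [HahnSeries.coeff_sum]
        refine Finset.sum_congr rfl fun j _ => ?_
        rw [hΦ_tmul, mul_comm]
        show _ = ((HahnSeries.C (b j) : LaurentSeries K) * _).coeff n
        rw [HahnSeries.C_mul_eq_smul, HahnSeries.coeff_smul]
        show _ = b j • (algebraMap (ZMod ℓ) K ((r (a j)).coeff n))
        rw [Algebra.smul_def, smul_eq_mul, mul_comm]
      have := (linearIndependent_iff'.mp b.linearIndependent) a.support
        (fun j => (r (a j)).coeff n) hsum i hi
      simpa using this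
    refine Finset.sum_eq_zero fun i hi => ?_
    obtain ⟨c, hc⟩ := hker (a i) (hcoef i hi)
    have hℓ : ((ℓ : ℕ) : K) = 0 := CharP.cast_eq_zero K ℓ
    rw [hc, ← nsmul_eq_mul, TensorProduct.smul_tmul, nsmul_eq_mul, hℓ,
      zero_mul, TensorProduct.tmul_zero]
  exact hinj.isDomain Φ.toRingHom

/-- Any ring hom `A → 𝔽_ℓ((q))` shows that `A ⊗ K` is nontrivial. -/
theorem nontrivial_tensor_of_hom
    {A : Type*} [CommRing A] [Algebra ↥(GaloisRep.ratLocalizedAt ℓ) A]
    (K : Type*) [Field K] [CharP K ℓ] [Algebra ↥(GaloisRep.ratLocalizedAt ℓ) K]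
    (r : A →+* LaurentSeries (ZMod ℓ)) :
    Nontrivial (A ⊗[↥(GaloisRep.ratLocalizedAt ℓ)] K) := by
  classical
  let _ : Algebra (ZMod ℓ) K := ZMod.algebra K ℓ
  let f₁ : A →ₐ[↥(GaloisRep.ratLocalizedAt ℓ)] LaurentSeries K :=
    { (ModularCurve.coeffMap (algebraMap (ZMod ℓ) K)).comp r with
      commutes' := fun x => by
        have := ratLocalizedAt_ringHom_ext ℓ
          (((ModularCurve.coeffMap (algebraMap (ZMod ℓ) K)).comp r).comp
            (algebraMap ↥(GaloisRep.ratLocalizedAt ℓ) A))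
          (algebraMap ↥(GaloisRep.ratLocalizedAt ℓ) (LaurentSeries K))
        exact congrArg (fun φ => φ x) this }
  let f₂ : K →ₐ[↥(GaloisRep.ratLocalizedAt ℓ)] LaurentSeries K :=
    { (HahnSeries.C : K →+* LaurentSeries K) with
      commutes' := fun x => by
        have := ratLocalizedAt_ringHom_ext ℓ
          ((HahnSeries.C : K →+* LaurentSeries K).comp
            (algebraMap ↥(GaloisRep.ratLocalizedAt ℓ) K))
          (algebraMap ↥(GaloisRep.ratLocalizedAt ℓ) (LaurentSeries K))
        exact congrArg (fun φ => φ x) this }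
  exact (Algebra.TensorProduct.productMap f₁ f₂).toRingHom.domain_nontrivial

end Fermat.Agent.S28.Tensor
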