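import Mathlib
import Fermat.Prelude.Def_ModularCurve_IgusaScheme
import Fermat.Agent.S28.Glue
import Fermat.Agent.S28.Tensor

set_option autoImplicit false

open AlgebraicGeometry CategoryTheory CategoryTheory.Limits ModularCurve ModularCurve.IgusaScheme
open TensorProduct

noncomputable section

namespace Fermat.Agent.S28.Reduce

/-- "q-expansion principle" for a `ℤ_(ℓ)`-algebra `A`: a ring hom to `𝔽_ℓ((q))` with kernel `ℓ A`. -/
def HasReduction (ℓ : ℕ) (A : Type) [CommRing A] : Prop :=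
  ∃ r : A →+* LaurentSeries (ZMod ℓ), ∀ a : A, r a = 0 → ∃ b : A, a = (ℓ : A) * b

/-- S28 reduced to the q-expansion principle for the three chart algebras. -/
theorem isIntegral_pullback_of_hasReduction (N : ℕ) [NeZero N] (ℓ : ℕ) [Fact ℓ.Prime]
    (K : Type) [Field K] [CharP K ℓ] [Algebra ↥(GaloisRep.ratLocalizedAt ℓ) K]
    (hFin : HasReduction ℓ ↥(chartAlgFin N ℓ))
    (hInf : HasReduction ℓ ↥(chartAlgInf N ℓ))
    (hMid : HasReduction ℓ ↥(chartAlgMid N ℓ)) :
    IsIntegral (pullback (igusaTo N ℓ)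
      (Spec.map (CommRingCat.ofHom (algebraMap ↥(GaloisRep.ratLocalizedAt ℓ) K)))) := by
  obtain ⟨r₁, h₁⟩ := hFin
  obtain ⟨r₂, h₂⟩ := hInf
  obtain ⟨r₃, h₃⟩ := hMid
  have d₁ := Tensor.isDomain_tensor_of_reduction ℓ K r₁ h₁
  have d₂ := Tensor.isDomain_tensor_of_reduction ℓ K r₂ h₂
  have d₃ := Tensor.isDomain_tensor_of_reduction ℓ K r₃ h₃
  exact Glue.isIntegral_pullback_of_charts N ℓ K d₁ d₂ d₃.toNontrivial

end Fermat.Agent.S28.Reduce
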