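import Mathlib
import Fermat.Prelude.Def_ModularCurve_IgusaScheme
import Fermat.Prelude.Def_ModularCurve_X0ModL
import Fermat.Agent.S28.Red
import Fermat.Agent.S28.Reduce
import Fermat.Agent.S28.QEPAbs

set_option autoImplicit false
set_option linter.unusedSectionVars false

/-!
# S28, block M4 (concrete part): the q-expansion principle for the chart algebras

Input: the interface `GaussData ℓ` with the Gauss valuation ring (block M3) and the three
conjuncts of `Targets.core` for an integral series `uZ`.  Output: `Reduce.HasReduction` for the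
three chart algebras of the Igusa scheme.
-/

noncomputable section

namespace Fermat.Agent.S28.QEPInst

open GaloisRep Polynomial IntermediateField ModularCurve ModularCurve.IgusaScheme

/-! ### `ℤ_(ℓ)` -/

section Zl

variable (ℓ : ℕ) [Fact ℓ.Prime]

/-- `ℤ_(ℓ)` is a principal ideal ring. -/
instance isPrincipalIdealRing_ratLocalizedAt : IsPrincipalIdealRing ↥(ratLocalizedAt ℓ) := by
  refine ⟨fun I => ?_⟩
  obtain ⟨a, ha⟩ := (inferInstance : IsPrincipalIdealRing ℤ).principal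
    (Ideal.comap (Int.castRingHom ↥(ratLocalizedAt ℓ)) I)
  refine ⟨⟨(a : ↥(ratLocalizedAt ℓ)), ?_⟩⟩
  have haI : (a : ↥(ratLocalizedAt ℓ)) ∈ I := by
    have : a ∈ Ideal.comap (Int.castRingHom ↥(ratLocalizedAt ℓ)) I := by
      rw [ha]; exact Submodule.mem_span_singleton_self a
    simpa using this
  apply le_antisymm
  · intro x hx
    have hnum : ((x : ℚ).num : ↥(ratLocalizedAt ℓ)) ∈ I := by
      have h1 : x * (((x : ℚ).den : ℕ) : ↥(ratLocalizedAt ℓ)) = (((x : ℚ).num : ℤ) : ↥(ratLocalizedAt ℓ)) := by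
        apply Subtype.ext
        push_cast
        exact Rat.mul_den_eq_num _
      rw [← h1]
      exact I.mul_mem_right _ hx
    have hnum' : (x : ℚ).num ∈ Ideal.comap (Int.castRingHom ↥(ratLocalizedAt ℓ)) I := by simpa using hnum
    rw [ha] at hnum'
    obtain ⟨k, hk⟩ := Submodule.mem_span_singleton.mp hnum'
    have hmem : ((k : ℚ) / ((x : ℚ).den : ℚ)) ∈ ratLocalizedAt ℓ := by
      change ((k : ℚ) / ((x : ℚ).den : ℚ)).den.Coprime ℓ
      have hdvd : ((k : ℚ) / ((x : ℚ).den : ℚ)).den ∣ (x : ℚ).den := by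
        have := Rat.den_dvd k ((x : ℚ).den : ℤ)
        rw [Rat.divInt_eq_div] at this
        exact_mod_cast this
      exact Nat.Coprime.coprime_dvd_left hdvd x.2
    rw [Submodule.mem_span_singleton]
    refine ⟨⟨_, hmem⟩, ?_⟩
    apply Subtype.ext
    have hd : ((x : ℚ).den : ℚ) ≠ 0 := by exact_mod_cast (x : ℚ).den_nz
    have hx' : (x : ℚ) = (x : ℚ).num / (x : ℚ).den := (Rat.num_div_den (x : ℚ)).symm
    have hk' : ((x : ℚ).num : ℚ) = (k : ℚ) * (a : ℚ) := by
      have := congrArg (Int.cast : ℤ → ℚ) hk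
      simpa [smul_eq_mul] using this.symm
    simp only [smul_eq_mul]
    push_cast
    conv_rhs => rw [hx', hk']
    field_simp
  · rw [Submodule.span_singleton_le_iff_mem]
    exact haI

theorem prime_ell : Prime ((ℓ : ℕ) : ↥(ratLocalizedAt ℓ)) := by
  have hker : RingHom.ker (Red.red ℓ) = Ideal.span {((ℓ : ℕ) : ↥(ratLocalizedAt ℓ))} := by
    ext x
    rw [RingHom.mem_ker, Red.red_eq_zero_iff, Ideal.mem_span_singleton]
    constructor
    · rintro ⟨y, rfl⟩; exact ⟨y, rfl⟩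
    · rintro ⟨y, rfl⟩; exact ⟨y, rfl⟩
  have hprime : (Ideal.span {((ℓ : ℕ) : ↥(ratLocalizedAt ℓ))}).IsPrime := hker ▸ RingHom.ker_isPrime _
  have hne : ((ℓ : ℕ) : ↥(ratLocalizedAt ℓ)) ≠ 0 := by
    have hℓ : ℓ.Prime := Fact.out
    exact_mod_cast hℓ.ne_zero
  exact (Ideal.span_singleton_prime hne).mp hprime

theorem C_ell_dvd_iff (p : Polynomial ↥(ratLocalizedAt ℓ)) :
    C ((ℓ : ℕ) : ↥(ratLocalizedAt ℓ)) ∣ p ↔ p.map (Red.red ℓ) = 0 := by
  rw [C_dvd_iff_dvd_coeff, Polynomial.ext_iff]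
  refine forall_congr' fun i => ?_
  rw [coeff_map, coeff_zero, Red.red_eq_zero_iff]
  constructor
  · rintro ⟨y, hy⟩; exact ⟨y, hy⟩
  · rintro ⟨y, hy⟩; exact ⟨y, hy⟩

theorem prime_C_ell : Prime (C ((ℓ : ℕ) : ↥(ratLocalizedAt ℓ))) := (prime_C_iff).mpr (prime_ell ℓ)

end Zl

/-! ### Relations in `ℚ(t, u)` -/

section FieldRel

variable {L : Type*} [Field L] [Algebra ℚ L]

/-- Every element of `ℚ(t)` is a quotient of integer polynomials in `t`. -/
theorem exists_int_rel_of_mem_simple (t x : L) (hx : x ∈ ℚ⟮t⟯) :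
    ∃ a b : ℤ[X], aeval t b ≠ 0 ∧ aeval t b * x = aeval t a := by
  have : CharZero L := charZero_of_injective_algebraMap (algebraMap ℚ L).injective
  obtain ⟨r, s, rfl⟩ := (mem_adjoin_simple_iff ℚ x).mp hx
  by_cases hs : aeval t s = 0
  · exact ⟨0, 1, by simp, by simp [hs]⟩
  obtain ⟨br, hbrM, hbr⟩ := IsLocalization.integerNormalization_spec (nonZeroDivisors ℤ) r
  obtain ⟨bs, hbsM, hbs⟩ := IsLocalization.integerNormalization_spec (nonZeroDivisors ℤ) s
  set r' := IsLocalization.integerNormalization (nonZeroDivisors ℤ) r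
  set s' := IsLocalization.integerNormalization (nonZeroDivisors ℤ) s
  have hr' : aeval t r' = ((br : ℤ) : L) * aeval t r := by
    rw [← aeval_map_algebraMap ℚ t r', hbr, map_zsmul, zsmul_eq_mul]
  have hs' : aeval t s' = ((bs : ℤ) : L) * aeval t s := by
    rw [← aeval_map_algebraMap ℚ t s', hbs, map_zsmul, zsmul_eq_mul]
  have hbr0 : ((br : ℤ) : L) ≠ 0 := by
    exact_mod_cast nonZeroDivisors.ne_zero hbrM
  have hbs0 : ((bs : ℤ) : L) ≠ 0 := by
    exact_mod_cast nonZeroDivisors.ne_zero hbsM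
  refine ⟨C (bs : ℤ) * r', C (br : ℤ) * s', ?_, ?_⟩
  · rw [map_mul, aeval_C, hs', eq_intCast]
    exact mul_ne_zero hbr0 (mul_ne_zero hbs0 hs)
  · rw [map_mul, map_mul, aeval_C, aeval_C, hs', hr', eq_intCast, eq_intCast]
    field_simp

/-- If `u` is a root of a monic polynomial of degree `m` over `ℚ[t]`, every element of `ℚ(t, u)`
is, up to a nonzero denominator in `ℤ[t]`, a `ℤ[t]`-combination of `1, u, …, u^(m-1)`. -/
theorem exists_rel_of_mem_adjoin (t u : L) (m : ℕ) (Q : ℚ[X][X]) (hQ : Q.Monic)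
    (hm : Q.natDegree = m) (hroot : Q.eval₂ ((aeval t : ℚ[X] →ₐ[ℚ] L) : ℚ[X] →+* L) u = 0)
    (z : L) (hz : z ∈ IntermediateField.adjoin ℚ {t, u}) :
    ∃ (c' : ℤ[X]) (c : Fin m → ℤ[X]), aeval t c' ≠ 0 ∧
      aeval t c' * z = ∑ i, aeval t (c i) * u ^ (i : ℕ) := by
  classical
  set φ₀ : ℚ[X] →+* ℚ⟮t⟯ := ((aeval (AdjoinSimple.gen ℚ t) : ℚ[X] →ₐ[ℚ] ℚ⟮t⟯) : ℚ[X] →+* ℚ⟮t⟯)
    with hφ₀
  have hφ₀coe : ∀ p : ℚ[X], ((φ₀ p : ℚ⟮t⟯) : L) = aeval t p := by
    intro p
    have := aeval_algebraMap_apply (A := ℚ⟮t⟯) L (AdjoinSimple.gen ℚ t) p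
    rw [AdjoinSimple.algebraMap_gen] at this
    rw [this]; rfl
  set QK : ℚ⟮t⟯[X] := Q.map φ₀ with hQK
  have hQKmonic : QK.Monic := hQ.map _
  have hQKroot : aeval u QK = 0 := by
    rw [hQK, aeval_def, eval₂_map]
    have : (algebraMap ℚ⟮t⟯ L).comp φ₀ = ((aeval t : ℚ[X] →ₐ[ℚ] L) : ℚ[X] →+* L) := by
      ext p
      · simp [hφ₀]
      · simp [hφ₀]
    rw [this]; exact hroot
  have hQK1 : QK ≠ 1 := by
    intro h
    rw [h, map_one] at hQKroot
    exact one_ne_zero hQKroot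
  have hQKdeg : QK.natDegree = m := by rw [hQK, hQ.natDegree_map, hm]
  -- `z ∈ ℚ(t)[u]`
  have hz' : z ∈ IntermediateField.adjoin ℚ⟮t⟯ {u} := by
    have h := adjoin_adjoin_left ℚ ({t} : Set L) ({u} : Set L)
    have hz1 : z ∈ IntermediateField.adjoin ℚ (({t} : Set L) ∪ {u}) := by
      rw [Set.singleton_union]; exact hz
    have hz2 : z ∈ (IntermediateField.adjoin ℚ⟮t⟯ ({u} : Set L)).restrictScalars ℚ :=
      h.symm ▸ hz1
    exact hz2
  have hint : IsIntegral ℚ⟮t⟯ u := ⟨QK, hQKmonic, hQKroot⟩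
  have hz'' : z ∈ Algebra.adjoin ℚ⟮t⟯ {u} := by
    rw [← adjoin_simple_toSubalgebra_of_isAlgebraic hint.isAlgebraic]; exact hz'
  rw [Algebra.adjoin_singleton_eq_range_aeval] at hz''
  obtain ⟨P, rfl⟩ := hz''
  set r := P %ₘ QK with hr
  have hrdeg : r.natDegree < m := by
    rw [← hQKdeg]; exact natDegree_modByMonic_lt P hQKmonic hQK1
  have hrz : aeval u P = ∑ i ∈ Finset.range m, ((r.coeff i : ℚ⟮t⟯) : L) * u ^ i := by
    rw [← aeval_modByMonic_eq_self_of_root hQKroot, ← hr, aeval_eq_sum_range' hrdeg]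
    refine Finset.sum_congr rfl fun i _ => ?_
    rw [Algebra.smul_def]; rfl
  have hcoef : ∀ i : Fin m, ∃ a b : ℤ[X], aeval t b ≠ 0 ∧
      aeval t b * ((r.coeff i : ℚ⟮t⟯) : L) = aeval t a :=
    fun i => exists_int_rel_of_mem_simple t _ (r.coeff i).2
  choose a b hb hab using hcoef
  refine ⟨∏ i, b i, fun i => a i * ∏ k ∈ Finset.univ.erase i, b k, ?_, ?_⟩
  · rw [map_prod]
    exact Finset.prod_ne_zero_iff.mpr fun i _ => hb i
  · rw [AlgHom.toRingHom_eq_coe, RingHom.coe_coe, hrz, ← Fin.sum_univ_eq_sum_range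
      (fun i => ((r.coeff i : ℚ⟮t⟯) : L) * u ^ i) m, Finset.mul_sum]
    refine Finset.sum_congr rfl fun i _ => ?_
    rw [← Finset.mul_prod_erase _ _ (Finset.mem_univ i), map_mul, map_mul, ← hab i]
    ring

/-- The same with `eval₂ (Int.castRingHom L)` (no dependence on the `ℤ`-algebra instance). -/
theorem exists_rel_of_mem_adjoin' (t u : L) (m : ℕ) (Q : ℚ[X][X]) (hQ : Q.Monic)
    (hm : Q.natDegree = m) (hroot : Q.eval₂ ((aeval t : ℚ[X] →ₐ[ℚ] L) : ℚ[X] →+* L) u = 0)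
    (z : L) (hz : z ∈ IntermediateField.adjoin ℚ {t, u}) :
    ∃ (c' : ℤ[X]) (c : Fin m → ℤ[X]), c'.eval₂ (Int.castRingHom L) t ≠ 0 ∧
      c'.eval₂ (Int.castRingHom L) t * z =
        ∑ i, (c i).eval₂ (Int.castRingHom L) t * u ^ (i : ℕ) := by
  obtain ⟨c', c, h1, h2⟩ := exists_rel_of_mem_adjoin t u m Q hQ hm hroot z hz
  refine ⟨c', c, ?_, ?_⟩
  · rwa [aeval_def, algebraMap_int_eq] at h1
  · simpa only [aeval_def, algebraMap_int_eq] using h2

end FieldRel

/-! ### Coefficient maps -/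

section CoeffMap

variable {R S : Type*} [CommRing R] [CommRing S]

theorem coeffMap_hC (f : R →+* S) (r : R) :
    coeffMap f (HahnSeries.C r) = HahnSeries.C (f r) := by
  show coeffMap f (HahnSeries.single 0 r) = HahnSeries.single 0 (f r)
  exact coeffMap_single f 0 r

theorem coeffMap_eval₂_hC (f : R →+* S) (p : R[X]) (x : LaurentSeries R) :
    coeffMap f (p.eval₂ HahnSeries.C x) = (p.map f).eval₂ HahnSeries.C (coeffMap f x) := by
  rw [Polynomial.hom_eval₂, Polynomial.eval₂_map]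
  congr 1
  ext r : 1
  simp

theorem coeffMap_inj (f : R →+* S) (hf : Function.Injective f) :
    Function.Injective (coeffMap f) := by
  intro x y h
  ext k
  apply hf
  have := congrArg (fun z => z.coeff k) h
  simpa using this

/-- The inverse of the `j`-series, `q - 744 q^2 + …`, over any ring. -/
def jInv (R : Type*) [CommRing R] : LaurentSeries R :=
  HahnSeries.single (1 : ℤ) 1 *
    HahnSeries.ofPowerSeries ℤ R ((jNum.invOfUnit 1).map (Int.castRingHom R))

theorem jqModC_mul_jInv (R : Type*) [CommRing R] : jqModC R * jInv R = 1 := by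
  have h1 : jNum * jNum.invOfUnit 1 = 1 :=
    PowerSeries.mul_invOfUnit _ _ (by rw [constantCoeff_jNum]; rfl)
  rw [jqModC, jInv, mul_mul_mul_comm, HahnSeries.single_mul_single, ← map_mul, ← map_mul, h1,
    map_one, map_one, mul_one, mul_one]
  simp

theorem coeffMap_jInv (f : R →+* S) : coeffMap f (jInv R) = jInv S := by
  rw [jInv, map_mul, coeffMap_single, map_one, coeffMap_ofPowerSeries,
    ← RingHom.comp_apply (PowerSeries.map f) (PowerSeries.map (Int.castRingHom R)),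
    ← PowerSeries.map_comp, RingHom.ext_int (f.comp (Int.castRingHom R)) (Int.castRingHom S)]
  rfl

end CoeffMap

/-! ### The Gauss ring interface -/

section Iface

variable (ℓ : ℕ) [Fact ℓ.Prime]

/-- Coefficient inclusion `ℤ_(ℓ)((q)) → ℚ((q))`. -/
def iota : LaurentSeries ↥(ratLocalizedAt ℓ) →+* LaurentSeries ℚ :=
  coeffMap (ratLocalizedAt ℓ).subtype

theorem iota_injective : Function.Injective (iota ℓ) :=
  coeffMap_inj _ Subtype.val_injective

/-- The interface with the Gauss valuation ring (block M3). -/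
structure GaussData where
  /-- the Gauss valuation ring inside `ℚ((q))` -/
  V : Subring (LaurentSeries ℚ)
  /-- reduction modulo `ℓ` -/
  red : V →+* LaurentSeries (ZMod ℓ)
  mem_of_int : ∀ a : LaurentSeries ↥(ratLocalizedAt ℓ), iota ℓ a ∈ V
  red_of_int : ∀ a : LaurentSeries ↥(ratLocalizedAt ℓ),
    red ⟨iota ℓ a, mem_of_int a⟩ = coeffMap (Red.red ℓ) a
  ker : ∀ x : V, red x = 0 → ∃ y : V, (x : LaurentSeries ℚ) = (ℓ : LaurentSeries ℚ) * y
  closed : ∀ x : LaurentSeries ℚ, x ∈ Subfield.closure (Set.range (iota ℓ)) →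
    V.subtype.IsIntegralElem x → x ∈ V

variable {ℓ}

/-- `ℤ_(ℓ)((q)) → V`. -/
def GaussData.ofInt (G : GaussData ℓ) : LaurentSeries ↥(ratLocalizedAt ℓ) →+* G.V :=
  (iota ℓ).codRestrict G.V G.mem_of_int

@[simp] theorem GaussData.coe_ofInt (G : GaussData ℓ) (a : LaurentSeries ↥(ratLocalizedAt ℓ)) :
    ((G.ofInt a : G.V) : LaurentSeries ℚ) = iota ℓ a := rfl

@[simp] theorem GaussData.red_ofInt (G : GaussData ℓ) (a : LaurentSeries ↥(ratLocalizedAt ℓ)) :
    G.red (G.ofInt a) = coeffMap (Red.red ℓ) a := G.red_of_int a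

/-- Evaluation of `ℤ_(ℓ)[X]` at an integral series, landing in `V`. -/
def GaussData.phi (G : GaussData ℓ) (a : LaurentSeries ↥(ratLocalizedAt ℓ)) :
    Polynomial ↥(ratLocalizedAt ℓ) →+* G.V :=
  G.ofInt.comp (Polynomial.eval₂RingHom HahnSeries.C a)

theorem GaussData.phi_apply (G : GaussData ℓ) (a : LaurentSeries ↥(ratLocalizedAt ℓ))
    (p : Polynomial ↥(ratLocalizedAt ℓ)) :
    G.phi a p = G.ofInt (p.eval₂ HahnSeries.C a) := rfl

end Iface

section Main

variable {ℓ : ℕ} [Fact ℓ.Prime]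

/-- Independence modulo `ℓ` in the form needed by `QEPAbs`. -/
theorem hindep_of_B (a uZ : LaurentSeries ↥(ratLocalizedAt ℓ)) (m : ℕ)
    (hB : ∀ B : Polynomial (Polynomial (ZMod ℓ)), B.natDegree < m →
      B.eval₂ (Polynomial.eval₂RingHom HahnSeries.C (coeffMap (Red.red ℓ) a))
        (coeffMap (Red.red ℓ) uZ) = 0 → B = 0)
    (c : Fin m → Polynomial ↥(ratLocalizedAt ℓ))
    (hc : ∃ i, ¬ C ((ℓ : ℕ) : ↥(ratLocalizedAt ℓ)) ∣ c i) :
    coeffMap (Red.red ℓ) (∑ i, (c i).eval₂ HahnSeries.C a * uZ ^ (i : ℕ)) ≠ 0 := by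
  intro h0
  set B : Polynomial (Polynomial (ZMod ℓ)) :=
    ∑ i : Fin m, C ((c i).map (Red.red ℓ)) * X ^ (i : ℕ) with hBdef
  have hcoeff : ∀ i : Fin m, B.coeff (i : ℕ) = (c i).map (Red.red ℓ) := by
    intro i
    rw [hBdef, finsetSum_coeff, Finset.sum_eq_single i]
    · rw [coeff_C_mul_X_pow, if_pos rfl]
    · intro j _ hji
      rw [coeff_C_mul_X_pow, if_neg]
      exact fun h => hji (Fin.ext h.symm)
    · intro h; exact absurd (Finset.mem_univ i) h
  have hBeval : B.eval₂ (Polynomial.eval₂RingHom HahnSeries.C (coeffMap (Red.red ℓ) a))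
      (coeffMap (Red.red ℓ) uZ) = 0 := by
    rw [← h0, hBdef, map_sum, eval₂_finsetSum]
    refine Finset.sum_congr rfl fun i _ => ?_
    rw [eval₂_mul, eval₂_C, eval₂_pow, eval₂_X, map_mul, map_pow, coeffMap_eval₂_hC]
    rfl
  have hB0 : B = 0 := by
    by_cases hB0 : B = 0
    · exact hB0
    · exact hB B ((natDegree_lt_iff_degree_lt hB0).mpr (degree_sum_fin_lt _)) hBeval
  obtain ⟨i, hi⟩ := hc
  apply hi
  rw [C_ell_dvd_iff, ← hcoeff i, hB0, coeff_zero]

/-- In the setting of `QEPAbs`, the evaluation map is automatically injective. -/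
theorem injective_of_hindep {A V Lk : Type*} [CommRing A] [IsDomain A]
    [UniqueFactorizationMonoid A] [CommRing V] [IsDomain V] [CommRing Lk]
    (φ : A →+* V) (red : V →+* Lk) (π : A) (hπ : Prime π) (hπ0 : φ π ≠ 0)
    (u : V) (n : ℕ) (hn : 0 < n)
    (hindep : ∀ c : Fin n → A, (∃ i, ¬ π ∣ c i) → red (∑ i, φ (c i) * u ^ (i : ℕ)) ≠ 0) :
    Function.Injective φ := by
  rw [injective_iff_map_eq_zero]
  intro p hp
  by_contra hp0
  obtain ⟨k, p', hp', rfl⟩ := WfDvdMonoid.max_power_factor hp0 hπ.irreducible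
  rw [map_mul, map_pow] at hp
  have hp'0 : φ p' = 0 := by
    rcases mul_eq_zero.mp hp with h | h
    · exact absurd h (pow_ne_zero k hπ0)
    · exact h
  refine hindep (fun i => if (i : ℕ) = 0 then p' else 0) ⟨⟨0, hn⟩, by simpa using hp'⟩ ?_
  rw [Finset.sum_eq_single (⟨0, hn⟩ : Fin n)]
  · simp [hp'0]
  · intro j _ hj
    have : (j : ℕ) ≠ 0 := fun h => hj (Fin.ext h)
    simp [this]
  · intro h; exact absurd (Finset.mem_univ _) h

section Charts

variable (N : ℕ) [NeZero N]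

theorem iota_hC (r : ↥(ratLocalizedAt ℓ)) :
    iota ℓ (HahnSeries.C r) = HahnSeries.C (r : ℚ) := coeffMap_hC _ r

theorem coe_algebraMap_Zl (r : ↥(ratLocalizedAt ℓ)) :
    ((algebraMap ↥(ratLocalizedAt ℓ) ↥(modularFunctionFieldFull N) r :
      ↥(modularFunctionFieldFull N)) : LaurentSeries ℚ) = HahnSeries.C (r : ℚ) := by
  have h : algebraMap ↥(ratLocalizedAt ℓ) ↥(modularFunctionFieldFull N) r =
      algebraMap ℚ ↥(modularFunctionFieldFull N) (r : ℚ) := rfl
  rw [h, eq_ratCast, SubfieldClass.coe_ratCast, ← eq_ratCast (algebraMap ℚ (LaurentSeries ℚ)),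
    algebraMap_apply_eq_single]
  rfl

variable (G : GaussData ℓ)

/-- The key compatibility: evaluating in `V` or in the function field gives the same series. -/
theorem subtype_comp_phi (tF : ↥(modularFunctionFieldFull N))
    (a : LaurentSeries ↥(ratLocalizedAt ℓ)) (htF : (tF : LaurentSeries ℚ) = iota ℓ a) :
    G.V.subtype.comp (G.phi a) =
      (algebraMap ↥(modularFunctionFieldFull N) (LaurentSeries ℚ)).comp
        ((aeval tF : Polynomial ↥(ratLocalizedAt ℓ) →ₐ[↥(ratLocalizedAt ℓ)]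
          ↥(modularFunctionFieldFull N)) : Polynomial ↥(ratLocalizedAt ℓ) →+*
            ↥(modularFunctionFieldFull N)) := by
  refine Polynomial.ringHom_ext (fun r => ?_) ?_
  · simp only [RingHom.coe_comp, Function.comp_apply, Subring.coe_subtype, GaussData.phi_apply,
      eval₂_C, GaussData.coe_ofInt, iota_hC, RingHom.coe_coe, aeval_C,
      IntermediateField.algebraMap_apply, coe_algebraMap_Zl]
  · simp only [RingHom.coe_comp, Function.comp_apply, Subring.coe_subtype, GaussData.phi_apply,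
      eval₂_X, GaussData.coe_ofInt, RingHom.coe_coe, aeval_X,
      IntermediateField.algebraMap_apply, htF]

/-- The surjection `ℤ_(ℓ)[X] → ℤ_(ℓ)[t]`. -/
def rho (tF : ↥(modularFunctionFieldFull N)) :
    Polynomial ↥(ratLocalizedAt ℓ) →+* ↥(Algebra.adjoin ↥(ratLocalizedAt ℓ) {tF}) :=
  ((aeval tF : Polynomial ↥(ratLocalizedAt ℓ) →ₐ[↥(ratLocalizedAt ℓ)]
    ↥(modularFunctionFieldFull N)).codRestrict (Algebra.adjoin ↥(ratLocalizedAt ℓ) {tF})
      (fun _ => aeval_mem_adjoin_singleton _ _) : Polynomial ↥(ratLocalizedAt ℓ) →+* _)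

theorem coe_rho (tF : ↥(modularFunctionFieldFull N)) (p : Polynomial ↥(ratLocalizedAt ℓ)) :
    ((rho N tF p : ↥(Algebra.adjoin ↥(ratLocalizedAt ℓ) {tF})) : ↥(modularFunctionFieldFull N)) =
      aeval tF p := rfl

theorem rho_surjective (tF : ↥(modularFunctionFieldFull N)) :
    Function.Surjective (rho (ℓ := ℓ) N tF) := by
  rintro ⟨x, hx⟩
  rw [Algebra.adjoin_singleton_eq_range_aeval] at hx
  obtain ⟨p, rfl⟩ := hx
  exact ⟨p, rfl⟩

theorem algebraMap_comp_rho (tF : ↥(modularFunctionFieldFull N)) :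
    (algebraMap ↥(Algebra.adjoin ↥(ratLocalizedAt ℓ) {tF}) ↥(modularFunctionFieldFull N)).comp
      (rho N tF) =
      ((aeval tF : Polynomial ↥(ratLocalizedAt ℓ) →ₐ[↥(ratLocalizedAt ℓ)]
          ↥(modularFunctionFieldFull N)) : Polynomial ↥(ratLocalizedAt ℓ) →+*
            ↥(modularFunctionFieldFull N)) := rfl

/-- (I1) integral over `ℤ_(ℓ)[t]` in the function field ⇒ integral for `phi` in `V`. -/
theorem isIntegralElem_phi_of_mem_chartAlg (tF : ↥(modularFunctionFieldFull N))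
    (a : LaurentSeries ↥(ratLocalizedAt ℓ)) (htF : (tF : LaurentSeries ℚ) = iota ℓ a)
    (x : ↥(modularFunctionFieldFull N)) (hx : x ∈ chartAlg N ℓ {tF}) (xV : G.V)
    (hxV : (xV : LaurentSeries ℚ) = (x : LaurentSeries ℚ)) :
    (G.phi a).IsIntegralElem xV := by
  obtain ⟨p, hp, hpx⟩ := (mem_chartAlg_iff N ℓ).mp hx
  obtain ⟨q, hq, -, hqm⟩ := Polynomial.lifts_and_natDegree_eq_and_monic
    ((Polynomial.mem_lifts p).mpr (Polynomial.map_surjective _ (rho_surjective N tF) p)) hp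
  refine ⟨q, hqm, ?_⟩
  apply Subtype.val_injective
  have h1 : G.V.subtype (eval₂ (G.phi a) xV q) =
      eval₂ (G.V.subtype.comp (G.phi a)) (G.V.subtype xV) q := Polynomial.hom_eval₂ _ _ _ _
  have h2 : algebraMap ↥(modularFunctionFieldFull N) (LaurentSeries ℚ)
      (eval₂ (algebraMap ↥(Algebra.adjoin ↥(ratLocalizedAt ℓ) {tF})
        ↥(modularFunctionFieldFull N)) x p) =
      eval₂ ((algebraMap ↥(modularFunctionFieldFull N) (LaurentSeries ℚ)).comp
        ((algebraMap ↥(Algebra.adjoin ↥(ratLocalizedAt ℓ) {tF})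
          ↥(modularFunctionFieldFull N)).comp (rho N tF)))
        (algebraMap ↥(modularFunctionFieldFull N) (LaurentSeries ℚ) x) q := by
    rw [← hq, eval₂_map, Polynomial.hom_eval₂]
  rw [hpx, map_zero, algebraMap_comp_rho, ← subtype_comp_phi N G tF a htF] at h2
  show G.V.subtype (eval₂ (G.phi a) xV q) = G.V.subtype 0
  rw [h1, map_zero, h2]
  congr 1

/-- (I2) integral for `phi` in `V` ⇒ integral over `ℤ_(ℓ)[t]` in the function field. -/
theorem mem_chartAlg_of_isIntegralElem_phi (tF : ↥(modularFunctionFieldFull N))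
    (a : LaurentSeries ↥(ratLocalizedAt ℓ)) (htF : (tF : LaurentSeries ℚ) = iota ℓ a)
    (y : ↥(modularFunctionFieldFull N)) (yV : G.V)
    (hyV : (yV : LaurentSeries ℚ) = (y : LaurentSeries ℚ))
    (hy : (G.phi a).IsIntegralElem yV) : y ∈ chartAlg N ℓ {tF} := by
  obtain ⟨q, hqm, hq⟩ := hy
  refine (mem_chartAlg_iff N ℓ).mpr ⟨q.map (rho N tF), hqm.map _, ?_⟩
  apply (algebraMap ↥(modularFunctionFieldFull N) (LaurentSeries ℚ)).injective
  rw [eval₂_map, Polynomial.hom_eval₂, map_zero, algebraMap_comp_rho,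
    ← subtype_comp_phi N G tF a htF]
  have h1 : G.V.subtype (eval₂ (G.phi a) yV q) =
      eval₂ (G.V.subtype.comp (G.phi a)) (G.V.subtype yV) q := Polynomial.hom_eval₂ _ _ _ _
  rw [hq, map_zero] at h1
  rw [h1]
  congr 1
  exact hyV.symm

theorem coe_phi_map_int (a : LaurentSeries ↥(ratLocalizedAt ℓ)) (p : Polynomial ℤ) :
    ((G.phi a (p.map (Int.castRingHom ↥(ratLocalizedAt ℓ))) : G.V) : LaurentSeries ℚ) =
      p.eval₂ (Int.castRingHom (LaurentSeries ℚ)) (iota ℓ a) := by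
  have h : (HahnSeries.C : ℚ →+* LaurentSeries ℚ).comp
      ((ratLocalizedAt ℓ).subtype.comp (Int.castRingHom ↥(ratLocalizedAt ℓ))) =
      Int.castRingHom (LaurentSeries ℚ) := RingHom.ext_int _ _
  rw [GaussData.phi_apply, GaussData.coe_ofInt, iota, coeffMap_eval₂_hC, Polynomial.map_map,
    eval₂_map, h]

theorem coe_phi_C_ell (a : LaurentSeries ↥(ratLocalizedAt ℓ)) :
    ((G.phi a (C ((ℓ : ℕ) : ↥(ratLocalizedAt ℓ))) : G.V) : LaurentSeries ℚ) =
      (ℓ : LaurentSeries ℚ) := by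
  rw [GaussData.phi_apply, eval₂_C, GaussData.coe_ofInt, iota_hC]
  push_cast
  exact map_natCast (HahnSeries.C : ℚ →+* LaurentSeries ℚ) ℓ

theorem ell_ne_zero : (ℓ : LaurentSeries ℚ) ≠ 0 := by
  have hℓ : ℓ.Prime := Fact.out
  have : CharZero (LaurentSeries ℚ) :=
    charZero_of_injective_algebraMap (algebraMap ℚ (LaurentSeries ℚ)).injective
  exact_mod_cast hℓ.ne_zero

/-- **The q-expansion principle for one chart**: an element of the chart algebra whose
reduction vanishes is divisible by `ℓ` in the chart algebra. -/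
theorem exists_mul_of_red_eq_zero (tF : ↥(modularFunctionFieldFull N))
    (a : LaurentSeries ↥(ratLocalizedAt ℓ)) (htF : (tF : LaurentSeries ℚ) = iota ℓ a)
    (uZ : LaurentSeries ↥(ratLocalizedAt ℓ)) (m : ℕ) (hm : 0 < m)
    (hB : ∀ B : Polynomial (Polynomial (ZMod ℓ)), B.natDegree < m →
      B.eval₂ (Polynomial.eval₂RingHom HahnSeries.C (coeffMap (Red.red ℓ) a))
        (coeffMap (Red.red ℓ) uZ) = 0 → B = 0)
    (hrel : ∀ (y : ↥(modularFunctionFieldFull N)) (i : Fin m),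
      ∃ (c' : Polynomial ℤ) (c : Fin m → Polynomial ℤ),
        c'.eval₂ (Int.castRingHom (LaurentSeries ℚ)) (iota ℓ a) ≠ 0 ∧
        c'.eval₂ (Int.castRingHom (LaurentSeries ℚ)) (iota ℓ a) *
            ((y : LaurentSeries ℚ) * (iota ℓ uZ) ^ (i : ℕ)) =
          ∑ j, (c j).eval₂ (Int.castRingHom (LaurentSeries ℚ)) (iota ℓ a) *
            (iota ℓ uZ) ^ (j : ℕ))
    (x : ↥(modularFunctionFieldFull N)) (hx : x ∈ chartAlg N ℓ {tF})
    (hxV : (x : LaurentSeries ℚ) ∈ G.V) (hred : G.red ⟨(x : LaurentSeries ℚ), hxV⟩ = 0) :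
    ∃ y : ↥(modularFunctionFieldFull N), y ∈ chartAlg N ℓ {tF} ∧
      (x : LaurentSeries ℚ) = (ℓ : LaurentSeries ℚ) * (y : LaurentSeries ℚ) := by
  obtain ⟨yV, hyV⟩ := G.ker ⟨x, hxV⟩ hred
  have hyV' : (x : LaurentSeries ℚ) = (ℓ : LaurentSeries ℚ) * (yV : LaurentSeries ℚ) := hyV
  have hyF : (yV : LaurentSeries ℚ) ∈ modularFunctionFieldFull N := by
    have h1 : (yV : LaurentSeries ℚ) = (ℓ : LaurentSeries ℚ)⁻¹ * (x : LaurentSeries ℚ) := by
      rw [hyV', inv_mul_cancel_left₀ ell_ne_zero]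
    rw [h1]
    exact mul_mem (inv_mem (_root_.natCast_mem _ ℓ)) x.2
  refine ⟨⟨yV, hyF⟩, ?_, hyV'⟩
  -- the hypotheses of the abstract lemma
  have hπred : G.red (G.phi a (C ((ℓ : ℕ) : ↥(ratLocalizedAt ℓ)))) = 0 := by
    rw [GaussData.phi_apply, eval₂_C, GaussData.red_ofInt, coeffMap_hC, Red.red_prime, map_zero]
  have hπ0 : G.phi a (C ((ℓ : ℕ) : ↥(ratLocalizedAt ℓ))) ≠ 0 := by
    intro h
    have := coe_phi_C_ell G a
    rw [h] at this
    exact ell_ne_zero this.symm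
  have hindep : ∀ c : Fin m → Polynomial ↥(ratLocalizedAt ℓ),
      (∃ i, ¬ C ((ℓ : ℕ) : ↥(ratLocalizedAt ℓ)) ∣ c i) →
      G.red (∑ i, G.phi a (c i) * (G.ofInt uZ) ^ (i : ℕ)) ≠ 0 := by
    intro c hc
    have h1 : ∑ i, G.phi a (c i) * (G.ofInt uZ) ^ (i : ℕ) =
        G.ofInt (∑ i, (c i).eval₂ HahnSeries.C a * uZ ^ (i : ℕ)) := by
      simp only [GaussData.phi_apply, map_sum, map_mul, map_pow]
    rw [h1, GaussData.red_ofInt]
    exact hindep_of_B a uZ m hB c hc
  have hφ : Function.Injective (G.phi a) :=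
    injective_of_hindep (G.phi a) G.red _ (prime_C_ell ℓ) hπ0 (G.ofInt uZ) m hm hindep
  have hdep : ∀ i : Fin m, ∃ (c' : Polynomial ↥(ratLocalizedAt ℓ))
      (c : Fin m → Polynomial ↥(ratLocalizedAt ℓ)), (c' ≠ 0 ∨ ∃ j, c j ≠ 0) ∧
      G.phi a c' * (yV * (G.ofInt uZ) ^ (i : ℕ)) = ∑ j, G.phi a (c j) * (G.ofInt uZ) ^ (j : ℕ) := by
    intro i
    obtain ⟨c', c, hc', hrel'⟩ := hrel ⟨yV, hyF⟩ i
    refine ⟨c'.map (Int.castRingHom _), fun j => (c j).map (Int.castRingHom _), Or.inl ?_, ?_⟩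
    · intro h0
      apply hc'
      rw [← coe_phi_map_int G a c', h0, map_zero]
      rfl
    · refine Subtype.ext ?_
      simp only [Subring.coe_mul, Subring.coe_pow, AddSubmonoidClass.coe_finsetSum,
        coe_phi_map_int, GaussData.coe_ofInt]
      exact hrel'
  have hxint : (G.phi a).IsIntegralElem (G.phi a (C ((ℓ : ℕ) : ↥(ratLocalizedAt ℓ))) * yV) := by
    refine isIntegralElem_phi_of_mem_chartAlg N G tF a htF x hx _ ?_
    rw [Subring.coe_mul, coe_phi_C_ell, hyV']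
  exact mem_chartAlg_of_isIntegralElem_phi N G tF a htF ⟨yV, hyF⟩ yV rfl
    (QEPAbs.isIntegralElem_of_reduction (G.phi a) hφ G.red _ (prime_C_ell ℓ) hπred (G.ofInt uZ) m hm
      hindep yV hdep hxint)

end Charts

section Reflect

/-- Evaluating at `s⁻¹` versus evaluating the reflected polynomial at `s`. -/
theorem eval₂_reflect_of_mul_eq_one {R S : Type*} [CommRing R] [CommRing S] (i : R →+* S)
    (s s' : S) (hs : s * s' = 1) (D : ℕ) (f : R[X]) (hf : f.natDegree ≤ D) :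
    eval₂ i s (reflect D f) = eval₂ i s' f * s ^ D := by
  let _ : Invertible s' := ⟨s, hs, by rw [mul_comm]; exact hs⟩
  have h := eval₂_reflect_mul_pow i s' D f hf
  have h' : eval₂ i s (reflect D f) * s' ^ D = eval₂ i s' f := h
  rw [← h', mul_assoc, ← mul_pow, mul_comm s' s, hs, one_pow, mul_one]

theorem coeff_sum_fin {R : Type*} [CommRing R] {m : ℕ} (f : Fin m → R) (i : Fin m) :
    (∑ j : Fin m, C (f j) * X ^ (j : ℕ)).coeff (i : ℕ) = f i := by
  rw [finsetSum_coeff, Finset.sum_eq_single i]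
  · rw [coeff_C_mul_X_pow, if_pos rfl]
  · intro j _ hji
    rw [coeff_C_mul_X_pow, if_neg]
    exact fun h => hji (Fin.ext h.symm)
  · intro h; exact absurd (Finset.mem_univ i) h

/-- Independence of `1, ū, …` over polynomials in `s` implies the same over polynomials in
`s⁻¹`. -/
theorem indep_inv {K S : Type*} [CommRing K] [CommRing S] [IsDomain S] (i : K →+* S)
    (s s' : S) (hs : s * s' = 1) (ū : S) (m : ℕ)
    (h : ∀ B : K[X][X], B.natDegree < m → B.eval₂ (Polynomial.eval₂RingHom i s) ū = 0 → B = 0)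
    (B : K[X][X]) (hB : B.natDegree < m)
    (hB0 : B.eval₂ (Polynomial.eval₂RingHom i s') ū = 0) : B = 0 := by
  classical
  set D : ℕ := ∑ k ∈ Finset.range m, (B.coeff k).natDegree with hD
  have hDle : ∀ k < m, (B.coeff k).natDegree ≤ D := fun k hk =>
    Finset.single_le_sum (f := fun k => (B.coeff k).natDegree) (fun _ _ => Nat.zero_le _)
      (Finset.mem_range.mpr hk)
  set B' : K[X][X] := ∑ k : Fin m, C (reflect D (B.coeff k)) * X ^ (k : ℕ) with hB'
  have hB'eval : B'.eval₂ (Polynomial.eval₂RingHom i s) ū = 0 := by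
    have h1 : B'.eval₂ (Polynomial.eval₂RingHom i s) ū =
        s ^ D * B.eval₂ (Polynomial.eval₂RingHom i s') ū := by
      rw [hB', eval₂_finsetSum, eval₂_eq_sum_range' _ hB, Finset.mul_sum,
        ← Fin.sum_univ_eq_sum_range
          (fun k => s ^ D * ((Polynomial.eval₂RingHom i s') (B.coeff k) * ū ^ k)) m]
      refine Finset.sum_congr rfl fun k _ => ?_
      rw [eval₂_mul, eval₂_C, eval₂_pow, eval₂_X, coe_eval₂RingHom, coe_eval₂RingHom,
        eval₂_reflect_of_mul_eq_one i s s' hs D _ (hDle k k.2)]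
      ring
    rw [h1, hB0, mul_zero]
  have hB'0 : B' = 0 := by
    by_cases hz : B' = 0
    · exact hz
    · exact h B' ((natDegree_lt_iff_degree_lt hz).mpr (degree_sum_fin_lt _)) hB'eval
  refine Polynomial.ext fun k => ?_
  rw [coeff_zero]
  by_cases hk : k < m
  · have := coeff_sum_fin (fun k : Fin m => reflect D (B.coeff k)) ⟨k, hk⟩
    rw [← hB', hB'0, coeff_zero] at this
    exact reflect_eq_zero_iff.mp this.symm
  · exact coeff_eq_zero_of_natDegree_lt (lt_of_lt_of_le hB (not_lt.mp hk))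

/-- A relation with coefficients polynomial in `t` gives one with coefficients polynomial in
`t⁻¹`. -/
theorem rel_inv {L : Type*} [Field L] (t : L) (ht : t ≠ 0) (u z : L) (m : ℕ)
    (h : ∃ (c' : ℤ[X]) (c : Fin m → ℤ[X]), c'.eval₂ (Int.castRingHom L) t ≠ 0 ∧
      c'.eval₂ (Int.castRingHom L) t * z =
        ∑ j, (c j).eval₂ (Int.castRingHom L) t * u ^ (j : ℕ)) :
    ∃ (d' : ℤ[X]) (d : Fin m → ℤ[X]), d'.eval₂ (Int.castRingHom L) t⁻¹ ≠ 0 ∧
      d'.eval₂ (Int.castRingHom L) t⁻¹ * z =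
        ∑ j, (d j).eval₂ (Int.castRingHom L) t⁻¹ * u ^ (j : ℕ) := by
  obtain ⟨c', c, hc', hrel⟩ := h
  set D : ℕ := c'.natDegree + ∑ j, (c j).natDegree with hD
  have hD' : c'.natDegree ≤ D := Nat.le_add_right _ _
  have hDj : ∀ j, (c j).natDegree ≤ D := fun j =>
    (Finset.single_le_sum (f := fun j => (c j).natDegree) (fun _ _ => Nat.zero_le _)
      (Finset.mem_univ j)).trans (Nat.le_add_left _ _)
  have key : ∀ p : ℤ[X], p.natDegree ≤ D → p.eval₂ (Int.castRingHom L) t =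
      (reflect D p).eval₂ (Int.castRingHom L) t⁻¹ * t ^ D := by
    intro p hp
    have := eval₂_reflect_of_mul_eq_one (Int.castRingHom L) t⁻¹ t (inv_mul_cancel₀ ht) D p hp
    rw [this, mul_assoc, ← mul_pow, inv_mul_cancel₀ ht, one_pow, mul_one]
  have htD : t ^ D ≠ 0 := pow_ne_zero _ ht
  refine ⟨reflect D c', fun j => reflect D (c j), ?_, ?_⟩
  · intro h0
    apply hc'
    rw [key c' hD', h0, zero_mul]
  · apply mul_right_cancel₀ htD
    rw [mul_right_comm, ← key c' hD', hrel, Finset.sum_mul]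
    refine Finset.sum_congr rfl fun j _ => ?_
    rw [key (c j) (hDj j)]
    ring

end Reflect

section Final

variable (N : ℕ) [NeZero N] (G : GaussData ℓ)

theorem mem_closure_of_mem_full {x : LaurentSeries ℚ} (hx : x ∈ modularFunctionFieldFull N) :
    x ∈ Subfield.closure (Set.range (iota ℓ)) := by
  have hx' : x ∈ Subfield.closure
      (Set.range (algebraMap ℚ (LaurentSeries ℚ)) ∪ divisorExpansions N) := hx
  refine Subfield.closure_le.mpr ?_ hx'
  rintro y (⟨c, rfl⟩ | ⟨d, hd, -, rfl⟩)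
  · rw [eq_ratCast]
    exact SubfieldClass.ratCast_mem _ c
  · apply Subfield.subset_closure
    refine ⟨qExpand _ d (jqModC _), ?_⟩
    rw [iota, coeffMap_qExpand, coeffMap_jqModC]
    rfl

/-- Chart algebras lie in the Gauss ring. -/
theorem coe_mem_V (S : Set ↥(modularFunctionFieldFull N))
    (hS : ∀ s ∈ S, ((s : ↥(modularFunctionFieldFull N)) : LaurentSeries ℚ) ∈ G.V)
    (x : ↥(modularFunctionFieldFull N)) (hx : x ∈ chartAlg N ℓ S) :
    (x : LaurentSeries ℚ) ∈ G.V := by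
  apply G.closed _ (mem_closure_of_mem_full N x.2)
  obtain ⟨p, hp, hpx⟩ := (mem_chartAlg_iff N ℓ).mp hx
  have hadj : ∀ b : ↥(Algebra.adjoin ↥(ratLocalizedAt ℓ) S),
      (((b : ↥(modularFunctionFieldFull N))) : LaurentSeries ℚ) ∈ G.V := by
    rintro ⟨b, hb⟩
    induction hb using Algebra.adjoin_induction with
    | mem s hs => exact hS s hs
    | algebraMap r =>
      show ((algebraMap ↥(ratLocalizedAt ℓ) ↥(modularFunctionFieldFull N) r :
        ↥(modularFunctionFieldFull N)) : LaurentSeries ℚ) ∈ G.V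
      rw [coe_algebraMap_Zl, ← iota_hC]
      exact G.mem_of_int _
    | add y z _ _ hy hz => exact G.V.add_mem hy hz
    | mul y z _ _ hy hz => exact G.V.mul_mem hy hz
  let θ : ↥(Algebra.adjoin ↥(ratLocalizedAt ℓ) S) →+* G.V :=
    ((algebraMap ↥(modularFunctionFieldFull N) (LaurentSeries ℚ)).comp
      (algebraMap ↥(Algebra.adjoin ↥(ratLocalizedAt ℓ) S)
        ↥(modularFunctionFieldFull N))).codRestrict G.V hadj
  refine ⟨p.map θ, hp.map _, ?_⟩
  rw [eval₂_map]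
  have hθ : G.V.subtype.comp θ =
      (algebraMap ↥(modularFunctionFieldFull N) (LaurentSeries ℚ)).comp
        (algebraMap ↥(Algebra.adjoin ↥(ratLocalizedAt ℓ) S) ↥(modularFunctionFieldFull N)) := rfl
  have h2 := Polynomial.hom_eval₂ p
    (algebraMap ↥(Algebra.adjoin ↥(ratLocalizedAt ℓ) S) ↥(modularFunctionFieldFull N))
    (algebraMap ↥(modularFunctionFieldFull N) (LaurentSeries ℚ)) x
  rw [hpx, map_zero] at h2
  rw [hθ]
  exact h2.symm

/-- From membership in `V` and the divisibility property to `HasReduction`. -/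
theorem hasReduction_of (S : Set ↥(modularFunctionFieldFull N))
    (hV : ∀ x : ↥(modularFunctionFieldFull N), x ∈ chartAlg N ℓ S → (x : LaurentSeries ℚ) ∈ G.V)
    (hker : ∀ (x : ↥(modularFunctionFieldFull N)) (hx : x ∈ chartAlg N ℓ S),
      G.red ⟨(x : LaurentSeries ℚ), hV x hx⟩ = 0 →
      ∃ y : ↥(modularFunctionFieldFull N), y ∈ chartAlg N ℓ S ∧
        (x : LaurentSeries ℚ) = (ℓ : LaurentSeries ℚ) * (y : LaurentSeries ℚ)) :
    Reduce.HasReduction ℓ ↥(chartAlg N ℓ S) := by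
  let incl : ↥(chartAlg N ℓ S) →+* G.V :=
    ((algebraMap ↥(modularFunctionFieldFull N) (LaurentSeries ℚ)).comp
      (algebraMap ↥(chartAlg N ℓ S) ↥(modularFunctionFieldFull N))).codRestrict G.V
        (fun x => hV x x.2)
  refine ⟨G.red.comp incl, fun a ha => ?_⟩
  obtain ⟨y, hy, hxy⟩ := hker a a.2 ha
  refine ⟨⟨y, hy⟩, ?_⟩
  apply Subtype.ext
  apply Subtype.ext
  push_cast
  exact hxy

theorem iota_jqModC : iota ℓ (jqModC ↥(ratLocalizedAt ℓ)) = jq := by
  rw [iota, coeffMap_jqModC]; rfl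

theorem iota_jInv : iota ℓ (jInv ↥(ratLocalizedAt ℓ)) = jq⁻¹ := by
  rw [iota, coeffMap_jInv]
  exact eq_inv_of_mul_eq_one_right (jqModC_mul_jInv ℚ)

theorem eval₂RingHom_hC_eq_aeval (t : LaurentSeries ℚ) :
    Polynomial.eval₂RingHom (HahnSeries.C : ℚ →+* LaurentSeries ℚ) t =
      ((aeval t : ℚ[X] →ₐ[ℚ] LaurentSeries ℚ) : ℚ[X] →+* LaurentSeries ℚ) := by
  refine Polynomial.ringHom_ext (fun c => ?_) ?_
  · simp only [coe_eval₂RingHom, eval₂_C, RingHom.coe_coe, aeval_C, algebraMap_apply_eq_single]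
    rfl
  · simp

theorem jFull_mem_V : ((jFull N : ↥(modularFunctionFieldFull N)) : LaurentSeries ℚ) ∈ G.V := by
  rw [coe_jFull, ← iota_jqModC (ℓ := ℓ)]; exact G.mem_of_int _

theorem jFull_inv_mem_V :
    (((jFull N)⁻¹ : ↥(modularFunctionFieldFull N)) : LaurentSeries ℚ) ∈ G.V := by
  rw [IntermediateField.coe_inv, coe_jFull, ← iota_jInv (ℓ := ℓ)]; exact G.mem_of_int _

theorem coe_mem_V_fin (x : ↥(modularFunctionFieldFull N)) (hx : x ∈ chartAlg N ℓ {jFull N}) :
    (x : LaurentSeries ℚ) ∈ G.V :=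
  coe_mem_V N G {jFull N} (by rintro s rfl; exact jFull_mem_V N G) x hx

theorem coe_mem_V_inf (x : ↥(modularFunctionFieldFull N))
    (hx : x ∈ chartAlg N ℓ {(jFull N)⁻¹}) : (x : LaurentSeries ℚ) ∈ G.V :=
  coe_mem_V N G {(jFull N)⁻¹} (by rintro s rfl; exact jFull_inv_mem_V N G) x hx

theorem coe_mem_V_mid (x : ↥(modularFunctionFieldFull N))
    (hx : x ∈ chartAlg N ℓ {jFull N, (jFull N)⁻¹}) : (x : LaurentSeries ℚ) ∈ G.V :=
  coe_mem_V N G {jFull N, (jFull N)⁻¹} (by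
    rintro s (rfl | rfl)
    · exact jFull_mem_V N G
    · exact jFull_inv_mem_V N G) x hx

/-- The relations needed by `exists_mul_of_red_eq_zero`, from the first two conjuncts of
`Targets.core`. -/
theorem rel_of_core (uQ : LaurentSeries ℚ) (m : ℕ)
    (hQ : ∃ Q : Polynomial (Polynomial ℚ), Q.Monic ∧ Q.natDegree = m ∧
      Q.eval₂ (Polynomial.eval₂RingHom HahnSeries.C jq) uQ = 0)
    (hgen : ∀ d : ℕ, d ∣ N → ∀ (_ : NeZero d),
      qExpand ℚ d jq ∈ IntermediateField.adjoin ℚ {jq, uQ}) :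
    0 < m ∧ ∀ (y : ↥(modularFunctionFieldFull N)) (i : Fin m),
      ∃ (c' : Polynomial ℤ) (c : Fin m → Polynomial ℤ),
        c'.eval₂ (Int.castRingHom (LaurentSeries ℚ)) jq ≠ 0 ∧
        c'.eval₂ (Int.castRingHom (LaurentSeries ℚ)) jq * ((y : LaurentSeries ℚ) * uQ ^ (i : ℕ)) =
          ∑ j, (c j).eval₂ (Int.castRingHom (LaurentSeries ℚ)) jq * uQ ^ (j : ℕ) := by
  obtain ⟨Q, hQm, hQd, hQ0⟩ := hQ
  have hm : 0 < m := by
    rcases Nat.eq_zero_or_pos m with h0 | h0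
    · rw [h0] at hQd
      rw [eq_one_of_monic_natDegree_zero hQm hQd, eval₂_one] at hQ0
      exact absurd hQ0 one_ne_zero
    · exact h0
  have hF' : modularFunctionFieldFull N ≤ IntermediateField.adjoin ℚ {jq, uQ} := by
    rw [modularFunctionFieldFull, IntermediateField.adjoin_le_iff]
    rintro x ⟨d, hd, hdN, rfl⟩
    exact hgen d hdN hd
  have huF' : uQ ∈ IntermediateField.adjoin ℚ {jq, uQ} :=
    IntermediateField.subset_adjoin ℚ _ (Set.mem_insert_of_mem _ rfl)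
  have hroot : Q.eval₂ ((aeval jq : ℚ[X] →ₐ[ℚ] LaurentSeries ℚ) : ℚ[X] →+* LaurentSeries ℚ)
      uQ = 0 := by
    rw [← eval₂RingHom_hC_eq_aeval]; exact hQ0
  exact ⟨hm, fun y i =>
    exists_rel_of_mem_adjoin' jq uQ m Q hQm hQd hroot _ (mul_mem (hF' y.2) (pow_mem huF' _))⟩

section Core

variable (uZ : LaurentSeries ℤ) (m : ℕ)
  (hQ : ∃ Q : Polynomial (Polynomial ℚ), Q.Monic ∧ Q.natDegree = m ∧
    Q.eval₂ (Polynomial.eval₂RingHom HahnSeries.C jq) (coeffMap (Int.castRingHom ℚ) uZ) = 0)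
  (hgen : ∀ d : ℕ, d ∣ N → ∀ (_ : NeZero d),
    qExpand ℚ d jq ∈ IntermediateField.adjoin ℚ {jq, coeffMap (Int.castRingHom ℚ) uZ})
  (hind : ∀ B : Polynomial (Polynomial (ZMod ℓ)), B.natDegree < m →
    B.eval₂ (Polynomial.eval₂RingHom HahnSeries.C (jqModC (ZMod ℓ)))
      (coeffMap (Int.castRingHom (ZMod ℓ)) uZ) = 0 → B = 0)

theorem iota_coeffMap_int :
    iota ℓ (coeffMap (Int.castRingHom ↥(ratLocalizedAt ℓ)) uZ) =
      coeffMap (Int.castRingHom ℚ) uZ := by
  rw [iota, coeffMap_coeffMap]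
  exact coeffMap_congr (RingHom.ext_int _ _) uZ

theorem red_coeffMap_int :
    coeffMap (Red.red ℓ) (coeffMap (Int.castRingHom ↥(ratLocalizedAt ℓ)) uZ) =
      coeffMap (Int.castRingHom (ZMod ℓ)) uZ := by
  rw [coeffMap_coeffMap]
  exact coeffMap_congr (RingHom.ext_int _ _) uZ

include hQ hgen hind in
/-- Kernel property on the finite chart. -/
theorem kerFin (x : ↥(modularFunctionFieldFull N)) (hx : x ∈ chartAlg N ℓ {jFull N})
    (hred : G.red ⟨(x : LaurentSeries ℚ), coe_mem_V_fin N G x hx⟩ = 0) :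
    ∃ y : ↥(modularFunctionFieldFull N), y ∈ chartAlg N ℓ {jFull N} ∧
      (x : LaurentSeries ℚ) = (ℓ : LaurentSeries ℚ) * (y : LaurentSeries ℚ) := by
  obtain ⟨hm, hrel⟩ := rel_of_core N _ m hQ hgen
  refine exists_mul_of_red_eq_zero N G (jFull N) (jqModC _) (by rw [coe_jFull, iota_jqModC])
    (coeffMap (Int.castRingHom ↥(ratLocalizedAt ℓ)) uZ) m hm ?_ ?_ x hx _ hred
  · rw [coeffMap_jqModC, red_coeffMap_int]; exact hind
  · rw [iota_jqModC, iota_coeffMap_int]; exact hrel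

include hQ hgen hind in
/-- Kernel property on the chart at infinity. -/
theorem kerInf (x : ↥(modularFunctionFieldFull N)) (hx : x ∈ chartAlg N ℓ {(jFull N)⁻¹})
    (hred : G.red ⟨(x : LaurentSeries ℚ), coe_mem_V_inf N G x hx⟩ = 0) :
    ∃ y : ↥(modularFunctionFieldFull N), y ∈ chartAlg N ℓ {(jFull N)⁻¹} ∧
      (x : LaurentSeries ℚ) = (ℓ : LaurentSeries ℚ) * (y : LaurentSeries ℚ) := by
  obtain ⟨hm, hrel⟩ := rel_of_core N _ m hQ hgen
  refine exists_mul_of_red_eq_zero N G (jFull N)⁻¹ (jInv _)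
    (by rw [IntermediateField.coe_inv, coe_jFull, iota_jInv])
    (coeffMap (Int.castRingHom ↥(ratLocalizedAt ℓ)) uZ) m hm ?_ ?_ x hx _ hred
  · rw [coeffMap_jInv, red_coeffMap_int]
    exact indep_inv HahnSeries.C (jqModC (ZMod ℓ)) (jInv (ZMod ℓ)) (jqModC_mul_jInv _) _ m hind
  · rw [iota_jInv, iota_coeffMap_int]
    exact fun y i => rel_inv jq jq_ne_zero _ _ m (hrel y i)

end Core

/-- Kernel property on the middle chart, from the finite chart. -/
theorem kerMid
    (hfin : ∀ (x : ↥(modularFunctionFieldFull N)) (hx : x ∈ chartAlg N ℓ {jFull N}),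
      G.red ⟨(x : LaurentSeries ℚ), coe_mem_V_fin N G x hx⟩ = 0 →
      ∃ y : ↥(modularFunctionFieldFull N), y ∈ chartAlg N ℓ {jFull N} ∧
        (x : LaurentSeries ℚ) = (ℓ : LaurentSeries ℚ) * (y : LaurentSeries ℚ))
    (x : ↥(modularFunctionFieldFull N)) (hx : x ∈ chartAlg N ℓ {jFull N, (jFull N)⁻¹})
    (hred : G.red ⟨(x : LaurentSeries ℚ), coe_mem_V_mid N G x hx⟩ = 0) :
    ∃ y : ↥(modularFunctionFieldFull N), y ∈ chartAlg N ℓ {jFull N, (jFull N)⁻¹} ∧
      (x : LaurentSeries ℚ) = (ℓ : LaurentSeries ℚ) * (y : LaurentSeries ℚ) := by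
  have hx' : x ∈ chartAlg N ℓ (insert (jFull N)⁻¹ {jFull N}) := by
    rw [Set.pair_comm]; exact hx
  obtain ⟨n, hn⟩ := exists_pow_mul_mem_chartAlg (Set.mem_singleton _) (jFull_ne_zero N) hx'
  have hcoe : ((jFull N ^ n * x : ↥(modularFunctionFieldFull N)) : LaurentSeries ℚ) =
      jq ^ n * (x : LaurentSeries ℚ) := rfl
  have hred' : G.red ⟨((jFull N ^ n * x : ↥(modularFunctionFieldFull N)) : LaurentSeries ℚ),
      coe_mem_V_fin N G _ hn⟩ = 0 := by
    have h1 : (⟨((jFull N ^ n * x : ↥(modularFunctionFieldFull N)) : LaurentSeries ℚ),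
        coe_mem_V_fin N G _ hn⟩ : G.V) =
        ⟨_, jFull_mem_V N G⟩ ^ n * ⟨(x : LaurentSeries ℚ), coe_mem_V_mid N G x hx⟩ :=
      Subtype.ext hcoe
    rw [h1, map_mul, hred, mul_zero]
  obtain ⟨y, hy, hxy⟩ := hfin _ hn hred'
  have hy' : y ∈ chartAlg N ℓ {jFull N, (jFull N)⁻¹} := chartAlg_mono N ℓ (sFin_subset N) hy
  have hjinv : (jFull N)⁻¹ ∈ chartAlg N ℓ {jFull N, (jFull N)⁻¹} :=
    subset_chartAlg N ℓ _ (Set.mem_insert_of_mem _ rfl)
  refine ⟨(jFull N)⁻¹ ^ n * y, mul_mem (pow_mem hjinv n) hy', ?_⟩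
  have hj0 : (jq : LaurentSeries ℚ) ≠ 0 := jq_ne_zero
  have hcoe2 : (((jFull N)⁻¹ ^ n * y : ↥(modularFunctionFieldFull N)) : LaurentSeries ℚ) =
      jq⁻¹ ^ n * (y : LaurentSeries ℚ) := rfl
  rw [hcoe] at hxy
  rw [hcoe2, mul_left_comm, ← hxy, ← mul_assoc, ← mul_pow, inv_mul_cancel₀ hj0, one_pow,
    one_mul]

/-- **Block M4**: the q-expansion principle for the three chart algebras, from the Gauss ring
interface and the three conjuncts of `Targets.core` (for an integral series `uZ`). -/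
theorem hasReduction_of_core (G : GaussData ℓ) (uZ : LaurentSeries ℤ) (m : ℕ)
    (hQ : ∃ Q : Polynomial (Polynomial ℚ), Q.Monic ∧ Q.natDegree = m ∧
      Q.eval₂ (Polynomial.eval₂RingHom HahnSeries.C jq) (coeffMap (Int.castRingHom ℚ) uZ) = 0)
    (hgen : ∀ d : ℕ, d ∣ N → ∀ (_ : NeZero d),
      qExpand ℚ d jq ∈ IntermediateField.adjoin ℚ {jq, coeffMap (Int.castRingHom ℚ) uZ})
    (hind : ∀ B : Polynomial (Polynomial (ZMod ℓ)), B.natDegree < m →
      B.eval₂ (Polynomial.eval₂RingHom HahnSeries.C (jqModC (ZMod ℓ)))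
        (coeffMap (Int.castRingHom (ZMod ℓ)) uZ) = 0 → B = 0) :
    Reduce.HasReduction ℓ ↥(chartAlgFin N ℓ) ∧ Reduce.HasReduction ℓ ↥(chartAlgInf N ℓ) ∧
      Reduce.HasReduction ℓ ↥(chartAlgMid N ℓ) :=
  ⟨hasReduction_of N G _ (coe_mem_V_fin N G) (kerFin N G uZ m hQ hgen hind),
    hasReduction_of N G _ (coe_mem_V_inf N G) (kerInf N G uZ m hQ hgen hind),
    hasReduction_of N G _ (coe_mem_V_mid N G) (kerMid N G (kerFin N G uZ m hQ hgen hind))⟩

end Final

end Main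

end Fermat.Agent.S28.QEPInst
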