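import Mathlib
import Fermat.Agent.S28.Defs
import Fermat.Agent.S28.SturmMF

/-!
# S28, conjunct 2 of `Targets.core`: generation of the function field by `j` and the unit `u`

Every `j(q^d)` (`d ∣ N`) — in fact every weight-zero quotient of rational modular forms on
`Γ₀(N)` — lies in `ℚ(j, u)`, provided `1, u, …, u^(m-1)` are independent over `ℚ[j]` for some
`m ≥ [SL₂(ℤ) : Γ₀(N)]`.  The upper bound on the degree comes from the Sturm bound
(`SturmMF.dep_mfGraded`).
-/

set_option autoImplicit false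

noncomputable section

namespace Fermat.Agent.S28.Char0Gen

open ModularCurve CongruenceSubgroup
open Fermat.Agent.S28.Defs Fermat.Agent.S28.SturmDep Fermat.Agent.S28.SturmMF

lemma single_neg_one_mul_single_one :
    (HahnSeries.single (-1 : ℤ) (1 : ℚ)) * HahnSeries.single (1 : ℤ) (1 : ℚ) = 1 := by
  rw [HahnSeries.single_mul_single]
  simp

lemma deltaR_eq : deltaR ℚ = Graded.emb deltaQ := by
  rw [deltaR, deltaQ, map_mul, HahnSeries.ofPowerSeries_X]

lemma deltaInvR_eq : deltaInvR ℚ = (Graded.emb deltaQ)⁻¹ := by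
  refine eq_inv_of_mul_eq_one_left ?_
  rw [← deltaR_eq, deltaInvR, deltaR]
  have h1 : HahnSeries.ofPowerSeries ℤ ℚ (dedekindEtaUnitInv.map (Int.castRingHom ℚ)) *
      HahnSeries.ofPowerSeries ℤ ℚ (dedekindEtaUnit.map (Int.castRingHom ℚ)) = 1 := by
    rw [← map_mul, ← map_mul, mul_comm, dedekindEtaUnit_mul_inv, map_one, map_one]
  calc HahnSeries.single (-1 : ℤ) (1 : ℚ) *
        HahnSeries.ofPowerSeries ℤ ℚ (dedekindEtaUnitInv.map (Int.castRingHom ℚ)) *
        (HahnSeries.single (1 : ℤ) (1 : ℚ) *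
          HahnSeries.ofPowerSeries ℤ ℚ (dedekindEtaUnit.map (Int.castRingHom ℚ)))
      = (HahnSeries.single (-1 : ℤ) (1 : ℚ) * HahnSeries.single (1 : ℤ) (1 : ℚ)) *
          (HahnSeries.ofPowerSeries ℤ ℚ (dedekindEtaUnitInv.map (Int.castRingHom ℚ)) *
            HahnSeries.ofPowerSeries ℤ ℚ (dedekindEtaUnit.map (Int.castRingHom ℚ))) := by ring
    _ = 1 := by rw [h1, single_neg_one_mul_single_one, one_mul]

lemma qE_eq (d : ℕ) [NeZero d] : qE ℚ d = qExpand ℚ d := by
  rw [qE, dif_neg (NeZero.ne d)]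

/-- The `q`-expansions of all generators are weight-zero quotients of level `Γ₀(N)`. -/
lemma genVal_mem (N : ℕ) [NeZero N] (g : Gen N) : genVal ℚ N g ∈ (mfGraded N).field := by
  rcases g with ⟨d, hd⟩ | ⟨d, hd⟩ | ⟨d, hd⟩
  · have : NeZero d := ⟨ne_zero_of_dvd_ne_zero (NeZero.ne N) hd⟩
    show qE ℚ d (jqModC ℚ) ∈ _
    rw [qE_eq, jqModC_rat]
    exact qExpand_jq_mem N hd
  · have : NeZero d := ⟨ne_zero_of_dvd_ne_zero (NeZero.ne N) hd⟩
    show qE ℚ d (deltaR ℚ) * deltaInvR ℚ ∈ _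
    rw [qE_eq, deltaR_eq, deltaInvR_eq, ← div_eq_mul_inv]
    exact qExpand_delta_div_mem N hd
  · have : NeZero d := ⟨ne_zero_of_dvd_ne_zero (NeZero.ne N) hd⟩
    show deltaR ℚ * qE ℚ d (deltaInvR ℚ) ∈ _
    have h := (mfGraded N).field.inv_mem (qExpand_delta_div_mem N hd)
    rw [inv_div, div_eq_mul_inv] at h
    rw [qE_eq, deltaR_eq, deltaInvR_eq, map_inv₀]
    exact h

/-- `ev ℚ N P` is a weight-zero quotient of level `Γ₀(N)` for every `P`. -/
lemma ev_mem (N : ℕ) [NeZero N] (P : MvPolynomial (Gen N) ℤ) :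
    ev ℚ N P ∈ (mfGraded N).field := by
  induction P using MvPolynomial.induction_on with
  | C a =>
    have h : ev ℚ N (MvPolynomial.C a) = ((a : ℤ) : LaurentSeries ℚ) := by
      simp [ev]
    rw [h]
    exact intCast_mem _ a
  | add p q hp hq =>
    rw [map_add]
    exact add_mem hp hq
  | mul_X p g hp =>
    rw [map_mul]
    refine mul_mem hp ?_
    have h : ev ℚ N (MvPolynomial.X g) = genVal ℚ N g := by
      simp [ev]
    rw [h]
    exact genVal_mem N g

lemma algebraMap_eq_C (c : ℚ) : algebraMap ℚ (LaurentSeries ℚ) c = HahnSeries.C c := by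
  rw [← Graded.emb_C, HahnSeries.ofPowerSeries_C]

lemma eval₂_C_jq (p : Polynomial ℚ) :
    Polynomial.eval₂RingHom (HahnSeries.C : ℚ →+* LaurentSeries ℚ) jq p = Polynomial.aeval jq p := by
  rw [Polynomial.coe_eval₂RingHom, Polynomial.aeval_def]
  congr 1
  ext c
  rw [algebraMap_eq_C]

/-- `j` is transcendental over `ℚ`. -/
lemma aeval_jq_ne_zero {P : Polynomial ℚ} (hP : P ≠ 0) : Polynomial.aeval jq P ≠ 0 := by
  intro h
  have h1 := congrArg (fun x : LaurentSeries ℚ => x.coeff (-(P.natDegree : ℤ))) h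
  simp only [HahnSeries.coeff_zero] at h1
  rw [Polynomial.aeval_def, Polynomial.eval₂_eq_sum_range, HahnSeries.coeff_sum,
    Finset.sum_eq_single P.natDegree] at h1
  · rw [algebraMap_eq_C, HahnSeries.C_apply, HahnSeries.coeff_single_zero_mul, coeff_jq_pow_self,
      mul_one] at h1
    exact hP (Polynomial.leadingCoeff_eq_zero.mp h1)
  · intro i hi hne
    have hi' : i < P.natDegree := lt_of_le_of_ne (Nat.lt_succ_iff.mp (Finset.mem_range.mp hi)) hne
    rw [algebraMap_eq_C, HahnSeries.C_apply, HahnSeries.coeff_single_zero_mul,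
      coeff_jq_pow_of_lt (by omega), mul_zero]
  · intro hnot
    exact absurd (Finset.mem_range.mpr (Nat.lt_succ_self _)) hnot

lemma aeval_jq_mem (K : IntermediateField ℚ (LaurentSeries ℚ)) (hj : jq ∈ K)
    (p : Polynomial ℚ) : Polynomial.aeval jq p ∈ K := by
  rw [Polynomial.aeval_eq_sum_range]
  exact sum_mem fun i _ => K.smul_mem (pow_mem hj i)

/-- **Generation, abstract form.** If any `n + 1` elements of the field `F` are dependent over
`ℚ[j]` and `1, u, …, u^(m-1)` (`u ∈ F`, `m ≥ n`) are independent over `ℚ[j]`, then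
`F ≤ ℚ(j, u)`. -/
theorem mem_adjoin_of_dep (F : IntermediateField ℚ (LaurentSeries ℚ)) (n m : ℕ) (hm : n ≤ m)
    (hdep : ∀ f : Fin (n + 1) → LaurentSeries ℚ, (∀ i, f i ∈ F) →
      ∃ P : Fin (n + 1) → Polynomial ℚ, P ≠ 0 ∧ ∑ i, Polynomial.aeval jq (P i) * f i = 0)
    (u : LaurentSeries ℚ) (hu : u ∈ F)
    (hindep : ∀ B : Polynomial (Polynomial ℚ), B.natDegree < m →
      B.eval₂ (Polynomial.eval₂RingHom HahnSeries.C jq) u = 0 → B = 0)
    (z : LaurentSeries ℚ) (hz : z ∈ F) :
    z ∈ IntermediateField.adjoin ℚ {jq, u} := by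
  set K := IntermediateField.adjoin ℚ ({jq, u} : Set (LaurentSeries ℚ)) with hK
  have hjK : jq ∈ K := IntermediateField.subset_adjoin ℚ _ (Set.mem_insert _ _)
  have huK : u ∈ K := IntermediateField.subset_adjoin ℚ _ (Set.mem_insert_of_mem _ rfl)
  obtain ⟨P, hP0, hP⟩ := hdep
    (Fin.snoc (fun i : Fin n => u ^ (i : ℕ)) z : Fin (n + 1) → LaurentSeries ℚ)
    (fun i => by
      refine Fin.lastCases ?_ (fun i => ?_) i
      · rw [Fin.snoc_last]; exact hz
      · rw [Fin.snoc_castSucc]; exact pow_mem hu _)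
  rw [Fin.sum_univ_castSucc] at hP
  simp only [Fin.snoc_castSucc, Fin.snoc_last] at hP
  have hlast : P (Fin.last n) ≠ 0 := by
    intro h0
    rw [h0, map_zero, zero_mul, add_zero] at hP
    set B : Polynomial (Polynomial ℚ) :=
      ∑ i : Fin n, Polynomial.C (P i.castSucc) * Polynomial.X ^ (i : ℕ) with hB
    have hBeval : B.eval₂ (Polynomial.eval₂RingHom HahnSeries.C jq) u = 0 := by
      rw [hB, Polynomial.eval₂_finsetSum, ← hP]
      refine Finset.sum_congr rfl fun i _ => ?_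
      rw [Polynomial.eval₂_mul, Polynomial.eval₂_C, Polynomial.eval₂_pow, Polynomial.eval₂_X,
        eval₂_C_jq]
    have hB0 : B = 0 := by
      by_contra hne
      refine hne (hindep B ?_ hBeval)
      have hdeg : B.degree < (n : WithBot ℕ) := Polynomial.degree_sum_fin_lt _
      exact lt_of_lt_of_le ((Polynomial.natDegree_lt_iff_degree_lt hne).mpr hdeg) hm
    apply hP0
    funext i
    refine Fin.lastCases ?_ (fun i => ?_) i
    · exact h0
    · have hc := congrArg (fun Q : Polynomial (Polynomial ℚ) => Q.coeff (i : ℕ)) hB0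
      simp only [hB, Polynomial.finsetSum_coeff, Polynomial.coeff_C_mul_X_pow,
        Polynomial.coeff_zero] at hc
      rw [Finset.sum_eq_single i] at hc
      · simpa using hc
      · intro b _ hb
        rw [if_neg (fun h' => hb (Fin.ext h'.symm))]
      · intro h'
        exact absurd (Finset.mem_univ i) h'
  have hc : Polynomial.aeval jq (P (Fin.last n)) ≠ 0 := aeval_jq_ne_zero hlast
  have hzeq : z = -(∑ i : Fin n, Polynomial.aeval jq (P i.castSucc) * u ^ (i : ℕ)) /
      Polynomial.aeval jq (P (Fin.last n)) := by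
    rw [eq_div_iff hc, eq_neg_iff_add_eq_zero, add_comm, mul_comm]
    exact hP
  rw [hzeq]
  exact K.div_mem (K.neg_mem (sum_mem fun i _ => K.mul_mem (aeval_jq_mem K hjK _) (pow_mem huK _)))
    (aeval_jq_mem K hjK _)

/-- **Generation, general form.** If `1, u, …, u^(m-1)` are independent over `ℚ[j]` with
`m ≥ [SL₂(ℤ) : Γ₀(N)]`, then every weight-zero quotient of level `Γ₀(N)` lies in `ℚ(j, u)`. -/
theorem mem_adjoin_of_indep (N : ℕ) [NeZero N] (m : ℕ) (hm : (Gamma0 N).index ≤ m)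
    (u : LaurentSeries ℚ) (hu : u ∈ (mfGraded N).field)
    (hindep : ∀ B : Polynomial (Polynomial ℚ), B.natDegree < m →
      B.eval₂ (Polynomial.eval₂RingHom HahnSeries.C jq) u = 0 → B = 0)
    (z : LaurentSeries ℚ) (hz : z ∈ (mfGraded N).field) :
    z ∈ IntermediateField.adjoin ℚ {jq, u} :=
  mem_adjoin_of_dep (mfGraded N).field _ m hm (dep_mfGraded N) u hu hindep z hz

/-- **Conjunct 2 of `Targets.core`** (generation), from the characteristic-zero independence of
`1, u, …, u^(m-1)` over `ℚ[j]` for some `m ≥ [SL₂(ℤ) : Γ₀(N)]`. -/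
theorem generation (N : ℕ) [NeZero N] (m : ℕ) (hm : (Gamma0 N).index ≤ m)
    (hindep : ∀ B : Polynomial (Polynomial ℚ), B.natDegree < m →
      B.eval₂ (Polynomial.eval₂RingHom HahnSeries.C jq) (ev ℚ N (unitPoly N)) = 0 → B = 0) :
    ∀ d : ℕ, d ∣ N → ∀ (_ : NeZero d),
      qExpand ℚ d jq ∈ IntermediateField.adjoin ℚ {jq, ev ℚ N (unitPoly N)} := by
  intro d hd hd0
  exact mem_adjoin_of_indep N m hm _ (ev_mem N _) hindep _ (qExpand_jq_mem N hd)

end Fermat.Agent.S28.Char0Gen
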