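import Mathlib
import Fermat.Agent.S28.Char0
import Fermat.Agent.S28.Transfer

/-!
# S28: the blueprint's `core` from M5 and M8

`core_of_M5_M8` has exactly the conclusion of `Targets.core`; its two hypotheses are exactly the
statements of `Targets.exists_rowSystem` (M8) and `Targets.modl_degree` (M5).  M6 (`Char0`) and
M7 (`Transfer`) are used.
-/

set_option autoImplicit false

noncomputable section

namespace Fermat.Agent.S28.CoreOf

open Fermat.Agent.S28.Defs ModularCurve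

theorem core_of_M5_M8 (N : ℕ) [NeZero N] (ℓ : ℕ) [Fact ℓ.Prime] (hℓN : ¬ ℓ ∣ N)
    (h8 : ∃ S : RowSystem N, S.HasSymm ℂ (zetaC N) ((N : ℂ)⁻¹))
    (h5 : ∀ (S : RowSystem N) (κ : Type) [Field κ] (ζ : κˣ), ζ ^ N = 1 → (N : κ) ≠ 0 →
      S.HasSymm κ ζ ((N : κ)⁻¹) →
      ∀ B : Polynomial (Polynomial κ), B.natDegree < Fintype.card S.C →
        B.eval₂ (Polynomial.eval₂RingHom HahnSeries.C (jqModC κ)) (ev κ N (unitPoly N)) = 0 →
        B = 0) :
    ∃ m : ℕ,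
      (∃ Q : Polynomial (Polynomial ℚ), Q.Monic ∧ Q.natDegree = m ∧
        Q.eval₂ (Polynomial.eval₂RingHom HahnSeries.C jq) (ev ℚ N (unitPoly N)) = 0) ∧
      (∀ d : ℕ, d ∣ N → ∀ (_ : NeZero d),
        qExpand ℚ d jq ∈ IntermediateField.adjoin ℚ {jq, ev ℚ N (unitPoly N)}) ∧
      (∀ B : Polynomial (Polynomial (ZMod ℓ)), B.natDegree < m →
        B.eval₂ (Polynomial.eval₂RingHom HahnSeries.C (jqModC (ZMod ℓ)))
          (ev (ZMod ℓ) N (unitPoly N)) = 0 → B = 0) := by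
  obtain ⟨S, hS⟩ := h8
  obtain ⟨κ, _, _, ζ, hζ, hκS⟩ := Transfer.transfer N ℓ hℓN S hS
  have hNκ : (N : κ) ≠ 0 := by
    rw [Ne, CharP.cast_eq_zero_iff κ ℓ]
    exact hℓN
  exact Char0.core_of_field N ℓ S (zetaC N) (Transfer.zetaC_pow N) hS (h5 S κ ζ hζ hNκ hκS)

end Fermat.Agent.S28.CoreOf
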