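import Mathlib
import Fermat.Agent.S28.Defs

/-!
# S28: the dependency hypothesis of the abstract q-expansion principle, from `core`

Conjunct 1 of `core` (a monic `Q ∈ ℚ[j][X]` of degree `m` killing `u`) gives, for every
`z ∈ ℚ(j, u)`, a relation `c'(j) z = ∑_{i<m} c_i(j) u^i` with integer polynomials and
`c'(j) ≠ 0`; the same with polynomials in `j⁻¹`.  Conjunct 2 says that the full function field
lies in `ℚ(j, u)`.
-/

set_option autoImplicit false

noncomputable section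

namespace Fermat.Agent.S28.DepCore

open Polynomial IntermediateField

section Generic

variable {L : Type*} [Field L] [Algebra ℚ L]

/-- Every element of `ℚ(t)` is a quotient of integer polynomials in `t`. -/
theorem exists_frac_of_mem_adjoin_simple (t : L) {x : L} (hx : x ∈ IntermediateField.adjoin ℚ {t}) :
    ∃ c' c : ℤ[X], c'.eval₂ (Int.castRingHom L) t ≠ 0 ∧
      c'.eval₂ (Int.castRingHom L) t * x = c.eval₂ (Int.castRingHom L) t := by
  have hchar : CharZero L := algebraRat.charZero L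
  induction hx using IntermediateField.adjoin_induction with
  | mem x hx =>
    rw [Set.mem_singleton_iff] at hx
    subst hx
    exact ⟨1, X, by simp, by simp⟩
  | algebraMap q =>
    refine ⟨C (q.den : ℤ), C q.num, ?_, ?_⟩
    · rw [eval₂_C]
      simp
    · rw [eval₂_C, eval₂_C]
      simp only [eq_intCast, Int.cast_natCast, eq_ratCast]
      exact_mod_cast congrArg (fun r : ℚ => (r : L)) (Rat.den_mul_eq_num q)
  | add x y hx hy ihx ihy =>
    obtain ⟨a', a, ha', ha⟩ := ihx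
    obtain ⟨b', b, hb', hb⟩ := ihy
    refine ⟨a' * b', a * b' + b * a', ?_, ?_⟩
    · rw [eval₂_mul]; exact mul_ne_zero ha' hb'
    · rw [eval₂_mul, eval₂_add, eval₂_mul, eval₂_mul, ← ha, ← hb]; ring
  | inv x hx ih =>
    obtain ⟨a', a, ha', ha⟩ := ih
    by_cases h0 : a.eval₂ (Int.castRingHom L) t = 0
    · have hx0 : x = 0 := by
        rw [h0] at ha
        exact (mul_eq_zero.mp ha).resolve_left ha'
      exact ⟨1, 0, by simp, by simp [hx0]⟩
    · refine ⟨a, a', h0, ?_⟩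
      have hx0 : x ≠ 0 := by
        rintro rfl
        rw [mul_zero] at ha
        exact h0 ha.symm
      rw [← ha]
      field_simp
  | mul x y hx hy ihx ihy =>
    obtain ⟨a', a, ha', ha⟩ := ihx
    obtain ⟨b', b, hb', hb⟩ := ihy
    refine ⟨a' * b', a * b, ?_, ?_⟩
    · rw [eval₂_mul]; exact mul_ne_zero ha' hb'
    · rw [eval₂_mul, eval₂_mul, ← ha, ← hb]; ring

/-- If `u` is a root of a monic `Q ∈ ℚ[t][X]`, every element of `ℚ(t, u)` is a `ℚ(t)`-combination
of `1, u, …, u^(deg Q - 1)`. -/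
theorem exists_coeffs_of_mem_adjoin (t u : L) (Q : ℚ[X][X]) (hQ : Q.Monic)
    (hQ0 : Q.eval₂ (eval₂RingHom (algebraMap ℚ L) t) u = 0) (z : L)
    (hz : z ∈ IntermediateField.adjoin ℚ {t, u}) :
    ∃ b : Fin Q.natDegree → L, (∀ i, b i ∈ IntermediateField.adjoin ℚ {t}) ∧
      z = ∑ i, b i * u ^ (i : ℕ) := by
  set f : ℚ[X] →+* ℚ⟮t⟯ := (aeval (AdjoinSimple.gen ℚ t)).toRingHom with hf
  have hcomp : (algebraMap ℚ⟮t⟯ L).comp f = eval₂RingHom (algebraMap ℚ L) t := by
    apply Polynomial.ringHom_ext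
    · intro a
      simp [hf]
    · simp [hf]
  have hQ' : aeval u (Q.map f) = 0 := by
    rw [aeval_def, eval₂_map, hcomp]
    exact hQ0
  have hmon : (Q.map f).Monic := hQ.map f
  have hint : IsIntegral ℚ⟮t⟯ u := ⟨Q.map f, hmon, hQ'⟩
  have hz' : z ∈ ℚ⟮t⟯⟮u⟯ := by
    have h := IntermediateField.adjoin_simple_adjoin_simple ℚ t u
    rw [← h] at hz
    exact hz
  rw [← IntermediateField.mem_toSubalgebra,
    IntermediateField.adjoin_simple_toSubalgebra_of_isAlgebraic hint.isAlgebraic,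
    Algebra.adjoin_singleton_eq_range_aeval] at hz'
  obtain ⟨p, rfl⟩ := hz'
  have hr : aeval u (p %ₘ Q.map f) = aeval u p := aeval_modByMonic_eq_self_of_root hQ'
  have hdeg : (p %ₘ Q.map f).natDegree < Q.natDegree := by
    have hne : Q.map f ≠ 1 := by
      intro h1
      rw [h1] at hQ'
      simp at hQ'
    calc (p %ₘ Q.map f).natDegree < (Q.map f).natDegree := natDegree_modByMonic_lt p hmon hne
      _ = Q.natDegree := hQ.natDegree_map f
  refine ⟨fun i => algebraMap ℚ⟮t⟯ L ((p %ₘ Q.map f).coeff i), fun i => ((p %ₘ Q.map f).coeff i).2, ?_⟩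
  change (aeval u) p = _
  rw [← hr, aeval_eq_sum_range' hdeg,
    Fin.sum_univ_eq_sum_range (fun i => algebraMap ℚ⟮t⟯ L ((p %ₘ Q.map f).coeff i) * u ^ i)]
  exact Finset.sum_congr rfl fun i _ => by rw [Algebra.smul_def]

/-- **Dependency from a monic relation**: every `z ∈ ℚ(t, u)` satisfies
`c'(t) z = ∑_{i < deg Q} c_i(t) u^i` with integer polynomials `c', c_i` and `c'(t) ≠ 0`. -/
theorem exists_dep (t u : L) (Q : ℚ[X][X]) (hQ : Q.Monic)
    (hQ0 : Q.eval₂ (eval₂RingHom (algebraMap ℚ L) t) u = 0) (z : L)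
    (hz : z ∈ IntermediateField.adjoin ℚ {t, u}) :
    ∃ (c' : ℤ[X]) (c : Fin Q.natDegree → ℤ[X]), c'.eval₂ (Int.castRingHom L) t ≠ 0 ∧
      c'.eval₂ (Int.castRingHom L) t * z = ∑ i, (c i).eval₂ (Int.castRingHom L) t * u ^ (i : ℕ) := by
  classical
  obtain ⟨b, hb, rfl⟩ := exists_coeffs_of_mem_adjoin t u Q hQ hQ0 z hz
  choose d' d hd' hd using fun i => exists_frac_of_mem_adjoin_simple t (hb i)
  refine ⟨∏ i, d' i, fun i => d i * ∏ k ∈ Finset.univ.erase i, d' k, ?_, ?_⟩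
  · rw [eval₂_finsetProd]
    exact Finset.prod_ne_zero_iff.mpr fun i _ => hd' i
  · rw [Finset.mul_sum]
    refine Finset.sum_congr rfl fun i _ => ?_
    rw [← Finset.mul_prod_erase Finset.univ d' (Finset.mem_univ i), eval₂_mul, eval₂_mul, ← hd i]
    ring

/-- The same with polynomials in `t⁻¹` (for the chart at infinity). -/
theorem exists_dep_inv (t u : L) (ht : t ≠ 0) (Q : ℚ[X][X]) (hQ : Q.Monic)
    (hQ0 : Q.eval₂ (eval₂RingHom (algebraMap ℚ L) t) u = 0) (z : L)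
    (hz : z ∈ IntermediateField.adjoin ℚ {t, u}) :
    ∃ (c' : ℤ[X]) (c : Fin Q.natDegree → ℤ[X]), c'.eval₂ (Int.castRingHom L) t⁻¹ ≠ 0 ∧
      c'.eval₂ (Int.castRingHom L) t⁻¹ * z =
        ∑ i, (c i).eval₂ (Int.castRingHom L) t⁻¹ * u ^ (i : ℕ) := by
  obtain ⟨c', c, hc', hc⟩ := exists_dep t u Q hQ hQ0 z hz
  set D := max c'.natDegree (Finset.univ.sup fun i => (c i).natDegree) with hD
  have hD' : c'.natDegree ≤ D := le_max_left _ _
  have hDi : ∀ i, (c i).natDegree ≤ D := fun i =>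
    le_trans (Finset.le_sup (f := fun i => (c i).natDegree) (Finset.mem_univ i))
      (le_max_right _ _)
  let _inst : Invertible t := invertibleOfNonzero ht
  have key : ∀ f : ℤ[X], f.natDegree ≤ D →
      eval₂ (Int.castRingHom L) t⁻¹ (reflect D f) =
        eval₂ (Int.castRingHom L) t f * (t ^ D)⁻¹ := by
    intro f hf
    have h := eval₂_reflect_mul_pow (Int.castRingHom L) t D f hf
    rw [invOf_eq_inv] at h
    rw [← h, mul_assoc, mul_inv_cancel₀ (pow_ne_zero _ ht), mul_one]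
  refine ⟨reflect D c', fun i => reflect D (c i), ?_, ?_⟩
  · rw [key _ hD']
    exact mul_ne_zero hc' (inv_ne_zero (pow_ne_zero _ ht))
  · rw [key _ hD', mul_right_comm, hc, Finset.sum_mul]
    exact Finset.sum_congr rfl fun i _ => by rw [key _ (hDi i)]; ring

end Generic

section Laurent

open ModularCurve Fermat.Agent.S28.Defs

theorem eval₂RingHom_C_eq (t : LaurentSeries ℚ) :
    eval₂RingHom (HahnSeries.C : ℚ →+* LaurentSeries ℚ) t =
      eval₂RingHom (algebraMap ℚ (LaurentSeries ℚ)) t := by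
  have h : (HahnSeries.C : ℚ →+* LaurentSeries ℚ) = algebraMap ℚ (LaurentSeries ℚ) := by
    apply RingHom.ext
    intro c
    rw [algebraMap_apply_eq_single, HahnSeries.C_apply]
  rw [h]

/-- Conjunct 2 of `core` says that the full function field lies in `ℚ(j, u)`. -/
theorem full_le_adjoin (N : ℕ) [NeZero N] (u : LaurentSeries ℚ)
    (h2 : ∀ d : ℕ, d ∣ N → ∀ (_ : NeZero d),
      qExpand ℚ d jq ∈ IntermediateField.adjoin ℚ {jq, u}) :
    modularFunctionFieldFull N ≤ IntermediateField.adjoin ℚ {jq, u} := by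
  rw [modularFunctionFieldFull, IntermediateField.adjoin_le_iff]
  rintro x ⟨d, hd0, hd, rfl⟩
  exact h2 d hd hd0

/-- **`hdep` from conjuncts 1 + 2 of `core`** (finite chart, polynomials in `j`). -/
theorem dep_of_core (N : ℕ) [NeZero N] (u : LaurentSeries ℚ) (m : ℕ)
    (h1 : ∃ Q : Polynomial (Polynomial ℚ), Q.Monic ∧ Q.natDegree = m ∧
      Q.eval₂ (Polynomial.eval₂RingHom HahnSeries.C jq) u = 0)
    (z : LaurentSeries ℚ) (hz : z ∈ IntermediateField.adjoin ℚ {jq, u}) :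
    ∃ (c' : ℤ[X]) (c : Fin m → ℤ[X]), c' ≠ 0 ∧
      c'.eval₂ (Int.castRingHom (LaurentSeries ℚ)) jq ≠ 0 ∧
      c'.eval₂ (Int.castRingHom (LaurentSeries ℚ)) jq * z =
        ∑ i, (c i).eval₂ (Int.castRingHom (LaurentSeries ℚ)) jq * u ^ (i : ℕ) := by
  obtain ⟨Q, hQ, rfl, hQ0⟩ := h1
  rw [eval₂RingHom_C_eq] at hQ0
  obtain ⟨c', c, hc', hc⟩ := exists_dep jq u Q hQ hQ0 z hz
  refine ⟨c', c, ?_, hc', hc⟩
  rintro rfl
  simp at hc'

/-- **`hdep` from conjuncts 1 + 2 of `core`** (chart at infinity, polynomials in `j⁻¹`). -/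
theorem dep_of_core_inv (N : ℕ) [NeZero N] (u : LaurentSeries ℚ) (m : ℕ)
    (h1 : ∃ Q : Polynomial (Polynomial ℚ), Q.Monic ∧ Q.natDegree = m ∧
      Q.eval₂ (Polynomial.eval₂RingHom HahnSeries.C jq) u = 0)
    (z : LaurentSeries ℚ) (hz : z ∈ IntermediateField.adjoin ℚ {jq, u}) :
    ∃ (c' : ℤ[X]) (c : Fin m → ℤ[X]), c' ≠ 0 ∧
      c'.eval₂ (Int.castRingHom (LaurentSeries ℚ)) jq⁻¹ ≠ 0 ∧
      c'.eval₂ (Int.castRingHom (LaurentSeries ℚ)) jq⁻¹ * z =
        ∑ i, (c i).eval₂ (Int.castRingHom (LaurentSeries ℚ)) jq⁻¹ * u ^ (i : ℕ) := by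
  obtain ⟨Q, hQ, rfl, hQ0⟩ := h1
  rw [eval₂RingHom_C_eq] at hQ0
  obtain ⟨c', c, hc', hc⟩ := exists_dep_inv jq u jq_ne_zero Q hQ hQ0 z hz
  refine ⟨c', c, ?_, hc', hc⟩
  rintro rfl
  simp at hc'

end Laurent

end Fermat.Agent.S28.DepCore
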