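import Mathlib
import Fermat.Prelude.Def_GaloisRep_Flat
import Fermat.Prelude.Def_ModularCurve_LaurentCoeff

/-!
# S28, block M3: closedness tools for the Gauss subring

* `mem_of_isIntegralElem` (K1, abstract): a subring `V` of a field with a reduction map `red`
  killing `π`; an element `x` with `x * π ^ m = w`, `red w ≠ 0`, which is integral over `V`,
  lies in `V`.
* `exists_frac` (K2): every element of the subfield of `ℚ((q))` generated by the series with
  coefficients in `ℤ_(ℓ)` is a quotient of two such series.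
-/

set_option autoImplicit false

noncomputable section

namespace Fermat.Agent.S28.GaussClosed

open Polynomial ModularCurve

/-- (K1) Abstract integral-closedness step. -/
theorem mem_of_isIntegralElem {L κ : Type*} [Field L] [CommRing κ] [IsDomain κ]
    (V : Subring L) (red : V →+* κ) (π : V) (hπ : red π = 0) (w : V) (hw : red w ≠ 0)
    (x : L) (m : ℕ) (hx : x * (π : L) ^ m = w) (hint : V.subtype.IsIntegralElem x) :
    x ∈ V := by
  rcases Nat.eq_zero_or_pos m with rfl | hm
  · rw [pow_zero, mul_one] at hx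
    rw [hx]
    exact w.2
  · exfalso
    obtain ⟨p, hp, hroot⟩ := hint
    set s : V := π ^ m with hs
    have hreds : red s = 0 := by rw [hs, map_pow, hπ, zero_pow hm.ne']
    have hsx : V.subtype s * x = V.subtype w := by
      rw [hs, map_pow]
      change (π : L) ^ m * x = (w : L)
      rw [mul_comm, hx]
    have h1 : eval₂ V.subtype (V.subtype w) (scaleRoots p s) = 0 := by
      rw [← hsx]
      exact scaleRoots_eval₂_eq_zero V.subtype hroot
    have h2 : eval w (scaleRoots p s) = 0 := by
      apply V.subtype_injective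
      rw [map_zero, ← h1, eval, hom_eval₂, RingHom.comp_id]
    have h3 : (scaleRoots p s).map red = X ^ p.natDegree := by
      ext i
      rw [coeff_map, coeff_scaleRoots, coeff_X_pow]
      split_ifs with hi
      · rw [hi, tsub_self, pow_zero, mul_one]
        have : p.coeff p.natDegree = 1 := hp.coeff_natDegree
        rw [this, map_one]
      · rcases lt_or_gt_of_ne hi with hlt | hgt
        · have : p.natDegree - i ≠ 0 := by omega
          rw [map_mul, map_pow, hreds, zero_pow this, mul_zero]
        · rw [coeff_eq_zero_of_natDegree_lt hgt, zero_mul, map_zero]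
    have h4 : eval (red w) ((scaleRoots p s).map red) = 0 := by
      rw [eval_map, eval₂_at_apply, h2, map_zero]
    rw [h3, eval_pow, eval_X] at h4
    exact hw (pow_eq_zero_iff (n := p.natDegree) (by
      intro h0
      rw [h0, pow_zero] at h4
      exact one_ne_zero h4) |>.mp h4)

variable (ℓ : ℕ)

/-- The inclusion `ℤ_(ℓ)((q)) → ℚ((q))`. -/
abbrev incl : LaurentSeries ↥(GaloisRep.ratLocalizedAt ℓ) →+* LaurentSeries ℚ :=
  coeffMap (GaloisRep.ratLocalizedAt ℓ).subtype

theorem incl_injective : Function.Injective (incl ℓ) := by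
  intro a b h
  ext n
  have := congrArg (fun x => x.coeff n) h
  simpa using this

theorem incl_eq_zero_iff (a : LaurentSeries ↥(GaloisRep.ratLocalizedAt ℓ)) :
    incl ℓ a = 0 ↔ a = 0 :=
  ⟨fun h => incl_injective ℓ (by rw [h, map_zero]), fun h => by rw [h, map_zero]⟩

/-- The subfield of quotients `ι a / ι b`. -/
def fracField : Subfield (LaurentSeries ℚ) where
  carrier := {x | ∃ a b : LaurentSeries ↥(GaloisRep.ratLocalizedAt ℓ), b ≠ 0 ∧
    x * incl ℓ b = incl ℓ a}
  mul_mem' := by
    rintro x y ⟨a, b, hb, h⟩ ⟨a', b', hb', h'⟩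
    refine ⟨a * a', b * b', mul_ne_zero hb hb', ?_⟩
    rw [map_mul, map_mul, ← h, ← h']
    ring
  one_mem' := ⟨1, 1, one_ne_zero, by rw [map_one, mul_one]⟩
  add_mem' := by
    rintro x y ⟨a, b, hb, h⟩ ⟨a', b', hb', h'⟩
    refine ⟨a * b' + a' * b, b * b', mul_ne_zero hb hb', ?_⟩
    rw [map_add, map_mul, map_mul, map_mul, ← h, ← h']
    ring
  zero_mem' := ⟨0, 1, one_ne_zero, by rw [map_zero, zero_mul]⟩
  neg_mem' := by
    rintro x ⟨a, b, hb, h⟩
    exact ⟨-a, b, hb, by rw [map_neg, ← h, neg_mul]⟩
  inv_mem' := by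
    rintro x ⟨a, b, hb, h⟩
    by_cases hx : x = 0
    · exact ⟨0, 1, one_ne_zero, by rw [hx, inv_zero, map_zero, zero_mul]⟩
    · have hb' : incl ℓ b ≠ 0 := fun h0 => hb ((incl_eq_zero_iff ℓ b).mp h0)
      have ha : a ≠ 0 := by
        intro h0
        rw [h0, map_zero] at h
        exact (mul_ne_zero hx hb') h
      refine ⟨b, a, ha, ?_⟩
      rw [← h, ← mul_assoc, inv_mul_cancel₀ hx, one_mul]

theorem mem_fracField_iff (x : LaurentSeries ℚ) :
    x ∈ fracField ℓ ↔ ∃ a b : LaurentSeries ↥(GaloisRep.ratLocalizedAt ℓ), b ≠ 0 ∧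
      x * incl ℓ b = incl ℓ a := Iff.rfl

theorem closure_le_fracField : Subfield.closure (Set.range (incl ℓ)) ≤ fracField ℓ := by
  rw [Subfield.closure_le]
  rintro _ ⟨a, rfl⟩
  exact ⟨a, 1, one_ne_zero, by rw [map_one, mul_one]⟩

/-- (K2) Every element of the subfield generated by `ι(ℤ_(ℓ)((q)))` is a quotient. -/
theorem exists_frac (x : LaurentSeries ℚ)
    (hx : x ∈ Subfield.closure (Set.range (coeffMap (GaloisRep.ratLocalizedAt ℓ).subtype))) :
    ∃ a b : LaurentSeries ↥(GaloisRep.ratLocalizedAt ℓ), b ≠ 0 ∧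
      x * coeffMap (GaloisRep.ratLocalizedAt ℓ).subtype b =
        coeffMap (GaloisRep.ratLocalizedAt ℓ).subtype a :=
  closure_le_fracField ℓ hx

end Fermat.Agent.S28.GaussClosed
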