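import Mathlib
import Fermat.Prelude.Def_GaloisRep_Flat
import Fermat.Prelude.Def_ModularCurve_LaurentCoeff
import Fermat.Agent.S28.Red

set_option autoImplicit false

noncomputable section

namespace Fermat.Agent.S28.GaussContent

open GaloisRep ModularCurve HahnSeries

variable (ℓ : ℕ) [Fact ℓ.Prime]

/-- `ℓ ≠ 0` in `ℤ_(ℓ)`. -/
theorem prime_ne_zero : (ℓ : ratLocalizedAt ℓ) ≠ 0 := by
  have hℓ : ℓ.Prime := Fact.out
  exact_mod_cast hℓ.ne_zero

omit [Fact ℓ.Prime] in
/-- Coefficients of `ℓ * a`. -/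
theorem coeff_natCast_mul (a : LaurentSeries (ratLocalizedAt ℓ)) (n : ℤ) :
    ((ℓ : LaurentSeries (ratLocalizedAt ℓ)) * a).coeff n = (ℓ : ratLocalizedAt ℓ) * a.coeff n := by
  rw [← HahnSeries.single_zero_natCast, HahnSeries.coeff_single_zero_mul]

/-- (C1) A Laurent series over `ℤ_(ℓ)` whose reduction mod `ℓ` vanishes is divisible by `ℓ`. -/
theorem exists_eq_mul_of_red_eq_zero (a : LaurentSeries (ratLocalizedAt ℓ))
    (h : coeffMap (Red.red ℓ) a = 0) :
    ∃ a1 : LaurentSeries (ratLocalizedAt ℓ), a = (ℓ : LaurentSeries (ratLocalizedAt ℓ)) * a1 := by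
  have h1 : ∀ n : ℤ, ∃ y : ratLocalizedAt ℓ, a.coeff n = (ℓ : ratLocalizedAt ℓ) * y := by
    intro n
    apply (Red.red_eq_zero_iff ℓ (a.coeff n)).mp
    have := congrArg (fun s => HahnSeries.coeff s n) h
    simpa [coeffMap_coeff] using this
  choose y hy using h1
  have hsupp : Function.support y ⊆ a.support := by
    intro n hn
    simp only [Function.mem_support, ne_eq] at hn
    simp only [HahnSeries.mem_support, ne_eq]
    rw [hy n]
    exact mul_ne_zero (prime_ne_zero ℓ) hn
  refine ⟨⟨y, a.isPWO_support.mono hsupp⟩, HahnSeries.ext (funext fun n => ?_)⟩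
  rw [coeff_natCast_mul]
  exact hy n

/-- Elements of `ℤ_(ℓ)` have nonnegative `ℓ`-adic valuation. -/
theorem padicValRat_nonneg (x : ratLocalizedAt ℓ) : 0 ≤ padicValRat ℓ (x : ℚ) := by
  have hℓ : ℓ.Prime := Fact.out
  rw [padicValRat_def]
  have hx : (x : ℚ).den.Coprime ℓ := x.2
  have h0 : padicValNat ℓ (x : ℚ).den = 0 := by
    apply padicValNat.eq_zero_of_not_dvd
    intro hdvd
    exact hℓ.one_lt.ne' (Nat.Coprime.eq_one_of_dvd hx.symm hdvd)
  rw [h0]
  simp

/-- (C2) A nonzero Laurent series over `ℤ_(ℓ)` is `ℓ^k` times a series with nonzero reduction. -/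
theorem exists_pow_mul (a : LaurentSeries (ratLocalizedAt ℓ)) (ha : a ≠ 0) :
    ∃ (k : ℕ) (a1 : LaurentSeries (ratLocalizedAt ℓ)),
      a = (ℓ : LaurentSeries (ratLocalizedAt ℓ)) ^ k * a1 ∧ coeffMap (Red.red ℓ) a1 ≠ 0 := by
  have hℓ : ℓ.Prime := Fact.out
  have key : ∀ (M : ℕ) (a : LaurentSeries (ratLocalizedAt ℓ)) (n : ℤ), a.coeff n ≠ 0 →
      padicValRat ℓ ((a.coeff n : ratLocalizedAt ℓ) : ℚ) ≤ M →
      ∃ (k : ℕ) (a1 : LaurentSeries (ratLocalizedAt ℓ)),
        a = (ℓ : LaurentSeries (ratLocalizedAt ℓ)) ^ k * a1 ∧ coeffMap (Red.red ℓ) a1 ≠ 0 := by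
    intro M
    induction M with
    | zero =>
      intro a n hn hM
      by_cases h : coeffMap (Red.red ℓ) a = 0
      · exfalso
        obtain ⟨a1, ha1⟩ := exists_eq_mul_of_red_eq_zero ℓ a h
        have hc : a.coeff n = (ℓ : ratLocalizedAt ℓ) * a1.coeff n := by
          rw [ha1, coeff_natCast_mul]
        have hc1 : a1.coeff n ≠ 0 := by
          intro h0
          rw [hc, h0, mul_zero] at hn
          exact hn rfl
        have hc1' : ((a1.coeff n : ratLocalizedAt ℓ) : ℚ) ≠ 0 := by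
          exact_mod_cast hc1
        have hv : padicValRat ℓ ((a.coeff n : ratLocalizedAt ℓ) : ℚ) =
            1 + padicValRat ℓ ((a1.coeff n : ratLocalizedAt ℓ) : ℚ) := by
          rw [hc]
          push_cast
          rw [padicValRat.mul (by exact_mod_cast hℓ.ne_zero) hc1', padicValRat.self hℓ.one_lt]
        have := padicValRat_nonneg ℓ (a1.coeff n)
        rw [hv] at hM
        simp only [Nat.cast_zero] at hM
        omega
      · exact ⟨0, a, by simp, h⟩
    | succ M ih =>
      intro a n hn hM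
      by_cases h : coeffMap (Red.red ℓ) a = 0
      · obtain ⟨a1, ha1⟩ := exists_eq_mul_of_red_eq_zero ℓ a h
        have hc : a.coeff n = (ℓ : ratLocalizedAt ℓ) * a1.coeff n := by
          rw [ha1, coeff_natCast_mul]
        have hc1 : a1.coeff n ≠ 0 := by
          intro h0
          rw [hc, h0, mul_zero] at hn
          exact hn rfl
        have hc1' : ((a1.coeff n : ratLocalizedAt ℓ) : ℚ) ≠ 0 := by
          exact_mod_cast hc1
        have hv : padicValRat ℓ ((a.coeff n : ratLocalizedAt ℓ) : ℚ) =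
            1 + padicValRat ℓ ((a1.coeff n : ratLocalizedAt ℓ) : ℚ) := by
          rw [hc]
          push_cast
          rw [padicValRat.mul (by exact_mod_cast hℓ.ne_zero) hc1', padicValRat.self hℓ.one_lt]
        have hM' : padicValRat ℓ ((a1.coeff n : ratLocalizedAt ℓ) : ℚ) ≤ M := by
          rw [hv] at hM
          push_cast at hM
          omega
        obtain ⟨k, a2, ha2, hred⟩ := ih a1 n hc1 hM'
        refine ⟨k + 1, a2, ?_, hred⟩
        rw [ha1, ha2, pow_succ]
        ring
      · exact ⟨0, a, by simp, h⟩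
  obtain ⟨n, hn⟩ : ∃ n, a.coeff n ≠ 0 := by
    by_contra hcon
    simp only [not_exists, not_not] at hcon
    exact ha (HahnSeries.ext (funext hcon))
  have hnn := padicValRat_nonneg ℓ (a.coeff n)
  refine key (padicValRat ℓ ((a.coeff n : ratLocalizedAt ℓ) : ℚ)).toNat a n hn ?_
  rw [Int.toNat_of_nonneg hnn]

end Fermat.Agent.S28.GaussContent
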