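import Mathlib
import Fermat.Agent.S28.GaussRing
import Fermat.Agent.S28.QEPInst

set_option autoImplicit false

/-!
# S28: the Gauss ring (block M3) packaged as the `GaussData` interface of block M4
-/

noncomputable section

namespace Fermat.Agent.S28.GaussInst

variable (ℓ : ℕ) [Fact ℓ.Prime]

/-- The Gauss ring of `GaussRing.lean` as a `QEPInst.GaussData`. -/
def gaussData : QEPInst.GaussData ℓ where
  V := GaussRing.V ℓ
  red := GaussRing.red ℓ
  mem_of_int := GaussRing.mem_of_int ℓ
  red_of_int := GaussRing.red_of_int ℓ
  ker := GaussRing.ker ℓ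
  closed := GaussRing.closed ℓ

end Fermat.Agent.S28.GaussInst
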