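import Mathlib
import Fermat.Agent.S28.GaussClosed
import Fermat.Agent.S28.Red

set_option autoImplicit false

noncomputable section

namespace Fermat.Agent.S28.GaussWire

open Polynomial ModularCurve Fermat.Agent.S28.GaussClosed

theorem natCast_laurent_zmod (ℓ : ℕ) : ((ℓ : ℕ) : LaurentSeries (ZMod ℓ)) = 0 := by
  rw [← map_natCast (HahnSeries.C : ZMod ℓ →+* LaurentSeries (ZMod ℓ)), ZMod.natCast_self,
    map_zero]

/-- Wiring of `closed` for any subring `V` of `ℚ((q))` with a reduction map, described by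
fractions `ι a / ι b` with `ρ b ≠ 0`. -/
theorem closed_of (ℓ : ℕ) [Fact ℓ.Prime] (V : Subring (LaurentSeries ℚ))
    (red : V →+* LaurentSeries (ZMod ℓ))
    (hmem : ∀ (x : LaurentSeries ℚ) (a b : LaurentSeries ↥(GaloisRep.ratLocalizedAt ℓ)),
      coeffMap (Red.red ℓ) b ≠ 0 → x * incl ℓ b = incl ℓ a → x ∈ V)
    (hred : ∀ (x : V) (a b : LaurentSeries ↥(GaloisRep.ratLocalizedAt ℓ)),
      coeffMap (Red.red ℓ) b ≠ 0 → (x : LaurentSeries ℚ) * incl ℓ b = incl ℓ a →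
      red x * coeffMap (Red.red ℓ) b = coeffMap (Red.red ℓ) a)
    (hcontent : ∀ a : LaurentSeries ↥(GaloisRep.ratLocalizedAt ℓ), a ≠ 0 →
      ∃ (k : ℕ) (a₁ : LaurentSeries ↥(GaloisRep.ratLocalizedAt ℓ)),
        a = (ℓ : LaurentSeries ↥(GaloisRep.ratLocalizedAt ℓ)) ^ k * a₁ ∧
          coeffMap (Red.red ℓ) a₁ ≠ 0)
    (x : LaurentSeries ℚ)
    (hx : x ∈ Subfield.closure (Set.range (coeffMap (GaloisRep.ratLocalizedAt ℓ).subtype)))
    (hint : V.subtype.IsIntegralElem x) : x ∈ V := by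
  obtain ⟨a, b, hb, hab⟩ := exists_frac ℓ x hx
  have hιb : incl ℓ b ≠ 0 := fun h0 => hb ((incl_eq_zero_iff ℓ b).mp h0)
  by_cases ha : a = 0
  · rw [ha, map_zero] at hab
    rcases mul_eq_zero.mp hab with h | h
    · rw [h]; exact V.zero_mem
    · exact absurd h hιb
  obtain ⟨i, a₁, rfl, ha₁⟩ := hcontent a ha
  obtain ⟨k, b₁, rfl, hb₁⟩ := hcontent b hb
  have hιb₁ : incl ℓ b₁ ≠ 0 := by
    intro h0
    apply hb₁
    rw [(incl_eq_zero_iff ℓ b₁).mp h0, map_zero]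
  have hℓ0 : ((ℓ : ℕ) : LaurentSeries ℚ) ≠ 0 := by
    rw [← map_natCast (HahnSeries.C : ℚ →+* LaurentSeries ℚ)]
    exact (map_ne_zero_iff _ HahnSeries.C_injective).mpr
      (Nat.cast_ne_zero.mpr (Fact.out : ℓ.Prime).ne_zero)
  -- the element `w = ι a₁ / ι b₁`
  set w : LaurentSeries ℚ := incl ℓ a₁ * (incl ℓ b₁)⁻¹ with hw
  have hwb : w * incl ℓ b₁ = incl ℓ a₁ := by
    rw [hw, mul_assoc, inv_mul_cancel₀ hιb₁, mul_one]
  have hwV : w ∈ V := hmem w a₁ b₁ hb₁ hwb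
  have hredw : red ⟨w, hwV⟩ ≠ 0 := by
    intro h0
    have := hred ⟨w, hwV⟩ a₁ b₁ hb₁ hwb
    rw [h0, zero_mul] at this
    exact ha₁ this.symm
  have hℓV : ((ℓ : ℕ) : LaurentSeries ℚ) ∈ V := natCast_mem V ℓ
  -- relation `x * ℓ^k = ℓ^i * w`
  have hrel : x * (ℓ : LaurentSeries ℚ) ^ k = (ℓ : LaurentSeries ℚ) ^ i * w := by
    rw [map_mul, map_mul, map_pow, map_pow, map_natCast] at hab
    have h1 : (x * (ℓ : LaurentSeries ℚ) ^ k) * incl ℓ b₁ =
        ((ℓ : LaurentSeries ℚ) ^ i * w) * incl ℓ b₁ := by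
      rw [mul_assoc, hab, mul_assoc, hwb]
    exact mul_right_cancel₀ hιb₁ h1
  rcases le_or_gt k i with hki | hki
  · -- `x = ℓ^(i-k) * w`
    have hxe : x = (ℓ : LaurentSeries ℚ) ^ (i - k) * w := by
      have h2 : x * (ℓ : LaurentSeries ℚ) ^ k =
          ((ℓ : LaurentSeries ℚ) ^ (i - k) * w) * (ℓ : LaurentSeries ℚ) ^ k := by
        rw [hrel, mul_right_comm, ← pow_add, Nat.sub_add_cancel hki]
      exact mul_right_cancel₀ (pow_ne_zero k hℓ0) h2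
    rw [hxe]
    exact V.mul_mem (V.pow_mem hℓV _) hwV
  · -- `x * ℓ^(k-i) = w`, use (K1)
    have hxe : x * (ℓ : LaurentSeries ℚ) ^ (k - i) = w := by
      have h2 : (x * (ℓ : LaurentSeries ℚ) ^ (k - i)) * (ℓ : LaurentSeries ℚ) ^ i =
          w * (ℓ : LaurentSeries ℚ) ^ i := by
        rw [mul_assoc, ← pow_add, Nat.sub_add_cancel hki.le, hrel, mul_comm]
      exact mul_right_cancel₀ (pow_ne_zero i hℓ0) h2
    refine mem_of_isIntegralElem V red ⟨(ℓ : LaurentSeries ℚ), hℓV⟩ ?_ ⟨w, hwV⟩ hredw x (k - i)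
      hxe hint
    have : (⟨((ℓ : ℕ) : LaurentSeries ℚ), hℓV⟩ : V) = ((ℓ : ℕ) : V) := by
      ext; simp
    rw [this, map_natCast, natCast_laurent_zmod]

end Fermat.Agent.S28.GaussWire
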