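import Mathlib

/-!
# S28: the independence hypothesis of the abstract q-expansion principle, from `core`

Conjunct 3 of `core` ("no nonzero `B ∈ k[X][Y]` of `Y`-degree `< m` kills `(j̄, ū)`") in the two
shapes needed by the charts: a vanishing combination `∑_{i<m} c_i(t) ū^i` (resp. with `t⁻¹`) has
all `c_i = 0`.  Pure algebra, Mathlib only.
-/

set_option autoImplicit false

noncomputable section

namespace Fermat.Agent.S28.IndepCore

open Polynomial

variable {k L : Type*} [CommRing k] [Field L] (g : k →+* L) (t u : L) (m : ℕ)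

/-- Finite chart: polynomials in `t`. -/
theorem indep_fin
    (h3 : ∀ B : k[X][X], B.natDegree < m → B.eval₂ (eval₂RingHom g t) u = 0 → B = 0)
    (c : Fin m → k[X]) (h0 : ∑ i, (c i).eval₂ g t * u ^ (i : ℕ) = 0) : ∀ i, c i = 0 := by
  classical
  intro i
  have hm : 0 < m := lt_of_le_of_lt (Nat.zero_le _) i.2
  set B : k[X][X] := ∑ j : Fin m, monomial (j : ℕ) (c j) with hB
  have hdeg : B.natDegree < m := by
    refine lt_of_le_of_lt (natDegree_sum_le_of_forall_le _ _ (n := m - 1) fun j _ => ?_)
      (Nat.sub_one_lt hm.ne')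
    exact le_trans (natDegree_monomial_le _) (by have := j.2; omega)
  have hev : B.eval₂ (eval₂RingHom g t) u = 0 := by
    rw [hB, eval₂_finsetSum, ← h0]
    exact Finset.sum_congr rfl fun j _ => by rw [eval₂_monomial, coe_eval₂RingHom]
  have hB0 := h3 B hdeg hev
  have hcoeff : B.coeff (i : ℕ) = c i := by
    rw [hB, finsetSum_coeff, Finset.sum_eq_single i]
    · rw [coeff_monomial, if_pos rfl]
    · intro j _ hj
      rw [coeff_monomial, if_neg (fun h => hj (Fin.ext h))]
    · intro h
      exact absurd (Finset.mem_univ i) h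
  rw [← hcoeff, hB0, coeff_zero]

/-- Chart at infinity: polynomials in `t⁻¹`. -/
theorem indep_inv (ht : t ≠ 0)
    (h3 : ∀ B : k[X][X], B.natDegree < m → B.eval₂ (eval₂RingHom g t) u = 0 → B = 0)
    (c : Fin m → k[X]) (h0 : ∑ i, (c i).eval₂ g t⁻¹ * u ^ (i : ℕ) = 0) : ∀ i, c i = 0 := by
  classical
  set D := Finset.univ.sup fun i => (c i).natDegree with hD
  have hDi : ∀ i, (c i).natDegree ≤ D := fun i =>
    Finset.le_sup (f := fun i => (c i).natDegree) (Finset.mem_univ i)
  let _inst : Invertible t⁻¹ := invertibleOfNonzero (inv_ne_zero ht)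
  have key : ∀ i, eval₂ g t (reflect D (c i)) * (t⁻¹) ^ D = eval₂ g t⁻¹ (c i) := by
    intro i
    have h := eval₂_reflect_mul_pow g t⁻¹ D (c i) (hDi i)
    rwa [invOf_eq_inv, inv_inv] at h
  have h0' : ∑ i, (reflect D (c i)).eval₂ g t * u ^ (i : ℕ) = 0 := by
    have hne : (t⁻¹) ^ D ≠ 0 := pow_ne_zero _ (inv_ne_zero ht)
    apply mul_right_cancel₀ hne
    rw [zero_mul, Finset.sum_mul, ← h0]
    exact Finset.sum_congr rfl fun i _ => by rw [← key i]; ring
  intro i
  have := indep_fin g t u m h3 (fun i => reflect D (c i)) h0' i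
  exact reflect_eq_zero_iff.mp this

end Fermat.Agent.S28.IndepCore
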