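import Mathlib
import Fermat.Agent.S28.LExp
import Fermat.Agent.S28.PolyJ
import Fermat.Agent.S28.Formal

/-!
# S28, block M8/A2+A3 in `HasLExp` form

`HasLExp 1` statements for `j`, `Δ`, `Δ⁻¹`, and "invariant + holomorphic + `HasLExp 1` ⇒
polynomial in `j`", as thin wrappers around `LExpForms` / `PolyJ` (raw `HasSum` form).
-/

set_option autoImplicit false

noncomputable section

namespace Fermat.Agent.S28.LExpBridge

open UpperHalfPlane ModularForm Complex
open Fermat.Agent.S28.Defs Fermat.Agent.S28.LExp Fermat.Agent.S24.JFun ModularCurve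
open scoped MatrixGroups Manifold

local notation "𝕢" => Function.Periodic.qParam

/-- `HasLExp 1` unfolded, with the literal `𝕢 1`. -/
theorem hasLExp_one_iff {f : ℍ → ℂ} {s : LaurentSeries ℂ} :
    HasLExp 1 f s ↔ ∀ τ : ℍ, HasSum (fun n : ℤ => s.coeff n * 𝕢 (1 : ℝ) (τ : ℂ) ^ n) (f τ) := by
  unfold HasLExp
  rw [Nat.cast_one]

/-- The analytic `j` has the formal `q`-expansion `jqModC ℂ`. -/
theorem hasLExp_jFun : HasLExp 1 jFun (jqModC ℂ) :=
  hasLExp_one_iff.mpr LExpForms.hasSum_jq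

/-- `Δ` has the formal `q`-expansion `deltaR ℂ`. -/
theorem hasLExp_discriminant : HasLExp 1 (fun τ : ℍ => discriminant τ) (deltaR ℂ) :=
  hasLExp_one_iff.mpr LExpForms.hasSum_deltaR

/-- `Δ⁻¹` has the formal `q`-expansion `deltaInvR ℂ`. -/
theorem hasLExp_discriminant_inv :
    HasLExp 1 (fun τ : ℍ => (discriminant τ)⁻¹) (deltaInvR ℂ) :=
  hasLExp_one_iff.mpr LExpForms.hasSum_deltaInvR

/-- **A3**: a holomorphic `SL(2,ℤ)`-invariant function with a `q`-expansion `s` is a polynomial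
in `j`, and `s` is the same polynomial in the formal `j`. -/
theorem exists_polynomial_of_hasLExp {f : ℍ → ℂ} {s : LaurentSeries ℂ} (hhol : MDiff f)
    (hinv : ∀ (γ : SL(2, ℤ)) (τ : ℍ), f (γ • τ) = f τ) (hs : HasLExp 1 f s) :
    ∃ p : Polynomial ℂ, (∀ τ, f τ = p.eval (jFun τ)) ∧
      s = p.eval₂ HahnSeries.C (jqModC ℂ) :=
  PolyJ.exists_polynomial hhol hinv (hasLExp_one_iff.mp hs)

/-- Variant in width `N`: a holomorphic `SL(2,ℤ)`-invariant function with an expansion `s` in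
`q^{1/N}` satisfies `s = p(j(q))`, `j(q) = qE ℂ N (jqModC ℂ)`. This is the shape of
`RowSystem.HasSymm`. -/
theorem exists_polynomial_of_hasLExp_width {N : ℕ} (hN : N ≠ 0) {f : ℍ → ℂ}
    {s : LaurentSeries ℂ} (hhol : MDiff f)
    (hinv : ∀ (γ : SL(2, ℤ)) (τ : ℍ), f (γ • τ) = f τ) (hs : HasLExp N f s) :
    ∃ p : Polynomial ℂ, (∀ τ, f τ = p.eval (jFun τ)) ∧
      s = p.eval₂ HahnSeries.C (qE ℂ N (jqModC ℂ)) := by
  have hper : ∀ τ : ℍ, f ((1 : ℝ) +ᵥ τ) = f τ := by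
    intro τ
    have h := hinv ModularGroup.T τ
    rw [← h]
    congr 1
    ext
    rw [modular_T_smul]
  obtain ⟨s₁, hs₁, h₁⟩ := hs.exists_of_periodic hN hper
  obtain ⟨p, hp, hps⟩ := exists_polynomial_of_hasLExp hhol hinv h₁
  refine ⟨p, hp, ?_⟩
  rw [hs₁, hps, Fermat.Agent.S28.Formal.qE_eval₂_C]

end Fermat.Agent.S28.LExpBridge
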