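import Mathlib
import Fermat.Agent.S28.RowDefs
import Fermat.Agent.S28.Formal
import Fermat.Agent.S28.Hermite
import Fermat.Agent.S28.PolyJ

/-!
# S28, block M8/A1b: uniqueness, periodicity and substitution for Laurent expansions

Raw form: a function `f : ℍ → ℂ` "has the expansion `s` of width `N`" when
`∀ τ : ℍ, HasSum (fun n : ℤ => s.coeff n * 𝕢 N τ ^ n) (f τ)`, `𝕢 N τ = e^{2πiτ/N}`.

* `laurent_eq_zero_of_hasSum_zero`, `laurent_unique` : uniqueness of the expansion (width `N`);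
* `exists_qE_of_periodic` : a `1`-periodic function with an expansion of width `N` has an
  expansion of width `1`, and `s = qE ℂ N s₁`;
* `hasSum_twist`, `hasSum_aff` : the expansion of `τ ↦ f ((a τ + b) / d')` is a `twist`;
* `hasSum_qE` : an expansion of width `1` gives the expansion `qE ℂ N s` of width `N`.
-/

set_option autoImplicit false

noncomputable section

namespace Fermat.Agent.S28.LExpSubst

open UpperHalfPlane Complex Filter Topology
open Fermat.Agent.S28.Defs Fermat.Agent.S28.LExpForms Fermat.Agent.S28.Formal ModularCurve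

local notation "𝕢" => Function.Periodic.qParam

variable (N : ℕ) [NeZero N]

theorem natCast_pos_real : (0 : ℝ) < (N : ℝ) := by
  exact_mod_cast Nat.pos_of_ne_zero (NeZero.ne N)

theorem norm_qParam_lt_one (τ : ℍ) : ‖𝕢 (N : ℝ) (τ : ℂ)‖ < 1 :=
  Function.Periodic.norm_qParam_lt_one (natCast_pos_real N) τ.im_pos

/-- **Uniqueness** (width `N`): a Laurent series summing to `0` at every `τ` is `0`. -/
theorem laurent_eq_zero_of_hasSum_zero (d : LaurentSeries ℂ)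
    (h : ∀ τ : ℍ, HasSum (fun n : ℤ => d.coeff n * 𝕢 (N : ℝ) (τ : ℂ) ^ n) 0) : d = 0 := by
  obtain ⟨m, hm⟩ := exists_coeff_eq_zero_of_lt d
  have hc : ∀ k : ℕ, d.coeff ((k : ℤ) - m) = 0 := by
    apply PolyJ.coeff_eq_zero_of_hasSum_zero (fun k => d.coeff ((k : ℤ) - m))
    intro q hq0 hq
    have hz : 0 < (Function.Periodic.invQParam (N : ℝ) q).im :=
      Function.Periodic.im_invQParam_pos_of_norm_lt_one (natCast_pos_real N) hq hq0
    have hqz : 𝕢 (N : ℝ) (Function.Periodic.invQParam (N : ℝ) q) = q :=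
      Function.Periodic.qParam_right_inv (natCast_pos_real N).ne' hq0
    have h1 := h ⟨Function.Periodic.invQParam (N : ℝ) q, hz⟩
    rw [UpperHalfPlane.coe_mk, hqz] at h1
    have h2 := hasSum_nat_shift_of_int (fun n => d.coeff n) m hm hq0 h1
    rw [mul_zero] at h2
    exact h2
  ext n
  by_cases hn : n < -(m : ℤ)
  · simp [hm n hn]
  · have := hc (n + m).toNat
    rw [Int.toNat_of_nonneg (by omega), add_sub_cancel_right] at this
    simpa using this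

/-- **Uniqueness** (width `N`): two expansions of the same function coincide. -/
theorem laurent_unique {f : ℍ → ℂ} {s s' : LaurentSeries ℂ}
    (hs : ∀ τ : ℍ, HasSum (fun n : ℤ => s.coeff n * 𝕢 (N : ℝ) (τ : ℂ) ^ n) (f τ))
    (hs' : ∀ τ : ℍ, HasSum (fun n : ℤ => s'.coeff n * 𝕢 (N : ℝ) (τ : ℂ) ^ n) (f τ)) :
    s = s' := by
  rw [← sub_eq_zero]
  apply laurent_eq_zero_of_hasSum_zero N
  intro τ
  have h1 := (hs τ).sub (hs' τ)
  rw [sub_self] at h1
  have hf : (fun n : ℤ => (s - s').coeff n * 𝕢 (N : ℝ) (τ : ℂ) ^ n)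
      = fun n : ℤ => s.coeff n * 𝕢 (N : ℝ) (τ : ℂ) ^ n - s'.coeff n * 𝕢 (N : ℝ) (τ : ℂ) ^ n := by
    funext n
    rw [HahnSeries.coeff_sub, sub_mul]
  rw [hf]
  exact h1

theorem qParam_one_eq_pow (z : ℂ) : 𝕢 (1 : ℝ) z = 𝕢 (N : ℝ) z ^ N := by
  simp only [Function.Periodic.qParam]
  rw [← Complex.exp_nat_mul]
  congr 1
  have hN : (N : ℂ) ≠ 0 := Nat.cast_ne_zero.mpr (NeZero.ne N)
  push_cast
  field_simp

omit [NeZero N] in
theorem qParam_add_one (z : ℂ) : 𝕢 (N : ℝ) (1 + z) = (zetaC N : ℂ) * 𝕢 (N : ℝ) z := by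
  simp only [Function.Periodic.qParam, zetaC, Units.val_mk0]
  rw [← Complex.exp_add]
  congr 1
  push_cast
  ring

theorem zetaC_zpow_eq_one_iff (n : ℤ) : (zetaC N : ℂ) ^ n = 1 ↔ (N : ℤ) ∣ n := by
  have h := Complex.isPrimitiveRoot_exp N (NeZero.ne N)
  simpa [zetaC] using h.zpow_eq_one_iff_dvd n

/-- **Periodicity**: a `1`-periodic function with an expansion `s` of width `N` has an
expansion `s₁` of width `1`, and `s = qE ℂ N s₁`. -/
theorem exists_qE_of_periodic {f : ℍ → ℂ} {s : LaurentSeries ℂ}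
    (hs : ∀ τ : ℍ, HasSum (fun n : ℤ => s.coeff n * 𝕢 (N : ℝ) (τ : ℂ) ^ n) (f τ))
    (hper : ∀ τ : ℍ, f ((1 : ℝ) +ᵥ τ) = f τ) :
    ∃ s₁ : LaurentSeries ℂ, s = qE ℂ N s₁ ∧
      ∀ τ : ℍ, HasSum (fun n : ℤ => s₁.coeff n * 𝕢 (1 : ℝ) (τ : ℂ) ^ n) (f τ) := by
  have hN0 : N ≠ 0 := NeZero.ne N
  -- Step 1: `scale ζ s = s`
  have hscale : scale ℂ (zetaC N) s = s := by
    refine laurent_unique N (f := f) (fun τ => ?_) hs
    have h1 := hs ((1 : ℝ) +ᵥ τ)
    rw [hper τ, UpperHalfPlane.coe_vadd, Complex.ofReal_one, qParam_add_one] at h1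
    have hf : (fun n : ℤ => (scale ℂ (zetaC N) s).coeff n * 𝕢 (N : ℝ) (τ : ℂ) ^ n)
        = fun n : ℤ => s.coeff n * ((zetaC N : ℂ) * 𝕢 (N : ℝ) (τ : ℂ)) ^ n := by
      funext n
      rw [scale_coeff, mul_zpow, Units.val_zpow_eq_zpow_val]
      ring
    rw [hf]
    exact h1
  -- Step 2: the coefficients vanish outside multiples of `N`
  have hvan : ∀ n : ℤ, ¬ (N : ℤ) ∣ n → s.coeff n = 0 := by
    intro n hn
    have h1 := congrArg (fun x : LaurentSeries ℂ => x.coeff n) hscale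
    simp only [scale_coeff, Units.val_zpow_eq_zpow_val] at h1
    have h2 : ((zetaC N : ℂ) ^ n - 1) * s.coeff n = 0 := by
      rw [sub_mul, h1, one_mul, sub_self]
    rcases mul_eq_zero.mp h2 with h3 | h3
    · exact absurd ((zetaC_zpow_eq_one_iff N n).mp (sub_eq_zero.mp h3)) hn
    · exact h3
  -- Step 3: the series `s₁`
  obtain ⟨m, hm⟩ := exists_coeff_eq_zero_of_lt s
  have hNpos : (1 : ℤ) ≤ (N : ℤ) := by exact_mod_cast Nat.pos_of_ne_zero hN0
  have hbdd : BddBelow (Function.support (fun k : ℤ => s.coeff ((N : ℤ) * k))) := by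
    refine ⟨-(m : ℤ), fun k hk => ?_⟩
    by_contra hlt
    have hlt := not_le.mp hlt
    apply hk
    apply hm
    have hk0 : k < 0 := by omega
    nlinarith
  refine ⟨HahnSeries.ofSuppBddBelow _ hbdd, ?_, fun τ => ?_⟩
  · ext n
    by_cases hn : (N : ℤ) ∣ n
    · obtain ⟨k, rfl⟩ := hn
      rw [qE_coeff_mul hN0, HahnSeries.coeff_ofSuppBddBelow]
    · rw [hvan n hn, qE_coeff_of_not_dvd hN0 _ hn]
  · have hinj : Function.Injective (fun k : ℤ => (N : ℤ) * k) :=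
      mul_right_injective₀ (by exact_mod_cast hN0)
    have hsupp : ∀ n : ℤ, n ∉ Set.range (fun k : ℤ => (N : ℤ) * k) →
        s.coeff n * 𝕢 (N : ℝ) (τ : ℂ) ^ n = 0 := by
      intro n hn
      rw [hvan n (fun ⟨k, hk⟩ => hn ⟨k, hk.symm⟩), zero_mul]
    have h1 := (hinj.hasSum_iff hsupp).mpr (hs τ)
    have hf : ((fun n : ℤ => s.coeff n * 𝕢 (N : ℝ) (τ : ℂ) ^ n) ∘ fun k : ℤ => (N : ℤ) * k)
        = fun k : ℤ => (HahnSeries.ofSuppBddBelow _ hbdd).coeff k * 𝕢 (1 : ℝ) (τ : ℂ) ^ k := by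
      funext k
      simp only [Function.comp_apply]
      rw [HahnSeries.coeff_ofSuppBddBelow, qParam_one_eq_pow N, zpow_mul, zpow_natCast]
    rw [hf] at h1
    exact h1

/-- **Substitution** `q ↦ u t^k`: the expansion becomes a `twist`. -/
theorem hasSum_twist (u : ℂˣ) {k : ℕ} (hk : k ≠ 0) (s : LaurentSeries ℂ) {t v : ℂ}
    (h : HasSum (fun n : ℤ => s.coeff n * ((u : ℂ) * t ^ k) ^ n) v) :
    HasSum (fun n : ℤ => (twist ℂ u k s).coeff n * t ^ n) v := by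
  have hinj : Function.Injective (fun n : ℤ => (k : ℤ) * n) :=
    mul_right_injective₀ (by exact_mod_cast hk)
  have hsupp : ∀ n : ℤ, n ∉ Set.range (fun n : ℤ => (k : ℤ) * n) →
      (twist ℂ u k s).coeff n * t ^ n = 0 := by
    intro n hn
    rw [twist, RingHom.comp_apply,
      qE_coeff_of_not_dvd hk _ (fun ⟨m, hm⟩ => hn ⟨m, hm.symm⟩), zero_mul]
  rw [← hinj.hasSum_iff hsupp]
  have hf : ((fun n : ℤ => (twist ℂ u k s).coeff n * t ^ n) ∘ fun n : ℤ => (k : ℤ) * n)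
      = fun n : ℤ => s.coeff n * ((u : ℂ) * t ^ k) ^ n := by
    funext n
    simp only [Function.comp_apply]
    rw [twist, RingHom.comp_apply, qE_coeff_mul hk, scale_coeff, mul_zpow,
      Units.val_zpow_eq_zpow_val, ← zpow_natCast t k, ← zpow_mul]
    ring
  rw [hf]
  exact h

theorem qParam_aff {a d' : ℕ} (b : ℕ) (ha : 0 < a) (hd' : 0 < d') (hdN : d' ∣ N) (τ : ℍ) :
    𝕢 (1 : ℝ) (Hermite.aff a b d' τ : ℂ)
      = ((zetaC N ^ (N / d' * b) : ℂˣ) : ℂ) * 𝕢 (N : ℝ) (τ : ℂ) ^ (a * (N / d')) := by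
  rw [Hermite.coe_aff b ha hd']
  simp only [Function.Periodic.qParam, zetaC, Units.val_pow_eq_pow_val, Units.val_mk0]
  rw [← Complex.exp_nat_mul, ← Complex.exp_nat_mul, ← Complex.exp_add]
  congr 1
  have hN : (N : ℂ) = (d' : ℂ) * ((N / d' : ℕ) : ℂ) := by
    rw [← Nat.cast_mul, Nat.mul_div_cancel' hdN]
  have hd0 : (d' : ℂ) ≠ 0 := Nat.cast_ne_zero.mpr hd'.ne'
  have he0 : ((N / d' : ℕ) : ℂ) ≠ 0 :=
    Nat.cast_ne_zero.mpr (Nat.div_pos (Nat.le_of_dvd (Nat.pos_of_ne_zero (NeZero.ne N)) hdN)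
      hd').ne'
  push_cast
  rw [hN]
  field_simp
  ring

/-- **Substitution** `τ ↦ (a τ + b) / d'` (for `d' ∣ N`): exactly the shape of `Defs.sigmaGen`. -/
theorem hasSum_aff {f : ℍ → ℂ} {s : LaurentSeries ℂ}
    (hs : ∀ w : ℍ, HasSum (fun n : ℤ => s.coeff n * 𝕢 (1 : ℝ) (w : ℂ) ^ n) (f w))
    {a d' : ℕ} (b : ℕ) (ha : 0 < a) (hd' : 0 < d') (hdN : d' ∣ N) (τ : ℍ) :
    HasSum (fun n : ℤ => (twist ℂ (zetaC N ^ (N / d' * b)) (a * (N / d')) s).coeff n *
      𝕢 (N : ℝ) (τ : ℂ) ^ n) (f (Hermite.aff a b d' τ)) := by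
  have hk : a * (N / d') ≠ 0 :=
    (Nat.mul_pos ha (Nat.div_pos (Nat.le_of_dvd (Nat.pos_of_ne_zero (NeZero.ne N)) hdN)
      hd')).ne'
  apply hasSum_twist _ hk
  rw [← qParam_aff N b ha hd' hdN τ]
  exact hs _

theorem scale_one (s : LaurentSeries ℂ) : scale ℂ 1 s = s := by
  ext n
  simp

/-- An expansion of width `1` gives the expansion `qE ℂ N s` of width `N`. -/
theorem hasSum_qE {f : ℍ → ℂ} {s : LaurentSeries ℂ}
    (hs : ∀ w : ℍ, HasSum (fun n : ℤ => s.coeff n * 𝕢 (1 : ℝ) (w : ℂ) ^ n) (f w)) (τ : ℍ) :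
    HasSum (fun n : ℤ => (qE ℂ N s).coeff n * 𝕢 (N : ℝ) (τ : ℂ) ^ n) (f τ) := by
  have h := hasSum_twist (1 : ℂˣ) (NeZero.ne N) s (t := 𝕢 (N : ℝ) (τ : ℂ)) (v := f τ) (by
    rw [Units.val_one, one_mul, ← qParam_one_eq_pow N]
    exact hs τ)
  rw [twist, RingHom.comp_apply, scale_one] at h
  exact h

end Fermat.Agent.S28.LExpSubst
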