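import Fermat.Agent.S28.QEPInst
import Fermat.Agent.S28.GaussRing
import Fermat.Agent.S28.Core
import Fermat.Agent.S28.Formal

set_option autoImplicit false

/-!
# S28: final wiring of the q-expansion principle

`GaussRing` (M3) + `Core.core` (M5–M8) + `QEPInst.hasReduction_of_core` (M4) give
`Reduce.HasReduction` for the three chart algebras, hence the statement of S28.
-/

noncomputable section

namespace Fermat.Agent.S28.QEPWire

open AlgebraicGeometry CategoryTheory CategoryTheory.Limits ModularCurve ModularCurve.IgusaScheme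
open Fermat.Agent.S28.Defs

/-- The Gauss valuation ring of `GaussRing` as a `GaussData`. -/
def gaussData (ℓ : ℕ) [Fact ℓ.Prime] : QEPInst.GaussData ℓ where
  V := GaussRing.V ℓ
  red := GaussRing.red ℓ
  mem_of_int := GaussRing.mem_of_int ℓ
  red_of_int := GaussRing.red_of_int ℓ
  ker := GaussRing.ker ℓ
  closed := GaussRing.closed ℓ

/-- The q-expansion principle for the three chart algebras. -/
theorem hasReduction (N : ℕ) [NeZero N] (ℓ : ℕ) [Fact ℓ.Prime] (hℓN : ¬ ℓ ∣ N) :
    Reduce.HasReduction ℓ ↥(chartAlgFin N ℓ) ∧ Reduce.HasReduction ℓ ↥(chartAlgInf N ℓ) ∧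
      Reduce.HasReduction ℓ ↥(chartAlgMid N ℓ) := by
  obtain ⟨m, hQ, hgen, hind⟩ := Core.core N ℓ hℓN
  have h1 : ev ℚ N (unitPoly N) = coeffMap (Int.castRingHom ℚ) (ev ℤ N (unitPoly N)) :=
    (Formal.coeffMap_ev (Int.castRingHom ℚ) N (unitPoly N)).symm
  have h2 : ev (ZMod ℓ) N (unitPoly N) =
      coeffMap (Int.castRingHom (ZMod ℓ)) (ev ℤ N (unitPoly N)) :=
    (Formal.coeffMap_ev (Int.castRingHom (ZMod ℓ)) N (unitPoly N)).symm
  rw [h1] at hQ hgen
  rw [h2] at hind
  exact QEPInst.hasReduction_of_core N (gaussData ℓ) (ev ℤ N (unitPoly N)) m hQ hgen hind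

/-- **S28**: the fibre of the Igusa scheme over a field of characteristic `ℓ ∤ N` is integral. -/
theorem isIntegral_pullback (N : ℕ) [NeZero N] (ℓ : ℕ) [Fact ℓ.Prime] (hℓN : ¬ ℓ ∣ N)
    (K : Type) [Field K] [CharP K ℓ] [Algebra ↥(GaloisRep.ratLocalizedAt ℓ) K] :
    IsIntegral (pullback (igusaTo N ℓ)
      (Spec.map (CommRingCat.ofHom (algebraMap ↥(GaloisRep.ratLocalizedAt ℓ) K)))) := by
  obtain ⟨hFin, hInf, hMid⟩ := hasReduction N ℓ hℓN
  exact Reduce.isIntegral_pullback_of_hasReduction N ℓ K hFin hInf hMid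

end Fermat.Agent.S28.QEPWire
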