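import Mathlib
import Fermat.Prelude.Def_ModularCurve_LaurentCoeff

set_option autoImplicit false

namespace Fermat.Agent.S28.TensorDomain

open TensorProduct ModularCurve

section Generic

variable {R A k K : Type*} [CommRing R] [CommRing A] [Algebra R A] [Field k] [Field K]
  [Algebra R K] [Algebra k K]

theorem algebraMap_laurent_eq_C (r : R) :
    algebraMap R (LaurentSeries K) r = HahnSeries.C (algebraMap R K r) := by
  rw [HahnSeries.algebraMap_apply', PowerSeries.algebraMap_apply, HahnSeries.ofPowerSeries_C]

/-- The `R`-algebra hom `A → K((q))` obtained from `ψ : A → k((q))`. -/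
noncomputable def liftLeft (red : R →+* k)
    (hredK : ∀ r : R, algebraMap R K r = algebraMap k K (red r))
    (ψ : A →+* LaurentSeries k)
    (hψR : ∀ r : R, ψ (algebraMap R A r) = HahnSeries.C (red r)) :
    A →ₐ[R] LaurentSeries K where
  toRingHom := (coeffMap (algebraMap k K)).comp ψ
  commutes' r := by
    change coeffMap (algebraMap k K) (ψ (algebraMap R A r)) = _
    rw [hψR, algebraMap_laurent_eq_C, HahnSeries.C_apply, coeffMap_single, hredK,
      HahnSeries.C_apply]

/-- The `R`-algebra hom `K → K((q))`. -/
noncomputable def liftRight : K →ₐ[R] LaurentSeries K where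
  toRingHom := (HahnSeries.C : K →+* LaurentSeries K)
  commutes' r := by
    change HahnSeries.C (algebraMap R K r) = _
    rw [algebraMap_laurent_eq_C]

/-- The comparison map `A ⊗[R] K → K((q))`. -/
noncomputable def tensorToLaurent (red : R →+* k)
    (hredK : ∀ r : R, algebraMap R K r = algebraMap k K (red r))
    (ψ : A →+* LaurentSeries k)
    (hψR : ∀ r : R, ψ (algebraMap R A r) = HahnSeries.C (red r)) :
    A ⊗[R] K →ₐ[R] LaurentSeries K :=
  Algebra.TensorProduct.productMap (liftLeft red hredK ψ hψR) (liftRight (R := R) (K := K))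

theorem tensorToLaurent_tmul_coeff (red : R →+* k)
    (hredK : ∀ r : R, algebraMap R K r = algebraMap k K (red r))
    (ψ : A →+* LaurentSeries k)
    (hψR : ∀ r : R, ψ (algebraMap R A r) = HahnSeries.C (red r)) (a : A) (c : K) (n : ℤ) :
    (tensorToLaurent red hredK ψ hψR (a ⊗ₜ[R] c)).coeff n =
      algebraMap k K ((ψ a).coeff n) * c := by
  rw [tensorToLaurent, Algebra.TensorProduct.productMap_apply_tmul]
  change ((coeffMap (algebraMap k K) (ψ a)) * HahnSeries.C c).coeff n = _
  rw [mul_comm, HahnSeries.C_mul_eq_smul, HahnSeries.coeff_smul, coeffMap_coeff, smul_eq_mul,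
    mul_comm]

/-- Every element of `A ⊗[R] K` is a finite sum `∑ aᵢ ⊗ bᵢ` over a `k`-basis `b` of `K`. -/
theorem exists_finsupp_repr (red : R →+* k) (hred : Function.Surjective red)
    (hredK : ∀ r : R, algebraMap R K r = algebraMap k K (red r))
    {ι : Type*} (b : Module.Basis ι k K) (t : A ⊗[R] K) :
    ∃ v : ι →₀ A, t = v.sum fun i a => a ⊗ₜ[R] b i := by
  classical
  induction t using TensorProduct.induction_on with
  | zero => exact ⟨0, by simp⟩
  | tmul a c =>
    choose rr hrr using hred
    have hsmul : ∀ (l : k) (x : K), (rr l) • x = l • x := by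
      intro l x
      rw [Algebra.smul_def, Algebra.smul_def, hredK, hrr]
    let h : ι → A → A ⊗[R] K := fun i a => a ⊗ₜ[R] b i
    have h0 : ∀ i, h i 0 = 0 := fun i => by simp [h]
    have hadd : ∀ i a a', h i (a + a') = h i a + h i a' := fun i a a' => by
      simp [h, TensorProduct.add_tmul]
    refine ⟨(b.repr c).sum (fun i l => Finsupp.single i (rr l • a)), ?_⟩
    rw [Finsupp.sum_sum_index h0 hadd]
    have hc : c = (b.repr c).sum fun i l => l • b i := by
      conv_lhs => rw [← b.linearCombination_repr c]
      rw [Finsupp.linearCombination_apply]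
    conv_lhs => rw [hc]
    rw [Finsupp.sum, TensorProduct.tmul_sum, Finsupp.sum]
    refine Finset.sum_congr rfl fun i _ => ?_
    rw [Finsupp.sum_single_index (h0 i)]
    simp only [h]
    rw [TensorProduct.smul_tmul, hsmul]
  | add x y hx hy =>
    obtain ⟨v, rfl⟩ := hx
    obtain ⟨w, rfl⟩ := hy
    refine ⟨v + w, ?_⟩
    rw [Finsupp.sum_add_index']
    · intro i; simp
    · intro i a a'; rw [TensorProduct.add_tmul]

theorem tensorToLaurent_injective (red : R →+* k) (hred : Function.Surjective red)
    (hredK : ∀ r : R, algebraMap R K r = algebraMap k K (red r))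
    (ψ : A →+* LaurentSeries k)
    (hψR : ∀ r : R, ψ (algebraMap R A r) = HahnSeries.C (red r))
    (hker : ∀ a : A, ψ a = 0 → ∃ (r : R) (a' : A), red r = 0 ∧ a = r • a') :
    Function.Injective (tensorToLaurent red hredK ψ hψR) := by
  classical
  rw [injective_iff_map_eq_zero]
  intro t ht
  let b := Module.Basis.ofVectorSpace k K
  obtain ⟨v, rfl⟩ := exists_finsupp_repr (A := A) red hred hredK b t
  have hv : ∀ i ∈ v.support, ψ (v i) = 0 := by
    intro i hi
    ext n
    rw [HahnSeries.coeff_zero]
    have hn := congrArg (fun x => HahnSeries.coeff x n) ht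
    simp only [HahnSeries.coeff_zero] at hn
    rw [Finsupp.sum, map_sum, HahnSeries.coeff_sum] at hn
    simp only [tensorToLaurent_tmul_coeff] at hn
    have hli := linearIndependent_iff'.mp b.linearIndependent v.support
      (fun i => (ψ (v i)).coeff n) (by simpa [Algebra.smul_def] using hn) i hi
    exact hli
  rw [Finsupp.sum]
  refine Finset.sum_eq_zero fun i hi => ?_
  obtain ⟨r, a', hr, ha'⟩ := hker (v i) (hv i hi)
  rw [ha', TensorProduct.smul_tmul, Algebra.smul_def, hredK, hr, map_zero, zero_mul,
    TensorProduct.tmul_zero]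

/-- **Tensor step of S28.** If `ψ : A → k((q))` is a ring hom compatible with a surjection
`red : R → k` whose kernel is generated by elements of `ker red`, then `A ⊗[R] K` is a domain
for every field `K` over `k` (with compatible `R`-algebra structure). -/
theorem isDomain_tensor_of_laurent (red : R →+* k) (hred : Function.Surjective red)
    (hredK : ∀ r : R, algebraMap R K r = algebraMap k K (red r))
    (ψ : A →+* LaurentSeries k)
    (hψR : ∀ r : R, ψ (algebraMap R A r) = HahnSeries.C (red r))
    (hker : ∀ a : A, ψ a = 0 → ∃ (r : R) (a' : A), red r = 0 ∧ a = r • a') :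
    IsDomain (A ⊗[R] K) :=
  Function.Injective.isDomain (tensorToLaurent red hredK ψ hψR).toRingHom
    (tensorToLaurent_injective red hred hredK ψ hψR hker)

/-- Without any kernel hypothesis the tensor product is at least nontrivial. -/
theorem nontrivial_tensor_of_laurent (red : R →+* k)
    (hredK : ∀ r : R, algebraMap R K r = algebraMap k K (red r))
    (ψ : A →+* LaurentSeries k)
    (hψR : ∀ r : R, ψ (algebraMap R A r) = HahnSeries.C (red r)) :
    Nontrivial (A ⊗[R] K) :=
  (tensorToLaurent red hredK ψ hψR).toRingHom.domain_nontrivial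

end Generic

end Fermat.Agent.S28.TensorDomain
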