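import Fermat.Agent.S28.TensorDomain
import Fermat.Agent.S28.Red

set_option autoImplicit false

namespace Fermat.Agent.S28.TensorInst

open TensorProduct GaloisRep

variable (ℓ : ℕ) [Fact ℓ.Prime] {A : Type*} [CommRing A] [Algebra (ratLocalizedAt ℓ) A]
  (K : Type*) [Field K] [CharP K ℓ] [Algebra (ratLocalizedAt ℓ) K]

/-- **S28, tensor step for `ℤ_(ℓ)`.** A ring hom `ψ : A → 𝔽_ℓ((q))` compatible with reduction
mod `ℓ` on constants and with kernel `ℓ A` makes `A ⊗ K` a domain for every field `K` of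
characteristic `ℓ`. -/
theorem isDomain_tensor (ψ : A →+* LaurentSeries (ZMod ℓ))
    (hψR : ∀ r : ratLocalizedAt ℓ, ψ (algebraMap (ratLocalizedAt ℓ) A r) =
      HahnSeries.C (Red.red ℓ r))
    (hker : ∀ a : A, ψ a = 0 → ∃ a' : A, a = (ℓ : A) * a') :
    IsDomain (A ⊗[ratLocalizedAt ℓ] K) := by
  letI := ZMod.algebra K ℓ
  refine TensorDomain.isDomain_tensor_of_laurent (Red.red ℓ) (Red.red_surjective ℓ)
    (fun r => Red.algebraMap_eq_castHom ℓ K r) ψ hψR ?_
  intro a ha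
  obtain ⟨a', rfl⟩ := hker a ha
  refine ⟨(ℓ : ratLocalizedAt ℓ), a', Red.red_prime ℓ, ?_⟩
  rw [Algebra.smul_def, map_natCast]

theorem nontrivial_tensor (ψ : A →+* LaurentSeries (ZMod ℓ))
    (hψR : ∀ r : ratLocalizedAt ℓ, ψ (algebraMap (ratLocalizedAt ℓ) A r) =
      HahnSeries.C (Red.red ℓ r)) :
    Nontrivial (A ⊗[ratLocalizedAt ℓ] K) := by
  letI := ZMod.algebra K ℓ
  exact TensorDomain.nontrivial_tensor_of_laurent (Red.red ℓ)
    (fun r => Red.algebraMap_eq_castHom ℓ K r) ψ hψR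

end Fermat.Agent.S28.TensorInst
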