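import Mathlib
import Fermat.Prelude.Def_GaloisRep_Flat
import Fermat.Agent.S28.Red

set_option autoImplicit false

namespace Fermat.Agent.S28.ZlUFD

open GaloisRep Polynomial

variable (ℓ : ℕ) [Fact ℓ.Prime]

/-- The integers prime to `ℓ`. -/
def primeTo : Submonoid ℤ where
  carrier := {n | ¬ (ℓ : ℤ) ∣ n}
  one_mem' := by
    have hℓ : ℓ.Prime := Fact.out
    intro h
    have := Int.natAbs_dvd_natAbs.mpr h
    simp at this
    exact hℓ.one_lt.ne' this
  mul_mem' := by
    have hℓ : ℓ.Prime := Fact.out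
    intro a b ha hb h
    rcases (Nat.prime_iff_prime_int.mp hℓ).dvd_or_dvd h with h | h
    · exact ha h
    · exact hb h

theorem mem_primeTo {n : ℤ} : n ∈ primeTo ℓ ↔ ¬ (ℓ : ℤ) ∣ n := Iff.rfl

/-- `ℤ_(ℓ)` is the localization of `ℤ` at the integers prime to `ℓ`. -/
instance isLocalization : IsLocalization (primeTo ℓ) ↥(ratLocalizedAt ℓ) := by
  have hℓ : ℓ.Prime := Fact.out
  rw [isLocalization_iff]
  refine ⟨?_, ?_, ?_⟩
  · rintro ⟨n, hn⟩
    have hn0 : n ≠ 0 := by
      rintro rfl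
      exact hn (dvd_zero _)
    have hmem : ((n : ℚ)⁻¹) ∈ ratLocalizedAt ℓ := by
      change ((n : ℚ)⁻¹).den.Coprime ℓ
      have h1 : ((n : ℚ)⁻¹).den = n.natAbs := by
        rw [Rat.inv_intCast_den, if_neg hn0]
      rw [h1]
      apply Nat.Coprime.symm
      rw [hℓ.coprime_iff_not_dvd]
      intro hdvd
      exact hn (Int.natCast_dvd.mpr hdvd)
    refine IsUnit.of_mul_eq_one (⟨(n : ℚ)⁻¹, hmem⟩ : ratLocalizedAt ℓ) ?_
    apply Subtype.ext
    simp only [eq_intCast, Subring.coe_mul, Subring.coe_intCast, Subring.coe_one]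
    exact mul_inv_cancel₀ (by exact_mod_cast hn0)
  · intro z
    have hden : ((z : ℚ).den : ℤ) ∈ primeTo ℓ := by
      rw [mem_primeTo]
      intro hdvd
      have hz : (z : ℚ).den.Coprime ℓ := z.2
      have h2 : ℓ ∣ (z : ℚ).den := by exact_mod_cast hdvd
      exact hℓ.one_lt.ne' (Nat.Coprime.eq_one_of_dvd hz.symm h2)
    refine ⟨((z : ℚ).num, ⟨((z : ℚ).den : ℤ), hden⟩), ?_⟩
    apply Subtype.ext
    simp only [eq_intCast, Subring.coe_mul, Subring.coe_intCast]
    push_cast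
    exact Rat.mul_den_eq_num _
  · intro x y h
    refine ⟨1, ?_⟩
    have h' : ((x : ratLocalizedAt ℓ) : ℚ) = ((y : ratLocalizedAt ℓ) : ℚ) := by
      simpa using congrArg Subtype.val h
    have : x = y := by exact_mod_cast h'
    rw [this]

/-- `ℤ_(ℓ)` is a unique factorization domain. -/
instance ufm : UniqueFactorizationMonoid ↥(ratLocalizedAt ℓ) :=
  UniqueFactorizationMonoid.of_isLocalization (primeTo ℓ) _

/-- `ℓ` is a prime element of `ℤ_(ℓ)`. -/
theorem prime_natCast : Prime (ℓ : ratLocalizedAt ℓ) := by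
  have hℓ : ℓ.Prime := Fact.out
  have hdvd : ∀ x : ratLocalizedAt ℓ, (ℓ : ratLocalizedAt ℓ) ∣ x ↔ Red.red ℓ x = 0 := fun x =>
    (Red.red_eq_zero_iff ℓ x).symm
  refine ⟨by exact_mod_cast hℓ.ne_zero, ?_, ?_⟩
  · intro hu
    have h1 : IsUnit (Red.red ℓ (ℓ : ratLocalizedAt ℓ)) := hu.map (Red.red ℓ)
    rw [Red.red_prime] at h1
    exact not_isUnit_zero h1
  · intro a b hab
    rw [hdvd, map_mul, mul_eq_zero] at hab
    rcases hab with h | h
    · exact Or.inl ((hdvd a).mpr h)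
    · exact Or.inr ((hdvd b).mpr h)

/-- `C ℓ` is a prime element of `ℤ_(ℓ)[X]`. -/
theorem prime_C : Prime (C (ℓ : ratLocalizedAt ℓ)) :=
  Polynomial.prime_C_iff.mpr (prime_natCast ℓ)

/-- Divisibility by `C ℓ` is vanishing of the reduction mod `ℓ`. -/
theorem C_dvd_iff (c : Polynomial (ratLocalizedAt ℓ)) :
    C (ℓ : ratLocalizedAt ℓ) ∣ c ↔ c.map (Red.red ℓ) = 0 := by
  rw [Polynomial.C_dvd_iff_dvd_coeff]
  constructor
  · intro h
    ext i
    rw [coeff_map, coeff_zero]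
    exact (Red.red_eq_zero_iff ℓ _).mpr (h i)
  · intro h i
    have := congrArg (fun p => p.coeff i) h
    simp only [coeff_map, coeff_zero] at this
    exact (Red.red_eq_zero_iff ℓ _).mp this

example : UniqueFactorizationMonoid (Polynomial (ratLocalizedAt ℓ)) := inferInstance

end Fermat.Agent.S28.ZlUFD
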